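import Fermat.Agent.FlatJ0.FixRing
import Fermat.Agent.Frobenius.Exists
import Fermat.Agent.BigImage.RootsOfUnity
import Fermat.Agent.EllLocal.IntCurve

/-!
# Inertia-fixed lifts of residues

Residues lift to `0` or to roots of unity of order prime to `p`, which inertia fixes; a
homomorphism modulo `ord ≥ γ` over the inertia field is the identity on residues.
-/

open Polynomial

noncomputable section

namespace Fermat.Agent.FlatJ0

local notation "Ω" => AlgebraicClosure ℚ
local notation "G_ℚ" => (AlgebraicClosure ℚ) ≃ₐ[ℚ] (AlgebraicClosure ℚ)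

variable {A : ValuationSubring Ω} {p : ℕ}

local notation "𝕜" => IsLocalRing.ResidueField A

local instance isAlgebraicQbar_fl : Algebra.IsAlgebraic ℚ (AlgebraicClosure ℚ) :=
  AlgebraicClosure.isAlgebraic ℚ
/-- Every residue has a lift fixed by inertia. -/
theorem IsOver.exists_fixed_lift (h : IsOver A p) (y : 𝕜) :
    ∃ r : A, (r : Ω) ∈ fixRing A (A.inertiaSubgroupIn ℚ) ∧ IsLocalRing.residue A r = y := by
  classical
  rcases eq_or_ne y 0 with rfl | hy
  · exact ⟨0, zero_mem _, map_zero _⟩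
  have : Fact p.Prime := ⟨h.prime⟩
  have := Fermat.Agent.EllLocal.charP_kA h.prime h.liesOver
  let _ := ZMod.algebra 𝕜 p
  have halg : IsIntegral (ZMod p) y := by
    obtain ⟨q, hq, hqy⟩ := Frobenius.residueField_isIntegral h.prime h.liesOver y
    refine ⟨q.map (Int.castRingHom (ZMod p)), hq.map _, ?_⟩
    rw [eval₂_map, RingHom.ext_int ((algebraMap (ZMod p) 𝕜).comp (Int.castRingHom (ZMod p)))
      (algebraMap ℤ 𝕜)]
    exact hqy
  have := IntermediateField.adjoin.finiteDimensional halg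
  set K := IntermediateField.adjoin (ZMod p) {y}
  have : Finite K := Module.finite_of_finite (ZMod p)
  have := Fintype.ofFinite K
  set n := Fintype.card K - 1 with hn
  have hcard : 1 < Fintype.card K := Fintype.one_lt_card
  have hyn : y ^ n = 1 := by
    have := FiniteField.pow_card_sub_one_eq_one
      (⟨y, IntermediateField.mem_adjoin_simple_self _ y⟩ : K) (fun e => hy (congrArg Subtype.val e))
    exact congrArg Subtype.val this
  have hpn : ¬ p ∣ n := by
    obtain ⟨m, -, hm⟩ := FiniteField.card K p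
    intro hd
    have h1 : p ∣ Fintype.card K := by rw [hm]; exact dvd_pow_self p (PNat.ne_zero m)
    have h2 := Nat.dvd_sub h1 hd
    rw [hn, Nat.sub_sub_self hcard.le] at h2
    exact h.prime.not_dvd_one h2
  -- the roots of unity of order `n` cover the residue `y`
  have hn0 : n ≠ 0 := by omega
  have : NeZero (n : Ω) := ⟨Nat.cast_ne_zero.mpr hn0⟩
  obtain ⟨ζ, hζ⟩ := IsAlgClosed.exists_root _ (degree_cyclotomic_pos n Ω (Nat.pos_of_ne_zero hn0)).ne'
  have hprim : IsPrimitiveRoot ζ n := Polynomial.isRoot_cyclotomic_iff.1 hζ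
  have hmem : ∀ z : Ω, z ^ n = 1 → z ∈ A := fun z hz => by
    refine (A.valuation_le_one_iff z).mp (le_of_eq ?_)
    exact (pow_eq_one_iff_of_nonneg zero_le hn0).1 (by rw [← map_pow, hz, map_one])
  have hprimA : IsPrimitiveRoot (⟨ζ, hmem ζ hprim.pow_eq_one⟩ : A) n :=
    IsPrimitiveRoot.of_map_of_injective (f := A.subtype) hprim A.subtype_injective
  have := congrArg (fun q : A[X] => (q.map (IsLocalRing.residue A)).eval y)
    (X_pow_sub_one_eq_prod (Nat.pos_of_ne_zero hn0) hprimA)
  simp only [Polynomial.map_sub, Polynomial.map_pow, map_X, Polynomial.map_one, eval_sub, eval_pow,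
    eval_X, eval_one, hyn, sub_self, Polynomial.map_prod, eval_prod, map_C, eval_C] at this
  obtain ⟨a, ha, ha0⟩ := Finset.prod_eq_zero_iff.mp this.symm
  rw [mem_nthRootsFinset (Nat.pos_of_ne_zero hn0)] at ha
  have haΩ : (a : Ω) ^ n = 1 := by rw [← SubmonoidClass.coe_pow, ha]; rfl
  exact ⟨a, ⟨a.2, fun σ hσ =>
    BigImage.inertia_root_of_unity h.prime h.liesOver hσ hpn haΩ⟩, (sub_eq_zero.mp ha0).symm⟩

/-- A homomorphism modulo `ord ≥ γ` is the identity on residues. -/
theorem IsHomMod.sub_self_mem_nonunits {N : Subgroup G_ℚ} {γ : ℚ} {φ : Ω → Ω} (h : IsOver A p)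
    [(N.subgroupOf (A.inertiaSubgroupIn ℚ)).FiniteIndex] (hN : N ≤ A.inertiaSubgroupIn ℚ)
    (hγ : 1 < γ) (hφ : IsHomMod A p N γ φ) {x : Ω} (hx : x ∈ fixRing A N) :
    φ x - x ∈ A.nonunits := by
  obtain ⟨r, hr, hrx⟩ := h.exists_fixed_lift (IsLocalRing.residue A ⟨x, hx.1⟩)
  have hrN : (r : Ω) ∈ fixRing A N := ⟨r.2, fun σ hσ => hr.2 σ (hN hσ)⟩
  have hxr : x - r ∈ A.nonunits := by
    have h1 : IsLocalRing.residue A (⟨x, hx.1⟩ - r) = 0 := by rw [map_sub, hrx, sub_self]
    rw [IsLocalRing.residue_eq_zero_iff, ← ValuationSubring.coe_mem_nonunits_iff] at h1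
    exact h1
  have hxrN : x - r ∈ fixRing A N := sub_mem hx hrN
  rcases eq_or_ne (x - r) 0 with e | hne
  · have hb : Near A p γ (φ x - x) := by
      rw [sub_eq_zero.mp e]; exact hφ.fixed _ hr
    exact h.nonunit_of_near hb (by linarith)
  have hpos : 0 < ord A p (x - r) := (h.nonunit_iff hne).mp hxr
  set δ := min (ord A p (x - r)) γ with hδdef
  have hδ : 0 < δ := lt_min hpos (by linarith)
  have h1 : Near A p δ (φ (x - r)) :=
    near_apply h hγ hφ hxrN (min_le_right _ _) (Or.inr (min_le_left _ _))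
  have h2 : Near A p δ (φ (x - r) - (φ x - φ r)) :=
    (sub h hφ hx hrN).mono (min_le_right _ _)
  have h3 : Near A p δ (φ r - r) := (hφ.fixed _ hr).mono (min_le_right _ _)
  have h4 : Near A p δ (x - r) := Or.inr (min_le_left _ _)
  have h5 := h.near_sub (h.near_add (h.near_sub h1 h2) h3) h4
  rw [show φ (x - r) - (φ (x - r) - (φ x - φ r)) + (φ r - r) - (x - r) = φ x - x by ring] at h5
  exact h.nonunit_of_near h5 hδ

end Fermat.Agent.FlatJ0
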