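import Fermat.Agent.FlatJ0.Ord
import Mathlib.LinearAlgebra.Dual.Lemmas

/-!
# A dual basis for evaluation at finitely many points

An injective evaluation map on a finite-dimensional space has coordinates (some of the points)
whose integrality gives integrality at every point: take a subset with largest determinant.
-/

noncomputable section

namespace Fermat.Agent.FlatJ0

open Module

variable {L : Type*} [Field L] (A : ValuationSubring L) {V : Type*} [AddCommGroup V] [Module L V]
  [FiniteDimensional L V] {ι : Type*} [Finite ι]

/-- Dual basis at points of largest determinant. -/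
theorem exists_eval_basis (ev : V →ₗ[L] (ι → L)) (hev : Function.Injective ev) :
    ∃ (s : Fin (finrank L V) → ι) (v : Fin (finrank L V) → V),
      Function.Injective s ∧ (∀ k l, ev (v k) (s l) = if l = k then 1 else 0) ∧
      (∀ f : V, f = ∑ k, ev f (s k) • v k) ∧
      ∀ f : V, (∀ k, ev f (s k) ∈ A) → ∀ i, ev f i ∈ A := by
  classical
  set d := finrank L V
  let b := finBasis L V
  -- the rows of the evaluation matrix
  let row : ι → (Fin d → L) := fun i k => ev (b k) i
  let Δ : (Fin d → ι) → L := fun t => (Matrix.of fun l k => row (t l) k).det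
  have hsurj : ∃ t : Fin d → ι, Δ t ≠ 0 := by
    have hspan : Submodule.span L (Set.range row) = ⊤ := by
      by_contra hne
      obtain ⟨φ, hφ0, hφ⟩ := Submodule.exists_le_ker_of_lt_top _ (lt_top_iff_ne_top.mpr hne)
      -- `φ` is a vector killed by every row
      let c : Fin d → L := fun k => φ (Pi.single k 1)
      have hc : ∀ i, ∑ k, row i k * c k = 0 := fun i => by
        have : φ (row i) = 0 := hφ (Submodule.subset_span ⟨i, rfl⟩)
        rw [pi_eq_sum_univ' (row i), map_sum] at this
        simpa [c, mul_comm] using this
      have hzero : ev (∑ k, c k • b k) = 0 := funext fun i => by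
        simpa [row, mul_comm] using hc i
      have hc0 := Fintype.linearIndependent_iff.mp b.linearIndependent c
        (hev (by rw [hzero, map_zero]))
      refine hφ0 (LinearMap.ext fun x => ?_)
      rw [pi_eq_sum_univ' x, map_sum]
      simpa [c] using Finset.sum_eq_zero fun k _ => by
        show x k * c k = 0
        rw [hc0 k, mul_zero]
    obtain ⟨t, ht, -, hli⟩ := Submodule.exists_fun_fin_finrank_span_eq L (Set.range row)
    have e : finrank L (Submodule.span L (Set.range row)) = d := by
      rw [hspan, finrank_top, finrank_fin_fun]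
    have ht' : ∀ l, ∃ i, row i = t (Fin.cast e.symm l) := fun l => (ht _).elim fun i hi => ⟨i, hi⟩
    choose u hu using ht'
    refine ⟨u, ?_⟩
    have hu' : (fun l => row (u l)) = t ∘ Fin.cast e.symm := funext hu
    have hli' : LinearIndependent L (fun l => row (u l)) := by
      rw [hu']; exact hli.comp _ (Fin.cast_injective _)
    exact (Matrix.linearIndependent_rows_iff_isUnit.mp hli' |> (Matrix.isUnit_iff_isUnit_det _).mp).ne_zero
  have : Nonempty (Fin d → ι) := ⟨hsurj.choose⟩
  have := Fintype.ofFinite ι
  obtain ⟨s, -, hs⟩ := Finset.exists_max_image Finset.univ (fun t => A.valuation (Δ t))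
    Finset.univ_nonempty
  have hΔ : Δ s ≠ 0 := fun e => by
    obtain ⟨t, ht⟩ := hsurj
    have := hs t (Finset.mem_univ _)
    rw [e, map_zero, le_zero_iff, Valuation.zero_iff] at this
    exact ht this
  set M : Matrix (Fin d) (Fin d) L := Matrix.of fun l k => row (s l) k with hM
  have hMdet : IsUnit M.det := isUnit_iff_ne_zero.mpr hΔ
  let v : Fin d → V := fun k => ∑ j, M⁻¹ j k • b j
  have hv : ∀ k l, ev (v k) (s l) = (M * M⁻¹) l k := fun k l => by
    simp [v, Matrix.mul_apply, hM, row, mul_comm]
  have hexp : ∀ f : V, f = ∑ k, ev f (s k) • v k := by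
    intro f
    have hf : ∀ l, ev f (s l) = ∑ j, M l j * b.repr f j := fun l => by
      conv_lhs => rw [← b.sum_repr f]
      simp only [map_sum, map_smul, Finset.sum_apply, Pi.smul_apply, smul_eq_mul, hM,
        Matrix.of_apply, row]
      exact Finset.sum_congr rfl fun j _ => mul_comm _ _
    calc f = ∑ j, b.repr f j • b j := (b.sum_repr f).symm
      _ = ∑ j, (M⁻¹.mulVec fun l => ev f (s l)) j • b j := by
          refine Finset.sum_congr rfl fun j _ => ?_
          have e : (fun l => ev f (s l)) = M.mulVec fun j => b.repr f j := funext hf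
          rw [e, Matrix.mulVec_mulVec, Matrix.nonsing_inv_mul M hMdet, Matrix.one_mulVec]
      _ = ∑ k, ev f (s k) • v k := by
          simp only [v, Finset.smul_sum, smul_smul, Matrix.mulVec, dotProduct, Finset.sum_smul]
          rw [Finset.sum_comm]
          simp only [mul_comm]
  refine ⟨s, v, ?_, fun k l => by rw [hv, Matrix.mul_nonsing_inv M hMdet, Matrix.one_apply],
    hexp, ?_⟩
  · intro l l' e
    by_contra hne
    exact hΔ (Matrix.det_zero_of_row_eq hne (by funext k; simp [e]))
  intro f hf i
  rw [hexp f]
  simp only [map_sum, map_smul, Finset.sum_apply, Pi.smul_apply, smul_eq_mul]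
  refine sum_mem fun k _ => mul_mem (hf k) ?_
  -- Cramer: the value is a ratio of determinants
  have hcr : Δ (Function.update s k i) = ev (v k) i * Δ s := by
    have hrow : row i = ∑ l, ev (v l) i • row (s l) := funext fun j => by
      have := congrArg (fun x : V => ev x i) (hexp (b j))
      simpa [row, mul_comm] using this
    show (Matrix.of fun l j => row (Function.update s k i l) j).det = _
    have e : (Matrix.of fun l j => row (Function.update s k i l) j) = M.updateRow k (row i) := by
      ext l j
      rcases eq_or_ne l k with rfl | hl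
      · simp
      · simp [hM, hl]
    rw [e, hrow, show (∑ l, ev (v l) i • row (s l)) = ∑ l, ev (v l) i • M l from rfl,
      Matrix.det_updateRow_sum, smul_eq_mul]
  rw [← A.valuation_le_one_iff]
  have hle := hs (Function.update s k i) (Finset.mem_univ _)
  rw [hcr, map_mul] at hle
  exact le_of_mul_le_mul_right (by rwa [one_mul]) (zero_lt_iff.mpr (A.valuation.ne_zero_iff.mpr hΔ))

end Fermat.Agent.FlatJ0
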