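import Fermat.Agent.BigImage.Unramified

/-!
# Values of inertia-fixed algebraic numbers

An element of `ℚ̄` fixed by the inertia group of a place over `q` has value an integral power of
that of `q` (the inertia field of any finite Galois level is unramified at the place).
-/

open NumberField IsDedekindDomain
open scoped Pointwise NumberField

noncomputable section

namespace Fermat.Agent.FlatJ0

open Fermat.Agent.FreyReducible

local notation "Ω" => AlgebraicClosure ℚ
local notation "G_ℚ" => (AlgebraicClosure ℚ) ≃ₐ[ℚ] (AlgebraicClosure ℚ)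

local instance isAlgebraicQbar_fj : Algebra.IsAlgebraic ℚ (AlgebraicClosure ℚ) :=
  AlgebraicClosure.isAlgebraic ℚ
local instance isGaloisQbar_fj : IsGalois ℚ (AlgebraicClosure ℚ) :=
  have : IsAlgClosure ℚ (AlgebraicClosure ℚ) := ⟨inferInstance, inferInstance⟩
  IsAlgClosure.isGalois ℚ (AlgebraicClosure ℚ)

/-- A number field inside `ℚ̄` fixed by inertia and contained in a finite Galois extension is
unramified at the prime under the place. -/
lemma ramificationIdx_eq_one_of_fixed {A : ValuationSubring Ω} {q : ℕ} (hq : q.Prime)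
    (hA : A.LiesOverPrime q) (F : IntermediateField ℚ Ω) [FiniteDimensional ℚ F] [IsGalois ℚ F]
    (E : IntermediateField ℚ F)
    (hE : E = IntermediateField.fixedField (((placeIdeal A).under (𝓞 F)).inertia (F ≃ₐ[ℚ] F))) :
    (((placeIdeal A).under (𝓞 F)).under (𝓞 E)).ramificationIdx ℤ = 1 := by
  have : NumberField F := { to_charZero := inferInstance, to_finiteDimensional := inferInstance }
  have : NumberField E := { to_charZero := inferInstance, to_finiteDimensional := inferInstance }
  set P : Ideal (𝓞 F) := (placeIdeal A).under (𝓞 F)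
  set Q : Ideal (𝓞 E) := P.under (𝓞 E)
  set I : Subgroup (F ≃ₐ[ℚ] F) := P.inertia (F ≃ₐ[ℚ] F)
  have hqP : (q : 𝓞 F) ∈ P := by
    simp only [P, Ideal.mem_comap, map_natCast, mem_placeIdeal]
    exact hA
  have hmax : (Ideal.span {(q : ℤ)}).IsMaximal :=
    PrincipalIdealRing.isMaximal_of_irreducible (Nat.prime_iff_prime_int.mp hq).irreducible
  have hPu : P.under ℤ = Ideal.span {(q : ℤ)} := by
    refine (Ideal.IsMaximal.eq_of_le hmax (Ideal.IsPrime.ne_top inferInstance) ?_).symm
    rw [Ideal.span_le, Set.singleton_subset_iff]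
    show algebraMap ℤ (𝓞 F) (q : ℤ) ∈ P
    simpa using hqP
  have hover : P.LiesOver (Ideal.span {(q : ℤ)}) := ⟨hPu.symm⟩
  have hQP : P.LiesOver Q := ⟨rfl⟩
  have hQp : Q.IsPrime := inferInstance
  have hQ0 : Q ≠ ⊥ := by
    refine Ideal.IsIntegral.comap_ne_bot (𝓞 E) fun h => hq.ne_zero ?_
    have h0 : (q : 𝓞 F) = 0 := by simpa [h] using hqP
    exact_mod_cast h0
  have hQm : Q.IsMaximal := hQp.isMaximal hQ0
  have : IsGaloisGroup (F ≃ₐ[ℚ] F) ℤ (𝓞 F) :=
    IsGaloisGroup.of_isFractionRing (F ≃ₐ[ℚ] F) ℤ (𝓞 F) ℚ F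
  have : IsGaloisGroup I E F := by
    subst hE
    exact IsGaloisGroup.of_fixedPoints_eq (F ≃ₐ[ℚ] F) ℚ F I _ rfl
  have : IsGaloisGroup I (𝓞 E) (𝓞 F) := IsGaloisGroup.of_isFractionRing I (𝓞 E) (𝓞 F) E F
  have : Finite (ℤ ⧸ Ideal.span {(q : ℤ)}) :=
    have : NeZero q := ⟨hq.ne_zero⟩
    Finite.of_equiv _ (Int.quotientSpanNatEquivZMod q).symm.toEquiv
  have : Finite (Ideal.span {(q : ℤ)}).ResidueField :=
    Finite.of_surjective _ (Ideal.bijective_algebraMap_quotient_residueField _).2
  have : Finite Q.ResidueField :=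
    have : Finite (𝓞 E ⧸ Q) := Ring.HasFiniteQuotients.finiteQuotient hQ0
    Finite.of_surjective _ (Ideal.bijective_algebraMap_quotient_residueField _).2
  have h1 := Ideal.card_inertia_eq_ramificationIdxIn (G := F ≃ₐ[ℚ] F)
    (Ideal.span {(q : ℤ)}) P
  rw [Ideal.ramificationIdxIn_eq_ramificationIdx _ P (F ≃ₐ[ℚ] F)] at h1
  have h2 := Ideal.card_inertia_eq_ramificationIdxIn (G := I) Q P
  rw [Ideal.ramificationIdxIn_eq_ramificationIdx _ P I] at h2
  have htop : P.inertia I = ⊤ := eq_top_iff.mpr fun g _ => g.2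
  rw [htop, Subgroup.card_top] at h2
  have hflat : Module.Flat (𝓞 E) (𝓞 F) := inferInstance
  have htower := Ideal.ramificationIdx_tower (R := ℤ) Q P
  rw [← h1, ← h2] at htower
  exact (mul_eq_right₀ (Nat.card_pos (α := I)).ne').mp htower.symm

/-- The value of a non-zero element fixed by inertia is an integral power of `|q|`. -/
theorem exists_valuation_eq_zpow_of_fixed {A : ValuationSubring Ω} {q : ℕ} (hq : q.Prime)
    (hA : A.LiesOverPrime q) {x : Ω} (hx : x ≠ 0)
    (hfix : ∀ σ ∈ A.inertiaSubgroupIn ℚ, σ x = x) :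
    ∃ k : ℤ, A.valuation x = A.valuation (q : Ω) ^ k := by
  set F : IntermediateField ℚ Ω :=
    IntermediateField.normalClosure ℚ (IntermediateField.adjoin ℚ ({x} : Set Ω)) Ω
  have : FiniteDimensional ℚ (IntermediateField.adjoin ℚ ({x} : Set Ω)) :=
    IntermediateField.adjoin.finiteDimensional (Algebra.IsIntegral.isIntegral x)
  have : Normal ℚ F := normalClosure.normal ℚ _ Ω
  have : IsGalois ℚ F := IsGalois.mk
  have hxF : x ∈ F := (IntermediateField.le_normalClosure _)
    (IntermediateField.mem_adjoin_simple_self ℚ x)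
  have : NumberField F := { to_charZero := inferInstance, to_finiteDimensional := inferInstance }
  set P : Ideal (𝓞 F) := (placeIdeal A).under (𝓞 F)
  set E : IntermediateField ℚ F := IntermediateField.fixedField (P.inertia (F ≃ₐ[ℚ] F)) with hEdef
  have : NumberField E := { to_charZero := inferInstance, to_finiteDimensional := inferInstance }
  have hxE : (⟨x, hxF⟩ : F) ∈ E := by
    rw [hEdef, IntermediateField.mem_fixedField_iff]
    intro g hg
    obtain ⟨σ, hσ, hσg⟩ := exists_mem_inertiaSubgroupIn_extending hq.ne_zero hA F g fun b => by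
      have h := hg b
      change g • b - b ∈ P at h
      exact mem_placeIdeal.mp (Ideal.mem_comap.mp h)
    exact Subtype.ext ((hσg ⟨x, hxF⟩).symm.trans (hfix σ hσ))
  set Q : Ideal (𝓞 E) := P.under (𝓞 E)
  have he : Q.ramificationIdx ℤ = 1 := ramificationIdx_eq_one_of_fixed hq hA F E hEdef
  have hQ : ∀ b : 𝓞 E, b ∈ Q ↔ (((b : E) : F) : Ω) ∈ A.nonunits := fun b => by
    simp only [Q, P, Ideal.mem_comap, mem_placeIdeal]
    rfl
  have hq0 : (q : 𝓞 E) ≠ 0 := Nat.cast_ne_zero.mpr hq.ne_zero
  have hqQ : (q : 𝓞 E) ∈ Q := by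
    rw [hQ, show ((((q : 𝓞 E) : E) : F) : Ω) = (q : Ω) by push_cast; rfl]
    exact hA
  let v : HeightOneSpectrum (𝓞 E) :=
    ⟨Q, inferInstance, fun h => hq0 (by simpa [h] using hqQ)⟩
  have hover : Q.LiesOver (Ideal.span {(q : ℤ)}) := by
    refine ⟨((PrincipalIdealRing.isMaximal_of_irreducible
      (Nat.prime_iff_prime_int.mp hq).irreducible).eq_of_le (Ideal.IsPrime.ne_top inferInstance)
      ?_)⟩
    rw [Ideal.span_le, Set.singleton_subset_iff]
    show algebraMap ℤ (𝓞 E) (q : ℤ) ∈ Q
    simpa using hqQ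
  -- `q` is a uniformiser
  have hvq : v.intValuation (q : 𝓞 E) = WithZero.exp (-1 : ℤ) := by
    have hm := Ideal.IsDedekindDomain.ramificationIdx_eq_multiplicity (R := ℤ) (Ideal.span {(q : ℤ)}) Q (by
      rw [Ideal.map_span, Set.image_singleton, map_natCast, Ne, Ideal.span_singleton_eq_bot]
      exact hq0)
    rw [he, Ideal.map_span, Set.image_singleton, map_natCast] at hm
    rw [v.intValuation_eq_exp_neg_multiplicity hq0]
    show WithZero.exp (-(multiplicity Q (Ideal.span {(q : 𝓞 E)}) : ℤ)) = _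
    rw [← hm]
    rfl
  set x' : E := ⟨⟨x, hxF⟩, hxE⟩
  have hx' : x' ≠ 0 := fun h => hx (congrArg (fun t : E => ((t : F) : Ω)) h)
  have hxv : v.valuation E x' ≠ 0 := (v.valuation E).ne_zero_iff.mpr hx'
  set k : ℤ := -WithZero.log (v.valuation E x') with hk
  have hqE : (q : E) ≠ 0 := Nat.cast_ne_zero.mpr hq.ne_zero
  set y : E := x' / (q : E) ^ k
  have hy : v.valuation E y = 1 := by
    have h1 : v.valuation E (q : E) = WithZero.exp (-1 : ℤ) := by
      rw [← map_natCast (algebraMap (𝓞 E) E), v.valuation_of_algebraMap, hvq]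
    rw [map_div₀, map_zpow₀, h1, ← WithZero.exp_zsmul, hk, smul_eq_mul, neg_mul_neg, mul_one,
      WithZero.exp_log hxv, div_self hxv]
  have hint : ∀ b : 𝓞 E, (((b : E) : F) : Ω) ∈ A := fun b =>
    mem_of_isIntegral_int A
      ((b.isIntegral_coe.map (E.val.restrictScalars ℤ)).map (F.val.restrictScalars ℤ))
  have hle : ∀ z : E, v.valuation E z ≤ 1 → A.valuation ((z : F) : Ω) ≤ 1 := by
    intro z hz
    obtain ⟨n, ⟨d, hd⟩, h⟩ := v.exists_primeCompl_mul_eq_of_integer z hz
    have h' : ((z : F) : Ω) * (((d : E) : F) : Ω) = (((n : E) : F) : Ω) :=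
      congrArg (fun t : E => ((t : F) : Ω)) h
    have hd1 : A.valuation (((d : E) : F) : Ω) = 1 := by
      refine le_antisymm ((A.valuation_le_one_iff _).mpr (hint d)) (not_lt.mp fun hh => hd ?_)
      exact (hQ d).mpr hh
    have := congrArg A.valuation h'
    rw [map_mul, hd1, mul_one] at this
    rw [this]
    exact (A.valuation_le_one_iff _).mpr (hint n)
  have hy1 : A.valuation ((y : F) : Ω) = 1 := by
    have hy0 : y ≠ 0 := by simp [y, hx', hqE, zpow_ne_zero]
    refine le_antisymm (hle y hy.le) ?_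
    have := hle y⁻¹ (by rw [map_inv₀, hy, inv_one])
    rw [IntermediateField.coe_inv, IntermediateField.coe_inv, map_inv₀] at this
    refine (inv_le_one₀ (A.valuation.pos_iff.mpr ?_)).mp this
    exact fun h => hy0 (Subtype.ext (Subtype.ext h))
  refine ⟨k, ?_⟩
  have hxy : x = ((y : F) : Ω) * (q : Ω) ^ k := by
    have : x' = y * (q : E) ^ k := (div_mul_cancel₀ x' (zpow_ne_zero k hqE)).symm
    have h2 := congrArg (fun t : E => ((t : F) : Ω)) this
    simp only [MulMemClass.coe_mul] at h2
    rw [show ((((q : E) ^ k : E) : F) : Ω) = (q : Ω) ^ k by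
      rw [← IntermediateField.algebraMap_apply, ← IntermediateField.algebraMap_apply,
        map_zpow₀, map_zpow₀, map_natCast, map_natCast]] at h2
    exact h2
  rw [hxy, map_mul, hy1, one_mul, map_zpow₀]

end Fermat.Agent.FlatJ0
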