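import Fermat.Agent.FlatJ0.FlatCond
import Fermat.Agent.EllLocal.FontaineBound
import Fermat.Agent.EllTorsion.Galois

/-!
# The torsion of an elliptic curve with good reduction satisfies the flat condition
-/

noncomputable section

open WeierstrassCurve
open scoped WeierstrassCurve.Affine

namespace Fermat.Agent.FlatJ0

open EllLocal MultRed

local notation "Ω" => AlgebraicClosure ℚ
local notation "G_ℚ" => (AlgebraicClosure ℚ) ≃ₐ[ℚ] (AlgebraicClosure ℚ)

lemma natCast_pow_eq_one {p : ℕ} {R : Type*} [Field R] [CharP R p] (S : Type*) [Field S] [CharP S p]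
    {x n : ℕ} (h : (x : R) ^ n = 1) : (x : S) ^ n = 1 := by
  rw [← Nat.cast_pow, ← Nat.cast_one, CharP.natCast_eq_natCast R p] at h
  rw [← Nat.cast_pow, ← Nat.cast_one, CharP.natCast_eq_natCast S p]
  exact h

section Generic

variable {M : Type*} [AddCommGroup M] {p : ℕ}

/-- A basis of the points killed by `p`. -/
structure IsTorsionBasis (p : ℕ) (P : Fin 2 → M) : Prop where
  killed : ∀ i, p • P i = 0
  gen : ∀ z : M, p • z = 0 → ∃ v : Fin 2 → ℕ, z = ∑ i, v i • P i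
  indep : ∀ v : Fin 2 → ℕ, ∑ i, v i • P i = 0 → ∀ i, p ∣ v i

lemma IsTorsionBasis.cast_eq [Fact p.Prime] {P : Fin 2 → M} (hP : IsTorsionBasis p P)
    {v w : Fin 2 → ℕ} (h : ∑ i, v i • P i = ∑ i, w i • P i) (k : Type*) [Field k] [CharP k p]
    (i : Fin 2) : (v i : k) = w i := by
  have hp1 : 1 ≤ p := (Fact.out : p.Prime).one_lt.le
  have hd := hP.indep (fun i => v i + (p - 1) * w i) (by
    simp only [add_nsmul, Finset.sum_add_distrib, h]
    rw [← Finset.sum_add_distrib]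
    refine Finset.sum_eq_zero fun j _ => ?_
    rw [← add_nsmul, add_comm (w j), ← Nat.succ_mul, Nat.succ_eq_add_one, Nat.sub_add_cancel hp1,
      mul_comm p, mul_nsmul', hP.killed, nsmul_zero]) i
  rw [← CharP.cast_eq_zero_iff k p] at hd
  push_cast [Nat.cast_sub hp1, CharP.cast_eq_zero k p] at hd
  linear_combination hd

/-- `ρ` gives the matrices of the points killed by `p`, read in some basis, with values in `k`. -/
def IsTorsionMatrix [DistribMulAction G_ℚ M] {k : Type*} [Field k] (p : ℕ)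
    (ρ : G_ℚ →* Matrix (Fin 2) (Fin 2) k) : Prop :=
  ∃ P : Fin 2 → M, IsTorsionBasis p P ∧
    ∀ σ : G_ℚ, ∃ n : Matrix (Fin 2) (Fin 2) ℕ,
      (∀ j, σ • P j = ∑ i, n i j • P i) ∧ ρ σ = n.map (Nat.cast : ℕ → k)

variable [DistribMulAction G_ℚ M] {k : Type*} [Field k] [CharP k p] [Fact p.Prime]
  {ρ : G_ℚ →* Matrix (Fin 2) (Fin 2) k} {P : Fin 2 → M}

/-- An element multiplying every point by `c` has scalar matrix `c`. -/
lemma eq_smul_one_of_smul (hP : IsTorsionBasis p P)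
    (hρ : ∀ σ : G_ℚ, ∃ n : Matrix (Fin 2) (Fin 2) ℕ,
      (∀ j, σ • P j = ∑ i, n i j • P i) ∧ ρ σ = n.map (Nat.cast : ℕ → k))
    {σ : G_ℚ} {c : ℕ} (h : ∀ j, σ • P j = c • P j) : ρ σ = (c : k) • 1 := by
  obtain ⟨n, hn, e⟩ := hρ σ
  rw [e]
  ext i j
  have h1 := hP.cast_eq (v := fun i => n i j) (w := fun i => if i = j then c else 0) (by
    rw [← hn, h]
    simp [ite_smul]) k i
  by_cases hij : i = j <;> simpa [hij, Matrix.one_apply] using h1

lemma eq_of_agree (hP : IsTorsionBasis p P)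
    (hρ : ∀ σ : G_ℚ, ∃ n : Matrix (Fin 2) (Fin 2) ℕ,
      (∀ j, σ • P j = ∑ i, n i j • P i) ∧ ρ σ = n.map (Nat.cast : ℕ → k))
    {σ τ : G_ℚ} (h : ∀ j, σ • P j = τ • P j) : ρ σ = ρ τ := by
  obtain ⟨n, hn, e⟩ := hρ σ
  obtain ⟨m, hm, f⟩ := hρ τ
  rw [e, f]
  ext i j
  exact hP.cast_eq (v := fun i => n i j) (w := fun i => m i j) (by rw [← hn, ← hm, h]) k i

lemma fixed_of_eq_one (hP : IsTorsionBasis p P)
    (hρ : ∀ σ : G_ℚ, ∃ n : Matrix (Fin 2) (Fin 2) ℕ,
      (∀ j, σ • P j = ∑ i, n i j • P i) ∧ ρ σ = n.map (Nat.cast : ℕ → k))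
    {σ : G_ℚ} (h : ρ σ = 1) (j : Fin 2) : σ • P j = P j := by
  obtain ⟨n, hn, e⟩ := hρ σ
  rw [hn]
  have hc : ∀ i, n i j • P i = (if i = j then 1 else 0 : ℕ) • P i := fun i => by
    refine nsmul_congr_of_cast (hP.killed i) ((ZMod.castHom dvd_rfl k).injective ?_)
    rw [map_natCast, map_natCast]
    have := congrFun (congrFun (e.symm.trans h) i) j
    rw [Matrix.map_apply, Matrix.one_apply] at this
    rw [this]
    split_ifs <;> simp
  rw [Finset.sum_congr rfl fun i _ => hc i]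
  simp [ite_smul]

end Generic

variable {k : Type*} [Field k] {p : ℕ} [CharP k p] [hpF : Fact p.Prime]
  {W : WeierstrassCurve ℤ} [(W.map (Int.castRingHom ℚ)).IsElliptic]
  {A : ValuationSubring Ω} {ρ : G_ℚ →* Matrix (Fin 2) (Fin 2) k}

omit [CharP k p] in
/-- The field of `E[p]` is a finite level. -/
lemma exists_level_torsion (W : WeierstrassCurve ℤ) [(W.map (Int.castRingHom ℚ)).IsElliptic] :
    ∃ F : IntermediateField ℚ Ω, FiniteDimensional ℚ F ∧ ∀ σ ∈ F.fixingSubgroup,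
      ∀ z : PtQ (W.map (Int.castRingHom ℚ)), p • z = 0 → σ • z = z := by
  have : Algebra.IsAlgebraic ℚ Ω := AlgebraicClosure.isAlgebraic ℚ
  obtain ⟨L, hL, h⟩ := EllTorsion.exists_finiteDimensional_fixing_torsion ℚ Ω
    (W.map (Int.castRingHom ℚ)) hpF.out.ne_zero
  refine ⟨L, hL, fun σ hσ z hz => ?_⟩
  exact congrArg Subtype.val (h σ ((IntermediateField.mem_fixingSubgroup_iff L σ).1 hσ)
    ⟨z, by rw [Submodule.mem_torsionBy_iff, natCast_zsmul]; exact hz⟩)

/-- `E[p]` gives a kernel with the bound. -/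
theorem isBoundKernel_torsionKer (hA : A.LiesOverPrime p) (hp2 : p ≠ 2)
    (hgood : W.IsGoodPrimeFor p)
    (hρ : IsTorsionMatrix (M := PtQ (W.map (Int.castRingHom ℚ))) p ρ) :
    IsBoundKernel A p (torsionKer A p (PtQ (W.map (Int.castRingHom ℚ)))) ρ where
  le := fun _ h => h.1
  normal g hg n hn := ⟨mul_mem (mul_mem hg hn.1) (inv_mem hg), fun z hz => by
    rw [mul_smul, mul_smul, hn.2 (g⁻¹ • z) (by rw [smul_comm, hz]; exact smul_zero (A := PtQ (W.map (Int.castRingHom ℚ))) g⁻¹), smul_inv_smul]⟩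
  isOpen := by
    obtain ⟨F, hF, h⟩ := exists_level_torsion (p := p) W
    exact ⟨F, hF, fun σ hσ hσF => ⟨hσ, h σ hσF⟩⟩
  bound _ hγ := hasBound_torsionKer hA hp2 hgood hγ
  trivial n hn := by
    obtain ⟨P, hP, hρ'⟩ := hρ
    rw [eq_smul_one_of_smul hP hρ' (c := 1) fun j => by rw [hn.2 _ (hP.killed j), one_nsmul],
      Nat.cast_one, one_smul]
  continuous := by
    obtain ⟨F, hF, h⟩ := exists_level_torsion (p := p) W
    obtain ⟨P, hP, hρ'⟩ := hρ
    exact ⟨F, hF, fun σ hσ => by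
      rw [eq_smul_one_of_smul hP hρ' (c := 1) fun j => by rw [h σ hσ _ (hP.killed j), one_nsmul],
        Nat.cast_one, one_smul]⟩

/-- Supersingular case. -/
theorem isSSShape_of_supersingular (hA : A.LiesOverPrime p) (hp2 : p ≠ 2)
    (hss : IsGoodSupersingular W p)
    (hρ : IsTorsionMatrix (M := PtQ (W.map (Int.castRingHom ℚ))) p ρ) :
    IsSSShape A p ρ := by
  classical
  have hp := hpF.out
  have hodd : Odd p := hp.odd_of_ne_two hp2
  obtain ⟨P, hP, hρ'⟩ := hρ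
  have hd := sq_sub_one_pos (p := p)
  have hnd := EllLocal.not_dvd_sq_sub_one (p := p)
  obtain ⟨ϖ, hϖ⟩ := IsAlgClosed.exists_pow_nat_eq (p : Ω) hd
  obtain ⟨lead, hinj, -, hin, -⟩ := exists_leading_hom hA hodd hss hϖ
  have := isAlgClosed_residueField A
  have := charP_kA hp hA
  have : NeZero (p ^ 2 - 1) := ⟨hd.ne'⟩
  have : NeZero ((p ^ 2 - 1 : ℕ) : kA A) := ⟨by
    rw [Ne, CharP.cast_eq_zero_iff (kA A) p]; exact hnd⟩
  obtain ⟨ξ, hξ⟩ := HasEnoughRootsOfUnity.exists_primitiveRoot (kA A) (p ^ 2 - 1)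
  obtain ⟨g, hg, hgξ⟩ := exists_kummerRes_eq hp hA hnd hϖ hξ.pow_eq_one
  have hϖ0 := ne_zero_of_pow hp hnd hϖ
  have hpow : ∀ n : ℕ, kummerRes A ϖ (g ^ n) = ξ ^ n := fun n => by
    induction n with
    | zero => rw [pow_zero, pow_zero, kummerRes_one hϖ0]
    | succ n ih => rw [pow_succ, kummerRes_mul (pow_mem hg n) hg hϖ0, ih, hgξ, pow_succ]
  let P' : Fin 2 → Submodule.torsionBy ℤ (PtQ (W.map (Int.castRingHom ℚ))) (p : ℤ) := fun j =>
    ⟨P j, by rw [Submodule.mem_torsionBy_iff, natCast_zsmul]; exact hP.killed j⟩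
  have agree : ∀ σ ∈ A.inertiaSubgroupIn ℚ, ∀ n : ℕ, kummerRes A ϖ σ = ξ ^ n →
      ρ σ = ρ g ^ n := by
    intro σ hσ n he
    rw [← map_pow]
    refine eq_of_agree hP hρ' fun j => congrArg Subtype.val (a₁ := σ • P' j) (a₂ := g ^ n • P' j) ?_
    exact hinj (by rw [hin σ hσ, hin _ (pow_mem hg n), he, hpow])
  refine ⟨g, hg, ?_, fun n hn => ?_, ?_, fun σ hσ => ?_⟩
  · rw [← agree 1 (one_mem _) (p ^ 2 - 1) (by rw [kummerRes_one hϖ0, hξ.pow_eq_one]), map_one]
  · rw [← map_pow] at hn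
    refine hξ.dvd_of_pow_eq_one n ?_
    rw [← hpow]
    refine (inertia_smul_eq_self_iff hA hodd hss hϖ (pow_mem hg n)).1 fun z => Subtype.ext ?_
    obtain ⟨v, hv⟩ := hP.gen z.1 (by
      rw [← natCast_zsmul]; exact (Submodule.mem_torsionBy_iff _ _).1 z.2)
    show g ^ n • z.1 = z.1
    rw [hv, Finset.smul_sum]
    exact Finset.sum_congr rfl fun i _ => by rw [smul_comm, fixed_of_eq_one hP hρ' hn i]
  · obtain ⟨c, hc⟩ := exists_natCast_of_pow_eq_self (p := p) (x := ξ ^ (p + 1)) (by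
      rw [← pow_mul, show (p + 1) * p = (p ^ 2 - 1) + (p + 1) by
        rw [pow_two]; have := Nat.one_le_iff_ne_zero.2 (mul_ne_zero hp.ne_zero hp.ne_zero)
        rw [add_mul, one_mul]; omega, pow_add, hξ.pow_eq_one, one_mul])
    refine ⟨(c : k), ?_⟩
    rw [← map_pow]
    refine eq_smul_one_of_smul hP hρ' fun j => congrArg Subtype.val
      (a₁ := g ^ (p + 1) • P' j) (a₂ := c • P' j) ?_
    exact hinj (by rw [hin _ (pow_mem hg _), hpow, hc, map_nsmul, nsmul_eq_mul])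
  · obtain ⟨n, -, hn⟩ := hξ.eq_pow_of_pow_eq_one
      (kummerRes_pow hp hA hnd hϖ (MultRed.inertia_mem_decomposition hσ))
    exact ⟨n, agree σ hσ n hn.symm⟩

attribute [local instance] EllLocal.instDecEqKA in
/-- Ordinary case. -/
theorem exists_isOrdShape_of_ordinary (hA : A.LiesOverPrime p) (hgood : W.IsGoodPrimeFor p)
    (hord : IsGoodOrdinary W p)
    (hρ : IsTorsionMatrix (M := PtQ (W.map (Int.castRingHom ℚ))) p ρ) :
    ∃ P : (Matrix (Fin 2) (Fin 2) k)ˣ, IsOrdShape A p (conjRep P ρ) := by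
  classical
  have hp := hpF.out
  obtain ⟨P, hP, hρ'⟩ := hρ
  have hordA := (ordinaryRedAt_iff hA hgood).2 hord
  obtain ⟨Q₁, Q₂, hQ₁, hQ₂, hgen, hind, hk₁, -, hact⟩ := exists_ordinary_shape hA hgood hordA 1
  simp only [pow_one] at hQ₁ hQ₂ hgen hind
  have hQ : IsTorsionBasis p ![Q₁, Q₂] :=
    ⟨fun i => by fin_cases i <;> assumption, fun z hz => by
      obtain ⟨i, j, e⟩ := hgen z hz
      exact ⟨![i, j], by rw [e, Fin.sum_univ_two]; rfl⟩, fun v hv i => by
      rw [Fin.sum_univ_two] at hv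
      obtain ⟨h0, h1⟩ := hind (v 0) (v 1) hv
      fin_cases i <;> assumption⟩
  -- the change of basis
  choose u hu using fun j => hP.gen (![Q₁, Q₂] j) (hQ.killed j)
  choose v hv using fun j => hQ.gen (P j) (hP.killed j)
  let U : Matrix (Fin 2) (Fin 2) k := Matrix.of fun i j => (u j i : k)
  let V : Matrix (Fin 2) (Fin 2) k := Matrix.of fun i j => (v j i : k)
  have hUV : U * V = 1 := by
    ext l j
    have e : ∑ l, (∑ i, u i l * v j i) • P l = ∑ l, (if l = j then 1 else 0 : ℕ) • P l := by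
      have h2 : ∑ i, v j i • (∑ l, u i l • P l) = P j := by simp only [← hu]; exact (hv j).symm
      simp only [Finset.sum_smul, ite_smul, one_smul, zero_nsmul, Finset.sum_ite_eq',
        Finset.mem_univ, if_true]
      rw [Finset.sum_comm]
      conv_rhs => rw [← h2]
      simp only [Finset.smul_sum, mul_comm (u _ _), mul_smul]
    have := hP.cast_eq e k l
    simp only [Nat.cast_sum, Nat.cast_mul] at this
    simp only [U, V, Matrix.mul_apply, Matrix.of_apply, this, Matrix.one_apply]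
    split_ifs <;> simp
  have hVU : V * U = 1 := mul_eq_one_comm.1 hUV
  let B : (Matrix (Fin 2) (Fin 2) k)ˣ := ⟨V, U, hVU, hUV⟩
  -- the matrices in the new basis
  have hT : ∀ σ : G_ℚ, ∀ t : Matrix (Fin 2) (Fin 2) ℕ,
      (∀ j, σ • ![Q₁, Q₂] j = ∑ i, t i j • ![Q₁, Q₂] i) →
      conjRep B ρ σ = t.map (Nat.cast : ℕ → k) := by
    intro σ t ht
    obtain ⟨n, hn, en⟩ := hρ' σ
    have hcomm : ρ σ * U = U * t.map (Nat.cast : ℕ → k) := by
      rw [en]
      ext l j
      have h3 : ∑ l, (∑ i, n l i * u j i) • P l = ∑ l, (∑ i, u i l * t i j) • P l := by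
        have h4 := ht j
        rw [hu j, Finset.smul_sum] at h4
        simp only [Finset.sum_smul]
        rw [Finset.sum_comm, Finset.sum_comm (f := fun l i => (u i l * t i j) • P l)]
        calc ∑ i, ∑ l, (n l i * u j i) • P l = ∑ i, σ • u j i • P i :=
              Finset.sum_congr rfl fun i _ => by
                rw [← smul_comm (u j i) σ (P i), hn, Finset.smul_sum]
                exact Finset.sum_congr rfl fun l _ => by rw [mul_comm, mul_smul]
          _ = ∑ i, t i j • ![Q₁, Q₂] i := h4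
          _ = ∑ i, ∑ l, (u i l * t i j) • P l := Finset.sum_congr rfl fun i _ => by
              rw [hu i, Finset.smul_sum]
              exact Finset.sum_congr rfl fun l _ => by rw [mul_comm, mul_smul]
      have := hP.cast_eq h3 k l
      simp only [Nat.cast_sum, Nat.cast_mul] at this
      simpa [U, Matrix.mul_apply] using this
    show V * ρ σ * U = _
    rw [mul_assoc, hcomm, ← mul_assoc, hVU, one_mul]
  -- the shape
  have hshape : ∀ σ ∈ A.decompositionSubgroup ℚ, ∃ x z c : ℕ,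
      σ • Q₁ = x • Q₁ ∧ (σ ∈ A.inertiaSubgroupIn ℚ → (z : k) = 1) ∧
        conjRep B ρ σ = !![(x : k), (c : k); 0, (z : k)] := by
    intro σ hσ
    obtain ⟨a, ha, -⟩ := exists_exponent_succ (p := p) σ (n := 0) (a := 1) (by simp)
    obtain ⟨x, z, c, h1, h2, -, hI, -⟩ := hact σ hσ a ha
    refine ⟨x, z, c, h1, fun hσI => ?_, ?_⟩
    · have := congrArg (ZMod.castHom (dvd_of_eq (pow_one p).symm) k) (hI hσI).1
      simpa using this
    rw [hT σ !![x, c; 0, z] fun j => ?_]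
    · ext i j
      fin_cases i <;> fin_cases j <;> simp
    rw [Fin.sum_univ_two]
    fin_cases j
    · simpa using h1
    · simp [h2, add_comm]
  have hQ₁0 : Q₁ ≠ 0 := fun e => hp.not_dvd_one
    (hind 1 0 (by rw [e, nsmul_zero, zero_nsmul, add_zero])).1
  have hW : IntCoeffs A.valuation (curveQbar W) := intCoeffs_curveQbar
  have hE := inE1At_of_redAt hA hgood hk₁
  obtain ⟨hzlt, hzne⟩ := zPar_facts hW hE
  set z₁ := zPar (curveQbar W) Q₁ with hz₁
  have hz0 : z₁ ≠ 0 := hzne hQ₁0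
  have hzpos : 0 < A.valuation z₁ :=
    lt_of_le_of_ne zero_le (A.valuation.ne_zero_iff.2 hz0).symm
  have hp0 : 0 < p - 1 := by have := hp.two_le; omega
  have hnd : ¬ p ∣ p - 1 := fun h => by have := Nat.le_of_dvd hp0 h; omega
  obtain ⟨ϖ, hϖ⟩ := IsAlgClosed.exists_pow_nat_eq (p : Ω) hp0
  have hϖ0 := ne_zero_of_pow hp hnd hϖ
  have hvz : A.valuation z₁ = A.valuation ϖ := (pow_left_inj₀ zero_le zero_le hp0.ne').1
    (by rw [valuation_zPar_kernel hA hgood hordA hQ₁ hQ₁0 hk₁, ← map_pow, hϖ])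
  have := charP_kA hp hA
  -- the upper character is the Kummer character
  have hx : ∀ σ ∈ A.inertiaSubgroupIn ℚ, ∀ x : ℕ, σ • Q₁ = x • Q₁ →
      kummerRes A ϖ σ = (x : kA A) := by
    intro σ hσ x hxQ
    rw [← kummerRes_eq_of_valuation_eq hσ hϖ0 hz0 hvz]
    have hm : σ z₁ / z₁ ∈ A :=
      mem_iff_valuation_le.2 (smul_div_mem (MultRed.inertia_mem_decomposition hσ) hz0).le
    have hnx : ((x : ℕ) : Ω) ∈ A := natCast_mem A x
    rw [kummerRes,
      show (x : kA A) = resFun A (x : Ω) by rw [resFun_of_mem hnx]; exact (map_natCast _ x).symm,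
      resFun_eq_iff hm hnx,
      show σ z₁ / z₁ - (x : Ω) = (σ z₁ - (x : Ω) * z₁) / z₁ by field_simp, map_div₀,
      div_lt_one₀ hzpos, hz₁, ← zPar_smul, hxQ]
    refine (inE1_nsmul hW hE hzlt x).2.2.trans_lt ?_
    rw [pow_two]
    exact mul_lt_of_lt_one_left hzpos hzlt
  refine ⟨B, fun σ hσ => ?_, fun σ hσ => ?_, fun σ hσ => ?_, ?_⟩
  · obtain ⟨x, z, c, -, -, e⟩ := hshape σ hσ
    simp [e]
  · obtain ⟨x, z, c, -, hz, e⟩ := hshape σ (MultRed.inertia_mem_decomposition hσ)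
    simp [e, hz hσ]
  · obtain ⟨x, z, c, hxQ, -, e⟩ := hshape σ (MultRed.inertia_mem_decomposition hσ)
    have h1 := kummerRes_pow hp hA hnd hϖ (MultRed.inertia_mem_decomposition hσ)
    rw [hx σ hσ x hxQ] at h1
    simpa [e] using natCast_pow_eq_one (p := p) (R := kA A) k h1
  · have := isAlgClosed_residueField A
    have : NeZero ((p - 1 : ℕ) : kA A) := ⟨by
      rw [Ne, CharP.cast_eq_zero_iff (kA A) p]; exact hnd⟩
    obtain ⟨ξ, hξ⟩ := HasEnoughRootsOfUnity.exists_primitiveRoot (kA A) (p - 1)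
    obtain ⟨g, hg, hgξ⟩ := exists_kummerRes_eq hp hA hnd hϖ hξ.pow_eq_one
    obtain ⟨x, z, c, hxQ, -, e⟩ := hshape g (MultRed.inertia_mem_decomposition hg)
    refine ⟨g, hg, fun n hn => hξ.dvd_of_pow_eq_one n ?_⟩
    rw [← hgξ, hx g hg x hxQ]
    exact natCast_pow_eq_one (p := p) (R := k) (kA A) (by simpa [e] using hn)

/-- **`E[p]` at a good prime has ordinary or supersingular shape.** -/
theorem isFlatShape_torsion (hA : A.LiesOverPrime p) (hp2 : p ≠ 2) (hgood : W.IsGoodPrimeFor p)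
    (hρ : IsTorsionMatrix (M := PtQ (W.map (Int.castRingHom ℚ))) p ρ) :
    IsFlatShape A p ρ := by
  by_cases hord : IsGoodOrdinary W p
  · obtain ⟨P, hP⟩ := exists_isOrdShape_of_ordinary hA hgood hord hρ
    exact ⟨P, Or.inl hP⟩
  · refine ⟨1, Or.inr ?_⟩
    have e : conjRep 1 ρ = ρ := MonoidHom.ext fun σ => by simp [conjRep_apply]
    rw [e]
    exact isSSShape_of_supersingular hA hp2 ⟨hgood, hord⟩ hρ

end Fermat.Agent.FlatJ0
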