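import Fermat.Agent.FlatJ0.ExactMain

/-!
# Fontaine's ramification bound on `J₀(N)` at primes not dividing `N`
-/

noncomputable section

namespace Fermat.Agent.FlatJ0

/-- Fontaine's bound on `J₀(N)[p]` at every prime `p ∤ N`. -/
theorem jZeroBound {N p : ℕ} [Fact p.Prime] (hpN : ¬ p ∣ N) : JZeroBound N p :=
  (jZeroLiftBound hpN).jZeroBound

end Fermat.Agent.FlatJ0
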