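import Fermat.Agent.FlatJ0.Transport

/-!
# Transport of classes

For a homomorphism modulo `p^γ` from the integers of the fixed field of `N`, a map on the classes
fixed by `N` that is additive modulo `p^γ`, fixes inertia-invariant classes, is moved by inertia as
little as the homomorphism is, and preserves the congruence filtration up to `γ`.
-/

noncomputable section

namespace Fermat.Agent.FlatJ0

open AlgebraicCurve ModularCurve Fermat.Agent.Reduction Fermat.Agent.FunctionFieldRR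
open scoped Fermat.Agent.Reduction

local notation "Ω" => AlgebraicClosure ℚ
local notation "G_ℚ" => (AlgebraicClosure ℚ) ≃ₐ[ℚ] (AlgebraicClosure ℚ)

variable {A : ValuationSubring Ω} {F : IntermediateField Ω (LaurentSeries Ω)}
  {Fk : IntermediateField (IsLocalRing.ResidueField A) (LaurentSeries (IsLocalRing.ResidueField A))}
  {M : GoodModel A F Fk} {gal : G_ℚ →* SemilinearAut Ω F} {p : ℕ} {γ δ : ℚ} {N : Subgroup G_ℚ}
  {φ : Ω → Ω}
  [IsAlgClosed (IsLocalRing.ResidueField A)] [IsFunctionField Ω F]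
  [IsFunctionField (IsLocalRing.ResidueField A) Fk]
  [HasPrincipalDivisors Ω F] [HasPrincipalDivisors (IsLocalRing.ResidueField A) Fk]
  {R : M.ReductionMap} {g c : ℤ} (H : GoodModel.RRData (A := A) (F := F) (Fk := Fk) g c)
  {g₀ : ℕ} (hg : (g₀ : ℤ) = g)
  (hgal : IsCoeffAction gal) (hd : FixedPlacesDense gal R) (h : IsOver A p)

theorem add_mem_nonunits {L : Type*} [Field L] {A : ValuationSubring L} {x y : L}
    (hx : x ∈ A.nonunits) (hy : y ∈ A.nonunits) : x + y ∈ A.nonunits :=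
  A.valuation.map_add_lt hx hy

omit [IsAlgClosed (IsLocalRing.ResidueField A)] [IsFunctionField Ω F]
  [IsFunctionField (IsLocalRing.ResidueField A) Fk]
  [HasPrincipalDivisors (IsLocalRing.ResidueField A) Fk] in
theorem isRep_dvs {f : F} (hf : f ≠ 0) : IsRep (dvs (K := Ω) f) (0 : Pic0 Ω F) :=
  isRep_zero.congr (degree_dvs f) (by rw [sub_zero]; exact isPrincipal_dvs hf)

omit [IsAlgClosed (IsLocalRing.ResidueField A)] [IsFunctionField Ω F]
  [IsFunctionField (IsLocalRing.ResidueField A) Fk] in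
theorem isPrincipal_mapDomain {D : Divisor Ω F} (hD : Divisor.IsPrincipal D) :
    Divisor.IsPrincipal (Finsupp.mapDomain R.toFun D) := by
  obtain ⟨f, hf, hfd⟩ := hD
  obtain ⟨s, f₁, hs, hi, hr, rfl⟩ := exists_primitive_smul M hf
  have hf₁ : f₁ ≠ 0 := fun e => hr (by rw [e, M.red_zero])
  rw [eq_dvs hfd, dvs_smul hs hf₁, R.spec f₁ hi hr]
  exact isPrincipal_dvs hr

omit [IsAlgClosed (IsLocalRing.ResidueField A)] [IsFunctionField Ω F]
  [IsFunctionField (IsLocalRing.ResidueField A) Fk]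
  [HasPrincipalDivisors Ω F] [HasPrincipalDivisors (IsLocalRing.ResidueField A) Fk] in
theorem smul_tupleDiv (σ : SemilinearAut Ω F) {n : ℕ} (P : Fin n → Place Ω F) :
    σ • tupleDiv P = tupleDiv fun i => σ • P i := by
  rw [tupleDiv, tupleDiv, Finset.smul_sum]
  exact Finset.sum_congr rfl fun i _ => SemilinearAut.smul_single σ (P i) 1

include H hg hgal hd h in
/-- A class fixed by a subgroup of inertia has a fixed representative. -/
theorem exists_fixed_rep (hN : N ≤ A.inertiaSubgroupIn ℚ) {x : Pic0 Ω F}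
    (hx : ∀ τ ∈ N, gal τ • x = x) :
    ∃ D : Divisor Ω F, IsRep D x ∧ ∀ τ ∈ N, gal τ • D = D := by
  subst hg
  obtain ⟨D, hD⟩ := exists_isRep x
  obtain ⟨Y, -, hYfix, hY1⟩ := exists_chartData H h hgal hd rfl
    (C := Finsupp.mapDomain R.toFun D)
    (by rw [GoodModel.ReductionMap.degree_map, hD.degree_eq])
  obtain ⟨X, -, hXdeg, hprin, -, hXfix⟩ := exists_rep R H hD.degree_eq (degree_tupleDiv Y)
    (by rw [mapDomain_tupleDiv]; exact hY1.le)
  refine ⟨X - tupleDiv Y, hD.congr (by rw [map_sub, hXdeg, degree_tupleDiv, sub_self]) hprin,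
    fun τ hτ => ?_⟩
  have hY : gal τ • tupleDiv Y = tupleDiv Y := by
    rw [smul_tupleDiv]
    exact congrArg tupleDiv (funext fun i => hYfix i τ (hN hτ))
  rw [smul_sub, hY, hXfix (gal τ) hY (((hD.smul (gal τ)).eq_iff hD).mp (hx τ hτ))]

include H hd in
/-- A principal divisor fixed by `N` is the divisor of a primitive function fixed by `N`. -/
theorem exists_normalised (hN : N ≤ A.inertiaSubgroupIn ℚ) {D : Divisor Ω F}
    (hprin : Divisor.IsPrincipal D) (hDfix : ∀ τ ∈ N, gal τ • D = D) :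
    ∃ f : F, IsFixed M gal N f ∧ M.red f ≠ 0 ∧ D = dvs (K := Ω) f := by
  classical
  obtain ⟨f₀, hf₀, hfd⟩ := hprin
  obtain ⟨s, f₁, hs, hi, hr, rfl⟩ := exists_primitive_smul M hf₀
  have hf₁ : f₁ ≠ 0 := fun e => hr (by rw [e, M.red_zero])
  have hD : D = dvs (K := Ω) f₁ := by rw [eq_dvs hfd, dvs_smul hs hf₁]
  obtain ⟨P, hP, hPfix⟩ := hd (↑(D.support.image R.toFun)) (Finset.finite_toSet _)
  have hzero : ∀ v : Place Ω F, R.toFun v = R.toFun P → D v = 0 := fun v hv => by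
    by_contra hne
    exact hP (Finset.mem_coe.mpr
      (hv ▸ Finset.mem_image_of_mem _ (Finsupp.mem_support_iff.mpr hne)))
  have hord : ∀ v : Place Ω F, R.toFun v = R.toFun P → v.ord f₁ = 0 := fun v hv => by
    rw [← dvs_apply, ← hD, hzero v hv]
  have hhol : HolAt R (R.toFun P) f₁ := fun v hv => by rw [← ord_nonneg_iff, hord v hv]
  obtain ⟨hbA, hbu⟩ := hhol.value_unit H hi hr (by
    rw [← dvs_apply, ← R.spec f₁ hi hr, ← hD]
    exact mapDomain_apply_eq_zero _ hzero) rfl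
  obtain ⟨hb0, hbinv⟩ := inv_mem_of_notMem_nonunits hbA hbu
  set b := residueConst P f₁ with hb
  set f := b⁻¹ • f₁ with hf
  obtain ⟨hfi, hfr⟩ := M.isInt_smul hbinv hi
  have hfdvs : D = dvs (K := Ω) f := by rw [hf, dvs_smul (inv_ne_zero hb0) hf₁, hD]
  have hfr0 : M.red f ≠ 0 := by
    rw [hf, hfr]
    rw [Algebra.smul_def]
    refine mul_ne_zero ((map_ne_zero _).mpr fun e => ?_) hr
    rw [IsLocalRing.residue_eq_zero_iff, ← ValuationSubring.coe_mem_nonunits_iff] at e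
    have h1 : A.valuation b⁻¹ < 1 := e
    have h2 : A.valuation b ≤ 1 := (A.valuation_le_one_iff b).mpr hbA
    rw [map_inv₀] at h1
    exact absurd h1 (not_lt.mpr (one_le_inv_iff₀.mpr
      ⟨zero_lt_iff.mpr ((Valuation.ne_zero_iff _).mpr hb0), h2⟩))
  have hf0 : f ≠ 0 := fun e => hfr0 (by rw [e, M.red_zero])
  refine ⟨f, ⟨hfi, fun τ hτ => ?_⟩, hfr0, hfdvs⟩
  have hτf : gal τ • f ≠ 0 := (smul_ne_zero_iff_ne _).mpr hf0
  obtain ⟨κ, hκ⟩ := exists_eq_algebraMap_of_dvs_eq_zero (K := Ω) (f := gal τ • f / f) (by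
    rw [dvs_div hτf hf0, ← smul_dvs (gal τ) f, ← hfdvs, hDfix τ hτ, sub_self])
  have hfP : f ∈ P.toValuationSubring := by
    rw [hf, Algebra.smul_def]
    exact mul_mem (P.algebraMap_mem' _) (hhol P rfl)
  have hv1 : residueConst P f = 1 := by
    rw [hf, value_smul P b⁻¹ (hhol P rfl), ← hb, inv_mul_cancel₀ hb0]
  have hv2 : residueConst P (gal τ • f) = 1 := by
    conv_lhs => rw [← hPfix τ (hN hτ)]
    rw [residueConst_smul (gal τ) hfP, hv1, map_one]
  have e : gal τ • f = κ • f := by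
    rw [Algebra.smul_def κ f, ← hκ, div_mul_cancel₀ _ hf0]
  rw [e, value_smul P κ hfP, hv1, mul_one] at hv2
  rw [e, hv2, one_smul]

include H hgal in
/-- Moving the points of a chart by `φ` transports the difference with the centres. -/
theorem isTrans_tupleDiv (hN : N ≤ A.inertiaSubgroupIn ℚ) (hφ : IsHomMod A p N γ φ)
    (C : ChartData gal R g₀) {P P' : Fin g₀ → Place Ω F} (hP : C.IsLift P) (hP' : C.IsLift P')
    (hamem : ∀ i, residueConst (P i) (C.t i) ∈ fixRing A N)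
    (hv : ∀ i, residueConst (P' i) (C.t i) = φ (residueConst (P i) (C.t i))) :
    IsTrans gal R p N γ φ (tupleDiv P - tupleDiv C.pt) (tupleDiv P' - tupleDiv C.pt) := by
  classical
  intro Q
  by_cases hQ : ∃ i, R.toFun (C.pt i) = Q
  · obtain ⟨i, rfl⟩ := hQ
    have hpar : IsParam R (R.toFun (C.pt i)) (C.t i) := C.param i
    have htr0 := hpar.red_ne_zero
    obtain ⟨hti, htir⟩ := M.isInt_inv hpar.isInt htr0
    have hwfix : IsFixed M gal (A.inertiaSubgroupIn ℚ) (-(C.t i)⁻¹) :=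
      ⟨(M.isInt_neg hti).1, fun σ hσ => by rw [smul_neg, smul_inv'', C.t_fixed i σ hσ]⟩
    have hone : IsFixed M gal (A.inertiaSubgroupIn ℚ) (1 : F) :=
      ⟨M.isInt_one, fun σ _ => smul_one _⟩
    have hext := (isExt_self (p := p) (N := N) (γ := γ) hφ hone).add
      (isExt_of_single (M := M) (p := p) (γ := γ) (φ := φ) (hamem i) hwfix)
    have ht0 : C.t i ≠ 0 := fun e => htr0 (by rw [e, M.red_zero])
    have hsplit : ∀ b : Ω, 1 + b • -(C.t i)⁻¹ = (C.t i - algebraMap Ω F b) / C.t i := fun b => by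
      rw [Algebra.smul_def, sub_div, div_self ht0, div_eq_mul_inv]
      ring
    rw [hsplit, hsplit] at hext
    obtain ⟨hai, har⟩ := hpar.red_sub (hpar.value_mem H (hP i))
    obtain ⟨hdi, hdr⟩ := M.isInt_mul hai hti
    have e1 : ∀ {P₂ : Place Ω F}, R.toFun P₂ = R.toFun (C.pt i) → ∀ {v : Place Ω F},
        R.toFun v = R.toFun (C.pt i) →
        v.ord ((C.t i - algebraMap Ω F (residueConst P₂ (C.t i))) / C.t i) =
          Finsupp.single P₂ (1 : ℤ) v - Finsupp.single (C.pt i) 1 v := by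
      intro P₂ hP₂ v hv'
      have e0 : ∀ {P₃ : Place Ω F}, R.toFun P₃ = R.toFun (C.pt i) →
          v.ord (C.t i - algebraMap Ω F (residueConst P₃ (C.t i))) =
            Finsupp.single P₃ (1 : ℤ) v := by
        intro P₃ hP₃
        obtain ⟨h1, h0⟩ := hpar.ord_sub_value H hP₃ hv'
        rcases eq_or_ne v P₃ with e | e
        · rw [h1 e, e, Finsupp.single_eq_same]
        · rw [h0 e, Finsupp.single_eq_of_ne e]
      have e2 := e0 (P₃ := C.pt i) rfl
      rw [C.value_pt, map_zero, sub_zero] at e2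
      obtain ⟨-, hr1⟩ := hpar.red_sub (hpar.value_mem H hP₂)
      rw [ord_div v (fun e => htr0 (by rw [← hr1, e, M.red_zero])) ht0, e0 hP₂, e2]
    refine ⟨_, _, ⟨?_, fun τ hτ => ?_⟩, ?_, hext, fun v hv' => ⟨?_, ?_⟩⟩
    · rw [div_eq_mul_inv]; exact hdi
    · rw [smul_div₀', smul_sub, C.t_fixed i τ (hN hτ), SemilinearAut.smul_algebraMap,
        baseAut_gal hgal, (hamem i).2 τ hτ]
    · rw [div_eq_mul_inv, hdr, har, htir]
      exact mul_ne_zero htr0 (inv_ne_zero htr0)
    · rw [Finsupp.sub_apply, hP.apply i hv', C.isLift_pt.apply i hv', e1 (hP i) hv']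
    · rw [Finsupp.sub_apply, hP'.apply i hv', C.isLift_pt.apply i hv', ← hv i, e1 (hP' i) hv']
  · refine ⟨1, 1, ⟨M.isInt_one, fun τ _ => smul_one _⟩, by rw [M.red_one]; exact one_ne_zero,
      isExt_self hφ ⟨M.isInt_one, fun σ _ => smul_one _⟩, fun v hv' => ?_⟩
    have hz : ∀ P₁ : Fin g₀ → Place Ω F, C.IsLift P₁ → tupleDiv P₁ v = 0 := fun P₁ hP₁ => by
      rw [tupleDiv, Finsupp.finsetSum_apply]
      exact Finset.sum_eq_zero fun j _ => Finsupp.single_eq_of_ne fun e =>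
        hQ ⟨j, by rw [← hP₁ j, ← e, hv']⟩
    rw [Place.ord_one, Finsupp.sub_apply, Finsupp.sub_apply, hz P hP, hz P' hP',
      hz C.pt C.isLift_pt, sub_self]
    exact ⟨rfl, rfl⟩

include H hg hgal hd h in
/-- The transport of classes. -/
theorem exists_transport (C : ChartData gal R g₀) (hN : N ≤ A.inertiaSubgroupIn ℚ)
    [(N.subgroupOf (A.inertiaSubgroupIn ℚ)).FiniteIndex] (hγ : 1 < γ)
    (hφ : IsHomMod A p N γ φ) :
    ∃ T : Pic0 Ω F → Pic0 Ω F,
      (∀ x y : Pic0 Ω F, (∀ τ ∈ N, gal τ • x = x) → (∀ τ ∈ N, gal τ • y = y) →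
        T (x + y) - T x - T y ∈ congClasses R h γ) ∧
      (∀ x : Pic0 Ω F, (∀ τ ∈ A.inertiaSubgroupIn ℚ, gal τ • x = x) →
        T x - x ∈ congClasses R h γ) ∧
      (∀ σ ∈ A.inertiaSubgroupIn ℚ, (∀ b ∈ fixRing A N, Near A p γ (σ (φ b) - φ b)) →
        ∀ x : Pic0 Ω F, (∀ τ ∈ N, gal τ • x = x) → gal σ • T x - T x ∈ congClasses R h γ) ∧
      (∀ x : Pic0 Ω F, (∀ τ ∈ N, gal τ • x = x) → ∀ δ : ℚ, 0 < δ → δ ≤ γ →
        T x ∈ congClasses R h δ → x ∈ congClasses R h δ) := by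
  classical
  have hγ0 : 0 < γ := zero_lt_one.trans hγ
  have hex : ∀ x : Pic0 Ω F, ∃ y : Pic0 Ω F, (∀ τ ∈ N, gal τ • x = x) →
      ∃ D D' : Divisor Ω F, IsRep D x ∧ (∀ τ ∈ N, gal τ • D = D) ∧
        IsTrans gal R p N γ φ D D' ∧ IsRep D' y := by
    intro x
    by_cases hx : ∀ τ ∈ N, gal τ • x = x
    · obtain ⟨D, hD, hDfix⟩ := exists_fixed_rep H hg hgal hd h hN hx
      obtain ⟨D', hD'⟩ := exists_isTrans H hgal hd h hN hφ hDfix
      have hdeg : Divisor.degree D' = 0 := by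
        rw [← GoodModel.ReductionMap.degree_map D' R.toFun, hD'.mapDomain_eq h hN hγ hφ,
          GoodModel.ReductionMap.degree_map, hD.degree_eq]
      exact ⟨Pic0.mk ⟨D', Divisor.mem_degZero.mpr hdeg⟩,
        fun _ => ⟨D, D', hD, hDfix, hD', _, rfl⟩⟩
    · exact ⟨0, fun h' => absurd h' hx⟩
  choose T hT using hex
  -- independence of the representative
  have key : ∀ x : Pic0 Ω F, (∀ τ ∈ N, gal τ • x = x) → ∀ (D D' : Divisor Ω F) (y : Pic0 Ω F),
      IsRep D x → (∀ τ ∈ N, gal τ • D = D) → IsTrans gal R p N γ φ D D' → IsRep D' y →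
      T x - y ∈ congClasses R h γ := by
    intro x hx D D' y hD hDfix hDD' hy
    obtain ⟨E, E', hE, hEfix, hEE', hTx⟩ := hT x hx
    obtain ⟨f, hf, hfr, hfd⟩ := exists_normalised H hd hN ((hE.eq_iff hD).mp rfl)
      (fun τ hτ => by rw [smul_sub, hEfix τ hτ, hDfix τ hτ])
    obtain ⟨f', hff, -⟩ := exists_isExt (p := p) (γ := γ) (φ := φ) H hgal hd hN hf
    obtain ⟨hf'i, hf'r⟩ := hff.red_eq h hN hφ hγ
    have hf'0 : f' ≠ 0 := fun e => hfr (by rw [← hf'r, e, M.red_zero])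
    have htr : IsTrans gal R p N γ φ (dvs (K := Ω) f) (dvs (K := Ω) f') := fun _ =>
      ⟨f, f', hf, hfr, hff, fun P _ => ⟨dvs_apply f P, dvs_apply f' P⟩⟩
    have h1 := hDD'.add h hN hγ hφ htr
    rw [← hfd, add_sub_cancel] at h1
    have hc := hEE'.congDiv_sub H hgal hd h hN hγ hφ h1
    refine CongDiv.mem_congClasses hγ0 ?_ hc
    have := hTx.sub (hy.add (isRep_dvs hf'0))
    rwa [add_zero] at this
  refine ⟨T, fun x y hx hy => ?_, fun x hx => ?_, fun σ hσ hfix x hx => ?_,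
    fun x hx δ hδ hδγ hTδ => ?_⟩
  · obtain ⟨D, D', hD, hDfix, hDD', hTx⟩ := hT x hx
    obtain ⟨E, E', hE, hEfix, hEE', hTy⟩ := hT y hy
    rw [sub_sub]
    exact key _ (fun τ hτ => by rw [smul_add, hx τ hτ, hy τ hτ]) _ _ _ (hD.add hE)
      (fun τ hτ => by rw [smul_add, hDfix τ hτ, hEfix τ hτ]) (hDD'.add h hN hγ hφ hEE')
      (hTx.add hTy)
  · obtain ⟨D, hD, hDfix⟩ := exists_fixed_rep H hg hgal hd h le_rfl hx
    refine key x (fun τ hτ => hx τ (hN hτ)) D D x hD (fun τ hτ => hDfix τ (hN hτ)) (fun Q => ?_) hD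
    obtain ⟨f, hf, hfr, hord⟩ := exists_local (N := A.inertiaSubgroupIn ℚ) H hgal hd h le_rfl Q hDfix
    exact ⟨f, f, ⟨hf.1, fun τ hτ => hf.2 τ (hN hτ)⟩, hfr, isExt_self hφ hf,
      fun P hP => ⟨hord P hP, hord P hP⟩⟩
  · obtain ⟨D, D', hD, hDfix, hDD', hTx⟩ := hT x hx
    have := key x hx D (gal σ • D') (gal σ • T x) hD hDfix
      (hDD'.smul hgal h (fun σ' hσ' P => toFun_smul_gal R H hgal hσ' P) hσ hfix)
      (hTx.smul (gal σ))
    simpa using neg_mem this
  · obtain ⟨D, D', hD, hDfix, hDD', hTx⟩ := hT x hx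
    have hprinD : Divisor.IsPrincipal (Finsupp.mapDomain R.toFun D) := by
      obtain ⟨E, hE, cE⟩ := (FlatJ0.mem_congClasses hδ).mp hTδ
      rw [← hDD'.mapDomain_eq h hN hγ hφ]
      have h1 := isPrincipal_mapDomain (R := R) ((hTx.eq_iff hE).mp rfl)
      rwa [Finsupp.mapDomain_sub, cE.mapDomain_eq_zero h hδ, sub_zero] at h1
    obtain ⟨P, hP, hrep, huniq⟩ := C.exists_rep H hg hD hprinD
    have hPfix : ∀ i, ∀ τ ∈ N, gal τ • P i = P i := by
      intro i τ hτ
      have hlift : C.IsLift fun j => gal τ • P j := fun j => by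
        rw [toFun_smul_gal R H hgal (hN hτ)]; exact hP j
      have he := huniq (fun j => gal τ • P j) (by
        have h1 := hrep.smul (gal τ)
        rw [hx τ hτ, smul_sub, smul_tupleDiv, smul_tupleDiv] at h1
        rwa [funext fun j => C.pt_fixed j τ (hN hτ)] at h1)
      have h2 := congrArg (fun E : Divisor Ω F => E (gal τ • P i)) he
      simp only [hlift.apply i (hlift i), hP.apply i (hlift i), Finsupp.single_eq_same] at h2
      by_contra hne
      rw [Finsupp.single_eq_of_ne hne] at h2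
      exact one_ne_zero h2
    have hamem : ∀ i, residueConst (P i) (C.t i) ∈ fixRing A N := fun i =>
      ⟨ValuationSubring.nonunits_subset ((C.param i).value_mem H (hP i)), fun τ hτ => by
        conv_rhs => rw [← hPfix i τ hτ]
        rw [(C.param i).smul_place hgal (C.t_fixed i) (hN hτ) (hP i)]⟩
    obtain ⟨P', hP', hv⟩ := C.exists_isLift_value
      (a := fun i => φ (residueConst (P i) (C.t i))) fun i => by
        have h1 := add_mem_nonunits (hφ.sub_self_mem_nonunits h hN hγ (hamem i))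
          ((C.param i).value_mem H (hP i))
        rwa [sub_add_cancel] at h1
    obtain ⟨y, hy⟩ : ∃ y : Pic0 Ω F, IsRep (tupleDiv P' - tupleDiv C.pt) y :=
      ⟨_, Divisor.mem_degZero.mpr (by rw [map_sub, degree_tupleDiv, degree_tupleDiv, sub_self]),
        rfl⟩
    have htr := isTrans_tupleDiv H hgal hN hφ C hP hP' hamem hv
    have hfixrep : ∀ τ ∈ N, gal τ • (tupleDiv P - tupleDiv C.pt) = tupleDiv P - tupleDiv C.pt :=
      fun τ hτ => by
        rw [smul_sub, smul_tupleDiv, smul_tupleDiv, funext fun j => hPfix j τ hτ,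
          funext fun j => C.pt_fixed j τ (hN hτ)]
    have hyδ : y ∈ congClasses R h δ := by
      have h1 := congClasses_mono hδγ (key x hx _ _ y hrep hfixrep htr hy)
      simpa using sub_mem hTδ h1
    refine (hP.mem_congClasses_iff H h hd hδ C.isLift_pt hrep).mpr fun i => ?_
    have h1 := (hP'.mem_congClasses_iff H h hd hδ C.isLift_pt hy).mp hyδ i
    rw [hv i, C.value_pt, sub_zero] at h1
    rw [C.value_pt, sub_zero]
    exact IsHomMod.near_of_near_apply h hγ hφ (hamem i) hδγ h1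

end Fermat.Agent.FlatJ0
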