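import Fermat.Agent.FlatJ0.FixedBasis
import Fermat.Agent.FlatJ0.Lifts
import Fermat.Agent.FunctionFieldRR.Genus

/-!
# Inertia-fixed places are dense

All but finitely many residual places are simple zeros of some `j̄ - c̄`, and over each of these
lies an inertia-fixed place.
-/

noncomputable section

namespace Fermat.Agent.FlatJ0

open AlgebraicCurve ModularCurve Fermat.Agent.Reduction Fermat.Agent.FunctionFieldRR
open IntermediateField
open scoped Fermat.Agent.Reduction

local notation "Ω" => AlgebraicClosure ℚ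
local notation "G_ℚ" => (AlgebraicClosure ℚ) ≃ₐ[ℚ] (AlgebraicClosure ℚ)

theorem infinite_places {K E : Type*} [Field K] [Field E] [Algebra K E] [IsAlgClosed K]
    [IsFunctionField K E] {x : E} (hx : Transcendental K x) :
    (Set.univ : Set (Place K E)).Infinite := by
  have hz : ∀ c : K, ∃ P : Place K E, 0 < P.ord (x - algebraMap K E c) := fun c => by
    obtain ⟨P, hP⟩ := exists_ord_neg (K := K) (f := (x - algebraMap K E c)⁻¹) (fun halg => hx (by
      have h1 := (halg.inv).add (isAlgebraic_algebraMap (A := E) c)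
      rwa [inv_inv, sub_add_cancel] at h1))
    exact ⟨P, by rw [P.ord_inv] at hP; omega⟩
  choose P hP using hz
  have : Infinite K := IsAlgClosed.instInfinite
  refine Set.infinite_univ_iff.mpr (Infinite.of_injective P fun a b e => ?_)
  by_contra hne
  have ha := hP a
  have hb := hP b
  rw [← e] at hb
  have hmem : ∀ z : E, 0 < (P a).ord z → VanishesTo (P a) 1 z := fun z hz => Or.inr hz
  have h1 := (hmem _ hb).sub (hmem _ ha)
  rw [sub_sub_sub_cancel_left, ← map_sub] at h1
  rcases h1 with h1 | h1
  · exact hne (sub_eq_zero.mp ((map_eq_zero _).mp h1))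
  · rw [Fermat.Agent.FunctionFieldRR.ord_algebraMap] at h1
    omega

variable {A : ValuationSubring Ω} {F : IntermediateField Ω (LaurentSeries Ω)}
  {Fk : IntermediateField (IsLocalRing.ResidueField A) (LaurentSeries (IsLocalRing.ResidueField A))}
  {M : GoodModel A F Fk} {gal : G_ℚ →* SemilinearAut Ω F} {p : ℕ}
  [IsAlgClosed (IsLocalRing.ResidueField A)] [IsFunctionField Ω F]
  [IsFunctionField (IsLocalRing.ResidueField A) Fk]
  [HasPrincipalDivisors Ω F] [HasPrincipalDivisors (IsLocalRing.ResidueField A) Fk]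
  (R : M.ReductionMap) {g c : ℤ} (H : GoodModel.RRData (A := A) (F := F) (Fk := Fk) g c)

include H in
theorem fixedPlacesDense (h : IsOver A p) (hgal : IsCoeffAction gal)
    (hjfix : ∀ σ ∈ A.inertiaSubgroupIn ℚ, gal σ • M.jF = M.jF)
    (hsep : Algebra.IsSeparable (IsLocalRing.ResidueField A)⟮M.jK⟯ Fk) :
    FixedPlacesDense gal R := by
  classical
  intro S hS
  have := M.fin_red
  have htr := M.transcendental_jK
  obtain ⟨Q, -, hQ⟩ := (infinite_places htr).exists_notMem_finset
    (hS.toFinset ∪ (differentDiv htr).support ∪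
      (polesOf (K := IsLocalRing.ResidueField A) M.jK).support)
  simp only [Finset.mem_union, Set.Finite.mem_toFinset, Finsupp.mem_support_iff, not_or,
    not_not] at hQ
  obtain ⟨⟨hQS, hdiff⟩, hpol⟩ := hQ
  rw [differentDiv_apply, Int.natCast_eq_zero] at hdiff
  rw [polesOf_apply] at hpol
  rcases ord_sub_or_ord htr Q with ⟨hneg, -⟩ | ⟨-, a, -, heq⟩
  · omega
  have he : Q.ramificationIndex (IsLocalRing.ResidueField A)⟮M.jK⟯ = 1 := by
    have h1 := one_le_ramificationIndex (F := (IsLocalRing.ResidueField A)⟮M.jK⟯) Q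
    have h2 := ramificationIndex_le_differentExp_add_one htr Q
    omega
  obtain ⟨r, hr, hrres⟩ := h.exists_fixed_lift a
  obtain ⟨P, hP, -, hPfix⟩ := exists_fixed_place R H hgal hjfix (a := r) hr.2 (Q := Q)
    (by rw [hrres, ← heq, he]; rfl)
  exact ⟨P, hP ▸ hQS, hPfix⟩

end Fermat.Agent.FlatJ0
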