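import Fermat.Agent.FlatJ0.Abstract
import Fermat.Agent.FlatJ0.Classes
import Fermat.Agent.FlatJ0.Dense
import Fermat.Agent.IgusaGenus.Main
import Fermat.Agent.J0Torsion.Card
import Fermat.Agent.Reduction.Exists
import Fermat.Agent.Reduction.JZeroInjective

/-!
# The condition at `p` on `J₀(N)[p]`, `p ∤ N`

Fontaine's bound for the `p`-division points of inertia-fixed points of `J₀(N)`, given exact
divisibility in the congruence filtration.
-/

noncomputable section

namespace Fermat.Agent.FlatJ0

open IsLocalRing AlgebraicCurve ModularCurve Fermat.Agent.Reduction Fermat.Agent.FunctionFieldRR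
open scoped Fermat.Agent.Reduction

local notation "Ω" => AlgebraicClosure ℚ
local notation "G_ℚ" => (AlgebraicClosure ℚ) ≃ₐ[ℚ] (AlgebraicClosure ℚ)

section General

variable {A : ValuationSubring Ω} {F : IntermediateField Ω (LaurentSeries Ω)}
  {Fk : IntermediateField (IsLocalRing.ResidueField A) (LaurentSeries (IsLocalRing.ResidueField A))}
  {M : GoodModel A F Fk}
  [IsAlgClosed (IsLocalRing.ResidueField A)] [IsFunctionField Ω F]
  [IsFunctionField (IsLocalRing.ResidueField A) Fk]
  [HasPrincipalDivisors Ω F] [HasPrincipalDivisors (IsLocalRing.ResidueField A) Fk]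
  {p : ℕ}

/-- Exact divisibility by `p` in the congruence filtration. -/
def ExactDivisible (R : M.ReductionMap) (h : IsOver A p) : Prop :=
  ∀ ⦃δ : ℚ⦄, 1 / ((p : ℚ) - 1) < δ → ∀ x ∈ congClasses R h (δ + 1),
    ∃ y ∈ congClasses R h δ, p • y = x

end General

/-- The inputs of Fontaine's argument from a model with fixed charts. -/
def liftDataOfModel {A : ValuationSubring Ω} {F : IntermediateField Ω (LaurentSeries Ω)}
    {Fk : IntermediateField (IsLocalRing.ResidueField A)
      (LaurentSeries (IsLocalRing.ResidueField A))}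
    {M : GoodModel A F Fk}
    [IsAlgClosed (IsLocalRing.ResidueField A)] [IsFunctionField Ω F]
    [IsFunctionField (IsLocalRing.ResidueField A) Fk]
    [HasPrincipalDivisors Ω F] [HasPrincipalDivisors (IsLocalRing.ResidueField A) Fk]
    [DistribMulAction G_ℚ (Pic0 Ω F)] {p : ℕ} {R : M.ReductionMap} {g : ℕ} {c : ℤ}
    (H : GoodModel.RRData (A := A) (F := F) (Fk := Fk) (g : ℤ) c)
    {gal : G_ℚ →* SemilinearAut Ω F} (hgal : IsCoeffAction gal) (hd : FixedPlacesDense gal R)
    (hact : ∀ (σ : G_ℚ) (x : Pic0 Ω F), σ • x = gal σ • x) (h : IsOver A p)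
    (hdiv : ExactDivisible R h) : LiftData A p (Pic0 Ω F) where
  J := congClasses R h
  J_mono hδ := congClasses_mono hδ
  J_smul hδ σ hσ x hx := (hact σ x).symm ▸ smul_mem_congClasses hgal H hδ hσ hx
  torsion hδ x hx hpx :=
    let ⟨C⟩ := nonempty_chartData H h hgal hd rfl
    eq_zero_of_nsmul_eq_zero H C rfl h hd hδ hx hpx
  div hδ x hx := hdiv hδ x hx
  transport N hN hfin γ φ hγ hφ := by
    have := hfin
    obtain ⟨C⟩ := nonempty_chartData H h hgal hd rfl
    simp only [hact]
    exact exists_transport H rfl hgal hd h C hN hγ hφ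

open scoped Classical in
/-- Fontaine's bound on `J₀(N)` at `p ∤ N`, from exact divisibility. -/
theorem jZeroLiftBound_of_exact {N p : ℕ} [Fact p.Prime] (hpN : ¬ p ∣ N)
    (hdiv : ∀ {A : ValuationSubring Ω} (M : GoodModel A (modularFunctionFieldBar N)
        (modularFunctionFieldFullC (ResidueField A) N))
      [IsAlgClosed (ResidueField A)] [IsFunctionField Ω (modularFunctionFieldBar N)]
      [IsFunctionField (ResidueField A) (modularFunctionFieldFullC (ResidueField A) N)]
      [HasPrincipalDivisors Ω (modularFunctionFieldBar N)]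
      [HasPrincipalDivisors (ResidueField A) (modularFunctionFieldFullC (ResidueField A) N)]
      (R : M.ReductionMap) {g c : ℤ}
      (_ : GoodModel.RRData (A := A) (F := modularFunctionFieldBar N)
        (Fk := modularFunctionFieldFullC (ResidueField A) N) g c)
      (h : IsOver A p),
      IsCoeffAction (arithmeticGalois (L := Ω) (modularFunctionFieldFull N)) →
      FixedPlacesDense (arithmeticGalois (L := Ω) (modularFunctionFieldFull N)) R →
      {z : JZero N | p • z = 0}.Finite → ExactDivisible R h) :
    JZeroLiftBound N p := by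
  have hNne : N ≠ 0 := fun e => hpN (e ▸ dvd_zero p)
  have : NeZero N := ⟨hNne⟩
  intro A hA a ha γ hγ
  have hp : p.Prime := Fact.out
  have h : IsOver A p := ⟨hp, hA⟩
  have hF := IgusaGenus.reductionFacts hpN hA
  have := hF.char0.hasPrincipal
  have := hF.charL.hasPrincipal
  have : IsAlgClosed (ResidueField A) := isAlgClosed_residueField
  set M := modularGoodModel A N hA hF with hM
  have := M.isFunctionField_bar
  have := M.isFunctionField_red
  have hinputs := reductionInputsModL hA hF
  set R := reductionMapOfSpec M (placeReductionModL hinputs)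
    (isPlaceReductionModL_placeReductionModL hinputs) with hR
  obtain ⟨c, hc⟩ := hF.genus_le
  have H : GoodModel.RRData (A := A) (F := modularFunctionFieldBar N)
      (Fk := modularFunctionFieldFullC (ResidueField A) N) (genus0 N : ℤ) c :=
    ⟨hF.char0.riemann, hc⟩
  have hgal : IsCoeffAction (arithmeticGalois (L := Ω) (modularFunctionFieldFull N)) := fun σ x =>
    coe_arithmeticGalois_smul _ σ x
  have hj : M.jF = jBar N := modularSeriesModel_jF A N
  have hd : FixedPlacesDense (arithmeticGalois (L := Ω) (modularFunctionFieldFull N)) R := by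
    refine fixedPlacesDense R H h hgal (fun σ _ => ?_) ?_
    · rw [hj]
      exact Subtype.ext ((hgal σ (jBar N)).trans (coeffMap_jqModC _))
    · have hk : M.jK = jC (ResidueField A) N := modularSeriesModel_jK A N
      rw [hk]
      exact isSeparable_jC (ResidueField A) N (natCast_residue_ne_zero hA hpN)
  have hfin : {z : JZero N | p • z = 0}.Finite := by
    have : NeZero p := ⟨hp.ne_zero⟩
    have hpos : 0 < Nat.card (Pic0.torsion Ω (modularFunctionFieldBar N) p) := by
      rw [J0Torsion.natCard_torsion (J0Torsion.parabolicFull N)]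
      exact pow_pos hp.pos _
    have : Finite (Pic0.torsion Ω (modularFunctionFieldBar N) p) :=
      (Nat.card_pos_iff.mp hpos).2
    have hset : {z : JZero N | p • z = 0} =
        (Pic0.torsion Ω (modularFunctionFieldBar N) p : Set (JZero N)) := Set.ext fun z => by
      rw [SetLike.mem_coe, Pic0.mem_torsion, natCast_zsmul]; rfl
    rw [hset]
    exact Set.toFinite _
  exact (liftDataOfModel H hgal hd (fun σ x => galois_smul_pic0_def _ σ x) h
    (hdiv M R H h hgal hd hfin)).hasBound h hfin ha hγ

end Fermat.Agent.FlatJ0
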