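import Fermat.Agent.FlatJ0.Ord
import Fermat.Prelude.Def_ModularCurve_ArithmeticGalois

/-!
# The ramification bound at `p`

`HasBound A p N γ` is Fontaine's property for the field fixed by the subgroup `N` of inertia, with
the homomorphisms `O_L → A/(ord ≥ γ)` over the inertia field: an inertia element fixing the image
of such a homomorphism lies in `N`.
-/

noncomputable section

namespace Fermat.Agent.FlatJ0

open ModularCurve

local notation "Ω" => AlgebraicClosure ℚ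
local notation "G_ℚ" => (AlgebraicClosure ℚ) ≃ₐ[ℚ] (AlgebraicClosure ℚ)

/-- The integers of the field fixed by `N`. -/
def fixRing (A : ValuationSubring Ω) (N : Subgroup G_ℚ) : Subring Ω where
  carrier := {x | x ∈ A ∧ ∀ σ ∈ N, σ x = x}
  mul_mem' {a b} ha hb := ⟨mul_mem ha.1 hb.1, fun σ hσ => by rw [map_mul, ha.2 σ hσ, hb.2 σ hσ]⟩
  one_mem' := ⟨one_mem _, fun σ _ => map_one σ⟩
  add_mem' {a b} ha hb := ⟨add_mem ha.1 hb.1, fun σ hσ => by rw [map_add, ha.2 σ hσ, hb.2 σ hσ]⟩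
  zero_mem' := ⟨zero_mem _, fun σ _ => map_zero σ⟩
  neg_mem' {a} ha := ⟨neg_mem ha.1, fun σ hσ => by rw [map_neg, ha.2 σ hσ]⟩

/-- `φ` induces a ring homomorphism from the integers of the field fixed by `N` to
`A/(ord ≥ γ)` that is the identity on the integers of the inertia field. -/
structure IsHomMod (A : ValuationSubring Ω) (p : ℕ) (N : Subgroup G_ℚ) (γ : ℚ) (φ : Ω → Ω) :
    Prop where
  mem : ∀ x ∈ fixRing A N, φ x ∈ A
  add : ∀ x ∈ fixRing A N, ∀ y ∈ fixRing A N, Near A p γ (φ (x + y) - φ x - φ y)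
  mul : ∀ x ∈ fixRing A N, ∀ y ∈ fixRing A N, Near A p γ (φ (x * y) - φ x * φ y)
  fixed : ∀ x ∈ fixRing A (A.inertiaSubgroupIn ℚ), Near A p γ (φ x - x)

/-- Fontaine's property `(P_γ)` for the field fixed by `N`. -/
def HasBound (A : ValuationSubring Ω) (p : ℕ) (N : Subgroup G_ℚ) (γ : ℚ) : Prop :=
  ∀ φ : Ω → Ω, IsHomMod A p N γ φ → ∀ σ ∈ A.inertiaSubgroupIn ℚ,
    (∀ x ∈ fixRing A N, Near A p γ (σ (φ x) - φ x)) → σ ∈ N

/-- The inertia elements at `A` fixing every point of `M` killed by `p`. -/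
def torsionKer (A : ValuationSubring Ω) (p : ℕ) (M : Type*) [AddCommGroup M]
    [DistribMulAction G_ℚ M] : Subgroup G_ℚ where
  carrier := {σ | σ ∈ A.inertiaSubgroupIn ℚ ∧ ∀ z : M, p • z = 0 → σ • z = z}
  mul_mem' {a b} ha hb := ⟨mul_mem ha.1 hb.1, fun z hz => by
    rw [mul_smul, hb.2 z hz, ha.2 z hz]⟩
  one_mem' := ⟨one_mem _, fun z _ => one_smul _ z⟩
  inv_mem' {a} ha := ⟨inv_mem ha.1, fun z hz => by
    conv_lhs => rw [← ha.2 z hz, inv_smul_smul]⟩

lemma mem_torsionKer {A : ValuationSubring Ω} {p : ℕ} {M : Type*} [AddCommGroup M]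
    [DistribMulAction G_ℚ M] {σ : G_ℚ} :
    σ ∈ torsionKer A p M ↔ σ ∈ A.inertiaSubgroupIn ℚ ∧ ∀ z : M, p • z = 0 → σ • z = z :=
  Iff.rfl

/-- The inertia elements at `A` fixing every `z` with `p z = 0` or `p z = a`. -/
def divisionKer (A : ValuationSubring Ω) (p : ℕ) (M : Type*) [AddCommGroup M]
    [DistribMulAction G_ℚ M] (a : M) : Subgroup G_ℚ where
  carrier := {σ | σ ∈ A.inertiaSubgroupIn ℚ ∧ ∀ z : M, p • z = 0 ∨ p • z = a → σ • z = z}
  mul_mem' {x y} hx hy := ⟨mul_mem hx.1 hy.1, fun z hz => by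
    rw [mul_smul, hy.2 z hz, hx.2 z hz]⟩
  one_mem' := ⟨one_mem _, fun z _ => one_smul _ z⟩
  inv_mem' {x} hx := ⟨inv_mem hx.1, fun z hz => by
    conv_lhs => rw [← hx.2 z hz, inv_smul_smul]⟩

lemma mem_divisionKer {A : ValuationSubring Ω} {p : ℕ} {M : Type*} [AddCommGroup M]
    [DistribMulAction G_ℚ M] {a : M} {σ : G_ℚ} :
    σ ∈ divisionKer A p M a ↔
      σ ∈ A.inertiaSubgroupIn ℚ ∧ ∀ z : M, p • z = 0 ∨ p • z = a → σ • z = z :=
  Iff.rfl

lemma divisionKer_zero (A : ValuationSubring Ω) (p : ℕ) (M : Type*) [AddCommGroup M]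
    [DistribMulAction G_ℚ M] : divisionKer A p M 0 = torsionKer A p M := by
  ext σ
  simp [mem_divisionKer, mem_torsionKer]

/-- The condition at `p` on `J₀(N)[p]`: the ramification bound `p / (p - 1)`. -/
def JZeroBound (N p : ℕ) : Prop :=
  ∀ A : ValuationSubring Ω, A.LiesOverPrime p →
    ∀ γ : ℚ, (p : ℚ) / (p - 1) < γ → HasBound A p (torsionKer A p (JZero N)) γ

/-- The lifting form of the condition at `p`: the same bound for the points dividing an
inertia-fixed point `a` by `p`. -/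
def JZeroLiftBound (N p : ℕ) : Prop :=
  ∀ A : ValuationSubring Ω, A.LiesOverPrime p →
    ∀ a : JZero N, (∀ σ ∈ A.inertiaSubgroupIn ℚ, σ • a = a) →
      ∀ γ : ℚ, (p : ℚ) / (p - 1) < γ → HasBound A p (divisionKer A p (JZero N) a) γ

theorem JZeroLiftBound.jZeroBound {N p : ℕ} (h : JZeroLiftBound N p) : JZeroBound N p :=
  fun A hA γ hγ => divisionKer_zero A p (JZero N) ▸ h A hA 0 (fun σ _ => smul_zero (A := JZero N) σ) γ hγ

end Fermat.Agent.FlatJ0
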