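import Fermat.Agent.Reduction.Cusp
import Fermat.Agent.Reduction.Instances
import Fermat.Agent.FunctionFieldRR.RiemannRoch
import Fermat.Prelude.Def_AlgebraicCurve_BaseChangeGalois

/-!
# Representatives of classes determined by their reduction

On the residual curve every class of degree `0` has translates by `g` distinct points (outside a
given finite set) with a unique effective member; upstairs such a member is unique, hence fixed by
every semilinear automorphism fixing the class and the translate.
-/

noncomputable section

namespace Fermat.Agent.FlatJ0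

open AlgebraicCurve Fermat.Agent.Reduction Fermat.Agent.FunctionFieldRR
open scoped Fermat.Agent.Reduction

section Residual

variable {K F : Type*} [Field K] [Field F] [Algebra K F] [IsAlgClosed K] [IsFunctionField K F]
  [HasPrincipalDivisors K F]

omit [HasPrincipalDivisors K F] in
open scoped Classical in
/-- A degree-`0` divisor plus `g` suitable distinct points has `l = 1`. -/
theorem exists_nonspecial {g : ℕ} {c : ℤ}
    (low : ∀ D : Divisor K F,
      Divisor.degree D + 1 - (g : ℤ) ≤ (Module.finrank K (riemannRochSpace D) : ℤ))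
    (up : ∀ D : Divisor K F, c ≤ Divisor.degree D →
      (Module.finrank K (riemannRochSpace D) : ℤ) ≤ Divisor.degree D + 1 - (g : ℤ))
    (hinf : (Set.univ : Set (Place K F)).Infinite) {C : Divisor K F}
    (hC : Divisor.degree C = 0) {S : Set (Place K F)} (hS : S.Finite) :
    ∃ P : Fin g → Place K F, Function.Injective P ∧ (∀ i, P i ∉ S) ∧
      Module.finrank K (riemannRochSpace (C + ∑ i, Finsupp.single (P i) 1)) = 1 := by
  have hdeg : ∀ E : Finset (Place K F),
      Divisor.degree (C + ∑ P ∈ E, Finsupp.single P 1) = E.card := fun E => by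
    rw [map_add, hC, map_sum, zero_add, Finset.sum_congr rfl (g := fun _ => (1 : ℤ))
      (fun P _ => by rw [Divisor.degree_single, deg_eq_one]; rfl)]
    simp
  have hC1 : Module.finrank K (riemannRochSpace C) ≤ 1 := by
    obtain ⟨Q, -⟩ := hinf.nonempty
    have h4 := finrank_le_add_single (C - Finsupp.single Q 1) Q
    rw [sub_add_cancel, finrank_riemannRochSpace_eq_zero
      (D := C - Finsupp.single Q 1) (by rw [map_sub, hC, Divisor.degree_single, deg_eq_one]; simp)]
      at h4
    omega
  -- remove points one by one
  have key : ∀ (n : ℕ) (E : Finset (Place K F)), E.card = n → g ≤ n → (∀ P ∈ E, P ∉ S) →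
      Module.finrank K (riemannRochSpace (C + ∑ P ∈ E, Finsupp.single P 1)) + g ≤ n + 1 →
      ∃ E' : Finset (Place K F), E'.card = g ∧ (∀ P ∈ E', P ∉ S) ∧
        Module.finrank K (riemannRochSpace (C + ∑ P ∈ E', Finsupp.single P 1)) ≤ 1 := by
    intro n
    induction n with
    | zero => exact fun E hE hg hES hle => ⟨E, by omega, hES, by omega⟩
    | succ n ih =>
      intro E hE hg hES hle
      rcases Nat.lt_or_ge g (n + 1) with hlt | hge
      swap
      · exact ⟨E, by omega, hES, by omega⟩
      set D := C + ∑ P ∈ E, Finsupp.single P (1 : ℤ) with hD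
      have h1 := low D
      rw [hdeg, hE] at h1
      obtain ⟨P, hP, hdrop⟩ : ∃ P ∈ E,
          riemannRochSpace (D - Finsupp.single P 1) < riemannRochSpace D := by
        by_contra hno
        push Not at hno
        have hle' : riemannRochSpace D ≤ riemannRochSpace C := by
          intro f hf
          rw [mem_riemannRochSpace] at hf ⊢
          intro v
          by_cases hv : v ∈ E
          · have heq : riemannRochSpace (D - Finsupp.single v 1) = riemannRochSpace D :=
              ((riemannRochSpace_mono (Finsupp.le_def.2 fun w => by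
                rw [Finsupp.sub_apply, Finsupp.single_apply]; split_ifs <;> omega)).lt_or_eq
              ).resolve_left (hno v hv)
            have hf' : f ∈ riemannRochSpace (D - Finsupp.single v 1) := by
              rw [heq, mem_riemannRochSpace]; exact hf
            refine (mem_riemannRochSpace.1 hf' v).imp id fun h => ?_
            rw [hD, Finsupp.sub_apply, Finsupp.single_eq_same, Finsupp.add_apply,
              Finsupp.finsetSum_apply, Finset.sum_eq_single v
                (fun b _ hb => Finsupp.single_eq_of_ne (Ne.symm hb)) (fun h' => absurd hv h'),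
              Finsupp.single_eq_same] at h
            linarith
          · refine (hf v).imp id fun h => ?_
            rw [hD, Finsupp.add_apply, Finsupp.finsetSum_apply, Finset.sum_eq_zero
              (fun b hb => Finsupp.single_eq_of_ne (fun e => hv (by rwa [e] at *))), add_zero] at h
            exact h
        have := finiteDimensional_riemannRochSpace (K := K) C
        have := Submodule.finrank_mono hle'
        omega
      refine ih (E.erase P) (by rw [Finset.card_erase_of_mem hP, hE]; omega) (by omega)
        (fun Q hQ => hES Q (Finset.mem_of_mem_erase hQ)) ?_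
      have e : C + ∑ Q ∈ E.erase P, Finsupp.single Q (1 : ℤ) = D - Finsupp.single P 1 := by
        rw [hD, ← Finset.sum_erase_add _ _ hP]; abel
      rw [e]
      have := finiteDimensional_riemannRochSpace (K := K) D
      have := Submodule.finrank_lt_finrank_of_lt hdrop
      omega
  -- start from many points
  set n := c.toNat + g
  obtain ⟨E, hES, hE⟩ := (hinf.sdiff hS).exists_subset_card_eq n
  have hup := up (C + ∑ P ∈ E, Finsupp.single P 1) (by
    rw [hdeg, hE]; exact le_trans (Int.self_le_toNat c) (by omega))
  rw [hdeg, hE] at hup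
  obtain ⟨E', hcard, hE'S, hle'⟩ :=
    key n E hE (by omega) (fun P hP => (hES hP).2) (by omega)
  let e := (Finset.equivFinOfCardEq hcard).symm
  refine ⟨fun i => (e i : Place K F), Subtype.val_injective.comp e.injective,
    fun i => hE'S _ (e i).2, ?_⟩
  rw [show ∑ i, Finsupp.single ((e i : Place K F)) (1 : ℤ) = ∑ P ∈ E', Finsupp.single P 1 by
    rw [e.sum_comp fun P : E' => Finsupp.single (P : Place K F) (1 : ℤ)]
    exact Finset.sum_coe_sort E' fun P => Finsupp.single P (1 : ℤ)]
  have hlow := low (C + ∑ P ∈ E', Finsupp.single P 1)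
  rw [hdeg, hcard] at hlow
  omega

end Residual

section Member

variable {L F : Type*} [Field L] [Field F] [Algebra L F] [IsAlgClosed L] [IsFunctionField L F]
  [HasPrincipalDivisors L F]

omit [IsAlgClosed L] [IsFunctionField L F] in
theorem smul_dvs (σ : SemilinearAut L F) (f : F) :
    σ • dvs (K := L) f = dvs (K := L) (σ • f) := by
  refine Finsupp.ext fun v => ?_
  obtain ⟨w, rfl⟩ := MulAction.surjective σ v
  rw [SemilinearAut.divisor_smul_apply_smul, dvs_apply, dvs_apply, SemilinearAut.ord_smul]

/-- The unique effective divisor of a one-dimensional complete linear system. -/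
theorem exists_member {g : ℕ} {D Y : Divisor L F} (hD : Divisor.degree D = 0)
    (hY : Divisor.degree Y = g) (hpos : 0 < Module.finrank L (riemannRochSpace (D + Y)))
    (hle : Module.finrank L (riemannRochSpace (D + Y)) ≤ 1) :
    ∃ X : Divisor L F, 0 ≤ X ∧ Divisor.degree X = g ∧ Divisor.IsPrincipal (X - Y - D) ∧
      (∀ X' : Divisor L F, 0 ≤ X' → Divisor.IsPrincipal (X' - Y - D) → X' = X) ∧
      ∀ σ : SemilinearAut L F, σ • Y = Y → Divisor.IsPrincipal (σ • D - D) → σ • X = X := by
  obtain ⟨⟨f, hf⟩, hf0⟩ := Module.finrank_pos_iff_exists_ne_zero.1 hpos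
  have hfne : f ≠ 0 := fun h => hf0 (Subtype.ext h)
  set X := D + Y + dvs (K := L) f with hX
  have hprin : Divisor.IsPrincipal (X - Y - D) := ⟨f, hfne, fun v => by
    rw [hX, show D + Y + dvs (K := L) f - Y - D = dvs (K := L) f by abel, dvs_apply]⟩
  have huniq : ∀ X' : Divisor L F, 0 ≤ X' → Divisor.IsPrincipal (X' - Y - D) → X' = X := by
    rintro X' hX' ⟨f', hf', heq⟩
    have hX'eq : X' = D + Y + dvs (K := L) f' := by
      rw [← eq_dvs heq]; abel
    have hf'mem : f' ∈ riemannRochSpace (D + Y) :=
      (mem_rr_iff_dvs hf').mpr (hX'eq ▸ hX')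
    have := finiteDimensional_riemannRochSpace (K := L) (D + Y)
    obtain ⟨a, ha⟩ := finrank_le_one_iff.mp hle
    obtain ⟨u, hu⟩ := ha ⟨f, hf⟩
    obtain ⟨u', hu'⟩ := ha ⟨f', hf'mem⟩
    have hu0 : u ≠ 0 := fun e => hf0 (by rw [← hu, e, zero_smul])
    have e : f' = (u' / u) • f := by
      have h1 : (⟨f', hf'mem⟩ : riemannRochSpace (D + Y)) = (u' / u) • ⟨f, hf⟩ := by
        rw [← hu, ← hu', smul_smul, div_mul_cancel₀ _ hu0]
      exact congrArg Subtype.val h1
    have hc : u' / u ≠ 0 := fun h => hf' (by rw [e, h, zero_smul])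
    rw [hX'eq, hX, e, dvs_smul hc hfne]
  refine ⟨X, (mem_rr_iff_dvs hfne).mp hf, ?_, hprin, huniq, fun σ hσY hσD => ?_⟩
  · rw [hX, map_add, degree_dvs, map_add, hD, hY]; simp
  refine huniq _ ?_ ?_
  · have hX0 : 0 ≤ X := (mem_rr_iff_dvs hfne).mp hf
    intro v
    obtain ⟨w, rfl⟩ := MulAction.surjective σ v
    rw [SemilinearAut.divisor_smul_apply_smul]
    exact hX0 w
  · obtain ⟨e, he, hee⟩ := hσD
    have hσf : σ • f ≠ 0 := (smul_ne_zero_iff_ne σ).mpr hfne
    refine ⟨σ • f * e, mul_ne_zero hσf he, fun v => ?_⟩
    have hdd : σ • X - Y - D = dvs (K := L) (σ • f) + (σ • D - D) := by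
      rw [hX, smul_add, smul_add, smul_dvs, hσY]; abel
    rw [hdd, Finsupp.add_apply, hee v, dvs_apply, v.ord_mul hσf he]

end Member

section Unique

variable {L : Type*} [Field L] {A : ValuationSubring L}
  {F : IntermediateField L (LaurentSeries L)}
  {Fk : IntermediateField (IsLocalRing.ResidueField A) (LaurentSeries (IsLocalRing.ResidueField A))}
  [IsAlgClosed L] [IsFunctionField L F] [IsAlgClosed (IsLocalRing.ResidueField A)]
  [IsFunctionField (IsLocalRing.ResidueField A) Fk]
  [HasPrincipalDivisors L F] [HasPrincipalDivisors (IsLocalRing.ResidueField A) Fk]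
  {M : GoodModel A F Fk}

/-- The representative `X - Y` of the class of `D` with `X` effective, when the reduction of
`D + Y` is non-special: it is unique, so fixed by automorphisms fixing `Y` and the class. -/
theorem exists_rep (R : M.ReductionMap) {g : ℕ} {c : ℤ}
    (H : GoodModel.RRData (A := A) (F := F) (Fk := Fk) (g : ℤ) c) {D Y : Divisor L F}
    (hD : Divisor.degree D = 0) (hY : Divisor.degree Y = g)
    (hns : Module.finrank (IsLocalRing.ResidueField A)
      (riemannRochSpace (Finsupp.mapDomain R.toFun D + Finsupp.mapDomain R.toFun Y)) ≤ 1) :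
    ∃ X : Divisor L F, 0 ≤ X ∧ Divisor.degree X = g ∧ Divisor.IsPrincipal (X - Y - D) ∧
      (∀ X' : Divisor L F, 0 ≤ X' → Divisor.IsPrincipal (X' - Y - D) → X' = X) ∧
      ∀ σ : SemilinearAut L F, σ • Y = Y → Divisor.IsPrincipal (σ • D - D) → σ • X = X := by
  have hle : Module.finrank L (riemannRochSpace (D + Y)) ≤ 1 := by
    refine (R.finrank_le (D + Y)).trans ?_
    rwa [Finsupp.mapDomain_add]
  have hpos : 0 < Module.finrank L (riemannRochSpace (D + Y)) := by
    have := H.low (D + Y)
    rw [map_add, hD, hY] at this
    omega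
  exact exists_member hD hY hpos hle

end Unique

end Fermat.Agent.FlatJ0
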