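import Fermat.Agent.FlatJ0.Tangent.Bound
import Mathlib.LinearAlgebra.FiniteDimensional.Lemmas
import Mathlib.LinearAlgebra.Matrix.GeneralLinearGroup.Defs

/-!
# The flat condition at `p`

Trace-zero cocycles of the decomposition group vanishing on some subgroup of inertia with
Fontaine's bound `p / (p - 1)`.  These form a space of dimension at most `4` when the residual
representation has ordinary or supersingular shape in some basis.
-/

noncomputable section

namespace Fermat.Agent.FlatJ0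

local notation "Ω" => AlgebraicClosure ℚ
local notation "G_ℚ" => (AlgebraicClosure ℚ) ≃ₐ[ℚ] (AlgebraicClosure ℚ)

variable {k : Type*} [Field k] {A : ValuationSubring Ω} {p : ℕ} {N N' : Subgroup G_ℚ}
  {ρ : G_ℚ →* Matrix (Fin 2) (Fin 2) k}

lemma fixRing_anti (h : N ≤ N') : fixRing A N' ≤ fixRing A N :=
  fun _ hx => ⟨hx.1, fun σ hσ => hx.2 σ (h hσ)⟩

/-- The bound passes to intersections. -/
theorem HasBound.inf {γ : ℚ} (h : HasBound A p N γ) (h' : HasBound A p N' γ) :
    HasBound A p (N ⊓ N') γ := by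
  intro φ hφ σ hσ hfix
  have key : ∀ N₁ : Subgroup G_ℚ, HasBound A p N₁ γ → N ⊓ N' ≤ N₁ → σ ∈ N₁ := fun N₁ h₁ hle =>
    h₁ φ ⟨fun x hx => hφ.mem x (fixRing_anti hle hx),
      fun x hx y hy => hφ.add x (fixRing_anti hle hx) y (fixRing_anti hle hy),
      fun x hx y hy => hφ.mul x (fixRing_anti hle hx) y (fixRing_anti hle hy), hφ.fixed⟩ σ hσ
      fun x hx => hfix x (fixRing_anti hle hx)
  exact ⟨key N h inf_le_left, key N' h' inf_le_right⟩

theorem IsBoundKernel.inf (h : IsBoundKernel A p N ρ) (h' : IsBoundKernel A p N' ρ) :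
    IsBoundKernel A p (N ⊓ N') ρ where
  le := inf_le_left.trans h.le
  normal g hg n hn := ⟨h.normal g hg n hn.1, h'.normal g hg n hn.2⟩
  isOpen := by
    obtain ⟨F, hF, h1⟩ := h.isOpen
    obtain ⟨F', hF', h2⟩ := h'.isOpen
    exact ⟨F ⊔ F', IntermediateField.finiteDimensional_sup F F', fun σ hσ hσF =>
      ⟨h1 σ hσ (IntermediateField.fixingSubgroup_antitone le_sup_left hσF),
        h2 σ hσ (IntermediateField.fixingSubgroup_antitone le_sup_right hσF)⟩⟩
  bound γ hγ := (h.bound γ hγ).inf (h'.bound γ hγ)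
  trivial n hn := h.trivial n hn.1
  continuous := h.continuous

lemma adCocycles_anti (h : N ≤ N') : adCocycles A N' ρ ≤ adCocycles A N ρ :=
  fun _ hc => ⟨hc.1, hc.2.1, fun σ hσ => hc.2.2.1 σ (h hσ), hc.2.2.2⟩

variable (A p ρ) in
/-- The flat condition. -/
def flatCond : Submodule k (↥(A.decompositionSubgroup ℚ) → Matrix (Fin 2) (Fin 2) k) :=
  ⨆ N : {N : Subgroup G_ℚ // IsBoundKernel A p N ρ}, adCocycles A N.1 ρ

lemma directed_adCocycles : Directed (· ≤ ·)
    fun N : {N : Subgroup G_ℚ // IsBoundKernel A p N ρ} => adCocycles A N.1 ρ :=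
  fun N N' => ⟨⟨N.1 ⊓ N'.1, N.2.inf N'.2⟩, adCocycles_anti inf_le_left, adCocycles_anti inf_le_right⟩

lemma mem_flatCond (hN : IsBoundKernel A p N ρ)
    {c : ↥(A.decompositionSubgroup ℚ) → Matrix (Fin 2) (Fin 2) k} (hc : c ∈ adCocycles A N ρ) :
    c ∈ flatCond A p ρ :=
  Submodule.mem_iSup_of_mem (⟨N, hN⟩ : {N : Subgroup G_ℚ // IsBoundKernel A p N ρ}) hc

theorem mem_flatCond_iff (hN : IsBoundKernel A p N ρ)
    {c : ↥(A.decompositionSubgroup ℚ) → Matrix (Fin 2) (Fin 2) k} :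
    c ∈ flatCond A p ρ ↔ ∃ N', IsBoundKernel A p N' ρ ∧ c ∈ adCocycles A N' ρ := by
  have : Nonempty {N : Subgroup G_ℚ // IsBoundKernel A p N ρ} := ⟨⟨N, hN⟩⟩
  rw [flatCond, Submodule.mem_iSup_of_directed _ directed_adCocycles]
  exact ⟨fun ⟨N', h⟩ => ⟨N'.1, N'.2, h⟩, fun ⟨N', h, h'⟩ => ⟨⟨N', h⟩, h'⟩⟩

lemma adCoboundaries_le (hN : IsBoundKernel A p N ρ) : adCoboundaries A ρ ≤ adCocycles A N ρ := by
  rintro c ⟨X, hX, hc⟩
  obtain ⟨F, hF, hF1⟩ := hN.continuous
  have h1 : ∀ σ : ↥(A.decompositionSubgroup ℚ), ρ σ = 1 → c σ = 0 := fun σ hσ => by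
    rw [hc, hσ, map_inv_eq_one hσ, one_mul, mul_one, sub_self]
  refine ⟨fun σ τ => ?_, fun σ => ?_, fun σ hσ => h1 σ (hN.trivial σ hσ), F, hF,
    fun σ hσ => h1 σ (hF1 σ hσ)⟩
  · rw [hc, hc, hc, Subgroup.coe_mul, map_mul, mul_inv_rev, map_mul]
    simp only [mul_sub, sub_mul, mul_assoc]
    abel
  · rw [hc, Matrix.trace_sub, Matrix.trace_mul_cycle, ← map_mul, inv_mul_cancel, map_one, one_mul,
      sub_self]

variable (k) in
/-- Trace-zero matrices. -/
def traceZero : Submodule k (Matrix (Fin 2) (Fin 2) k) :=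
  LinearMap.ker (Matrix.traceLinearMap (Fin 2) k k)

lemma finrank_traceZero : Module.finrank k (traceZero k) = 3 := by
  have hsurj : Function.Surjective (Matrix.traceLinearMap (Fin 2) k k) := fun x =>
    ⟨!![x, 0; 0, 0], by simp [Matrix.trace_fin_two]⟩
  have h := (Matrix.traceLinearMap (Fin 2) k k).finrank_range_add_finrank_ker
  rw [LinearMap.range_eq_top.2 hsurj, finrank_top, Module.finrank_self, Module.finrank_matrix,
    Fintype.card_fin, Module.finrank_self] at h
  norm_num at h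
  rw [traceZero]
  omega

theorem finrank_adCoboundaries : FiniteDimensional k (adCoboundaries A ρ) ∧
    Module.finrank k (adCoboundaries A ρ) + Module.finrank k (adInvariants A ρ) = 3 := by
  let d : traceZero k →ₗ[k] (↥(A.decompositionSubgroup ℚ) → Matrix (Fin 2) (Fin 2) k) :=
    { toFun := fun X σ => ρ σ * X.1 * ρ (σ⁻¹ : G_ℚ) - X.1
      map_add' := fun X Y => funext fun σ => by
        simp only [Submodule.coe_add, Pi.add_apply, mul_add, add_mul]; abel
      map_smul' := fun t X => funext fun σ => by simp [smul_sub] }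
  have hrange : LinearMap.range d = adCoboundaries A ρ := by
    ext c
    constructor
    · rintro ⟨X, rfl⟩
      exact ⟨X.1, X.2, fun σ => rfl⟩
    · rintro ⟨X, hX, hc⟩
      exact ⟨⟨X, hX⟩, (funext hc).symm⟩
  have hker : (LinearMap.ker d).map (traceZero k).subtype = adInvariants A ρ := by
    ext X
    have hinv : ∀ σ : G_ℚ, ρ σ⁻¹ * ρ σ = 1 := fun σ => by rw [← map_mul, inv_mul_cancel, map_one]
    have hinv' : ∀ σ : G_ℚ, ρ σ * ρ σ⁻¹ = 1 := fun σ => by rw [← map_mul, mul_inv_cancel, map_one]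
    constructor
    · rintro ⟨Y, hY, rfl⟩
      refine ⟨Y.2, fun σ => ?_⟩
      have h := congrFun (LinearMap.mem_ker.1 hY) σ
      calc ρ (σ : G_ℚ) * Y.1 = ρ (σ : G_ℚ) * Y.1 * (ρ (σ⁻¹ : G_ℚ) * ρ (σ : G_ℚ)) := by
            rw [hinv, mul_one]
        _ = Y.1 * ρ (σ : G_ℚ) := by
            rw [← mul_assoc, show ρ (σ : G_ℚ) * Y.1 * ρ (σ⁻¹ : G_ℚ) = Y.1 from sub_eq_zero.1 h]
    · rintro ⟨hX, hc⟩
      refine ⟨⟨X, hX⟩, LinearMap.mem_ker.2 (funext fun σ => ?_), rfl⟩
      show ρ (σ : G_ℚ) * X * ρ (σ⁻¹ : G_ℚ) - X = 0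
      rw [hc σ, mul_assoc, hinv', mul_one, sub_self]
  have h := d.finrank_range_add_finrank_ker
  have he := (Submodule.equivMapOfInjective _ (traceZero k).injective_subtype
    (LinearMap.ker d)).finrank_eq
  rw [hker] at he
  rw [finrank_traceZero, hrange, he] at h
  exact ⟨hrange ▸ inferInstance, h⟩

/-- Cocycles from classes. -/
theorem finrank_adCocycles_le_four (hN : IsBoundKernel A p N ρ)
    (hcl : FiniteDimensional k (adClasses A N ρ) ∧
      Module.finrank k (adClasses A N ρ) ≤ Module.finrank k (adInvariants A ρ) + 1) :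
    FiniteDimensional k (adCocycles A N ρ) ∧ Module.finrank k (adCocycles A N ρ) ≤ 4 := by
  obtain ⟨hB, hB3⟩ := finrank_adCoboundaries (A := A) (ρ := ρ)
  obtain ⟨hC, hC1⟩ := hcl
  let f := (adCoboundaries A ρ).mkQ.domRestrict (adCocycles A N ρ)
  have hrange : LinearMap.range f = adClasses A N ρ := by
    rw [adClasses, LinearMap.range_domRestrict]
  have hker : (LinearMap.ker f).map (adCocycles A N ρ).subtype = adCoboundaries A ρ := by
    rw [LinearMap.ker_domRestrict, Submodule.map_comap_subtype, Submodule.ker_mkQ,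
      inf_eq_right.2 (adCoboundaries_le hN)]
  let e := Submodule.equivMapOfInjective _ (adCocycles A N ρ).injective_subtype (LinearMap.ker f)
  have h1 : FiniteDimensional k ((LinearMap.ker f).map (adCocycles A N ρ).subtype) :=
    hker.symm ▸ hB
  have h2 : FiniteDimensional k (LinearMap.ker f) := Module.Finite.equiv e.symm
  have h3 : FiniteDimensional k (LinearMap.range f) := hrange.symm ▸ hC
  have : FiniteDimensional k (adCocycles A N ρ ⧸ LinearMap.ker f) :=
    Module.Finite.equiv f.quotKerEquivRange.symm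
  have : FiniteDimensional k (adCocycles A N ρ) :=
    Module.Finite.of_submodule_quotient (LinearMap.ker f)
  refine ⟨inferInstance, ?_⟩
  have h := f.finrank_range_add_finrank_ker
  rw [hrange, e.finrank_eq, hker] at h
  omega

/-- Conjugate representation. -/
def conjRep (P : (Matrix (Fin 2) (Fin 2) k)ˣ) (ρ : G_ℚ →* Matrix (Fin 2) (Fin 2) k) :
    G_ℚ →* Matrix (Fin 2) (Fin 2) k where
  toFun σ := P.1 * ρ σ * P⁻¹.1
  map_one' := by rw [map_one, mul_one, Units.mul_inv]
  map_mul' σ τ := by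
    rw [map_mul]
    simp [mul_assoc]

lemma conjRep_apply (P : (Matrix (Fin 2) (Fin 2) k)ˣ) (σ : G_ℚ) :
    conjRep P ρ σ = P.1 * ρ σ * P⁻¹.1 :=
  rfl

/-- Ordinary or supersingular shape in some basis. -/
def IsFlatShape (A : ValuationSubring Ω) (p : ℕ) (ρ : G_ℚ →* Matrix (Fin 2) (Fin 2) k) : Prop :=
  ∃ P : (Matrix (Fin 2) (Fin 2) k)ˣ, IsOrdShape A p (conjRep P ρ) ∨ IsSSShape A p (conjRep P ρ)

lemma IsBoundKernel.conj (h : IsBoundKernel A p N ρ) (P : (Matrix (Fin 2) (Fin 2) k)ˣ) :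
    IsBoundKernel A p N (conjRep P ρ) :=
  { h with
    trivial := fun n hn => by rw [conjRep_apply, h.trivial n hn, mul_one, Units.mul_inv]
    continuous := by
      obtain ⟨F, hF, h1⟩ := h.continuous
      exact ⟨F, hF, fun σ hσ => by rw [conjRep_apply, h1 σ hσ, mul_one, Units.mul_inv]⟩ }

/-- Conjugation of functions. -/
def conjFun (A : ValuationSubring Ω) (P : (Matrix (Fin 2) (Fin 2) k)ˣ) :
    (↥(A.decompositionSubgroup ℚ) → Matrix (Fin 2) (Fin 2) k) →ₗ[k]
      (↥(A.decompositionSubgroup ℚ) → Matrix (Fin 2) (Fin 2) k) where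
  toFun c σ := P.1 * c σ * P⁻¹.1
  map_add' c c' := funext fun σ => by simp [mul_add, add_mul]
  map_smul' t c := funext fun σ => by simp

lemma conjFun_injective (P : (Matrix (Fin 2) (Fin 2) k)ˣ) :
    Function.Injective (conjFun A P) := fun c c' h => funext fun σ => by
  have h' : P.1 * c σ * P⁻¹.1 = P.1 * c' σ * P⁻¹.1 := congrFun h σ
  calc c σ = P⁻¹.1 * (P.1 * c σ * P⁻¹.1) * P.1 := by simp [← mul_assoc]
    _ = c' σ := by rw [h']; simp [← mul_assoc]

lemma map_conjFun_le (P : (Matrix (Fin 2) (Fin 2) k)ˣ) :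
    (adCocycles A N ρ).map (conjFun A P) ≤ adCocycles A N (conjRep P ρ) := by
  rintro _ ⟨c, ⟨h1, h2, h3, F, hF, h4⟩, rfl⟩
  refine ⟨fun σ τ => ?_, fun σ => ?_, fun σ hσ => ?_, F, hF, fun σ hσ => ?_⟩
  · show P.1 * c (σ * τ) * P⁻¹.1 = P.1 * c σ * P⁻¹.1 + _ * (P.1 * c τ * P⁻¹.1) * _
    rw [h1]
    simp [conjRep_apply, mul_add, add_mul, mul_assoc]
  · show (P.1 * c σ * P⁻¹.1).trace = 0
    rw [Matrix.trace_mul_cycle, Units.inv_mul, one_mul, h2]
  · show P.1 * c σ * P⁻¹.1 = 0
    rw [h3 σ hσ, mul_zero, zero_mul]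
  · show P.1 * c σ * P⁻¹.1 = 0
    rw [h4 σ hσ, mul_zero, zero_mul]

variable [CharP k p]

/-- Cocycles vanishing on a kernel with the bound. -/
theorem finrank_adCocycles_le (h : IsOver A p) (hp : 5 ≤ p) (hN : IsBoundKernel A p N ρ)
    (hρ : IsFlatShape A p ρ) :
    FiniteDimensional k (adCocycles A N ρ) ∧ Module.finrank k (adCocycles A N ρ) ≤ 4 := by
  obtain ⟨P, hP⟩ := hρ
  have hN' := hN.conj P
  obtain ⟨hfin, hle⟩ := finrank_adCocycles_le_four hN' (hP.elim
    (finrank_adClasses_le_ordinary h hp hN') (finrank_adClasses_le_supersingular h hp hN'))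
  let f : adCocycles A N ρ →ₗ[k] adCocycles A N (conjRep P ρ) :=
    ((conjFun A P).comp (adCocycles A N ρ).subtype).codRestrict _ fun c =>
      map_conjFun_le P ⟨c, c.2, rfl⟩
  have hf : Function.Injective f := fun c c' e =>
    Subtype.ext (conjFun_injective P (congrArg Subtype.val e))
  exact ⟨Module.Finite.of_injective f hf,
    (LinearMap.finrank_le_finrank_of_injective hf).trans hle⟩

/-- **The flat condition has dimension at most four.** -/
theorem finrank_flatCond_le (h : IsOver A p) (hp : 5 ≤ p) (hρ : IsFlatShape A p ρ) :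
    FiniteDimensional k (flatCond A p ρ) ∧ Module.finrank k (flatCond A p ρ) ≤ 4 := by
  classical
  rcases isEmpty_or_nonempty {N : Subgroup G_ℚ // IsBoundKernel A p N ρ} with he | ⟨⟨N₀, hN₀⟩⟩
  · have hbot : flatCond A p ρ = ⊥ := iSup_of_empty _
    rw [hbot]
    exact ⟨inferInstance, by simp⟩
  have hrank : Module.rank k (flatCond A p ρ) ≤ (4 : ℕ) := by
    refine rank_le fun s hs => ?_
    obtain ⟨N, hN, hsub⟩ : ∃ N, IsBoundKernel A p N ρ ∧ ∀ c ∈ s, (c : ↥(A.decompositionSubgroup ℚ) →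
        Matrix (Fin 2) (Fin 2) k) ∈ adCocycles A N ρ := by
      clear hs
      induction s using Finset.induction with
      | empty => exact ⟨N₀, hN₀, by simp⟩
      | insert a t _ ih =>
        obtain ⟨N, hN, hNt⟩ := ih
        obtain ⟨N', hN', hN'a⟩ := (mem_flatCond_iff hN₀).1 a.2
        refine ⟨N ⊓ N', hN.inf hN', fun c hc => ?_⟩
        rcases Finset.mem_insert.1 hc with rfl | hc
        · exact adCocycles_anti inf_le_right hN'a
        · exact adCocycles_anti inf_le_left (hNt c hc)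
    obtain ⟨hfin, hle⟩ := finrank_adCocycles_le h hp hN hρ
    have hli : LinearIndependent k fun c : s =>
        (⟨c.1.1, hsub c.1 c.2⟩ : adCocycles A N ρ) := by
      refine LinearIndependent.of_comp (adCocycles A N ρ).subtype ?_
      exact hs.map' (flatCond A p ρ).subtype (Submodule.ker_subtype _)
    have h4 := hli.fintype_card_le_finrank.trans hle
    rwa [Fintype.card_coe] at h4
  have : FiniteDimensional k (flatCond A p ρ) :=
    Module.rank_lt_aleph0_iff.1 (hrank.trans_lt (Cardinal.natCast_lt_aleph0))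
  exact ⟨inferInstance, Module.finrank_le_of_rank_le hrank⟩

end Fermat.Agent.FlatJ0
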