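import Fermat.Agent.FlatJ0.FixRing

/-!
# Fontaine's argument in abstract form

A filtration that is torsion-free and uniquely `p`-divisible above `1/(p-1)`, and a transport of
fixed points along homomorphisms modulo `ord ≥ γ`, give the bound `γ > p/(p-1)` for the field of
the `p`-division points.
-/

noncomputable section

namespace Fermat.Agent.FlatJ0

local notation "Ω" => AlgebraicClosure ℚ
local notation "G_ℚ" => (AlgebraicClosure ℚ) ≃ₐ[ℚ] (AlgebraicClosure ℚ)

variable {A : ValuationSubring Ω} {p : ℕ} {M : Type*} [AddCommGroup M] [DistribMulAction G_ℚ M]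

/-- The inputs of Fontaine's argument on a module `M`. -/
structure LiftData (A : ValuationSubring Ω) (p : ℕ) (M : Type*) [AddCommGroup M]
    [DistribMulAction G_ℚ M] where
  /-- the congruence filtration -/
  J : ℚ → AddSubgroup M
  J_mono : ∀ {δ γ : ℚ}, δ ≤ γ → J γ ≤ J δ
  J_smul : ∀ {δ : ℚ}, 0 < δ → ∀ σ ∈ A.inertiaSubgroupIn ℚ, ∀ x ∈ J δ, σ • x ∈ J δ
  torsion : ∀ {δ : ℚ}, 1 / ((p : ℚ) - 1) < δ → ∀ x ∈ J δ, p • x = 0 → x = 0
  div : ∀ {δ : ℚ}, 1 / ((p : ℚ) - 1) < δ → ∀ x ∈ J (δ + 1), ∃ y ∈ J δ, p • y = x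
  transport : ∀ (N : Subgroup G_ℚ), N ≤ A.inertiaSubgroupIn ℚ →
    (N.subgroupOf (A.inertiaSubgroupIn ℚ)).FiniteIndex → ∀ (γ : ℚ) (φ : Ω → Ω), 1 < γ →
    IsHomMod A p N γ φ → ∃ T : M → M,
      (∀ x y : M, (∀ τ ∈ N, τ • x = x) → (∀ τ ∈ N, τ • y = y) →
        T (x + y) - T x - T y ∈ J γ) ∧
      (∀ x : M, (∀ τ ∈ A.inertiaSubgroupIn ℚ, τ • x = x) → T x - x ∈ J γ) ∧
      (∀ σ ∈ A.inertiaSubgroupIn ℚ, (∀ b ∈ fixRing A N, Near A p γ (σ (φ b) - φ b)) →
        ∀ x : M, (∀ τ ∈ N, τ • x = x) → σ • T x - T x ∈ J γ) ∧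
      (∀ x : M, (∀ τ ∈ N, τ • x = x) → ∀ δ : ℚ, 0 < δ → δ ≤ γ → T x ∈ J δ → x ∈ J δ)

omit [DistribMulAction G_ℚ M] in
lemma finite_division (hfin : {z : M | p • z = 0}.Finite) (a : M) :
    {z : M | p • z = 0 ∨ p • z = a}.Finite := by
  by_cases ha : ∃ z₀ : M, p • z₀ = a
  · obtain ⟨z₀, hz₀⟩ := ha
    refine (hfin.union (hfin.image fun z => z + z₀)).subset ?_
    rintro z (hz | hz)
    · exact Or.inl hz
    · exact Or.inr ⟨z - z₀, show p • (z - z₀) = 0 by rw [smul_sub, hz, hz₀, sub_self],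
        sub_add_cancel z z₀⟩
  · exact hfin.subset fun z hz => hz.resolve_right fun e => ha ⟨z, e⟩

lemma finiteIndex_divisionKer (hfin : {z : M | p • z = 0}.Finite) {a : M}
    (ha : ∀ σ ∈ A.inertiaSubgroupIn ℚ, σ • a = a) :
    ((divisionKer A p M a).subgroupOf (A.inertiaSubgroupIn ℚ)).FiniteIndex := by
  set S : Set M := {z : M | p • z = 0 ∨ p • z = a}
  have : Finite S := (finite_division hfin a).to_subtype
  have hstab : ∀ (σ : A.inertiaSubgroupIn ℚ) (z : S), (σ : G_ℚ) • (z : M) ∈ S := by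
    rintro σ ⟨z, hz | hz⟩
    · exact Or.inl (by rw [smul_comm, hz, smul_zero])
    · exact Or.inr (by rw [smul_comm, hz, ha σ σ.2])
  let f : A.inertiaSubgroupIn ℚ →* Function.End S :=
    { toFun := fun σ z => ⟨(σ : G_ℚ) • (z : M), hstab σ z⟩
      map_one' := funext fun z => Subtype.ext (one_smul _ _)
      map_mul' := fun σ τ => funext fun z => Subtype.ext (mul_smul _ _ _) }
  let g : A.inertiaSubgroupIn ℚ →* (Function.End S)ˣ := f.toHomUnits
  have : Finite (Function.End S) := inferInstanceAs (Finite (S → S))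
  have hker : g.ker = (divisionKer A p M a).subgroupOf (A.inertiaSubgroupIn ℚ) := by
    ext σ
    rw [MonoidHom.mem_ker, Subgroup.mem_subgroupOf, mem_divisionKer, Units.ext_iff]
    constructor
    · exact fun h => ⟨σ.2, fun z hz => congrArg Subtype.val (congrFun h ⟨z, hz⟩)⟩
    · rintro ⟨-, h⟩
      exact funext fun z => Subtype.ext (h z z.2)
  rw [← hker]
  infer_instance

/-- Fontaine's bound for the `p`-division points of an inertia-fixed point. -/
theorem LiftData.hasBound (L : LiftData A p M) (h : IsOver A p)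
    (hfin : {z : M | p • z = 0}.Finite) {a : M} (ha : ∀ σ ∈ A.inertiaSubgroupIn ℚ, σ • a = a)
    {γ : ℚ} (hγ : (p : ℚ) / (p - 1) < γ) : HasBound A p (divisionKer A p M a) γ := by
  intro φ hφ σ hσ hfixσ
  have hN : divisionKer A p M a ≤ A.inertiaSubgroupIn ℚ := fun τ hτ => hτ.1
  have hp1 : (0 : ℚ) < (p : ℚ) - 1 := by
    have : (2 : ℚ) ≤ p := by exact_mod_cast h.prime.two_le
    linarith
  have hsplit : (p : ℚ) / (p - 1) = 1 + 1 / ((p : ℚ) - 1) := by field_simp; ring
  have hγ1 : 1 < γ := by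
    have : 0 < 1 / ((p : ℚ) - 1) := by positivity
    linarith
  set δ := γ - 1 with hδdef
  have hδ : 1 / ((p : ℚ) - 1) < δ := by linarith
  have hδ0 : 0 < δ := lt_trans (by positivity) hδ
  have hδγ : δ ≤ γ := by linarith
  obtain ⟨T, hadd, hid, hfix, hinj⟩ :=
    L.transport _ hN (finiteIndex_divisionKer hfin ha) γ φ hγ1 hφ
  set S : Set M := {z : M | p • z = 0 ∨ p • z = a}
  have hSfix : ∀ z ∈ S, ∀ τ ∈ divisionKer A p M a, τ • z = z := fun z hz τ hτ => hτ.2 z hz
  have hSn : ∀ z ∈ S, ∀ n : ℕ, ∀ τ ∈ divisionKer A p M a, τ • (n • z) = n • z :=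
    fun z hz n τ hτ => by rw [smul_comm, hSfix z hz τ hτ]
  have hnsmul : ∀ z ∈ S, ∀ n : ℕ, T (n • z) - n • T z ∈ L.J γ := by
    intro z hz n
    induction n with
    | zero =>
      simpa using hid 0 fun τ _ => smul_zero τ
    | succ n ih =>
      have e : T ((n + 1) • z) - (n + 1) • T z =
          (T (n • z + z) - T (n • z) - T z) + (T (n • z) - n • T z) := by
        rw [succ_nsmul, succ_nsmul]; abel
      rw [e]
      exact add_mem (hadd _ _ (hSn z hz n) (hSfix z hz)) ih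
  -- the lift of each division point
  have hR : ∀ z ∈ S, ∃ R : M, p • R = p • z ∧ R - T z ∈ L.J δ := by
    intro z hz
    have hpz : T (p • z) - p • z ∈ L.J γ := by
      refine hid _ fun τ hτ => ?_
      rcases hz with e | e
      · rw [e, smul_zero]
      · rw [e, ha τ hτ]
    have hd : p • T z - p • z ∈ L.J γ := by
      have := sub_mem hpz (hnsmul z hz p)
      rwa [sub_sub_sub_cancel_left] at this
    obtain ⟨y, hy, hpy⟩ := L.div hδ _ (show p • T z - p • z ∈ L.J (δ + 1) by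
      rwa [hδdef, sub_add_cancel])
    exact ⟨T z - y, by rw [smul_sub, hpy, sub_sub_cancel], by
      rw [sub_sub_cancel_left]; exact neg_mem hy⟩
  choose R hpR hRT using hR
  have hσR : ∀ z (hz : z ∈ S), σ • R z hz = R z hz := by
    intro z hz
    refine sub_eq_zero.mp (L.torsion hδ _ ?_ ?_)
    · have e : σ • R z hz - R z hz =
          σ • (R z hz - T z) + (σ • T z - T z) - (R z hz - T z) := by
        rw [smul_sub]; abel
      rw [e]
      exact sub_mem (add_mem (L.J_smul hδ0 σ hσ _ (hRT z hz))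
        (L.J_mono hδγ (hfix σ hσ hfixσ z (hSfix z hz)))) (hRT z hz)
    · rw [smul_sub, ← smul_comm σ p (R z hz), hpR z hz]
      rcases hz with e | e
      · rw [e, smul_zero, sub_zero]
      · rw [e, ha σ hσ, sub_self]
  have hRmem : ∀ z (hz : z ∈ S), R z hz ∈ S := fun z hz =>
    hz.imp (fun e => by rw [hpR z hz, e]) fun e => by rw [hpR z hz, e]
  let f : S → S := fun z => ⟨R z.1 z.2, hRmem z.1 z.2⟩
  have hfinj : Function.Injective f := by
    rintro ⟨z, hz⟩ ⟨w, hw⟩ e
    have e' : R z hz = R w hw := congrArg Subtype.val e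
    have hTz : T z - T w ∈ L.J δ := by
      have := sub_mem (hRT w hw) (hRT z hz)
      rwa [e', sub_sub_sub_cancel_left] at this
    have hfd : ∀ τ ∈ divisionKer A p M a, τ • (z - w) = z - w := fun τ hτ => by
      rw [smul_sub, hSfix z hz τ hτ, hSfix w hw τ hτ]
    have hdiff : T (z - w) ∈ L.J δ := by
      have h1 := hadd (z - w) w hfd (hSfix w hw)
      rw [sub_add_cancel] at h1
      have h2 := sub_mem hTz (L.J_mono hδγ h1)
      convert h2 using 1
      abel
    have hpp : p • (z - w) = 0 := by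
      rw [smul_sub, ← hpR z hz, e', hpR w hw, sub_self]
    exact Subtype.ext (sub_eq_zero.mp (L.torsion hδ _ (hinj _ hfd δ hδ0 hδγ hdiff) hpp))
  have : Finite S := (finite_division hfin a).to_subtype
  refine ⟨hσ, fun z hz => ?_⟩
  obtain ⟨⟨w, hw⟩, hwz⟩ := Finite.surjective_of_injective hfinj ⟨z, hz⟩
  have e : R w hw = z := congrArg Subtype.val hwz
  rw [← e, hσR]

end Fermat.Agent.FlatJ0
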