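import Fermat.Agent.FlatJ0.Equivariant

/-!
# Inertia-fixed places over simple residual zeros

Over every simple zero of `j̄ - c̄` (`c` fixed by inertia) lies exactly one zero of `j - c`; it is
fixed by inertia.
-/

noncomputable section

namespace Fermat.Agent.FlatJ0

open AlgebraicCurve ModularCurve Fermat.Agent.Reduction Fermat.Agent.FunctionFieldRR
open scoped Fermat.Agent.Reduction

local notation "Ω" => AlgebraicClosure ℚ
local notation "G_ℚ" => (AlgebraicClosure ℚ) ≃ₐ[ℚ] (AlgebraicClosure ℚ)

section General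

variable {K E : Type*} [Field K] [Field E] [Algebra K E]

/-- Translating by a constant does not change the polar divisor. -/
theorem polesOf_sub_algebraMap [HasPrincipalDivisors K E] [IsAlgClosed K] [IsFunctionField K E]
    (x : E) (c : K) : polesOf (K := K) (x - algebraMap K E c) = polesOf (K := K) x := by
  refine Finsupp.ext fun v => ?_
  rw [polesOf_apply, polesOf_apply]
  rcases eq_or_ne x 0 with rfl | hx
  · rw [zero_sub, Fermat.Agent.FunctionFieldRR.ord_neg, ord_algebraMap]; simp
  rcases eq_or_ne c 0 with rfl | hc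
  · simp
  have hc' : -algebraMap K E c ≠ 0 := by simpa using hc
  have h0 : v.ord (-algebraMap K E c) = 0 := by
    rw [Fermat.Agent.FunctionFieldRR.ord_neg, ord_algebraMap]
  rcases lt_trichotomy (v.ord x) 0 with h | h | h
  · rw [sub_eq_add_neg, ord_add_eq_of_lt hx (by rwa [h0])]
  · rcases eq_or_ne (x - algebraMap K E c) 0 with e | e
    · rw [h, e]; simp
    · have h1 : x ∈ v.toValuationSubring := (ord_nonneg_iff _ _).mp h.ge
      have h2 : 0 ≤ v.ord (x - algebraMap K E c) :=
        (ord_nonneg_iff _ _).mpr (sub_mem h1 (v.algebraMap_mem' c))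
      omega
  · rw [sub_eq_add_neg, add_comm, ord_add_eq_of_lt hc' (by rwa [h0]), h0]
    omega

end General

variable {A : ValuationSubring Ω} {F : IntermediateField Ω (LaurentSeries Ω)}
  {Fk : IntermediateField (IsLocalRing.ResidueField A) (LaurentSeries (IsLocalRing.ResidueField A))}
  {M : GoodModel A F Fk} {gal : G_ℚ →* SemilinearAut Ω F}
  [IsAlgClosed (IsLocalRing.ResidueField A)] [IsFunctionField Ω F]
  [IsFunctionField (IsLocalRing.ResidueField A) Fk]
  [HasPrincipalDivisors Ω F] [HasPrincipalDivisors (IsLocalRing.ResidueField A) Fk]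
  (R : M.ReductionMap) {g c : ℤ} (H : GoodModel.RRData (A := A) (F := F) (Fk := Fk) g c)

omit [IsFunctionField Ω F] [HasPrincipalDivisors Ω F] [IsAlgClosed (IsLocalRing.ResidueField A)]
  [IsFunctionField (IsLocalRing.ResidueField A) Fk]
  [HasPrincipalDivisors (IsLocalRing.ResidueField A) Fk] in
theorem isInt_jF : M.IsInt M.jF ∧ M.red M.jF = M.jK := by
  obtain ⟨h1, h2⟩ := M.isInt_series (x := M.jF) (y := M.j) M.coe_jF
  exact ⟨h1, Subtype.ext (h2.trans M.coe_jK.symm)⟩

include H in
theorem map_polesOf_jF :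
    Finsupp.mapDomain R.toFun (polesOf (K := Ω) M.jF) =
      polesOf (K := IsLocalRing.ResidueField A) M.jK := by
  obtain ⟨hi, hr⟩ := isInt_jF (M := M)
  have htk := M.transcendental_jK
  have hne : M.red M.jF ≠ 0 := by
    rw [hr]; intro e; rw [e] at htk; exact htk isAlgebraic_zero
  have hspec := R.spec M.jF hi hne
  rw [hr] at hspec
  have h0 : 0 ≤ Finsupp.mapDomain R.toFun (polesOf (K := Ω) M.jF) := by
    have := mapDomain_mono R.toFun (polesOf_nonneg (K := Ω) M.jF)
    rwa [Finsupp.mapDomain_zero] at this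
  have hz : (0 : Divisor Ω F) ≤ dvs (K := Ω) M.jF + polesOf (K := Ω) M.jF :=
    Finsupp.le_def.mpr fun v => by
      simp only [Finsupp.zero_apply, Finsupp.add_apply, dvs_apply, polesOf_apply]
      omega
  have hle : polesOf (K := IsLocalRing.ResidueField A) M.jK ≤
      Finsupp.mapDomain R.toFun (polesOf (K := Ω) M.jF) := by
    have h1 := mapDomain_mono R.toFun hz
    rw [Finsupp.mapDomain_zero, Finsupp.mapDomain_add, hspec] at h1
    refine Finsupp.le_def.mpr fun v => ?_
    have a := Finsupp.le_def.mp h1 v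
    have b := Finsupp.le_def.mp h0 v
    simp only [Finsupp.add_apply, dvs_apply, Finsupp.zero_apply] at a b
    rw [polesOf_apply]
    exact max_le (by linarith) b
  have hd1 := degree_polesOf_le_finrank H.low ⟨c, fun D hD => (H.finrank_eq hD R).le⟩
    M.transcendental_jF
  have hd2 := finrank_le_degree_polesOf htk
  have hd3 := M.degree_le
  refine (sub_eq_zero.mp (eq_zero_of_degree_eq_zero (sub_nonneg.mpr hle) ?_))
  rw [map_sub, GoodModel.ReductionMap.degree_map]
  have h1 := degree_mono hle
  rw [GoodModel.ReductionMap.degree_map] at h1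
  omega

include H in
/-- A simple zero `Q` of `j̄ - ā` has exactly one preimage among the zeros of `j - a`; inertia
fixes it. -/
theorem exists_fixed_place (hgal : IsCoeffAction gal)
    (hjfix : ∀ σ ∈ A.inertiaSubgroupIn ℚ, gal σ • M.jF = M.jF)
    {a : A} (hafix : ∀ σ ∈ A.inertiaSubgroupIn ℚ, σ (a : Ω) = a)
    {Q : Place (IsLocalRing.ResidueField A) Fk}
    (hQ : Q.ord (M.jK - algebraMap _ Fk (IsLocalRing.residue A a)) = 1) :
    ∃ P : Place Ω F, R.toFun P = Q ∧ P.ord (M.jF - algebraMap Ω F (a : Ω)) = 1 ∧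
      ∀ σ ∈ A.inertiaSubgroupIn ℚ, gal σ • P = P := by
  classical
  obtain ⟨hji, hjr⟩ := isInt_jF (M := M)
  obtain ⟨hzi, hzr⟩ := M.isInt_sub hji (M.isInt_const a.2).1
  rw [(M.isInt_const a.2).2, hjr] at hzr
  set z := M.jF - algebraMap Ω F (a : Ω) with hz
  have hQ0 : M.red z ≠ 0 := fun e => by
    rw [← hzr, e, Place.ord_zero] at hQ
    omega
  have hspec := R.spec z hzi hQ0
  have hpole : polesOf (K := Ω) z = polesOf (K := Ω) M.jF := polesOf_sub_algebraMap _ _
  set Z : Divisor Ω F := dvs (K := Ω) z + polesOf (K := Ω) z with hZ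
  have hZ0 : 0 ≤ Z := Finsupp.le_def.mpr fun v => by
    simp only [hZ, Finsupp.zero_apply, Finsupp.add_apply, dvs_apply, polesOf_apply]
    omega
  have hpQ : (polesOf (K := IsLocalRing.ResidueField A) M.jK) Q = 0 := by
    rw [← polesOf_sub_algebraMap M.jK (IsLocalRing.residue A a), polesOf_apply, hQ]
    simp
  have hZQ : Finsupp.mapDomain R.toFun Z Q = 1 := by
    rw [hZ, Finsupp.mapDomain_add, hspec, hzr, hpole, map_polesOf_jF R H, Finsupp.add_apply,
      dvs_apply, hpQ, hQ, add_zero]
  obtain ⟨P, hPmem, hPQ⟩ : ∃ P ∈ Z.support, R.toFun P = Q := by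
    have : Q ∈ (Finsupp.mapDomain R.toFun Z).support := by
      rw [Finsupp.mem_support_iff, hZQ]; exact one_ne_zero
    exact Finset.mem_image.mp (Finsupp.mapDomain_support this)
  have hPpos : 1 ≤ Z P := by
    have h1 := Finsupp.le_def.mp hZ0 P
    have h2 := Finsupp.mem_support_iff.mp hPmem
    simp only [Finsupp.zero_apply] at h1
    omega
  have key : ∀ P' : Place Ω F, R.toFun P' = Q → P' ≠ P → Z P' = 0 := by
    intro P' hP' hne
    by_contra h
    have h1 : 1 ≤ Z P' := by
      have := Finsupp.le_def.mp hZ0 P'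
      simp only [Finsupp.zero_apply] at this
      omega
    have h2 : Finsupp.single P (1 : ℤ) + Finsupp.single P' 1 ≤ Z := by
      refine Finsupp.le_def.mpr fun v => ?_
      rw [Finsupp.add_apply, Finsupp.single_apply, Finsupp.single_apply]
      have := Finsupp.le_def.mp hZ0 v
      simp only [Finsupp.zero_apply] at this
      by_cases e1 : P = v
      · subst e1; rw [if_pos rfl, if_neg hne]; omega
      · by_cases e2 : P' = v
        · subst e2; rw [if_neg e1, if_pos rfl]; omega
        · rw [if_neg e1, if_neg e2]; omega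
    have h3 := Finsupp.le_def.mp (mapDomain_mono R.toFun h2) Q
    rw [Finsupp.mapDomain_add, Finsupp.mapDomain_single, Finsupp.mapDomain_single, hPQ, hP',
      Finsupp.add_apply, Finsupp.single_eq_same, hZQ] at h3
    omega
  have hPord : P.ord z = Z P := by
    have hp0 : polesOf (K := Ω) z P = 0 := by
      refine apply_eq_zero_of_mapDomain_apply R.toFun (polesOf_nonneg z) ?_
      rw [hpole, map_polesOf_jF R H, hPQ, hpQ]
    rw [hZ, Finsupp.add_apply, dvs_apply, hp0, add_zero]
  have hP1 : P.ord z = 1 := by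
    have h2 : Finsupp.single P (Z P) ≤ Z := Finsupp.le_def.mpr fun v => by
      rw [Finsupp.single_apply]
      have := Finsupp.le_def.mp hZ0 v
      simp only [Finsupp.zero_apply] at this
      split_ifs with e
      · rw [e]
      · exact this
    have h3 := Finsupp.le_def.mp (mapDomain_mono R.toFun h2) Q
    rw [Finsupp.mapDomain_single, hPQ, Finsupp.single_eq_same, hZQ] at h3
    omega
  refine ⟨P, hPQ, hP1, fun σ hσ => ?_⟩
  by_contra hne
  have hz' : gal σ • z = z := by
    rw [hz, smul_sub, hjfix σ hσ, SemilinearAut.smul_algebraMap, baseAut_gal hgal, hafix σ hσ]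
  have hord : (gal σ • P).ord z = 1 := by
    conv_lhs => rw [← hz']
    rw [SemilinearAut.ord_smul, hP1]
  have := key (gal σ • P) (by rw [toFun_smul_gal R H hgal hσ, hPQ]) hne
  rw [hZ, Finsupp.add_apply, dvs_apply, hord, polesOf_apply, hord] at this
  omega

end Fermat.Agent.FlatJ0
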