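import Fermat.Agent.FlatJ0.Congr
import Fermat.Agent.FlatJ0.FixedPlaces

/-!
# Charts of the classes congruent to zero

For effective divisors reducing to the same non-special divisor, a difference linearly equivalent
to a congruent divisor is itself congruent; over a simple residual point this is a congruence of
the parameters.
-/

noncomputable section

namespace Fermat.Agent.FlatJ0

open AlgebraicCurve ModularCurve Fermat.Agent.Reduction Fermat.Agent.FunctionFieldRR
open scoped Fermat.Agent.Reduction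

local notation "Ω" => AlgebraicClosure ℚ
local notation "G_ℚ" => (AlgebraicClosure ℚ) ≃ₐ[ℚ] (AlgebraicClosure ℚ)

theorem mapDomain_apply_le {α β : Type*} (r : α → β) {D E : α →₀ ℤ} {b : β}
    (h : ∀ a, r a = b → D a ≤ E a) :
    Finsupp.mapDomain r D b ≤ Finsupp.mapDomain r E b := by
  classical
  have h1 : D.filter (fun a => r a = b) ≤ E.filter (fun a => r a = b) :=
    Finsupp.le_def.mpr fun a => by
      rw [Finsupp.filter_apply, Finsupp.filter_apply]
      split_ifs with e
      · exact h a e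
      · exact le_rfl
  have h2 := Finsupp.le_def.mp (mapDomain_mono r h1) b
  have hD : Finsupp.mapDomain r (D.filter fun a => r a = b) b = Finsupp.mapDomain r D b :=
    mapDomain_apply_congr r fun a ha => by rw [Finsupp.filter_apply, if_pos ha]
  have hE : Finsupp.mapDomain r (E.filter fun a => r a = b) b = Finsupp.mapDomain r E b :=
    mapDomain_apply_congr r fun a ha => by rw [Finsupp.filter_apply, if_pos ha]
  rwa [hD, hE] at h2

theorem inv_mem_of_notMem_nonunits {L : Type*} [Field L] {A : ValuationSubring L} {w : L}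
    (hw : w ∈ A) (h : w ∉ A.nonunits) : w ≠ 0 ∧ w⁻¹ ∈ A := by
  rw [ValuationSubring.mem_nonunits_iff] at h
  have h1 : A.valuation w = 1 :=
    le_antisymm ((A.valuation_le_one_iff w).mpr hw) (not_lt.mp h)
  refine ⟨fun e => by rw [e, map_zero] at h1; exact zero_ne_one h1, ?_⟩
  rw [← A.valuation_le_one_iff, map_inv₀, h1, inv_one]

section General

variable {K E : Type*} [Field K] [Field E] [Algebra K E]

theorem polesOf_smul [HasPrincipalDivisors K E] {c : K} (hc : c ≠ 0) (f : E) :
    polesOf (K := K) (c • f) = polesOf (K := K) f := by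
  refine Finsupp.ext fun v => ?_
  rcases eq_or_ne f 0 with rfl | hf
  · rw [smul_zero]
  · rw [polesOf_apply, polesOf_apply, ← dvs_apply, dvs_smul hc hf, dvs_apply]

theorem eq_algebraMap_of_finrank_le_one [IsAlgClosed K] [IsFunctionField K E]
    [HasPrincipalDivisors K E] {D : Divisor K E} (hD : 0 ≤ D)
    (h : Module.finrank K (riemannRochSpace D) ≤ 1) {f : E} (hf : f ∈ riemannRochSpace D) :
    ∃ c : K, f = algebraMap K E c := by
  have := finiteDimensional_riemannRochSpace (K := K) D
  obtain ⟨v, hv⟩ := finrank_le_one_iff.mp h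
  obtain ⟨a, ha⟩ := hv ⟨1, one_mem_rr hD⟩
  obtain ⟨b, hb⟩ := hv ⟨f, hf⟩
  have ha0 : a ≠ 0 := fun e => by
    rw [e, zero_smul] at ha
    exact one_ne_zero (congrArg Subtype.val ha).symm
  have e : (⟨f, hf⟩ : riemannRochSpace D) = (b / a) • ⟨1, one_mem_rr hD⟩ := by
    rw [← ha, ← hb, smul_smul, div_mul_cancel₀ _ ha0]
  exact ⟨b / a, by rw [Algebra.algebraMap_eq_smul_one]; exact congrArg Subtype.val e⟩

end General

variable {A : ValuationSubring Ω} {F : IntermediateField Ω (LaurentSeries Ω)}
  {Fk : IntermediateField (IsLocalRing.ResidueField A) (LaurentSeries (IsLocalRing.ResidueField A))}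
  {M : GoodModel A F Fk}
  [IsAlgClosed (IsLocalRing.ResidueField A)] [IsFunctionField Ω F]
  [IsFunctionField (IsLocalRing.ResidueField A) Fk]
  [HasPrincipalDivisors Ω F] [HasPrincipalDivisors (IsLocalRing.ResidueField A) Fk]
  {R : M.ReductionMap} {g c : ℤ} (H : GoodModel.RRData (A := A) (F := F) (Fk := Fk) g c)
  {p : ℕ} {γ : ℚ}

include H in
/-- A function congruent, over every residual place, to one with poles bounded by a non-special
divisor is congruent to its value. -/
theorem isSmall_sub_value (h : IsOver A p)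
    {q : Divisor (IsLocalRing.ResidueField A) Fk} (hq0 : 0 ≤ q)
    (hq : Module.finrank (IsLocalRing.ResidueField A) (riemannRochSpace q) ≤ 1)
    {f : F} (hf : M.IsInt f)
    (hloc : ∀ Q, ∃ u : F, M.IsInt u ∧ IsSmall M p γ (f - u) ∧
      Finsupp.mapDomain R.toFun (polesOf (K := Ω) u) Q ≤ q Q)
    {P : Place Ω F} (hP : HolAt R (R.toFun P) f) :
    IsSmall M p γ (f - algebraMap Ω F (residueConst P f)) := by
  obtain ⟨hcA, -⟩ := hP.value H hf rfl
  set b := residueConst P f with hb
  rcases eq_or_ne (f - algebraMap Ω F b) 0 with e | hne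
  · rw [e]; exact isSmall_zero
  obtain ⟨s, g₁, hs0, hg1, hg10, hsg⟩ := exists_primitive_smul M hne
  by_cases hns : Near A p γ s
  · rw [hsg]; exact isSmall_of_near hns hg1
  exfalso
  simp only [Near, hs0, false_or, not_le] at hns
  have hmem : M.red g₁ ∈ riemannRochSpace q := by
    rw [mem_riemannRochSpace_iff]
    intro Q
    obtain ⟨u, hu, hfu, hpol⟩ := hloc Q
    set u' := s⁻¹ • (u - algebraMap Ω F b) with hu'
    have hd : IsSmall M p (γ - ord A p s) (u' - g₁) := by
      have e : u' - g₁ = s⁻¹ • -(f - u) := by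
        rw [hu', ← inv_smul_smul₀ hs0 g₁, ← hsg, ← smul_sub]
        congr 1
        ring
      rw [e, show γ - ord A p s = -ord A p s + γ by ring]
      exact h.isSmall_smul (Or.inr (h.ord_inv hs0).ge) hfu.neg
    obtain ⟨hu'i, hu'r⟩ := h.red_eq_of_isSmall_sub (by linarith) hg1 hd
    rcases mem_riemannRochSpace_iff.mp (R.red_mem_rr (mem_rr_polesOf u') hu'i) Q with e | e
    · exact Or.inl (hu'r ▸ e)
    · refine Or.inr ?_
      rw [hu'r, hu', polesOf_smul (inv_ne_zero hs0), polesOf_sub_algebraMap] at e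
      omega
  obtain ⟨κ, hκ⟩ := eq_algebraMap_of_finrank_le_one hq0 hq hmem
  have hg1hol : HolAt R (R.toFun P) g₁ := fun P' hP' => by
    rw [← inv_smul_smul₀ hs0 g₁, ← hsg, Algebra.smul_def]
    exact mul_mem (P'.algebraMap_mem' _) (sub_mem (hP P' hP') (P'.algebraMap_mem' b))
  obtain ⟨hv, hres⟩ := hg1hol.value H hg1 rfl
  have hv0 : residueConst P g₁ = 0 := by
    have h1 : residueConst P (s • g₁) = 0 := by
      rw [← hsg, value_sub P (hP P rfl) (P.algebraMap_mem' b), value_algebraMap, sub_self]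
    rw [value_smul P s (hg1hol P rfl)] at h1
    exact (mul_eq_zero.mp h1).resolve_left hs0
  rw [hκ, value_algebraMap] at hres
  refine hg10 ?_
  rw [hκ, hres, show (⟨residueConst P g₁, hv⟩ : A) = 0 from Subtype.ext hv0, map_zero, map_zero]

include H in
/-- Linear equivalence preserves congruence to zero for differences of effective divisors with
the same non-special reduction. -/
theorem CongDiv.sub_of_isPrincipal (h : IsOver A p) (hγ : 0 < γ)
    (hinf : (Set.range R.toFun).Infinite) {X X₀ D : Divisor Ω F} (hX : 0 ≤ X) (hX₀ : 0 ≤ X₀)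
    (hXX : Finsupp.mapDomain R.toFun X = Finsupp.mapDomain R.toFun X₀)
    (hns : Module.finrank (IsLocalRing.ResidueField A)
      (riemannRochSpace (Finsupp.mapDomain R.toFun X₀)) ≤ 1)
    (hD : CongDiv R p γ D) (hprin : Divisor.IsPrincipal (X - X₀ - D)) :
    CongDiv R p γ (X - X₀) := by
  classical
  obtain ⟨f₀, hf₀, hdiv₀⟩ := hprin
  obtain ⟨s, f, hs, hfi, hfr, rfl⟩ := exists_primitive_smul M hf₀
  have hf : f ≠ 0 := fun e => hfr (by rw [e, M.red_zero])
  have hdiv : X - X₀ - D = dvs (K := Ω) f := by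
    rw [eq_dvs hdiv₀, dvs_smul hs hf]
  have hred : dvs (K := IsLocalRing.ResidueField A) (M.red f) = 0 := by
    rw [← R.spec f hfi hfr, ← hdiv, Finsupp.mapDomain_sub, Finsupp.mapDomain_sub, hXX,
      hD.mapDomain_eq_zero h hγ, sub_self, sub_zero]
  obtain ⟨κ, hκ⟩ := exists_eq_algebraMap_of_dvs_eq_zero hred
  -- a place away from everything
  obtain ⟨_, ⟨P, rfl⟩, hP⟩ := hinf.exists_notMem_finset
    (Finset.image R.toFun (polesOf (K := Ω) f).support)
  have hPhol : HolAt R (R.toFun P) f := fun P' hP' => by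
    rw [← polesOf_eq_zero_iff]
    by_contra hne
    exact hP (Finset.mem_image.mpr ⟨P', Finsupp.mem_support_iff.mpr hne, hP'⟩)
  have hsmall := isSmall_sub_value H h (q := Finsupp.mapDomain R.toFun X₀)
    (by simpa using mapDomain_mono R.toFun hX₀) hns hfi
    (fun Q => by
      obtain ⟨φ, hφ, hord⟩ := hD Q
      obtain ⟨hφi, -, hφ0, -⟩ := h.of_isSmall_sub_one hγ hφ
      refine ⟨f * φ, (M.isInt_mul hfi hφi).1, ?_, mapDomain_apply_le _ fun P' hP' => ?_⟩
      · rw [show f - f * φ = -(f * (φ - 1)) by ring]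
        exact (hφ.isInt_mul hfi).neg
      · rw [polesOf_apply, P'.ord_mul hf hφ0, ← hord P' hP', ← dvs_apply, ← hdiv]
        have h1 := Finsupp.le_def.mp hX P'
        have h2 := Finsupp.le_def.mp hX₀ P'
        simp only [Finsupp.sub_apply, Finsupp.zero_apply] at h1 h2 ⊢
        omega)
    hPhol
  set b := residueConst P f with hb
  obtain ⟨hbA, hbu⟩ := hPhol.value_unit H hfi hfr
    (by rw [hκ]; exact Fermat.Agent.FunctionFieldRR.ord_algebraMap _ κ) rfl
  obtain ⟨hb0, hbinv⟩ := inv_mem_of_notMem_nonunits hbA hbu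
  have hψ : IsSmall M p γ (b⁻¹ • f - 1) := by
    have e : b⁻¹ • f - 1 = algebraMap Ω F b⁻¹ * (f - algebraMap Ω F b) := by
      rw [Algebra.smul_def, mul_sub, ← map_mul, inv_mul_cancel₀ hb0, map_one]
    rw [e]
    exact hsmall.isInt_mul (M.isInt_const hbinv).1
  have key : X - X₀ = D + dvs (K := Ω) (b⁻¹ • f) := by
    rw [dvs_smul (inv_ne_zero hb0) hf, ← hdiv, add_sub_cancel]
  rw [key]
  exact hD.add h hγ (congDiv_dvs hψ)

include H in
/-- Two places over a simple residual point whose difference is congruent to zero there have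
congruent parameters. -/
theorem near_of_congDiv (h : IsOver A p) (hγ : 0 < γ)
    {Q : Place (IsLocalRing.ResidueField A) Fk} {t : F} (ht : IsParam R Q t)
    {P P' : Place Ω F} (hP : R.toFun P = Q) (hP' : R.toFun P' = Q) {D : Divisor Ω F}
    (hD : CongDiv R p γ D)
    (hDQ : ∀ P'' : Place Ω F, R.toFun P'' = Q →
      D P'' = Finsupp.single P (1 : ℤ) P'' - Finsupp.single P' 1 P'') :
    Near A p γ (residueConst P t - residueConst P' t) := by
  classical
  rcases eq_or_ne P P' with rfl | hne
  · rw [sub_self]; exact Or.inl rfl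
  obtain ⟨φ, hφ, hord⟩ := hD Q
  obtain ⟨hφi, hφr, hφ0, -⟩ := h.of_isSmall_sub_one hγ hφ
  obtain ⟨hti, htr⟩ := ht.red_sub (ht.value_mem H hP')
  set d := t - algebraMap Ω F (residueConst P' t) with hd
  have hd0 : d ≠ 0 := fun e => ht.red_ne_zero (by rw [← htr, e, M.red_zero])
  obtain ⟨hui, hur⟩ := M.isInt_mul hφi hti
  rw [hφr, one_mul, htr] at hur
  have hordu : ∀ P'' : Place Ω F, R.toFun P'' = Q →
      P''.ord (φ * d) = Finsupp.single P (1 : ℤ) P'' := by
    intro P'' hP''
    rw [P''.ord_mul hφ0 hd0, ← hord P'' hP'', hDQ P'' hP'']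
    obtain ⟨h1, h0⟩ := ht.ord_sub_value H hP' hP''
    rcases eq_or_ne P'' P' with e | e
    · rw [h1 e, e, Finsupp.single_eq_same]; ring
    · rw [h0 e, Finsupp.single_eq_of_ne e]; ring
  have huh : HolAt R Q (φ * d) := fun P'' hP'' => by
    rw [← ord_nonneg_iff, hordu P'' hP'', Finsupp.single_apply]
    split_ifs <;> decide
  obtain ⟨w, hwA, hw, hwu⟩ := ht.value_sub_value H hui huh hP hP'
  have hu0 : residueConst P (φ * d) = 0 :=
    (value_eq_zero_iff P (huh P hP) (mul_ne_zero hφ0 hd0)).mpr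
      (by rw [hordu P hP, Finsupp.single_eq_same])
  have hu' : Near A p γ (residueConst P' (φ * d)) := by
    obtain ⟨s, y, hs, hy, hsy⟩ := hφ
    have e : φ * d = d + s • (y * d) := by
      rw [← smul_mul_assoc, ← hsy]; ring
    have hdP : residueConst P' d = 0 := by
      rw [hd, value_sub P' (ht.hol P' hP') (P'.algebraMap_mem' _), value_algebraMap, sub_self]
    rcases eq_or_ne s 0 with rfl | hs0
    · rw [e, zero_smul, add_zero, hdP]; exact Or.inl rfl
    have hyd : HolAt R Q (y * d) := fun P'' hP'' => by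
      have : y * d = s⁻¹ • (φ * d - d) := by rw [e, add_sub_cancel_left, inv_smul_smul₀ hs0]
      rw [this, Algebra.smul_def]
      exact mul_mem (P''.algebraMap_mem' _) (sub_mem (huh P'' hP'') (ht.holAt_sub _ P'' hP''))
    obtain ⟨hvA, -⟩ := hyd.value H (M.isInt_mul hy hti).1 hP'
    rw [e, value_add P' (ht.holAt_sub _ P' hP')
      (by rw [Algebra.smul_def]; exact mul_mem (P'.algebraMap_mem' _) (hyd P' hP')),
      value_smul P' s (hyd P' hP'), hdP, zero_add]
    exact h.near_mul_right hs hvA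
  rw [hu0, zero_sub] at hw
  obtain ⟨hw0, hwi⟩ := inv_mem_of_notMem_nonunits hwA (hwu (by rw [hur]; exact ht.simple))
  have e2 : residueConst P t - residueConst P' t = -residueConst P' (φ * d) * w⁻¹ := by
    rw [hw, mul_assoc, mul_inv_cancel₀ hw0, mul_one]
  rw [e2]
  exact h.near_mul_right (h.near_neg hu') hwi

include H in
/-- Congruent parameters give a difference congruent to zero. -/
theorem congDiv_of_near (h : IsOver A p)
    {Q : Place (IsLocalRing.ResidueField A) Fk} {t : F} (ht : IsParam R Q t)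
    {P P' : Place Ω F} (hP : R.toFun P = Q) (hP' : R.toFun P' = Q)
    (hnear : Near A p γ (residueConst P t - residueConst P' t)) :
    CongDiv R p γ (Finsupp.single P 1 - Finsupp.single P' 1) := by
  classical
  intro Q'
  rcases eq_or_ne Q' Q with rfl | hQ
  · set a := residueConst P t
    set a' := residueConst P' t
    obtain ⟨hni, hnr⟩ := ht.red_sub (ht.value_mem H hP)
    obtain ⟨hdi, hdr⟩ := ht.red_sub (ht.value_mem H hP')
    have hn0 : t - algebraMap Ω F a ≠ 0 := fun e => ht.red_ne_zero (by rw [← hnr, e, M.red_zero])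
    have hd0 : t - algebraMap Ω F a' ≠ 0 := fun e => ht.red_ne_zero (by rw [← hdr, e, M.red_zero])
    refine ⟨(t - algebraMap Ω F a) / (t - algebraMap Ω F a'), ?_, fun P'' hP'' => ?_⟩
    · have e : (t - algebraMap Ω F a) / (t - algebraMap Ω F a') - 1 =
          ((a' - a) • (1 : F)) / (t - algebraMap Ω F a') := by
        rw [div_sub_one hd0, Algebra.smul_def, mul_one, map_sub]
        congr 1
        ring
      rw [e]
      exact (isSmall_of_near (h.near_sub_comm hnear) M.isInt_one).div hdi
        (hdr ▸ ht.red_ne_zero)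
    · obtain ⟨h1, h0⟩ := ht.ord_sub_value H hP hP''
      obtain ⟨h1', h0'⟩ := ht.ord_sub_value H hP' hP''
      rw [ord_div P'' hn0 hd0, Finsupp.sub_apply, Finsupp.single_apply, Finsupp.single_apply]
      congr 1
      · split_ifs with e
        · exact (h1 e.symm).symm
        · exact (h0 (Ne.symm e)).symm
      · split_ifs with e
        · exact (h1' e.symm).symm
        · exact (h0' (Ne.symm e)).symm
  · refine ⟨1, by rw [sub_self]; exact isSmall_zero, fun P'' hP'' => ?_⟩
    have e1 : P'' ≠ P := fun e => hQ (by rw [← hP'', e, hP])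
    have e2 : P'' ≠ P' := fun e => hQ (by rw [← hP'', e, hP'])
    rw [Finsupp.sub_apply, Finsupp.single_eq_of_ne e1, Finsupp.single_eq_of_ne e2,
      Place.ord_one, sub_zero]

include H in
/-- The effective member of `X₀ + D` when `D` has principal reduction. -/
theorem exists_chart_rep {g' : ℕ} (hg : (g' : ℤ) = g) {X₀ D : Divisor Ω F} (hX₀ : 0 ≤ X₀)
    (hdeg : Divisor.degree X₀ = g')
    (hns : Module.finrank (IsLocalRing.ResidueField A)
      (riemannRochSpace (Finsupp.mapDomain R.toFun X₀)) ≤ 1)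
    (hD : Divisor.degree D = 0) (hDr : Divisor.IsPrincipal (Finsupp.mapDomain R.toFun D)) :
    ∃ X : Divisor Ω F, 0 ≤ X ∧ Finsupp.mapDomain R.toFun X = Finsupp.mapDomain R.toFun X₀ ∧
      Divisor.IsPrincipal (X - X₀ - D) ∧
      ∀ X' : Divisor Ω F, 0 ≤ X' → Divisor.IsPrincipal (X' - X₀ - D) → X' = X := by
  have hpos : 0 < Module.finrank Ω (riemannRochSpace (D + X₀)) := by
    have := H.low (D + X₀)
    rw [map_add, hD, hdeg] at this
    omega
  obtain ⟨f, hfmem, hf⟩ := Submodule.exists_mem_ne_zero_of_ne_bot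
    (p := riemannRochSpace (D + X₀)) fun e => by
      rw [e, finrank_bot] at hpos
      exact absurd hpos (lt_irrefl 0)
  obtain ⟨s, f₁, hs, hfi, hfr, rfl⟩ := exists_primitive_smul M hf
  have hf₁ : f₁ ≠ 0 := fun e => hfr (by rw [e, M.red_zero])
  have hX := (mem_rr_iff_dvs hf).mp hfmem
  rw [dvs_smul hs hf₁] at hX
  obtain ⟨k, hk, hkd⟩ := hDr
  have hk' := eq_dvs hkd
  have hspec := R.spec f₁ hfi hfr
  set X := D + X₀ + dvs (K := Ω) f₁ with hXdef
  have hmapX : Finsupp.mapDomain R.toFun X =
      Finsupp.mapDomain R.toFun X₀ + dvs (K := IsLocalRing.ResidueField A) (k * M.red f₁) := by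
    rw [hXdef, Finsupp.mapDomain_add, Finsupp.mapDomain_add, hk', hspec, dvs_mul hk hfr]
    abel
  have hu : k * M.red f₁ ∈ riemannRochSpace (Finsupp.mapDomain R.toFun X₀) := by
    rw [mem_rr_iff_dvs (mul_ne_zero hk hfr), ← hmapX]
    simpa using mapDomain_mono R.toFun hX
  obtain ⟨κ, hκ⟩ := eq_algebraMap_of_finrank_le_one
    (by simpa using mapDomain_mono R.toFun hX₀) hns hu
  rw [hκ, dvs_algebraMap, add_zero] at hmapX
  have hprin : Divisor.IsPrincipal (X - X₀ - D) :=
    ⟨f₁, hf₁, fun v => by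
      rw [hXdef, show D + X₀ + dvs (K := Ω) f₁ - X₀ - D = dvs (K := Ω) f₁ by abel, dvs_apply]⟩
  refine ⟨X, hX, hmapX, hprin, fun X' hX' hp' => ?_⟩
  obtain ⟨e, he, hee⟩ := (Divisor.principal (K := Ω) (F := F)).sub_mem hp' hprin
  have hXX : X' = X + dvs (K := Ω) e := by rw [← eq_dvs hee]; abel
  have hemem : e ∈ riemannRochSpace X := (mem_rr_iff_dvs he).mpr (hXX ▸ hX')
  obtain ⟨κ', hκ'⟩ := eq_algebraMap_of_finrank_le_one hX
    ((R.finrank_le X).trans (by rw [hmapX]; exact hns)) hemem
  rw [hXX, hκ', dvs_algebraMap, add_zero]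

end Fermat.Agent.FlatJ0
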