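import Fermat.Agent.FlatJ0.InertiaFixed
import Fermat.Agent.MultRed.Galois

/-!
# The additive valuation of `ℚ̄` at a place over `p`

`ord A p x` is the rational number `v` with `|x| = |p|^v`; `Near A p γ x` says that `ord` of `x`
is at least `γ` (or `x = 0`).
-/

open scoped Pointwise

noncomputable section

namespace Fermat.Agent.FlatJ0

local notation "Ω" => AlgebraicClosure ℚ
local notation "G_ℚ" => (AlgebraicClosure ℚ) ≃ₐ[ℚ] (AlgebraicClosure ℚ)

/-- `A` is a place of `ℚ̄` over the prime `p`. -/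
structure IsOver (A : ValuationSubring Ω) (p : ℕ) : Prop where
  prime : p.Prime
  liesOver : A.LiesOverPrime p

open Classical in
/-- The valuation normalised by `ord p = 1`, with junk value `0` at `0`. -/
def ord (A : ValuationSubring Ω) (p : ℕ) (x : Ω) : ℚ :=
  if h : ∃ dz : ℕ × ℤ, 0 < dz.1 ∧ A.valuation x ^ dz.1 = A.valuation (p : Ω) ^ dz.2 then
    (h.choose.2 : ℚ) / h.choose.1
  else 0

/-- `ord x ≥ γ`, counting `0` as infinitely divisible. -/
def Near (A : ValuationSubring Ω) (p : ℕ) (γ : ℚ) (x : Ω) : Prop := x = 0 ∨ γ ≤ ord A p x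

variable {A : ValuationSubring Ω} {p : ℕ}

namespace IsOver

variable (h : IsOver A p)
include h

lemma natCast_ne_zero : (p : Ω) ≠ 0 := Nat.cast_ne_zero.mpr h.prime.ne_zero

lemma val_p_pos : 0 < A.valuation (p : Ω) := A.valuation.pos_iff.mpr h.natCast_ne_zero

lemma val_p_lt_one : A.valuation (p : Ω) < 1 :=
  A.mem_nonunits_iff.mp h.liesOver

lemma zpow_le_zpow_iff_p {a b : ℤ} :
    A.valuation (p : Ω) ^ a ≤ A.valuation (p : Ω) ^ b ↔ b ≤ a :=
  zpow_le_zpow_iff_right_of_lt_one₀ h.val_p_pos h.val_p_lt_one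

lemma zpow_inj_p {a b : ℤ} :
    A.valuation (p : Ω) ^ a = A.valuation (p : Ω) ^ b ↔ a = b := by
  refine ⟨fun e => le_antisymm (h.zpow_le_zpow_iff_p.mp e.ge) (h.zpow_le_zpow_iff_p.mp e.le),
    fun e => by rw [e]⟩

omit h in
lemma val_inertia {σ : G_ℚ} (hσ : σ ∈ A.inertiaSubgroupIn ℚ) (x : Ω) :
    A.valuation (σ x) = A.valuation x :=
  MultRed.decomp_isometry (MultRed.inertia_mem_decomposition hσ) x

/-- Every value is a rational power of `|p|`. -/
lemma exists_pow_eq_zpow {x : Ω} (hx : x ≠ 0) :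
    ∃ dz : ℕ × ℤ, 0 < dz.1 ∧ A.valuation x ^ dz.1 = A.valuation (p : Ω) ^ dz.2 := by
  classical
  set O : Set Ω := {y | ∃ σ ∈ A.inertiaSubgroupIn ℚ, σ x = y} with hO
  have hint : IsIntegral ℚ x := (AlgebraicClosure.isAlgebraic ℚ).isAlgebraic x |>.isIntegral
  have hfin : O.Finite := by
    refine ((minpoly ℚ x).rootSet_finite Ω).subset ?_
    rintro y ⟨σ, -, rfl⟩
    rw [Polynomial.mem_rootSet]
    refine ⟨minpoly.ne_zero hint, ?_⟩
    rw [show σ x = σ.toAlgHom x from rfl, Polynomial.aeval_algHom_apply, minpoly.aeval, map_zero]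
  set s := hfin.toFinset with hs
  have hxs : x ∈ s := hfin.mem_toFinset.mpr ⟨1, one_mem _, rfl⟩
  have hfix : ∀ τ ∈ A.inertiaSubgroupIn ℚ, τ (∏ y ∈ s, y) = ∏ y ∈ s, y := by
    intro τ hτ
    rw [map_prod]
    refine Finset.prod_bij (fun y _ => τ y) ?_ (fun a _ b _ e => τ.injective e) ?_ fun _ _ => rfl
    · intro y hy
      obtain ⟨σ, hσ, rfl⟩ := hfin.mem_toFinset.mp hy
      exact hfin.mem_toFinset.mpr ⟨τ * σ, mul_mem hτ hσ, rfl⟩
    · intro y hy
      obtain ⟨σ, hσ, rfl⟩ := hfin.mem_toFinset.mp hy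
      refine ⟨τ⁻¹ (σ x), hfin.mem_toFinset.mpr ⟨τ⁻¹ * σ, mul_mem (inv_mem hτ) hσ, rfl⟩, ?_⟩
      rw [← AlgEquiv.mul_apply, mul_inv_cancel, AlgEquiv.one_apply]
  have hval : A.valuation (∏ y ∈ s, y) = A.valuation x ^ s.card := by
    rw [map_prod, Finset.prod_congr rfl (g := fun _ => A.valuation x), Finset.prod_const]
    intro y hy
    obtain ⟨σ, hσ, rfl⟩ := hfin.mem_toFinset.mp hy
    exact val_inertia hσ x
  have hne : ∏ y ∈ s, y ≠ 0 := by
    intro e
    have := congrArg A.valuation e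
    rw [hval, map_zero] at this
    exact (pow_ne_zero _ (A.valuation.ne_zero_iff.mpr hx)) this
  obtain ⟨k, hk⟩ := exists_valuation_eq_zpow_of_fixed h.prime h.liesOver hne hfix
  exact ⟨(s.card, k), Finset.card_pos.mpr ⟨x, hxs⟩, hval ▸ hk⟩

lemma ord_eq {x : Ω} {d : ℕ} {z : ℤ} (hd : 0 < d)
    (he : A.valuation x ^ d = A.valuation (p : Ω) ^ z) : ord A p x = (z : ℚ) / d := by
  have hex : ∃ dz : ℕ × ℤ, 0 < dz.1 ∧ A.valuation x ^ dz.1 = A.valuation (p : Ω) ^ dz.2 :=
    ⟨(d, z), hd, he⟩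
  rw [ord, dif_pos hex]
  obtain ⟨hd', he'⟩ := hex.choose_spec
  rw [div_eq_div_iff (by exact_mod_cast hd'.ne') (by exact_mod_cast hd.ne')]
  have e : hex.choose.2 * (d : ℤ) = z * (hex.choose.1 : ℤ) := by
    refine h.zpow_inj_p.mp ?_
    rw [zpow_mul, zpow_mul, ← he', ← he, zpow_natCast, zpow_natCast, ← pow_mul, ← pow_mul,
      mul_comm]
  exact_mod_cast e

lemma ord_mul {x y : Ω} (hx : x ≠ 0) (hy : y ≠ 0) :
    ord A p (x * y) = ord A p x + ord A p y := by
  obtain ⟨⟨d, z⟩, hd, he⟩ := h.exists_pow_eq_zpow hx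
  obtain ⟨⟨d', z'⟩, hd', he'⟩ := h.exists_pow_eq_zpow hy
  rw [h.ord_eq hd he, h.ord_eq hd' he']
  rw [h.ord_eq (d := d * d') (z := z * d' + z' * d) (Nat.mul_pos hd hd') ?_]
  · push_cast
    rw [div_add_div _ _ (by exact_mod_cast hd.ne') (by exact_mod_cast hd'.ne')]
    ring
  · rw [map_mul, mul_pow, zpow_add₀ h.val_p_pos.ne', zpow_mul, zpow_mul, ← he, ← he',
      zpow_natCast, zpow_natCast, ← pow_mul, ← pow_mul, mul_comm d d']

@[simp] lemma ord_one : ord A p 1 = 0 := by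
  rw [h.ord_eq (d := 1) (z := 0) one_pos (by simp)]; simp

lemma ord_p : ord A p (p : Ω) = 1 := by
  rw [h.ord_eq (d := 1) (z := 1) one_pos (by simp)]; simp

lemma ord_inv {x : Ω} (hx : x ≠ 0) : ord A p x⁻¹ = -ord A p x := by
  have := h.ord_mul hx (inv_ne_zero hx)
  rw [mul_inv_cancel₀ hx, h.ord_one] at this
  linarith

lemma ord_div {x y : Ω} (hx : x ≠ 0) (hy : y ≠ 0) :
    ord A p (x / y) = ord A p x - ord A p y := by
  rw [div_eq_mul_inv, h.ord_mul hx (inv_ne_zero hy), h.ord_inv hy, sub_eq_add_neg]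

lemma ord_pow {x : Ω} (hx : x ≠ 0) (n : ℕ) : ord A p (x ^ n) = n * ord A p x := by
  induction n with
  | zero => simp [h.ord_one]
  | succ n ih => rw [pow_succ, h.ord_mul (pow_ne_zero n hx) hx, ih]; push_cast; ring

lemma ord_prod {ι : Type*} (s : Finset ι) (f : ι → Ω) (hf : ∀ i ∈ s, f i ≠ 0) :
    ord A p (∏ i ∈ s, f i) = ∑ i ∈ s, ord A p (f i) := by
  classical
  induction s using Finset.induction_on with
  | empty => simp [h.ord_one]
  | insert a t ha ih =>
    simp only [Finset.mem_insert, forall_eq_or_imp] at hf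
    rw [Finset.prod_insert ha, Finset.sum_insert ha,
      h.ord_mul hf.1 (Finset.prod_ne_zero_iff.mpr hf.2), ih hf.2]

lemma valuation_le_iff {x y : Ω} (hx : x ≠ 0) (hy : y ≠ 0) :
    A.valuation x ≤ A.valuation y ↔ ord A p y ≤ ord A p x := by
  obtain ⟨⟨d, z⟩, hd, he⟩ := h.exists_pow_eq_zpow hx
  obtain ⟨⟨d', z'⟩, hd', he'⟩ := h.exists_pow_eq_zpow hy
  rw [h.ord_eq hd he, h.ord_eq hd' he',
    div_le_div_iff₀ (by exact_mod_cast hd') (by exact_mod_cast hd)]
  have key : A.valuation x ^ (d * d') ≤ A.valuation y ^ (d * d') ↔ z' * (d : ℤ) ≤ z * (d' : ℤ) := by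
    rw [pow_mul, he, mul_comm d d', pow_mul, he', ← zpow_natCast, ← zpow_natCast, ← zpow_mul,
      ← zpow_mul, h.zpow_le_zpow_iff_p]
  rw [← pow_le_pow_iff_left₀ zero_le zero_le (Nat.mul_pos hd hd').ne', key]
  exact_mod_cast Iff.rfl

lemma valuation_eq_iff {x y : Ω} (hx : x ≠ 0) (hy : y ≠ 0) :
    A.valuation x = A.valuation y ↔ ord A p x = ord A p y := by
  rw [le_antisymm_iff, h.valuation_le_iff hx hy, h.valuation_le_iff hy hx, le_antisymm_iff,
    and_comm]

lemma valuation_lt_iff {x y : Ω} (hx : x ≠ 0) (hy : y ≠ 0) :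
    A.valuation x < A.valuation y ↔ ord A p y < ord A p x := by
  rw [← not_le, ← not_le, h.valuation_le_iff hy hx]

lemma mem_iff {x : Ω} (hx : x ≠ 0) : x ∈ A ↔ 0 ≤ ord A p x := by
  rw [← A.valuation_le_one_iff, ← map_one A.valuation, h.valuation_le_iff hx one_ne_zero,
    h.ord_one]

lemma nonunit_iff {x : Ω} (hx : x ≠ 0) : x ∈ A.nonunits ↔ 0 < ord A p x := by
  rw [ValuationSubring.mem_nonunits_iff, ← map_one A.valuation,
    h.valuation_lt_iff hx one_ne_zero, h.ord_one]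

lemma ord_neg (x : Ω) : ord A p (-x) = ord A p x := by
  rcases eq_or_ne x 0 with rfl | hx
  · rw [neg_zero]
  · exact (h.valuation_eq_iff (neg_ne_zero.mpr hx) hx).mp (Valuation.map_neg _ _)

lemma min_le_ord_add {x y : Ω} (hx : x ≠ 0) (hy : y ≠ 0) (hxy : x + y ≠ 0) :
    min (ord A p x) (ord A p y) ≤ ord A p (x + y) := by
  rcases le_max_iff.mp (A.valuation.map_add x y) with h' | h'
  · exact le_trans (min_le_left _ _) ((h.valuation_le_iff hxy hx).mp h')
  · exact le_trans (min_le_right _ _) ((h.valuation_le_iff hxy hy).mp h')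

lemma ord_apply {σ : G_ℚ} (hσ : σ ∈ A.decompositionSubgroup ℚ) (x : Ω) :
    ord A p (σ x) = ord A p x := by
  rcases eq_or_ne x 0 with rfl | hx
  · rw [map_zero]
  · exact (h.valuation_eq_iff (by simpa using hx) hx).mp (MultRed.decomp_isometry hσ x)

/-- Elements fixed by inertia have integral valuation. -/
lemma exists_ord_eq_int {x : Ω} (hfix : ∀ σ ∈ A.inertiaSubgroupIn ℚ, σ x = x) :
    ∃ z : ℤ, ord A p x = z := by
  rcases eq_or_ne x 0 with rfl | hx
  · refine ⟨0, ?_⟩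
    rw [ord, dif_neg, Int.cast_zero]
    rintro ⟨⟨d, z⟩, hd, he⟩
    rw [map_zero, zero_pow hd.ne'] at he
    exact zpow_ne_zero _ h.val_p_pos.ne' he.symm
  · obtain ⟨k, hk⟩ := exists_valuation_eq_zpow_of_fixed h.prime h.liesOver hx hfix
    exact ⟨k, by rw [h.ord_eq (d := 1) (z := k) one_pos (by rw [pow_one, hk])]; simp⟩

end IsOver

lemma near_zero (γ : ℚ) : Near A p γ 0 := Or.inl rfl

lemma Near.mono {γ δ : ℚ} {x : Ω} (hx : Near A p γ x) (hδ : δ ≤ γ) : Near A p δ x :=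
  hx.imp id hδ.trans

namespace IsOver

variable (h : IsOver A p)
include h

lemma near_neg {γ : ℚ} {x : Ω} (hx : Near A p γ x) : Near A p γ (-x) :=
  hx.imp (fun e => by rw [e, neg_zero]) fun e => by rwa [h.ord_neg]

lemma near_add {γ : ℚ} {x y : Ω} (hx : Near A p γ x) (hy : Near A p γ y) :
    Near A p γ (x + y) := by
  rcases hx with rfl | hx
  · rwa [zero_add]
  rcases hy with rfl | hy
  · rw [add_zero]; exact Or.inr hx
  rcases eq_or_ne (x + y) 0 with e | e
  · exact Or.inl e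
  rcases eq_or_ne x 0 with rfl | hx0
  · rw [zero_add]; exact Or.inr hy
  rcases eq_or_ne y 0 with rfl | hy0
  · rw [add_zero]; exact Or.inr hx
  exact Or.inr (le_trans (le_min hx hy) (h.min_le_ord_add hx0 hy0 e))

lemma near_sub {γ : ℚ} {x y : Ω} (hx : Near A p γ x) (hy : Near A p γ y) :
    Near A p γ (x - y) :=
  sub_eq_add_neg x y ▸ h.near_add hx (h.near_neg hy)

lemma near_sub_comm {γ : ℚ} {x y : Ω} (hx : Near A p γ (x - y)) : Near A p γ (y - x) :=
  neg_sub x y ▸ h.near_neg hx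

lemma near_trans {γ : ℚ} {x y z : Ω} (hx : Near A p γ (x - y)) (hy : Near A p γ (y - z)) :
    Near A p γ (x - z) :=
  sub_add_sub_cancel x y z ▸ h.near_add hx hy

lemma near_mul {γ δ : ℚ} {x y : Ω} (hx : Near A p γ x) (hy : Near A p δ y) :
    Near A p (γ + δ) (x * y) := by
  rcases eq_or_ne x 0 with rfl | hx0
  · rw [zero_mul]; exact near_zero _
  rcases eq_or_ne y 0 with rfl | hy0
  · rw [mul_zero]; exact near_zero _
  refine Or.inr ?_
  rw [h.ord_mul hx0 hy0]
  exact add_le_add (hx.resolve_left hx0) (hy.resolve_left hy0)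

lemma near_of_mem {x : Ω} (hx : x ∈ A) : Near A p 0 x := by
  rcases eq_or_ne x 0 with e | e
  · exact Or.inl e
  · exact Or.inr ((h.mem_iff e).mp hx)

lemma mem_of_near {γ : ℚ} {x : Ω} (hx : Near A p γ x) (hγ : 0 ≤ γ) : x ∈ A := by
  rcases eq_or_ne x 0 with rfl | e
  · exact zero_mem A
  · exact (h.mem_iff e).mpr (hγ.trans (hx.resolve_left e))

lemma nonunit_of_near {γ : ℚ} {x : Ω} (hx : Near A p γ x) (hγ : 0 < γ) : x ∈ A.nonunits := by
  rcases eq_or_ne x 0 with rfl | e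
  · rw [ValuationSubring.mem_nonunits_iff, map_zero]; exact zero_lt_one
  · exact (h.nonunit_iff e).mpr (hγ.trans_le (hx.resolve_left e))

lemma near_mul_left {γ : ℚ} {a x : Ω} (ha : a ∈ A) (hx : Near A p γ x) :
    Near A p γ (a * x) :=
  zero_add γ ▸ h.near_mul (h.near_of_mem ha) hx

lemma near_mul_right {γ : ℚ} {a x : Ω} (hx : Near A p γ x) (ha : a ∈ A) :
    Near A p γ (x * a) :=
  add_zero γ ▸ h.near_mul hx (h.near_of_mem ha)

lemma near_sum {γ : ℚ} {ι : Type*} (s : Finset ι) (f : ι → Ω)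
    (hf : ∀ i ∈ s, Near A p γ (f i)) : Near A p γ (∑ i ∈ s, f i) := by
  classical
  induction s using Finset.induction_on with
  | empty => exact near_zero γ
  | insert a t ha ih =>
    rw [Finset.sum_insert ha]
    exact h.near_add (hf a (Finset.mem_insert_self a t))
      (ih fun i hi => hf i (Finset.mem_insert_of_mem hi))

lemma near_apply {γ : ℚ} {σ : G_ℚ} (hσ : σ ∈ A.decompositionSubgroup ℚ) {x : Ω} :
    Near A p γ (σ x) ↔ Near A p γ x := by
  simp [Near, h.ord_apply hσ]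

lemma ord_add_eq {x y : Ω} (hx : x ≠ 0) {γ : ℚ} (hy : Near A p γ y) (hlt : ord A p x < γ) :
    x + y ≠ 0 ∧ ord A p (x + y) = ord A p x := by
  rcases eq_or_ne y 0 with rfl | hy0
  · simp [hx]
  have hv : A.valuation y < A.valuation x :=
    (h.valuation_lt_iff hy0 hx).mpr (hlt.trans_le (hy.resolve_left hy0))
  have he := A.valuation.map_add_eq_of_lt_left hv
  have hne : x + y ≠ 0 := fun e => by
    rw [e, map_zero] at he
    exact (A.valuation.ne_zero_iff.mpr hx) he.symm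
  exact ⟨hne, (h.valuation_eq_iff hne hx).mp he⟩

end IsOver

lemma eq_zero_of_forall_near {x : Ω} (hx : ∀ γ : ℚ, Near A p γ x) : x = 0 := by
  by_contra hne
  have := (hx (ord A p x + 1)).resolve_left hne
  linarith

end Fermat.Agent.FlatJ0
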