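import Fermat.Agent.Reduction.Bounded
import Fermat.Agent.Reduction.Instances
import Fermat.Agent.FlatJ0.Ord
import Fermat.Agent.FunctionFieldRR.RiemannRoch
import Fermat.Prelude.Def_AlgebraicCurve_BaseChangeGalois

/-!
# Inertia and the reduction of a coefficient model

Inertia acting on `q`-expansion coefficients preserves the Gauss ring, fixes reductions, and
commutes with the reduction of places.
-/

noncomputable section

namespace Fermat.Agent.FlatJ0

open AlgebraicCurve ModularCurve Fermat.Agent.Reduction Fermat.Agent.FunctionFieldRR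
open scoped Fermat.Agent.Reduction

local notation "Ω" => AlgebraicClosure ℚ
local notation "G_ℚ" => (AlgebraicClosure ℚ) ≃ₐ[ℚ] (AlgebraicClosure ℚ)

variable {F : IntermediateField Ω (LaurentSeries Ω)}

/-- A semilinear action of the Galois group through the coefficients. -/
def IsCoeffAction (gal : G_ℚ →* SemilinearAut Ω F) : Prop :=
  ∀ (σ : G_ℚ) (x : F),
    ((gal σ • x : F) : LaurentSeries Ω) = coeffMap (σ : Ω →+* Ω) (x : LaurentSeries Ω)

variable {A : ValuationSubring Ω}
  {Fk : IntermediateField (IsLocalRing.ResidueField A) (LaurentSeries (IsLocalRing.ResidueField A))}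
  {M : GoodModel A F Fk} {gal : G_ℚ →* SemilinearAut Ω F}

theorem order_coeffMap_of_injective {R S : Type*} [CommRing R] [CommRing S] {f : R →+* S}
    (hf : Function.Injective f) (x : LaurentSeries R) : (coeffMap f x).order = x.order := by
  rcases eq_or_ne x 0 with rfl | hx
  · simp
  have hne : coeffMap f x ≠ 0 := fun e => hx (HahnSeries.ext (funext fun k => hf (by
    have := congrArg (fun z : LaurentSeries S => z.coeff k) e
    simpa using this)))
  refine le_antisymm (HahnSeries.order_le_of_coeff_ne_zero ?_)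
    (HahnSeries.order_le_of_coeff_ne_zero fun e => ?_)
  · rw [coeffMap_coeff, Ne, map_eq_zero_iff f hf]
    exact fun e => hx (HahnSeries.coeff_order_eq_zero.mp e)
  · refine hne (HahnSeries.coeff_order_eq_zero.mp ?_)
    rw [coeffMap_coeff, e, map_zero]

theorem smul_mem_riemannRochSpace {K E : Type*} [Field K] [Field E] [Algebra K E]
    (g : SemilinearAut K E) {D : Divisor K E} {x : E} (hx : x ∈ riemannRochSpace D) :
    g • x ∈ riemannRochSpace (g • D) := by
  rw [mem_riemannRochSpace_iff] at hx ⊢
  intro v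
  obtain ⟨w, rfl⟩ := MulAction.surjective g v
  refine (hx w).imp (fun e => by rw [e, smul_zero]) fun e => ?_
  rwa [SemilinearAut.ord_smul, SemilinearAut.divisor_smul_apply_smul]

theorem mem_rr_sub_sub {K E : Type*} [Field K] [Field E] [Algebra K E] {D : Divisor K E}
    {a b : Place K E} (hab : a ≠ b) {x : E} (ha : x ∈ riemannRochSpace (D - Finsupp.single a 1))
    (hb : x ∈ riemannRochSpace (D - Finsupp.single b 1)) :
    x ∈ riemannRochSpace (D - Finsupp.single a 1 - Finsupp.single b 1) := by
  rw [mem_riemannRochSpace_iff] at ha hb ⊢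
  intro v
  rcases ha v with e | e
  · exact Or.inl e
  rcases hb v with e' | e'
  · exact Or.inl e'
  refine Or.inr ?_
  simp only [Finsupp.sub_apply] at e e' ⊢
  rcases eq_or_ne v a with rfl | hv
  · rw [Finsupp.single_eq_of_ne hab, sub_zero]; exact e
  · rw [Finsupp.single_eq_of_ne hv, sub_zero]; exact e'

/-- The action of inertia on the place's ring. -/
def inertiaHom {σ : G_ℚ} (hσ : σ ∈ A.inertiaSubgroupIn ℚ) : A →+* A :=
  ((σ : Ω →+* Ω).comp A.subtype).codRestrict A.toSubring fun x =>
    (FreyReducible.apply_mem_of_mem_decompositionSubgroup A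
      (MultRed.inertia_mem_decomposition hσ)).mpr x.2

lemma residue_comp_inertiaHom {σ : G_ℚ} (hσ : σ ∈ A.inertiaSubgroupIn ℚ) :
    (IsLocalRing.residue A).comp (inertiaHom hσ) = IsLocalRing.residue A := by
  refine RingHom.ext fun x => ?_
  rw [RingHom.comp_apply, ← sub_eq_zero, ← map_sub, IsLocalRing.residue_eq_zero_iff,
    ← ValuationSubring.coe_mem_nonunits_iff]
  exact ((FreyReducible.mem_inertiaSubgroupIn_iff A σ).mp hσ).2 x x.2

theorem isInt_smul_gal (hgal : IsCoeffAction gal) {σ : G_ℚ} (hσ : σ ∈ A.inertiaSubgroupIn ℚ)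
    {x : F} (hx : M.IsInt x) : M.IsInt (gal σ • x) ∧ M.red (gal σ • x) = M.red x := by
  obtain ⟨P, Q, hPQ, hQ, hred⟩ := M.exists_witness hx
  have hι : ∀ S : LaurentSeries A,
      ιS A (coeffMap (inertiaHom hσ) S) = coeffMap (σ : Ω →+* Ω) (ιS A S) := fun S => by
    rw [ιS, coeffMap_coeffMap, coeffMap_coeffMap]
    exact coeffMap_congr (RingHom.ext fun _ => rfl) S
  have hr : ∀ S : LaurentSeries A, redS A (coeffMap (inertiaHom hσ) S) = redS A S := fun S => by
    rw [redS, coeffMap_coeffMap]
    exact coeffMap_congr (residue_comp_inertiaHom hσ) S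
  obtain ⟨h1, h2⟩ := M.coe_red (x := gal σ • x) (P := coeffMap (inertiaHom hσ) P)
    (Q := coeffMap (inertiaHom hσ) Q) (by rw [hι, hι, hgal, ← map_mul, hPQ]) (by rwa [hr])
  exact ⟨h1, Subtype.ext (by rw [h2, hr, hr, hred])⟩

theorem baseAut_gal (hgal : IsCoeffAction gal) (σ : G_ℚ) (a : Ω) :
    SemilinearAut.baseAut (gal σ) a = σ a := by
  refine (algebraMap Ω F).injective (Subtype.ext ?_)
  rw [← SemilinearAut.smul_algebraMap, hgal]
  exact coeffMap_algebraMap _ a

variable [IsAlgClosed (IsLocalRing.ResidueField A)] [IsFunctionField Ω F]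
  [IsFunctionField (IsLocalRing.ResidueField A) Fk]
  [HasPrincipalDivisors Ω F] [HasPrincipalDivisors (IsLocalRing.ResidueField A) Fk]

omit [HasPrincipalDivisors Ω F] [HasPrincipalDivisors (IsLocalRing.ResidueField A) Fk] in
theorem gal_smul_cuspF (hgal : IsCoeffAction gal) (σ : G_ℚ) :
    gal σ • M.cuspF = M.cuspF := by
  have key : ∀ x : F, (gal σ • M.cuspF).ord x = M.cuspF.ord x := fun x => by
    conv_lhs => rw [← smul_inv_smul (gal σ) x, SemilinearAut.ord_smul, ← map_inv]
    rw [GoodModel.ord_cuspF, GoodModel.ord_cuspF, hgal]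
    exact order_coeffMap_of_injective (RingHom.injective _) _
  exact eq_of_forall_mem fun f hf => by
    rw [← ord_nonneg_iff, key] at hf
    rwa [← ord_nonneg_iff]

/-- Inertia commutes with the reduction of places. -/
theorem toFun_smul_gal (R : M.ReductionMap) {g c : ℤ}
    (H : GoodModel.RRData (A := A) (F := F) (Fk := Fk) g c) (hgal : IsCoeffAction gal)
    {σ : G_ℚ} (hσ : σ ∈ A.inertiaSubgroupIn ℚ) (P : Place Ω F) :
    R.toFun (gal σ • P) = R.toFun P := by
  classical
  by_contra hne
  set S := M.cuspF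
  have hS : gal σ • S = S := gal_smul_cuspF hgal σ
  obtain ⟨n, hn⟩ : ∃ n : ℕ, c + 2 ≤ (n : ℤ) := ⟨(c + 2).toNat, Int.self_le_toNat _⟩
  set nS : Divisor Ω F := Finsupp.single S (n : ℤ) with hnS
  set nQ : Divisor (IsLocalRing.ResidueField A) Fk := Finsupp.single (R.toFun S) (n : ℤ) with hnQ
  have hmap : ∀ T : Place Ω F, Finsupp.mapDomain R.toFun (nS - Finsupp.single T 1) =
      nQ - Finsupp.single (R.toFun T) 1 := fun T => by
    rw [Finsupp.mapDomain_sub, Finsupp.mapDomain_single, Finsupp.mapDomain_single]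
  have hdeg : Divisor.degree (nS - Finsupp.single (gal σ • P) 1) = (n : ℤ) - 1 := by
    rw [map_sub, Divisor.degree_single, Divisor.degree_single, deg_eq_one, deg_eq_one]; simp
  set E : Divisor (IsLocalRing.ResidueField A) Fk :=
    nQ - Finsupp.single (R.toFun (gal σ • P)) 1 - Finsupp.single (R.toFun P) 1 with hE
  have hdegE : Divisor.degree E = (n : ℤ) - 2 := by
    rw [map_sub, map_sub, Divisor.degree_single, Divisor.degree_single, Divisor.degree_single,
      deg_eq_one, deg_eq_one, deg_eq_one]
    simp; ring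
  obtain ⟨x, hx, hxi, hxE⟩ : ∃ x ∈ riemannRochSpace (nS - Finsupp.single (gal σ • P) 1), M.IsInt x ∧ M.red x ∉ riemannRochSpace E := by
    by_contra hno
    push Not at hno
    have hle : M.redSub (riemannRochSpace (nS - Finsupp.single (gal σ • P) 1)) ≤
        riemannRochSpace E := by
      rintro _ ⟨x, hx, hxi, rfl⟩
      exact hno x hx hxi
    have := finiteDimensional_riemannRochSpace (K := IsLocalRing.ResidueField A) E
    have h1 := Submodule.finrank_mono hle
    rw [M.finrank_redSub] at h1
    have h2 := H.low (nS - Finsupp.single (gal σ • P) 1)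
    have h3 := H.up E (by omega)
    rw [hdeg] at h2
    rw [hdegE] at h3
    omega
  -- the reduction vanishes at both reductions
  have h1 : M.red x ∈ riemannRochSpace (nQ - Finsupp.single (R.toFun (gal σ • P)) 1) :=
    hmap (gal σ • P) ▸ R.red_mem_rr hx hxi
  obtain ⟨hyi, hyred⟩ := isInt_smul_gal (M := M) hgal (inv_mem hσ) hxi
  have hy : gal σ⁻¹ • x ∈ riemannRochSpace (nS - Finsupp.single P 1) := by
    have := smul_mem_riemannRochSpace (gal σ⁻¹) hx
    rwa [smul_sub, hnS, SemilinearAut.smul_single, SemilinearAut.smul_single,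
      show gal σ⁻¹ • S = S by rw [map_inv, inv_smul_eq_iff, hS],
      show gal σ⁻¹ • gal σ • P = P by rw [map_inv, inv_smul_smul]] at this
  have h2 : M.red x ∈ riemannRochSpace (nQ - Finsupp.single (R.toFun P) 1) :=
    hyred ▸ hmap P ▸ R.red_mem_rr hy hyi
  exact hxE (mem_rr_sub_sub hne h1 h2)

end Fermat.Agent.FlatJ0
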