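import Fermat.Agent.FlatJ0.Disc
import Fermat.Agent.FlatJ0.Equivariant

/-!
# Divisors congruent to zero

`CongDiv R p γ D`: over every residual place `D` is the divisor of a function congruent to `1`
modulo `p^γ` in the Gauss ring. The classes of such divisors form the filtration used in Fontaine's
argument.
-/

noncomputable section

namespace Fermat.Agent.FlatJ0

open AlgebraicCurve ModularCurve Fermat.Agent.Reduction Fermat.Agent.FunctionFieldRR
open scoped Fermat.Agent.Reduction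

local notation "Ω" => AlgebraicClosure ℚ
local notation "G_ℚ" => (AlgebraicClosure ℚ) ≃ₐ[ℚ] (AlgebraicClosure ℚ)

section Rep

variable {K E : Type*} [Field K] [Field E] [Algebra K E]

/-- `D` represents the class `x`. -/
def IsRep (D : Divisor K E) (x : Pic0 K E) : Prop :=
  ∃ hD : D ∈ Divisor.degZero (K := K) (F := E), Pic0.mk ⟨D, hD⟩ = x

theorem exists_isRep (x : Pic0 K E) : ∃ D : Divisor K E, IsRep D x := by
  obtain ⟨⟨D, hD⟩, rfl⟩ := Pic0.mk_surjective x
  exact ⟨D, hD, rfl⟩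

variable {D D' : Divisor K E} {x x' : Pic0 K E}

theorem IsRep.degree_eq (h : IsRep D x) : Divisor.degree D = 0 := Divisor.mem_degZero.mp h.1

theorem isRep_zero : IsRep (0 : Divisor K E) (0 : Pic0 K E) := ⟨zero_mem _, rfl⟩

theorem IsRep.add (h : IsRep D x) (h' : IsRep D' x') : IsRep (D + D') (x + x') := by
  obtain ⟨hD, rfl⟩ := h
  obtain ⟨hD', rfl⟩ := h'
  exact ⟨add_mem hD hD', rfl⟩

theorem IsRep.neg (h : IsRep D x) : IsRep (-D) (-x) := by
  obtain ⟨hD, rfl⟩ := h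
  exact ⟨neg_mem hD, rfl⟩

theorem IsRep.sub (h : IsRep D x) (h' : IsRep D' x') : IsRep (D - D') (x - x') := by
  rw [sub_eq_add_neg, sub_eq_add_neg]
  exact h.add h'.neg

theorem IsRep.nsmul (h : IsRep D x) (n : ℕ) : IsRep (n • D) (n • x) := by
  induction n with
  | zero => simpa using isRep_zero
  | succ n ih => rw [succ_nsmul, succ_nsmul]; exact ih.add h

theorem IsRep.eq_iff (h : IsRep D x) (h' : IsRep D' x') :
    x = x' ↔ Divisor.IsPrincipal (D - D') := by
  obtain ⟨hD, rfl⟩ := h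
  obtain ⟨hD', rfl⟩ := h'
  rw [Pic0.mk, Pic0.mk, QuotientAddGroup.eq, AddSubgroup.mem_addSubgroupOf, ← neg_mem_iff]
  show -(-D + D') ∈ Divisor.principal (K := K) (F := E) ↔ _
  rw [neg_add, neg_neg, ← sub_eq_add_neg]
  exact Divisor.mem_principal

theorem IsRep.eq_zero_iff (h : IsRep D x) : x = 0 ↔ Divisor.IsPrincipal D := by
  simpa using h.eq_iff isRep_zero

theorem IsRep.congr (h : IsRep D x) (hD' : Divisor.degree D' = 0)
    (he : Divisor.IsPrincipal (D' - D)) : IsRep D' x := by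
  refine ⟨Divisor.mem_degZero.mpr hD', ?_⟩
  exact (IsRep.eq_iff ⟨_, rfl⟩ h).mpr he

theorem IsRep.smul (h : IsRep D x) (σ : SemilinearAut K E) : IsRep (σ • D) (σ • x) := by
  obtain ⟨hD, rfl⟩ := h
  exact ⟨SemilinearAut.smul_mem_degZero σ hD, (SemilinearAut.pic0_smul_mk σ ⟨D, hD⟩).symm⟩

theorem semilinear_smul (σ : SemilinearAut K E) (c : K) (f : E) :
    σ • (c • f) = SemilinearAut.baseAut σ c • (σ • f) := by
  rw [Algebra.smul_def, Algebra.smul_def, smul_mul', SemilinearAut.smul_algebraMap]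

theorem isPrincipal_dvs [HasPrincipalDivisors K E] {f : E} (hf : f ≠ 0) :
    Divisor.IsPrincipal (dvs (K := K) f) :=
  ⟨f, hf, fun v => dvs_apply f v⟩

end Rep

variable {A : ValuationSubring Ω} {F : IntermediateField Ω (LaurentSeries Ω)}
  {Fk : IntermediateField (IsLocalRing.ResidueField A) (LaurentSeries (IsLocalRing.ResidueField A))}
  {M : GoodModel A F Fk} {gal : G_ℚ →* SemilinearAut Ω F}
  [IsAlgClosed (IsLocalRing.ResidueField A)] [IsFunctionField Ω F]
  [IsFunctionField (IsLocalRing.ResidueField A) Fk]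
  [HasPrincipalDivisors Ω F] [HasPrincipalDivisors (IsLocalRing.ResidueField A) Fk]
  (R : M.ReductionMap) {p : ℕ} {γ δ : ℚ}

/-- Over every residual place, `D` is the divisor of a function congruent to `1`. -/
def CongDiv (p : ℕ) (γ : ℚ) (D : Divisor Ω F) : Prop :=
  ∀ Q : Place (IsLocalRing.ResidueField A) Fk, ∃ φ : F, IsSmall M p γ (φ - 1) ∧
    ∀ P : Place Ω F, R.toFun P = Q → D P = P.ord φ

variable {R}
variable {D E : Divisor Ω F}

omit [IsAlgClosed (IsLocalRing.ResidueField A)] [IsFunctionField Ω F]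
  [IsFunctionField (IsLocalRing.ResidueField A) Fk] in
theorem congDiv_zero : CongDiv R p γ 0 :=
  fun _ => ⟨1, by rw [sub_self]; exact isSmall_zero, fun P _ => by simp⟩

omit [IsAlgClosed (IsLocalRing.ResidueField A)] [IsFunctionField Ω F]
  [IsFunctionField (IsLocalRing.ResidueField A) Fk] in
theorem CongDiv.mono (hD : CongDiv R p γ D) (hδ : δ ≤ γ) : CongDiv R p δ D := fun Q => by
  obtain ⟨φ, hφ, hord⟩ := hD Q
  exact ⟨φ, hφ.mono hδ, hord⟩

omit [IsAlgClosed (IsLocalRing.ResidueField A)] [IsFunctionField Ω F]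
  [IsFunctionField (IsLocalRing.ResidueField A) Fk] in
/-- A function congruent to `1` witnesses that its divisor is congruent to zero. -/
theorem congDiv_dvs {f : F} (hf : IsSmall M p γ (f - 1)) : CongDiv R p γ (dvs (K := Ω) f) :=
  fun _ => ⟨f, hf, fun P _ => dvs_apply f P⟩

omit [IsAlgClosed (IsLocalRing.ResidueField A)] [IsFunctionField Ω F]
  [IsFunctionField (IsLocalRing.ResidueField A) Fk] in
theorem CongDiv.neg (h : IsOver A p) (hγ : 0 < γ) (hD : CongDiv R p γ D) :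
    CongDiv R p γ (-D) := fun Q => by
  obtain ⟨φ, hφ, hord⟩ := hD Q
  obtain ⟨-, -, -, hinv⟩ := h.of_isSmall_sub_one hγ hφ
  exact ⟨φ⁻¹, hinv, fun P hP => by rw [Finsupp.neg_apply, hord P hP, P.ord_inv]⟩

omit [IsAlgClosed (IsLocalRing.ResidueField A)] [IsFunctionField Ω F]
  [IsFunctionField (IsLocalRing.ResidueField A) Fk] in
theorem CongDiv.add (h : IsOver A p) (hγ : 0 < γ) (hD : CongDiv R p γ D) (hE : CongDiv R p γ E) :
    CongDiv R p γ (D + E) := fun Q => by
  obtain ⟨φ, hφ, hord⟩ := hD Q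
  obtain ⟨ψ, hψ, hord'⟩ := hE Q
  obtain ⟨-, -, hφ0, -⟩ := h.of_isSmall_sub_one hγ hφ
  obtain ⟨-, -, hψ0, -⟩ := h.of_isSmall_sub_one hγ hψ
  exact ⟨φ * ψ, h.isSmall_mul_sub_one hγ hφ hψ, fun P hP => by
    rw [Finsupp.add_apply, hord P hP, hord' P hP, P.ord_mul hφ0 hψ0]⟩

omit [IsAlgClosed (IsLocalRing.ResidueField A)] [IsFunctionField Ω F]
  [IsFunctionField (IsLocalRing.ResidueField A) Fk] in
theorem CongDiv.mapDomain_eq_zero (h : IsOver A p) (hγ : 0 < γ) (hD : CongDiv R p γ D) :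
    Finsupp.mapDomain R.toFun D = 0 := by
  refine Finsupp.ext fun Q => ?_
  obtain ⟨φ, hφ, hord⟩ := hD Q
  obtain ⟨hi, hr, -, -⟩ := h.of_isSmall_sub_one hγ hφ
  rw [mapDomain_apply_congr R.toFun (E := dvs (K := Ω) φ)
      (fun P hP => by rw [dvs_apply, hord P hP]),
    R.spec φ hi (by rw [hr]; exact one_ne_zero), dvs_apply, hr]
  simp

theorem CongDiv.degree_eq (h : IsOver A p) (hγ : 0 < γ) (hD : CongDiv R p γ D) :
    Divisor.degree D = 0 := by
  rw [← GoodModel.ReductionMap.degree_map D R.toFun, hD.mapDomain_eq_zero h hγ, map_zero]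

omit [IsAlgClosed (IsLocalRing.ResidueField A)] [IsFunctionField Ω F]
  [IsFunctionField (IsLocalRing.ResidueField A) Fk]
  [HasPrincipalDivisors Ω F] [HasPrincipalDivisors (IsLocalRing.ResidueField A) Fk] in
theorem IsOver.isSmall_smul_gal (h : IsOver A p) (hgal : IsCoeffAction gal) {σ : G_ℚ}
    (hσ : σ ∈ A.inertiaSubgroupIn ℚ) {x : F} (hx : IsSmall M p γ x) :
    IsSmall M p γ (gal σ • x) := by
  obtain ⟨s, y, hs, hy, rfl⟩ := hx
  rw [semilinear_smul, baseAut_gal hgal]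
  exact isSmall_of_near ((h.near_apply (MultRed.inertia_mem_decomposition hσ)).mpr hs)
    (isInt_smul_gal hgal hσ hy).1

theorem CongDiv.smul (h : IsOver A p) (hgal : IsCoeffAction gal)
    {g c : ℤ} (H : GoodModel.RRData (A := A) (F := F) (Fk := Fk) g c) {σ : G_ℚ}
    (hσ : σ ∈ A.inertiaSubgroupIn ℚ) (hD : CongDiv R p γ D) :
    CongDiv R p γ (gal σ • D) := fun Q => by
  obtain ⟨φ, hφ, hord⟩ := hD Q
  refine ⟨gal σ • φ, ?_, fun P hP => ?_⟩
  · have := h.isSmall_smul_gal hgal hσ hφ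
    rwa [smul_sub, smul_one] at this
  · obtain ⟨P, rfl⟩ := MulAction.surjective (gal σ) P
    rw [toFun_smul_gal R H hgal hσ] at hP
    rw [SemilinearAut.divisor_smul_apply_smul, SemilinearAut.ord_smul, hord P hP]

variable (R) in
open scoped Classical in
/-- The classes congruent to zero; everything for `γ ≤ 0`. -/
def congClasses (h : IsOver A p) (γ : ℚ) : AddSubgroup (Pic0 Ω F) :=
  if hγ : 0 < γ then
    { carrier := {x | ∃ D : Divisor Ω F, IsRep D x ∧ CongDiv R p γ D}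
      zero_mem' := ⟨0, isRep_zero, congDiv_zero⟩
      add_mem' := fun ⟨D, hD, cD⟩ ⟨E, hE, cE⟩ => ⟨D + E, hD.add hE, cD.add h hγ cE⟩
      neg_mem' := fun ⟨D, hD, cD⟩ => ⟨-D, hD.neg, cD.neg h hγ⟩ }
  else ⊤

omit [IsAlgClosed (IsLocalRing.ResidueField A)] [IsFunctionField Ω F]
  [IsFunctionField (IsLocalRing.ResidueField A) Fk] in
theorem mem_congClasses {h : IsOver A p} (hγ : 0 < γ) {x : Pic0 Ω F} :
    x ∈ congClasses R h γ ↔ ∃ D : Divisor Ω F, IsRep D x ∧ CongDiv R p γ D := by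
  rw [congClasses, dif_pos hγ]
  rfl

omit [IsAlgClosed (IsLocalRing.ResidueField A)] [IsFunctionField Ω F]
  [IsFunctionField (IsLocalRing.ResidueField A) Fk] in
theorem congClasses_mono {h : IsOver A p} (hδ : δ ≤ γ) :
    congClasses R h γ ≤ congClasses R h δ := by
  intro x hx
  by_cases hδ0 : 0 < δ
  · rw [mem_congClasses (hδ0.trans_le hδ)] at hx
    obtain ⟨D, hD, cD⟩ := hx
    exact (mem_congClasses hδ0).mpr ⟨D, hD, cD.mono hδ⟩
  · rw [congClasses, dif_neg hδ0]
    exact AddSubgroup.mem_top x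

omit [IsAlgClosed (IsLocalRing.ResidueField A)] [IsFunctionField Ω F]
  [IsFunctionField (IsLocalRing.ResidueField A) Fk] in
theorem CongDiv.mem_congClasses {h : IsOver A p} (hγ : 0 < γ) {x : Pic0 Ω F} (hD : IsRep D x)
    (cD : CongDiv R p γ D) : x ∈ congClasses R h γ :=
  (FlatJ0.mem_congClasses hγ).mpr ⟨D, hD, cD⟩

theorem smul_mem_congClasses {h : IsOver A p} (hgal : IsCoeffAction gal)
    {g c : ℤ} (H : GoodModel.RRData (A := A) (F := F) (Fk := Fk) g c) (hγ : 0 < γ) {σ : G_ℚ}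
    (hσ : σ ∈ A.inertiaSubgroupIn ℚ) {x : Pic0 Ω F} (hx : x ∈ congClasses R h γ) :
    gal σ • x ∈ congClasses R h γ := by
  obtain ⟨D, hD, cD⟩ := (FlatJ0.mem_congClasses hγ).mp hx
  exact (FlatJ0.mem_congClasses hγ).mpr ⟨_, hD.smul (gal σ), cD.smul h hgal H hσ⟩

end Fermat.Agent.FlatJ0
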