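import Fermat.Agent.FlatJ0.Small
import Fermat.Agent.Reduction.Bounded
import Fermat.Agent.FunctionFieldRR.FiberTheory

/-!
# Residue discs of places

`HolAt R Q f`: no pole of `f` reduces to `Q`. A parameter at `Q` identifies the places reducing to
`Q` with the non-units of `A`.
-/

noncomputable section

namespace Fermat.Agent.FlatJ0

open AlgebraicCurve ModularCurve Fermat.Agent.Reduction Fermat.Agent.FunctionFieldRR
open scoped Fermat.Agent.Reduction

local notation "Ω" => AlgebraicClosure ℚ

section Value

variable {K E : Type*} [Field K] [Field E] [Algebra K E] [IsAlgClosed K] [IsFunctionField K E]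

theorem value_add (P : Place K E) {f g : E} (hf : f ∈ P.toValuationSubring)
    (hg : g ∈ P.toValuationSubring) :
    residueConst P (f + g) = residueConst P f + residueConst P g :=
  residueConst_eq P (by
    convert (residueConst_spec P hf).add (residueConst_spec P hg) using 1
    rw [map_add]; ring)

theorem value_sub (P : Place K E) {f g : E} (hf : f ∈ P.toValuationSubring)
    (hg : g ∈ P.toValuationSubring) :
    residueConst P (f - g) = residueConst P f - residueConst P g :=
  residueConst_eq P (by
    convert (residueConst_spec P hf).sub (residueConst_spec P hg) using 1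
    rw [map_sub]; ring)

theorem value_algebraMap (P : Place K E) (c : K) : residueConst P (algebraMap K E c) = c :=
  residueConst_eq P (by rw [sub_self]; exact .zero)

theorem value_mul (P : Place K E) {f g : E} (hf : f ∈ P.toValuationSubring)
    (hg : g ∈ P.toValuationSubring) :
    residueConst P (f * g) = residueConst P f * residueConst P g :=
  residueConst_eq P (by
    have h1 := (residueConst_spec P hf).mul ((vanishesTo_zero_iff P).mpr hg)
    have h2 := (vanishesTo_algebraMap (P := P) (residueConst P f)).mul (residueConst_spec P hg)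
    rw [add_zero] at h1
    rw [zero_add] at h2
    convert h1.add h2 using 1
    rw [map_mul]; ring)

theorem value_smul (P : Place K E) (c : K) {f : E} (hf : f ∈ P.toValuationSubring) :
    residueConst P (c • f) = c * residueConst P f := by
  rw [Algebra.smul_def, value_mul P (P.algebraMap_mem' c) hf, value_algebraMap]

theorem value_eq_zero_iff (P : Place K E) {f : E} (hf : f ∈ P.toValuationSubring) (hf0 : f ≠ 0) :
    residueConst P f = 0 ↔ 1 ≤ P.ord f := by
  constructor
  · intro h
    have := residueConst_spec P hf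
    rw [h, map_zero, sub_zero] at this
    exact this.resolve_left hf0
  · intro h
    exact residueConst_eq P (by rw [map_zero, sub_zero]; exact Or.inr h)

omit [IsAlgClosed K] [IsFunctionField K E] in
theorem polesOf_eq_zero_iff [HasPrincipalDivisors K E] (f : E) (P : Place K E) :
    polesOf (K := K) f P = 0 ↔ f ∈ P.toValuationSubring := by
  rw [← ord_nonneg_iff, polesOf_apply]
  omega

end Value

section MapDomain

variable {α β : Type*} (r : α → β)

theorem mapDomain_apply_eq_zero {D : α →₀ ℤ} {b : β} (h : ∀ a, r a = b → D a = 0) :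
    Finsupp.mapDomain r D b = 0 := by
  classical
  rw [Finsupp.mapDomain, Finsupp.sum_apply]
  refine Finset.sum_eq_zero fun a _ => ?_
  show Finsupp.single (r a) (D a) b = 0
  rw [Finsupp.single_apply]
  split_ifs with e
  · exact h a e
  · rfl

theorem mapDomain_apply_congr {D E : α →₀ ℤ} {b : β} (h : ∀ a, r a = b → D a = E a) :
    Finsupp.mapDomain r D b = Finsupp.mapDomain r E b := by
  rw [← sub_eq_zero, ← Finsupp.sub_apply, ← Finsupp.mapDomain_sub]
  exact mapDomain_apply_eq_zero r fun a ha => by rw [Finsupp.sub_apply, h a ha, sub_self]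

/-- The part of `D` over `b` is nonnegative with sum zero: it vanishes. -/
theorem eq_zero_of_mapDomain_apply {D : α →₀ ℤ} {b : β} (hD : ∀ a, r a = b → 0 ≤ D a)
    (h : Finsupp.mapDomain r D b = 0) : ∀ a, r a = b → D a = 0 := by
  classical
  intro a ha
  set D' := D.filter fun x => r x = b with hD'
  have h0 : (0 : α →₀ ℤ) ≤ D' := Finsupp.le_def.mpr fun x => by
    rw [hD', Finsupp.filter_apply, Finsupp.zero_apply]
    split_ifs with e
    · exact hD x e
    · exact le_rfl
  have h1 : Finsupp.mapDomain r D' (r a) = 0 := by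
    rw [ha, ← h]
    exact mapDomain_apply_congr r fun x hx => by rw [hD', Finsupp.filter_apply, if_pos hx]
  have := apply_eq_zero_of_mapDomain_apply r h0 h1
  rwa [hD', Finsupp.filter_apply, if_pos ha] at this

/-- The part of `D` over `b` is nonnegative with sum one: it is a single point. -/
theorem exists_single_of_mapDomain_apply {D : α →₀ ℤ} {b : β} (hD : ∀ a, r a = b → 0 ≤ D a)
    (h : Finsupp.mapDomain r D b = 1) :
    ∃ a, r a = b ∧ D a = 1 ∧ ∀ a', r a' = b → a' ≠ a → D a' = 0 := by
  classical
  obtain ⟨a, ha, hane⟩ : ∃ a, r a = b ∧ D a ≠ 0 := by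
    by_contra hcon
    push Not at hcon
    rw [mapDomain_apply_eq_zero r hcon] at h
    exact zero_ne_one h
  set E := D - Finsupp.single a 1 with hE
  have hE0 : ∀ x, r x = b → 0 ≤ E x := fun x hx => by
    have := hD x hx
    rw [hE, Finsupp.sub_apply, Finsupp.single_apply]
    split_ifs with e
    · subst e; omega
    · omega
  have hmE : Finsupp.mapDomain r E b = 0 := by
    rw [hE, Finsupp.mapDomain_sub, Finsupp.sub_apply, Finsupp.mapDomain_single, ha, h,
      Finsupp.single_eq_same, sub_self]
  refine ⟨a, ha, ?_, fun a' ha' hne => ?_⟩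
  · have := eq_zero_of_mapDomain_apply r hE0 hmE a ha
    rw [hE, Finsupp.sub_apply, Finsupp.single_eq_same] at this
    omega
  · have := eq_zero_of_mapDomain_apply r hE0 hmE a' ha'
    rwa [hE, Finsupp.sub_apply, Finsupp.single_eq_of_ne hne, sub_zero] at this

end MapDomain

variable {A : ValuationSubring Ω} {F : IntermediateField Ω (LaurentSeries Ω)}
  {Fk : IntermediateField (IsLocalRing.ResidueField A) (LaurentSeries (IsLocalRing.ResidueField A))}
  {M : GoodModel A F Fk}
  [IsAlgClosed (IsLocalRing.ResidueField A)] [IsFunctionField Ω F]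
  [IsFunctionField (IsLocalRing.ResidueField A) Fk]
  [HasPrincipalDivisors Ω F] [HasPrincipalDivisors (IsLocalRing.ResidueField A) Fk]
  (R : M.ReductionMap) {g c : ℤ} (H : GoodModel.RRData (A := A) (F := F) (Fk := Fk) g c)

/-- No pole of `f` reduces to `Q`. -/
def HolAt (Q : Place (IsLocalRing.ResidueField A) Fk) (f : F) : Prop :=
  ∀ P : Place Ω F, R.toFun P = Q → f ∈ P.toValuationSubring

variable {R}
variable {Q : Place (IsLocalRing.ResidueField A) Fk} {f : F}

omit [IsAlgClosed (IsLocalRing.ResidueField A)] [IsFunctionField Ω F]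
  [IsFunctionField (IsLocalRing.ResidueField A) Fk] in
theorem HolAt.mapDomain_polesOf (hf : HolAt R Q f) :
    Finsupp.mapDomain R.toFun (polesOf (K := Ω) f) Q = 0 :=
  mapDomain_apply_eq_zero _ fun P hP => by
    rw [polesOf_apply]
    have := (ord_nonneg_iff P f).mpr (hf P hP)
    omega

omit [IsAlgClosed (IsLocalRing.ResidueField A)] [IsFunctionField Ω F]
  [IsFunctionField (IsLocalRing.ResidueField A) Fk] in
theorem HolAt.red_mem (hi : M.IsInt f) (hf : HolAt R Q f) :
    M.red f ∈ Q.toValuationSubring := by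
  rw [← ord_nonneg_iff]
  rcases mem_riemannRochSpace_iff.mp (R.red_mem_rr (mem_rr_polesOf f) hi) Q with e | e
  · rw [e, Place.ord_zero]
  · rwa [hf.mapDomain_polesOf, neg_zero] at e

include H in
/-- The value of an integral function is integral and reduces to the value of the reduction. -/
theorem HolAt.value (hi : M.IsInt f) (hf : HolAt R Q f) {P : Place Ω F} (hP : R.toFun P = Q) :
    ∃ h : residueConst P f ∈ A,
      residueConst Q (M.red f) = IsLocalRing.residue A ⟨residueConst P f, h⟩ := by
  subst hP
  obtain ⟨h, hv⟩ := M.exists_residue_eq R H hi (polesOf_nonneg (K := Ω) f) (mem_rr_polesOf f)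
    hf.mapDomain_polesOf (residueConst_spec P (hf P rfl))
  exact ⟨h, residueConst_eq _ hv⟩

omit [IsAlgClosed (IsLocalRing.ResidueField A)] [IsFunctionField Ω F]
  [IsFunctionField (IsLocalRing.ResidueField A) Fk] in
/-- An integral function regular over `Q` with unit reduction there is a unit over `Q`. -/
theorem HolAt.ord_eq_zero (hi : M.IsInt f) (hf : HolAt R Q f) (h0 : M.red f ≠ 0)
    (hQ : Q.ord (M.red f) = 0) {P : Place Ω F} (hP : R.toFun P = Q) : P.ord f = 0 := by
  have := eq_zero_of_mapDomain_apply R.toFun (D := dvs (K := Ω) f)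
    (fun P' hP' => by rw [dvs_apply]; exact (ord_nonneg_iff _ _).mpr (hf P' hP'))
    (by rw [R.spec f hi h0, dvs_apply, hQ]) P hP
  rwa [dvs_apply] at this

include H in
theorem HolAt.value_unit (hi : M.IsInt f) (hf : HolAt R Q f) (h0 : M.red f ≠ 0)
    (hQ : Q.ord (M.red f) = 0) {P : Place Ω F} (hP : R.toFun P = Q) :
    residueConst P f ∈ A ∧ residueConst P f ∉ A.nonunits := by
  obtain ⟨h, e⟩ := hf.value H hi hP
  refine ⟨h, fun hnu => residueConst_ne_zero (v := Q) h0 hQ ?_⟩
  rw [e, IsLocalRing.residue_eq_zero_iff, ← ValuationSubring.coe_mem_nonunits_iff]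
  exact hnu

/-- A parameter of the disc over `Q`. -/
structure IsParam (R : M.ReductionMap) (Q : Place (IsLocalRing.ResidueField A) Fk) (t : F) :
    Prop where
  isInt : M.IsInt t
  hol : HolAt R Q t
  simple : Q.ord (M.red t) = 1

namespace IsParam

variable {t : F} (ht : IsParam R Q t)
include ht

omit [IsAlgClosed (IsLocalRing.ResidueField A)] [IsFunctionField Ω F]
  [IsFunctionField (IsLocalRing.ResidueField A) Fk] in
theorem red_ne_zero : M.red t ≠ 0 := fun e => by
  have := ht.simple
  rw [e, Place.ord_zero] at this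
  exact zero_ne_one this

omit [IsAlgClosed (IsLocalRing.ResidueField A)] [IsFunctionField Ω F]
  [IsFunctionField (IsLocalRing.ResidueField A) Fk] in
theorem red_sub {a : Ω} (ha : a ∈ A.nonunits) :
    M.IsInt (t - algebraMap Ω F a) ∧ M.red (t - algebraMap Ω F a) = M.red t := by
  have haA : a ∈ A := ValuationSubring.nonunits_subset ha
  obtain ⟨h1, h2⟩ := M.isInt_sub ht.isInt (M.isInt_const haA).1
  refine ⟨h1, ?_⟩
  have h0 : IsLocalRing.residue A ⟨a, haA⟩ = 0 := by
    rw [IsLocalRing.residue_eq_zero_iff, ← ValuationSubring.coe_mem_nonunits_iff]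
    exact ha
  rw [h2, (M.isInt_const haA).2, h0, map_zero, sub_zero]

omit [IsAlgClosed (IsLocalRing.ResidueField A)] [IsFunctionField Ω F]
  [IsFunctionField (IsLocalRing.ResidueField A) Fk] in
theorem holAt_sub (a : Ω) : HolAt R Q (t - algebraMap Ω F a) :=
  fun P hP => sub_mem (ht.hol P hP) (P.algebraMap_mem' a)

include H in
theorem value_mem {P : Place Ω F} (hP : R.toFun P = Q) : residueConst P t ∈ A.nonunits := by
  obtain ⟨h, e⟩ := ht.hol.value H ht.isInt hP
  have h0 : residueConst Q (M.red t) = 0 :=
    (value_eq_zero_iff Q (ht.hol.red_mem ht.isInt) ht.red_ne_zero).mpr ht.simple.ge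
  rw [e, IsLocalRing.residue_eq_zero_iff, ← ValuationSubring.coe_mem_nonunits_iff] at h0
  exact h0

omit [IsAlgClosed (IsLocalRing.ResidueField A)] [IsFunctionField (IsLocalRing.ResidueField A) Fk] in
/-- The unique zero over `Q` of `t - a`. -/
theorem exists_place {a : Ω} (ha : a ∈ A.nonunits) :
    ∃ P : Place Ω F, R.toFun P = Q ∧ residueConst P t = a ∧
      P.ord (t - algebraMap Ω F a) = 1 ∧
      ∀ P' : Place Ω F, R.toFun P' = Q → P' ≠ P → P'.ord (t - algebraMap Ω F a) = 0 := by
  obtain ⟨hi, hr⟩ := ht.red_sub ha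
  obtain ⟨P, hP, h1, h0⟩ := exists_single_of_mapDomain_apply R.toFun
    (D := dvs (K := Ω) (t - algebraMap Ω F a))
    (fun P' hP' => by rw [dvs_apply]; exact (ord_nonneg_iff _ _).mpr (ht.holAt_sub a P' hP'))
    (by rw [R.spec _ hi (hr ▸ ht.red_ne_zero), dvs_apply, hr, ht.simple])
  rw [dvs_apply] at h1
  refine ⟨P, hP, residueConst_eq P (Or.inr h1.ge), h1, fun P' hP' hne => ?_⟩
  rw [← dvs_apply]
  exact h0 P' hP' hne

include H in
theorem eq_of_value {P P' : Place Ω F} (hP : R.toFun P = Q) (hP' : R.toFun P' = Q)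
    (h : residueConst P t = residueConst P' t) : P = P' := by
  obtain ⟨P₀, -, -, -, h0⟩ := ht.exists_place (ht.value_mem H hP)
  have hzero : ∀ P'' : Place Ω F, R.toFun P'' = Q → residueConst P'' t = residueConst P t →
      P'' = P₀ := by
    intro P'' hP'' e
    by_contra hne
    have h1 := residueConst_spec P'' (ht.hol P'' hP'')
    rw [e] at h1
    rcases h1 with h1 | h1
    · obtain ⟨hi, hr⟩ := ht.red_sub (ht.value_mem H hP)
      exact ht.red_ne_zero (by rw [← hr, h1, M.red_zero])
    · have := h0 P'' hP'' hne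
      omega
  rw [hzero P hP rfl, hzero P' hP' h.symm]

include H in
theorem ord_sub_value {P P' : Place Ω F} (hP : R.toFun P = Q) (hP' : R.toFun P' = Q) :
    (P' = P → P'.ord (t - algebraMap Ω F (residueConst P t)) = 1) ∧
      (P' ≠ P → P'.ord (t - algebraMap Ω F (residueConst P t)) = 0) := by
  obtain ⟨P₀, hP₀, hv, h1, h0⟩ := ht.exists_place (ht.value_mem H hP)
  obtain rfl := ht.eq_of_value H hP₀ hP hv
  exact ⟨fun e => e ▸ h1, h0 P' hP'⟩

include H in
/-- Values of a regular integral function differ by a multiple of the difference of parameters;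
by a unit multiple when the reduction has a simple zero. -/
theorem value_sub_value {u : F} (hi : M.IsInt u) (hu : HolAt R Q u) {P P' : Place Ω F}
    (hP : R.toFun P = Q) (hP' : R.toFun P' = Q) :
    ∃ w ∈ A, residueConst P u - residueConst P' u = (residueConst P t - residueConst P' t) * w ∧
      (Q.ord (M.red u) = 1 → w ∉ A.nonunits) := by
  obtain ⟨hA, hres⟩ := hu.value H hi hP'
  set a' := residueConst P' t with ha'
  set c := residueConst P' u with hc
  obtain ⟨hdi, hdr⟩ := ht.red_sub (ht.value_mem H hP')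
  have hd0 : M.red (t - algebraMap Ω F a') ≠ 0 := hdr ▸ ht.red_ne_zero
  obtain ⟨hni, hnr⟩ := M.isInt_sub hi (M.isInt_const hA).1
  set q := (u - algebraMap Ω F c) / (t - algebraMap Ω F a') with hq
  obtain ⟨hii, hir⟩ := M.isInt_inv hdi hd0
  have hqi : M.IsInt q ∧ M.red q = M.red (u - algebraMap Ω F c) / M.red t := by
    rw [hq, div_eq_mul_inv, div_eq_mul_inv]
    obtain ⟨h1, h2⟩ := M.isInt_mul hni hii
    exact ⟨h1, by rw [h2, hir, hdr]⟩
  have hden : t - algebraMap Ω F a' ≠ 0 := fun e => hd0 (by rw [e, M.red_zero])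
  have hqh : HolAt R Q q := by
    intro P'' hP''
    rcases eq_or_ne (u - algebraMap Ω F c) 0 with e | e
    · rw [hq, e, zero_div]; exact zero_mem _
    rw [← ord_nonneg_iff, hq, ord_div P'' e hden]
    have h0 := (ord_nonneg_iff P'' _).mpr (sub_mem (hu P'' hP'') (P''.algebraMap_mem' c))
    obtain ⟨heq, hne⟩ := ht.ord_sub_value H hP' hP''
    rcases eq_or_ne P'' P' with rfl | hPP
    · rw [heq rfl]
      have : 1 ≤ P''.ord (u - algebraMap Ω F c) :=
        (residueConst_spec P'' (hu P'' hP'')).resolve_left e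
      omega
    · rw [hne hPP]; omega
  obtain ⟨hwA, hwr⟩ := hqh.value H hqi.1 hP
  refine ⟨residueConst P q, hwA, ?_, fun hs hnu => ?_⟩
  · have hmul := value_mul P (sub_mem (ht.hol P hP) (P.algebraMap_mem' a')) (hqh P hP)
    rw [value_sub P (ht.hol P hP) (P.algebraMap_mem' a'), value_algebraMap] at hmul
    rw [← hmul, hq, mul_div_cancel₀ _ hden,
      value_sub P (hu P hP) (P.algebraMap_mem' c), value_algebraMap]
  · have hu0 : M.red u ≠ 0 := fun e => by rw [e, Place.ord_zero] at hs; exact zero_ne_one hs
    have hc0 : IsLocalRing.residue A ⟨c, hA⟩ = 0 := by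
      rw [← hres]
      exact (value_eq_zero_iff Q (hu.red_mem hi) hu0).mpr hs.ge
    have hru : M.red (u - algebraMap Ω F c) = M.red u := by
      rw [hnr, (M.isInt_const hA).2, hc0, map_zero, sub_zero]
    have hq0 : M.red q ≠ 0 := by
      rw [hqi.2, hru]; exact div_ne_zero hu0 ht.red_ne_zero
    refine (hqh.value_unit H hqi.1 hq0 ?_ hP).2 hnu
    rw [hqi.2, hru, ord_div Q hu0 ht.red_ne_zero, hs, ht.simple, sub_self]

end IsParam

end Fermat.Agent.FlatJ0
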