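import Fermat.Agent.FlatJ0.Chart
import Fermat.Agent.Reduction.RedSurj
import Mathlib.Algebra.MvPolynomial.Eval

/-!
# Lattices above a non-special divisor

For divisors above a non-special divisor the dimension of the Riemann–Roch space is exact, residual
functions lift, and a family of integral functions with independent reductions of full size is a
basis of the lattice. `IsPolyMap` is a polynomial map into the lattice of `L(D)`.
-/

noncomputable section

namespace Fermat.Agent.FlatJ0

open AlgebraicCurve ModularCurve Fermat.Agent.Reduction Fermat.Agent.FunctionFieldRR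
open scoped Fermat.Agent.Reduction

local notation "Ω" => AlgebraicClosure ℚ

section General

variable {K E : Type*} [Field K] [Field E] [Algebra K E] [IsAlgClosed K] [IsFunctionField K E]

/-- Above a non-special divisor of degree `g` the space has dimension at most `deg + 1 - g`. -/
theorem finrank_le_of_chart {C D : Divisor K E} {g : ℤ} (hC : Divisor.degree C = g)
    (hl : Module.finrank K (riemannRochSpace C) ≤ 1) (hCD : C ≤ D) :
    (Module.finrank K (riemannRochSpace D) : ℤ) ≤ Divisor.degree D + 1 - g := by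
  have := finiteDimensional_riemannRochSpace (K := K) C
  have := (finrank_le_of_le hCD).2
  omega

/-- With `C`, `Y` disjoint and `C` non-special: if `b ∈ L(p C)` and `b` is a combination of
`L(C + Y)` and `L(p Y)`, it is constant. -/
theorem eq_algebraMap_of_add_eq_zero [HasPrincipalDivisors K E] {C Y : Divisor K E} (hC : 0 ≤ C)
    (hY : 0 ≤ Y) (hl : Module.finrank K (riemannRochSpace C) ≤ 1)
    (hdisj : ∀ v, C v = 0 ∨ Y v = 0) {n : ℕ} (hn : 1 ≤ n) {a b d : E}
    (ha : a ∈ riemannRochSpace (C + Y)) (hb : b ∈ riemannRochSpace (n • C))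
    (hd : d ∈ riemannRochSpace (n • Y)) (h : a + b + d = 0) :
    ∃ κ : K, b = algebraMap K E κ := by
  refine eq_algebraMap_of_finrank_le_one hC hl ?_
  have hY' : Y ≤ n • Y := le_self_nsmul hY (by omega)
  have hb' : b ∈ riemannRochSpace (C + n • Y) := by
    rw [show b = -(a + d) by linear_combination h]
    refine neg_mem (add_mem (rr_mono (add_le_add le_rfl hY') ha) (rr_mono ?_ hd))
    exact le_add_of_nonneg_left hC
  rw [mem_riemannRochSpace_iff] at hb hb' ⊢
  intro v
  rcases hb v with e | e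
  · exact Or.inl e
  rcases hdisj v with e' | e'
  · refine Or.inr ?_
    rw [Finsupp.smul_apply, e', smul_zero] at e
    rw [e']
    exact e
  · refine (hb' v).imp id fun e'' => ?_
    rw [Finsupp.add_apply, Finsupp.smul_apply, e', smul_zero, add_zero] at e''
    exact e''

end General

variable {A : ValuationSubring Ω} {F : IntermediateField Ω (LaurentSeries Ω)}
  {Fk : IntermediateField (IsLocalRing.ResidueField A) (LaurentSeries (IsLocalRing.ResidueField A))}
  {M : GoodModel A F Fk}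

theorem isInt_finsetSum (M : GoodModel A F Fk) {κ : Type*} (s : Finset κ) (f : κ → F)
    (hf : ∀ i ∈ s, M.IsInt (f i)) :
    M.IsInt (∑ i ∈ s, f i) ∧ M.red (∑ i ∈ s, f i) = ∑ i ∈ s, M.red (f i) := by
  classical
  induction s using Finset.induction_on with
  | empty => simpa using M.isInt_zero
  | insert a s ha ih =>
    obtain ⟨h1, h2⟩ := ih fun i hi => hf i (Finset.mem_insert_of_mem hi)
    obtain ⟨h3, h4⟩ := M.isInt_add (hf a (Finset.mem_insert_self a s)) h1
    rw [Finset.sum_insert ha, Finset.sum_insert ha]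
    exact ⟨h3, by rw [h4, h2]⟩

theorem isInt_comb (M : GoodModel A F Fk) {κ : Type*} [Fintype κ] (a : κ → A) (w : κ → F)
    (hw : ∀ k, M.IsInt (w k)) :
    M.IsInt (∑ k, (a k : Ω) • w k) ∧
      M.red (∑ k, (a k : Ω) • w k) = ∑ k, IsLocalRing.residue A (a k) • M.red (w k) := by
  obtain ⟨h1, h2⟩ := isInt_finsetSum M Finset.univ (fun k => (a k : Ω) • w k)
    fun k _ => (M.isInt_smul (a k).2 (hw k)).1
  exact ⟨h1, by rw [h2]; exact Finset.sum_congr rfl fun k _ => (M.isInt_smul (a k).2 (hw k)).2⟩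

/-- Integral functions with independent reductions, as many as the dimension: a basis of the
lattice. -/
theorem exists_coords {κ : Type*} [Fintype κ] {V : Submodule Ω F} [Module.Finite Ω V] (b : κ → F)
    (hb : ∀ k, b k ∈ V ∧ M.IsInt (b k))
    (hli : LinearIndependent (IsLocalRing.ResidueField A) fun k => M.red (b k))
    (hcard : Module.finrank Ω V ≤ Fintype.card κ) {f : F} (hf : f ∈ V) :
    ∃ a : κ → Ω, f = ∑ k, a k • b k ∧ (M.IsInt f → ∀ k, a k ∈ A) := by
  classical
  -- primitive combinations have nonzero reduction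
  have hprim : ∀ a' : κ → A, (∃ k, a' k = 1) → M.red (∑ k, (a' k : Ω) • b k) ≠ 0 := by
    rintro a' ⟨k, hk⟩ e
    rw [(isInt_comb M a' b fun k => (hb k).2).2] at e
    have := Fintype.linearIndependent_iff.mp hli _ e k
    rw [hk, map_one] at this
    exact one_ne_zero this
  set b' : κ → V := fun k => ⟨b k, (hb k).1⟩ with hb'
  have hLI : LinearIndependent Ω b' := by
    refine Fintype.linearIndependent_iff.mpr fun a ha => ?_
    by_contra hne
    push Not at hne
    obtain ⟨c₀, a', hc₀, ha', hone⟩ := Fermat.Agent.Reduction.exists_scale A a hne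
    refine hprim a' hone ?_
    have h1 : ∑ k, a k • b k = (0 : F) := by
      have := congrArg Subtype.val ha
      simpa [hb'] using this
    have h2 : c₀ • ∑ k, (a' k : Ω) • b k = 0 := by
      rw [← h1, Finset.smul_sum]
      exact Finset.sum_congr rfl fun k _ => by rw [smul_smul, ← ha' k]
    rw [← inv_smul_smul₀ hc₀ (∑ k, (a' k : Ω) • b k), h2, smul_zero, M.red_zero]
  have hspan : Submodule.span Ω (Set.range b') = ⊤ :=
    hLI.span_eq_top_of_card_eq_finrank' (le_antisymm hLI.fintype_card_le_finrank hcard)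
  obtain ⟨a, ha⟩ := (Submodule.mem_span_range_iff_exists_fun Ω).mp
    (show (⟨f, hf⟩ : V) ∈ Submodule.span Ω (Set.range b') by rw [hspan]; trivial)
  have hfa : f = ∑ k, a k • b k := by
    have := congrArg Subtype.val ha
    simpa [hb'] using this.symm
  refine ⟨a, hfa, fun hfi k => ?_⟩
  by_contra hk
  obtain ⟨c₀, a', hc₀, ha', hone⟩ := Fermat.Agent.Reduction.exists_scale A a
    ⟨k, fun e => hk (e ▸ zero_mem A)⟩
  have hc : c₀ ∉ A := fun hc => hk (ha' k ▸ mul_mem hc (a' k).2)
  have hcA : c₀⁻¹ ∈ A := (A.mem_or_inv_mem c₀).resolve_left hc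
  refine hprim a' hone ?_
  have e : ∑ k, (a' k : Ω) • b k = c₀⁻¹ • f := by
    rw [hfa, Finset.smul_sum]
    refine Finset.sum_congr rfl fun k _ => ?_
    rw [smul_smul, ha' k, ← mul_assoc, inv_mul_cancel₀ hc₀, one_mul]
  rw [e, (M.isInt_smul hcA hfi).2]
  have h0 : IsLocalRing.residue A ⟨c₀⁻¹, hcA⟩ = 0 := by
    rw [IsLocalRing.residue_eq_zero_iff]
    intro hu
    obtain ⟨u, hu'⟩ := hu
    refine hc ?_
    have h2 : ((u : A) : Ω) * ((↑u⁻¹ : A) : Ω) = 1 := by
      rw [← MulMemClass.coe_mul, Units.mul_inv]; rfl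
    rw [hu'] at h2
    rw [show c₀ = ((↑u⁻¹ : A) : Ω) by field_simp at h2; exact h2.symm]
    exact (↑u⁻¹ : A).2
  rw [h0, zero_smul]

/-- `Φ` is a polynomial map with integral coefficients into the lattice of `L(D)`. -/
def IsPolyMap (M : GoodModel A F Fk) {ι : Type} (D : Divisor Ω F) (Φ : (ι → Ω) → F) : Prop :=
  ∃ (κ : Type) (_ : Fintype κ) (w : κ → F) (Q : κ → MvPolynomial ι A),
    (∀ k, w k ∈ riemannRochSpace D ∧ M.IsInt (w k)) ∧
      ∀ z, Φ z = ∑ k, MvPolynomial.eval₂ A.subtype z (Q k) • w k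

namespace IsPolyMap

variable {ι : Type} {D E : Divisor Ω F} {Φ Ψ : (ι → Ω) → F}

theorem const {w : F} (hw : w ∈ riemannRochSpace D) (hi : M.IsInt w) :
    IsPolyMap M D fun _ : ι → Ω => w :=
  ⟨Unit, inferInstance, fun _ => w, fun _ => 1, fun _ => ⟨hw, hi⟩, fun z => by simp⟩

theorem linear {κ : Type} [Fintype κ] (j : κ → ι) (w : κ → F)
    (hw : ∀ k, w k ∈ riemannRochSpace D ∧ M.IsInt (w k)) :
    IsPolyMap M D fun z : ι → Ω => ∑ k, z (j k) • w k :=
  ⟨κ, inferInstance, w, fun k => MvPolynomial.X (j k), hw, fun z => by simp⟩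

theorem mono (hΦ : IsPolyMap M D Φ) (hDE : D ≤ E) : IsPolyMap M E Φ := by
  obtain ⟨κ, _, w, Q, hw, hQ⟩ := hΦ
  exact ⟨κ, inferInstance, w, Q, fun k => ⟨rr_mono hDE (hw k).1, (hw k).2⟩, hQ⟩

theorem add (hΦ : IsPolyMap M D Φ) (hΨ : IsPolyMap M D Ψ) :
    IsPolyMap M D fun z => Φ z + Ψ z := by
  obtain ⟨κ, _, w, Q, hw, hQ⟩ := hΦ
  obtain ⟨κ', _, w', Q', hw', hQ'⟩ := hΨ
  refine ⟨κ ⊕ κ', inferInstance, Sum.elim w w', Sum.elim Q Q', ?_, fun z => ?_⟩
  · rintro (k | k)
    exacts [hw k, hw' k]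
  · rw [Fintype.sum_sum_type]; simp only [hQ, hQ']; rfl

theorem smul {a : Ω} (ha : a ∈ A) (hΦ : IsPolyMap M D Φ) : IsPolyMap M D fun z => a • Φ z := by
  obtain ⟨κ, _, w, Q, hw, hQ⟩ := hΦ
  refine ⟨κ, inferInstance, w, fun k => MvPolynomial.C ⟨a, ha⟩ * Q k, hw, fun z => ?_⟩
  simp only [hQ, Finset.smul_sum]
  exact Finset.sum_congr rfl fun k _ => by simp [smul_smul]

theorem mul (hΦ : IsPolyMap M D Φ) (hΨ : IsPolyMap M E Ψ) :
    IsPolyMap M (D + E) fun z => Φ z * Ψ z := by
  obtain ⟨κ, _, w, Q, hw, hQ⟩ := hΦ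
  obtain ⟨κ', _, w', Q', hw', hQ'⟩ := hΨ
  refine ⟨κ × κ', inferInstance, fun k => w k.1 * w' k.2, fun k => Q k.1 * Q' k.2,
    fun k => ⟨rr_mul (hw k.1).1 (hw' k.2).1, (M.isInt_mul (hw k.1).2 (hw' k.2).2).1⟩, fun z => ?_⟩
  simp only [hQ, hQ']
  rw [Fintype.sum_mul_sum, Fintype.sum_prod_type]
  exact Finset.sum_congr rfl fun k _ => Finset.sum_congr rfl fun l _ => by
    rw [smul_mul_smul_comm, MvPolynomial.eval₂_mul]

theorem pow (hΦ : IsPolyMap M D Φ) (n : ℕ) : IsPolyMap M (n • D) fun z => Φ z ^ n := by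
  induction n with
  | zero =>
    simpa using IsPolyMap.const (ι := ι) (one_mem_rr (D := (0 : Divisor Ω F)) le_rfl) M.isInt_one
  | succ n ih =>
    simp only [pow_succ, succ_nsmul]
    exact ih.mul hΦ

theorem finset_sum {κ : Type*} (s : Finset κ) (Φ : κ → (ι → Ω) → F)
    (hΦ : ∀ i ∈ s, IsPolyMap M D (Φ i)) : IsPolyMap M D fun z => ∑ i ∈ s, Φ i z := by
  classical
  induction s using Finset.induction_on with
  | empty => simpa using IsPolyMap.const (ι := ι) (zero_mem (riemannRochSpace D)) M.isInt_zero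
  | insert a s ha ih =>
    simp only [Finset.sum_insert ha]
    exact (hΦ a (Finset.mem_insert_self a s)).add (ih fun i hi => hΦ i (Finset.mem_insert_of_mem hi))

/-- Coordinates in a basis of the lattice are polynomials. -/
theorem exists_polys {κ : Type*} [Fintype κ] {b : κ → F}
    (hb : ∀ f ∈ riemannRochSpace D, ∃ a : κ → Ω, f = ∑ k, a k • b k ∧ (M.IsInt f → ∀ k, a k ∈ A))
    (hΦ : IsPolyMap M D Φ) :
    ∃ P : κ → MvPolynomial ι A, ∀ z, Φ z = ∑ k, MvPolynomial.eval₂ A.subtype z (P k) • b k := by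
  obtain ⟨σ, _, w, Q, hw, hQ⟩ := hΦ
  choose a ha hai using fun l => hb (w l) (hw l).1
  refine ⟨fun k => ∑ l, MvPolynomial.C ⟨a l k, hai l (hw l).2 k⟩ * Q l, fun z => ?_⟩
  simp only [MvPolynomial.eval₂_sum, MvPolynomial.eval₂_mul, MvPolynomial.eval₂_C, Finset.sum_smul,
    ValuationSubring.subtype_apply]
  rw [hQ, Finset.sum_comm]
  refine Finset.sum_congr rfl fun l _ => ?_
  conv_lhs => rw [ha l]
  rw [Finset.smul_sum]
  exact Finset.sum_congr rfl fun k _ => by rw [smul_smul, mul_comm]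

end IsPolyMap

section Curve

variable [IsAlgClosed (IsLocalRing.ResidueField A)] [IsFunctionField Ω F]
  [IsFunctionField (IsLocalRing.ResidueField A) Fk]
  [HasPrincipalDivisors Ω F] [HasPrincipalDivisors (IsLocalRing.ResidueField A) Fk]
  {R : M.ReductionMap} {g : ℤ}

/-- Lifting residual functions when the dimensions agree. -/
theorem exists_lift_of_finrank_le
    (low : ∀ D : Divisor Ω F,
      Divisor.degree D + 1 - g ≤ (Module.finrank Ω (riemannRochSpace D) : ℤ))
    {D : Divisor Ω F}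
    (hup : (Module.finrank (IsLocalRing.ResidueField A)
      (riemannRochSpace (Finsupp.mapDomain R.toFun D)) : ℤ) ≤ Divisor.degree D + 1 - g)
    {s : Fk} (hs : s ∈ riemannRochSpace (Finsupp.mapDomain R.toFun D)) :
    ∃ x ∈ riemannRochSpace D, M.IsInt x ∧ M.red x = s := by
  have heq : M.redSub (riemannRochSpace D) =
      riemannRochSpace (Finsupp.mapDomain R.toFun D) := by
    refine Submodule.eq_of_le_of_finrank_le (R.redSub_le D) ?_
    rw [M.finrank_redSub]
    have := low D
    omega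
  exact M.mem_redSub.mp (heq ▸ hs)

omit [IsAlgClosed (IsLocalRing.ResidueField A)] [IsFunctionField Ω F]
  [IsFunctionField (IsLocalRing.ResidueField A) Fk] in
/-- Every residual place is a reduction. -/
theorem exists_toFun (R : M.ReductionMap) (Q : Place (IsLocalRing.ResidueField A) Fk) :
    ∃ P : Place Ω F, R.toFun P = Q := by
  by_contra h
  push Not at h
  obtain ⟨s, hs0, hs⟩ := exists_ord_eq_one Q
  obtain ⟨f, hfi, hfr⟩ := M.exists_isInt_red_eq s
  have h1 := congrArg (fun D : Divisor (IsLocalRing.ResidueField A) Fk => D Q)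
    (R.spec f hfi (by rw [hfr]; exact hs0))
  simp only [dvs_apply, hfr, hs] at h1
  rw [mapDomain_apply_eq_zero R.toFun fun P hP => absurd hP (h P)] at h1
  exact zero_ne_one h1

/-- The lower Riemann–Roch inequality descends. -/
theorem low_of_lift (R : M.ReductionMap)
    (low : ∀ D : Divisor Ω F,
      Divisor.degree D + 1 - g ≤ (Module.finrank Ω (riemannRochSpace D) : ℤ))
    (hdeg : ∀ D : Divisor Ω F, Divisor.degree (Finsupp.mapDomain R.toFun D) = Divisor.degree D)
    (D : Divisor (IsLocalRing.ResidueField A) Fk) :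
    Divisor.degree D + 1 - g ≤
      (Module.finrank (IsLocalRing.ResidueField A) (riemannRochSpace D) : ℤ) := by
  choose P hP using exists_toFun R
  obtain ⟨D₀, rfl⟩ : ∃ D₀ : Divisor Ω F, Finsupp.mapDomain R.toFun D₀ = D :=
    ⟨Finsupp.mapDomain P D, by
      rw [← Finsupp.mapDomain_comp, show R.toFun ∘ P = id from funext hP, Finsupp.mapDomain_id]⟩
  rw [hdeg]
  exact (low D₀).trans (Nat.cast_le.mpr (R.finrank_le D₀))

end Curve

end Fermat.Agent.FlatJ0
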