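import Fermat.Agent.FlatJ0.ExactHensel
import Fermat.Agent.FlatJ0.ExactLattice

/-!
# The congruence equation

`exists_solution`: functions `β`, `φ`, `ψ` of three lattices with
`(1 + s β)^p = ω (1 + t φ) (1 + t ψ)`, `t = p s`, when the three lattices, twisted by `ω`, give a
basis of the target lattice and `ord s > 1 / (p - 1)`.
-/

noncomputable section

namespace Fermat.Agent.FlatJ0

open AlgebraicCurve ModularCurve Fermat.Agent.Reduction Fermat.Agent.FunctionFieldRR
open scoped Fermat.Agent.Reduction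

local notation "Ω" => AlgebraicClosure ℚ

variable {A : ValuationSubring Ω} {p : ℕ}

namespace IsOver

variable (h : IsOver A p)
include h

/-- Every rational number is the valuation of a constant. -/
theorem exists_ord_eq (q : ℚ) : ∃ s : Ω, s ≠ 0 ∧ ord A p s = q := by
  obtain ⟨s, hs⟩ := IsAlgClosed.exists_pow_nat_eq ((p : Ω) ^ q.num) q.pos
  have hs0 : s ≠ 0 := fun e => by
    rw [e, zero_pow q.den_nz] at hs
    exact zpow_ne_zero _ h.natCast_ne_zero hs.symm
  refine ⟨s, hs0, ?_⟩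
  rw [h.ord_eq (d := q.den) (z := q.num) q.pos (by rw [← map_pow, hs, map_zpow₀]),
    Rat.num_div_den]

theorem div_mem_of_near {γ : ℚ} {a b : Ω} (ha : Near A p γ a) (hb : b ≠ 0)
    (hγ : ord A p b ≤ γ) : a / b ∈ A := by
  have hb' : Near A p (-ord A p b) b⁻¹ := Or.inr (h.ord_inv hb).ge
  rw [div_eq_mul_inv]
  exact h.mem_of_near (h.near_mul ha hb') (by linarith)

theorem near_natCast (n : ℕ) : Near A p 0 (n : Ω) := h.near_of_mem (natCast_mem A n)

theorem near_pow_nat_exact {γ : ℚ} {x : Ω} (hx : Near A p γ x) (n : ℕ) : Near A p (n * γ) (x ^ n) := by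
  induction n with
  | zero => simpa using h.near_of_mem (one_mem A)
  | succ n ih =>
    rw [pow_succ, Nat.cast_succ, add_mul, one_mul]
    exact h.near_mul ih hx

end IsOver

variable {F : IntermediateField Ω (LaurentSeries Ω)}
  {Fk : IntermediateField (IsLocalRing.ResidueField A) (LaurentSeries (IsLocalRing.ResidueField A))}
  {M : GoodModel A F Fk}

theorem one_add_pow_eq {R : Type*} [CommRing R] (x : R) (n : ℕ) :
    (1 + x) ^ (n + 2) = 1 + (n + 2 : ℕ) * x +
      ∑ k ∈ Finset.range (n + 1), ((n + 2).choose (k + 2) : R) * x ^ (k + 2) := by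
  rw [add_comm 1 x, add_pow, Finset.sum_range_succ', Finset.sum_range_succ']
  simp only [zero_add, one_pow, mul_one, pow_one, pow_zero, Nat.choose_zero_right, Nat.cast_one,
    Nat.choose_one_right]
  rw [Finset.sum_congr rfl fun k _ => mul_comm (x ^ (k + 1 + 1)) _]
  ring

/-- The exact solution. -/
theorem exists_solution (h : IsOver A p) {G Df Du W E : Divisor Ω F}
    {nv nb nu : ℕ} {ev : Fin nv → F} {bf : Fin nb → F} {eu : Fin nu → F}
    (hev : ∀ i, ev i ∈ riemannRochSpace G ∧ M.IsInt (ev i))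
    (hbf : ∀ i, bf i ∈ riemannRochSpace Df ∧ M.IsInt (bf i))
    (heu : ∀ i, eu i ∈ riemannRochSpace Du ∧ M.IsInt (eu i))
    {ω w₀ : F} (hωW : ω ∈ riemannRochSpace W) (hωi : M.IsInt ω)
    (hw₀ : w₀ ∈ riemannRochSpace E) (hw₀i : M.IsInt w₀)
    (hG : ∀ k : ℕ, 1 ≤ k → k ≤ p → k • G ≤ E) (hW : W + Df + Du ≤ E)
    (hbasis : ∀ f ∈ riemannRochSpace E, ∃ a : Fin nv ⊕ (Fin nb ⊕ Fin nu) → Ω,
      f = ∑ i, a i • Sum.elim ev (Sum.elim (fun j => ω * bf j) (fun j => ω * eu j)) i ∧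
      (M.IsInt f → ∀ i, a i ∈ A))
    {δ : ℚ} (hδ : 1 / ((p : ℚ) - 1) < δ) {s : Ω} (hs0 : s ≠ 0) (hs : ord A p s = δ)
    (hω : ω - 1 = ((p : Ω) * s) • w₀) :
    ∃ β φ ψ : F, (β ∈ riemannRochSpace G ∧ M.IsInt β) ∧ (φ ∈ riemannRochSpace Df ∧ M.IsInt φ) ∧
      (ψ ∈ riemannRochSpace Du ∧ M.IsInt ψ) ∧
      (1 + s • β) ^ p = ω * (1 + ((p : Ω) * s) • φ) * (1 + ((p : Ω) * s) • ψ) := by
  have hp2 := h.prime.two_le
  obtain ⟨n, hn⟩ : ∃ n, p = n + 2 := ⟨p - 2, by omega⟩
  have hp1 : (0 : ℚ) < (p : ℚ) - 1 := by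
    have : (2 : ℚ) ≤ p := by exact_mod_cast hp2
    linarith
  have hδ1 : 1 < δ * ((p : ℚ) - 1) := (div_lt_iff₀ hp1).mp hδ
  have hδ0 : 0 < δ := lt_trans (by positivity) hδ
  set t : Ω := (p : Ω) * s with ht
  have ht0 : t ≠ 0 := mul_ne_zero h.natCast_ne_zero hs0
  have htord : ord A p t = 1 + δ := by rw [ht, h.ord_mul h.natCast_ne_zero hs0, h.ord_p, hs]
  set ε := min δ (δ * ((p : ℚ) - 1) - 1) with hε
  have hε0 : 0 < ε := lt_min hδ0 (by linarith)
  obtain ⟨θ, hθ0, hθ⟩ := h.exists_ord_eq ε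
  have htθ : ord A p (t * θ) = 1 + δ + ε := by rw [h.ord_mul ht0 hθ0, htord, hθ]
  have hsn : Near A p δ s := Or.inr hs.ge
  -- the coefficients
  set a : ℕ → Ω := fun k => (((n + 2).choose (k + 2) : ℕ) : Ω) * s ^ (k + 2) / (t * θ) with ha
  have haA : ∀ k ∈ Finset.range (n + 1), a k ∈ A := by
    intro k hk
    rw [Finset.mem_range] at hk
    rw [ha]
    dsimp only
    rcases Nat.lt_or_ge k n with hkn | hkn
    · obtain ⟨m, hm⟩ : p ∣ p.choose (k + 2) :=
        h.prime.dvd_choose_self (by omega) (by omega)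
      rw [← hn, hm, Nat.cast_mul]
      refine h.div_mem_of_near (h.near_mul (h.near_mul (Or.inr h.ord_p.ge) (h.near_natCast m))
        (h.near_pow_nat_exact hsn (k + 2))) (mul_ne_zero ht0 hθ0) ?_
      rw [htθ]
      have h1 : ε ≤ δ := min_le_left _ _
      have h2 : (0 : ℚ) ≤ k * δ := by positivity
      push_cast
      linarith
    · obtain rfl : k = n := by omega
      refine h.div_mem_of_near (h.near_mul (h.near_natCast _) (h.near_pow_nat_exact hsn (k + 2)))
        (mul_ne_zero ht0 hθ0) ?_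
      rw [htθ]
      have h1 : ε ≤ δ * ((p : ℚ) - 1) - 1 := min_le_right _ _
      rw [hn] at h1
      push_cast at h1 ⊢
      linarith
  set a' : Ω := -(t / θ) with ha'
  have ha'A : a' ∈ A := by
    refine neg_mem (h.div_mem_of_near (Or.inr le_rfl) hθ0 ?_)
    rw [htord, hθ]
    linarith [min_le_left δ (δ * ((p : ℚ) - 1) - 1)]
  -- the polynomial maps
  let κ := Fin nv ⊕ (Fin nb ⊕ Fin nu)
  let B : κ → F := Sum.elim ev (Sum.elim (fun j => ω * bf j) (fun j => ω * eu j))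
  let βf : (κ → Ω) → F := fun z => ∑ i, z (Sum.inl i) • ev i
  let φf : (κ → Ω) → F := fun z => ∑ i, z (Sum.inr (Sum.inl i)) • bf i
  let ψf : (κ → Ω) → F := fun z => ∑ i, z (Sum.inr (Sum.inr i)) • eu i
  have hβ : IsPolyMap M G βf := IsPolyMap.linear _ ev hev
  have hφ : IsPolyMap M Df φf := IsPolyMap.linear _ bf hbf
  have hψ : IsPolyMap M Du ψf := IsPolyMap.linear _ eu heu
  have hrest : IsPolyMap M E fun z => (∑ k ∈ Finset.range (n + 1), a k • βf z ^ (k + 2)) +
      a' • (ω * φf z * ψf z) := by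
    refine IsPolyMap.add (IsPolyMap.finset_sum _ _ fun k hk => ?_) (IsPolyMap.smul ha'A ?_)
    · refine IsPolyMap.smul (haA k hk) ((hβ.pow (k + 2)).mono (hG _ (by omega) ?_))
      rw [Finset.mem_range] at hk
      omega
    · exact (((IsPolyMap.const hωW hωi).mul hφ).mul hψ).mono hW
  obtain ⟨P, hP⟩ := hrest.exists_polys hbasis
  obtain ⟨c, hc, hcA⟩ := hbasis w₀ hw₀
  -- the fixed point
  let sg : κ → A := Sum.elim (fun _ => 1) (fun _ => -1)
  have hsg : ∀ i, (sg i : Ω) * (sg i : Ω) = 1 := by rintro (i | i) <;> simp [sg]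
  obtain ⟨z, hzA, hz⟩ := h.exists_fixedPoint hε0 (Or.inr hθ.ge : Near A p ε θ)
    (c := fun i => (sg i : Ω) * c i) (fun i => mul_mem (sg i).2 (hcA hw₀i i))
    (fun i => -(MvPolynomial.C (sg i) * P i))
  have hzz : ∀ i, (sg i : Ω) * z i = c i - θ * MvPolynomial.eval₂ A.subtype z (P i) := by
    intro i
    rw [hz i, MvPolynomial.eval₂_neg, MvPolynomial.eval₂_mul, MvPolynomial.eval₂_C,
      ValuationSubring.subtype_apply]
    linear_combination (c i - θ * MvPolynomial.eval₂ A.subtype z (P i)) * hsg i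
  set β := βf z with hβz
  set φ := φf z with hφz
  set ψ := ψf z with hψz
  set S : F := ∑ k ∈ Finset.range (n + 1), a k • β ^ (k + 2) with hS
  have hkey : β - ω * φ - ω * ψ = w₀ - θ • (S + a' • (ω * φ * ψ)) := by
    have h1 : β - ω * φ - ω * ψ = ∑ i, ((sg i : Ω) * z i) • B i := by
      show _ = ∑ i : Fin nv ⊕ (Fin nb ⊕ Fin nu), _
      rw [Fintype.sum_sum_type, Fintype.sum_sum_type]
      simp only [sg, B, βf, φf, ψf, hβz, hφz, hψz, Sum.elim_inl,
        Sum.elim_inr, OneMemClass.coe_one, one_mul, NegMemClass.coe_neg, neg_mul, neg_smul,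
        Finset.sum_neg_distrib, Finset.mul_sum, mul_smul_comm]
      abel
    have h2 : S + a' • (ω * φ * ψ) = ∑ i, MvPolynomial.eval₂ A.subtype z (P i) • B i := hP z
    rw [h1, hc, h2, Finset.smul_sum, ← Finset.sum_sub_distrib]
    exact Finset.sum_congr rfl fun i _ => by rw [hzz i, sub_smul, smul_smul]
  refine ⟨β, φ, ψ, ⟨?_, ?_⟩, ⟨?_, ?_⟩, ⟨?_, ?_⟩, ?_⟩
  · exact Submodule.sum_mem _ fun i _ => Submodule.smul_mem _ _ (hev i).1
  · exact (isInt_finsetSum M _ _ fun i _ => (M.isInt_smul (hzA _) (hev i).2).1).1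
  · exact Submodule.sum_mem _ fun i _ => Submodule.smul_mem _ _ (hbf i).1
  · exact (isInt_finsetSum M _ _ fun i _ => (M.isInt_smul (hzA _) (hbf i).2).1).1
  · exact Submodule.sum_mem _ fun i _ => Submodule.smul_mem _ _ (heu i).1
  · exact (isInt_finsetSum M _ _ fun i _ => (M.isInt_smul (hzA _) (heu i).2).1).1
  -- the identity
  have hSsum : ∑ k ∈ Finset.range (n + 1),
      (((n + 2).choose (k + 2) : ℕ) : F) * (s • β) ^ (k + 2) = (t * θ) • S := by
    conv_rhs => rw [hS, Finset.smul_sum]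
    refine Finset.sum_congr rfl fun k _ => ?_
    rw [smul_pow, smul_smul, ha]
    dsimp only
    rw [mul_div_cancel₀ _ (mul_ne_zero ht0 hθ0), ← smul_smul, Algebra.smul_def, Algebra.smul_def,
      map_natCast]
  have hθa : θ * a' = -t := by rw [ha', mul_neg, mul_div_cancel₀ _ hθ0]
  have hθa' : algebraMap Ω F θ * algebraMap Ω F a' = -algebraMap Ω F t := by
    rw [← map_mul, hθa, map_neg]
  have hps : ((n + 2 : ℕ) : F) * (s • β) = t • β := by
    rw [ht, hn, ← smul_smul, Algebra.smul_def (((n + 2 : ℕ) : Ω)), map_natCast]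
  conv_lhs => rw [hn, one_add_pow_eq]
  rw [hSsum, hps]
  simp only [Algebra.smul_def, map_mul] at hkey hω ⊢
  linear_combination (algebraMap Ω F t) * hkey - hω -
    (algebraMap Ω F t * (ω * φ * ψ)) * hθa'

end Fermat.Agent.FlatJ0
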