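import Fermat.Agent.FlatJ0.ExactResidual
import Fermat.Agent.FlatJ0.ExactSolve

/-!
# Divisibility by `p` of the congruence filtration

For `δ > 1 / (p - 1)` every class congruent to zero modulo `p^(δ + 1)` is `p` times a class
congruent to zero modulo `p^δ`. In two disjoint charts `C`, `Y` the class gives a congruent
function `ω` with divisor `(X_b - C) + (Y_b - Y)`; the congruence equation
`v ^ p = ω f u` is solved exactly, and the divisor of `v` over the reduction of `C` divides it.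
-/

noncomputable section

namespace Fermat.Agent.FlatJ0

open AlgebraicCurve ModularCurve Fermat.Agent.Reduction Fermat.Agent.FunctionFieldRR
open scoped Fermat.Agent.Reduction

local notation "Ω" => AlgebraicClosure ℚ
local notation "G_ℚ" => (AlgebraicClosure ℚ) ≃ₐ[ℚ] (AlgebraicClosure ℚ)

variable {A : ValuationSubring Ω} {F : IntermediateField Ω (LaurentSeries Ω)}
  {Fk : IntermediateField (IsLocalRing.ResidueField A) (LaurentSeries (IsLocalRing.ResidueField A))}
  {M : GoodModel A F Fk}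
  [IsAlgClosed (IsLocalRing.ResidueField A)] [IsFunctionField Ω F]
  [IsFunctionField (IsLocalRing.ResidueField A) Fk]
  [HasPrincipalDivisors Ω F] [HasPrincipalDivisors (IsLocalRing.ResidueField A) Fk]
  {R : M.ReductionMap} {g c : ℤ} (H : GoodModel.RRData (A := A) (F := F) (Fk := Fk) g c)
  {p : ℕ}

include H in
/-- `p` times `congClasses δ` contains `congClasses (δ + 1)`, for a reduction with infinitely many
residual places. -/
theorem exists_nsmul_eq_of_infinite (h : IsOver A p) (hinf : (Set.range R.toFun).Infinite)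
    {δ : ℚ} (hδ : 1 / ((p : ℚ) - 1) < δ) {x : Pic0 Ω F} (hx : x ∈ congClasses R h (δ + 1)) :
    ∃ y ∈ congClasses R h δ, p • y = x := by
  classical
  have hp2 := h.prime.two_le
  have hδ0 : 0 < δ := by
    have : (2 : ℚ) ≤ p := by exact_mod_cast hp2
    refine lt_trans (div_pos one_pos ?_) hδ
    linarith
  have hγ : 0 < δ + 1 := by linarith
  -- two disjoint charts
  obtain ⟨C, hC0, hCg, hlC, -⟩ := exists_nonspecial_lift H hinf (S := ∅) Set.finite_empty
  set Ck := Finsupp.mapDomain R.toFun C with hCk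
  obtain ⟨Y, hY0, hYg, hlY, hYS⟩ := exists_nonspecial_lift H hinf
    (S := (Ck.support : Set _)) Ck.support.finite_toSet
  set Yk := Finsupp.mapDomain R.toFun Y with hYk
  have hCk0 : 0 ≤ Ck := by simpa using mapDomain_mono R.toFun hC0
  have hYk0 : 0 ≤ Yk := by simpa using mapDomain_mono R.toFun hY0
  have hdisj : ∀ Q, Ck Q = 0 ∨ Yk Q = 0 := fun Q => by
    by_cases e : Ck Q = 0
    · exact Or.inl e
    · exact Or.inr (hYS Q (Finsupp.mem_support_iff.mpr e))
  -- coordinates of `x` and the function `ω`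
  obtain ⟨D, hD, cD⟩ := (FlatJ0.mem_congClasses hγ).mp hx
  have hgn : ((g.toNat : ℕ) : ℤ) = g := by
    rw [Int.toNat_of_nonneg]
    have h0 := H.low 0
    rw [map_zero, finrank_riemannRochSpace_zero] at h0
    omega
  obtain ⟨Xb, hXb0, hXbC, hXbD, -⟩ := exists_chart_rep H hgn hC0 (by rw [hCg, hgn]) hlC
    hD.degree_eq (by rw [cD.mapDomain_eq_zero h hγ]; exact (Divisor.principal (K := _) (F := _)).zero_mem)
  have cX : CongDiv R p (δ + 1) (Xb - C) :=
    CongDiv.sub_of_isPrincipal H h hγ hinf hXb0 hC0 hXbC hlC cD hXbD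
  have hXrep : IsRep (Xb - C) x := hD.congr (cX.degree_eq h hγ) hXbD
  have cX' : CongDiv R p (δ + 1) (-(Xb - C)) := cX.neg h hγ
  obtain ⟨Yb, hYb0, hYbY, hYbD, -⟩ := exists_chart_rep H hgn hY0 (by rw [hYg, hgn]) hlY
    (cX'.degree_eq h hγ) (by
      rw [cX'.mapDomain_eq_zero h hγ]; exact (Divisor.principal (K := _) (F := _)).zero_mem)
  obtain ⟨ω, hω, hωdiv⟩ :=
    exists_congruent_function H h hγ hinf hYb0 hY0 hYbY hlY cX' hYbD
  obtain ⟨hωi, hωr, hω0, -⟩ := h.of_isSmall_sub_one hγ hω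
  -- supports
  have hYoff : ∀ v : Place Ω F, Ck (R.toFun v) ≠ 0 → Y v = 0 ∧ Yb v = 0 := fun v hv => by
    have e : Yk (R.toFun v) = 0 := (hdisj _).resolve_left hv
    exact ⟨apply_eq_zero_of_mapDomain_apply R.toFun hY0 e,
      apply_eq_zero_of_mapDomain_apply R.toFun hYb0 (by rw [hYbY]; exact e)⟩
  have hXoff : ∀ v : Place Ω F, Ck (R.toFun v) = 0 → C v = 0 ∧ Xb v = 0 := fun v hv =>
    ⟨apply_eq_zero_of_mapDomain_apply R.toFun hC0 hv,
      apply_eq_zero_of_mapDomain_apply R.toFun hXb0 (by rw [hXbC]; exact hv)⟩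
  -- the three spaces
  set G : Divisor Ω F := C + Y with hG
  set Df : Divisor Ω F := (p - 1) • C + Xb with hDf
  set Du : Divisor Ω F := (p - 1) • Y + Yb with hDu
  set W : Divisor Ω F := C + Y - Xb - Yb with hW
  have hpC : ∀ D' : Divisor Ω F, (p - 1) • D' + D' = p • D' := fun D' => by
    rw [← succ_nsmul, Nat.sub_add_cancel h.prime.one_le]
  have hGk : Finsupp.mapDomain R.toFun G = Ck + Yk := by rw [hG, Finsupp.mapDomain_add]
  have hDfk : Finsupp.mapDomain R.toFun Df = p • Ck := by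
    rw [hDf, Finsupp.mapDomain_add, Finsupp.mapDomain_smul, hXbC, ← hCk, ← succ_nsmul,
      Nat.sub_add_cancel h.prime.one_le]
  have hDuk : Finsupp.mapDomain R.toFun Du = p • Yk := by
    rw [hDu, Finsupp.mapDomain_add, Finsupp.mapDomain_smul, hYbY, ← hYk, ← succ_nsmul,
      Nat.sub_add_cancel h.prime.one_le]
  have hdegk : ∀ D' : Divisor Ω F,
      Divisor.degree (Finsupp.mapDomain R.toFun D') = Divisor.degree D' :=
    fun D' => GoodModel.ReductionMap.degree_map D' R.toFun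
  have hup : ∀ {C' : Divisor Ω F} {D' : Divisor Ω F}, Divisor.degree C' = g →
      Module.finrank (IsLocalRing.ResidueField A)
        (riemannRochSpace (Finsupp.mapDomain R.toFun C')) ≤ 1 →
      Finsupp.mapDomain R.toFun C' ≤ Finsupp.mapDomain R.toFun D' →
      (Module.finrank (IsLocalRing.ResidueField A)
        (riemannRochSpace (Finsupp.mapDomain R.toFun D')) : ℤ) ≤ Divisor.degree D' + 1 - g := by
    intro C' D' e1 e2 e3
    have := finrank_le_of_chart (by rw [hdegk, e1]) e2 e3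
    rwa [hdegk] at this
  have hCG : Ck ≤ Finsupp.mapDomain R.toFun G := by rw [hGk]; exact le_add_of_nonneg_right hYk0
  have hCDf : Ck ≤ Finsupp.mapDomain R.toFun Df := by
    rw [hDfk]; exact le_self_nsmul hCk0 (by omega)
  have hYDu : Yk ≤ Finsupp.mapDomain R.toFun Du := by
    rw [hDuk]; exact le_self_nsmul hYk0 (by omega)
  have hCE : Ck ≤ Finsupp.mapDomain R.toFun (p • G) := by
    rw [Finsupp.mapDomain_smul]
    exact hCG.trans (le_self_nsmul (hGk ▸ add_nonneg hCk0 hYk0) (by omega))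
  obtain ⟨nv, nb, nu, sv, sb, su, hsv, hsb, hsu, hli, hcount⟩ :=
    exists_residual_family hCk0 hYk0 (low_of_lift R H.low hdegk) (by rw [hdegk, hCg])
      (by rw [hdegk, hYg]) hlC hlY hdisj (n := p) h.prime.one_le
  choose ev hev hevi hevr using fun i => exists_lift_of_finrank_le (R := R) H.low
    (hup hCg hlC hCG) (s := sv i) (by rw [hGk]; exact hsv i)
  choose bf hbf hbfi hbfr using fun i => exists_lift_of_finrank_le (R := R) H.low
    (hup hCg hlC hCDf) (s := sb i) (by rw [hDfk]; exact hsb i)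
  choose eu heu heui heur using fun i => exists_lift_of_finrank_le (R := R) H.low
    (hup hYg hlY hYDu) (s := su i) (by rw [hDuk]; exact hsu i)
  have hωW : ω ∈ riemannRochSpace W := by
    rw [mem_rr_iff_dvs hω0, hW, show C + Y - Xb - Yb + dvs (K := Ω) ω =
      -(Yb - Y) + (-(Xb - C) + dvs (K := Ω) ω) by abel, ← hωdiv, neg_add_cancel]
  have hWf : W + Df ≤ p • G := by
    rw [hW, hDf, hG, nsmul_add, show C + Y - Xb - Yb + ((p - 1) • C + Xb) =
      ((p - 1) • C + C) + (Y - Yb) by abel, hpC]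
    exact add_le_add le_rfl ((sub_le_self _ hYb0).trans (le_self_nsmul hY0 (by omega)))
  have hWu : W + Du ≤ p • G := by
    rw [hW, hDu, hG, nsmul_add, show C + Y - Xb - Yb + ((p - 1) • Y + Yb) =
      (C - Xb) + ((p - 1) • Y + Y) by abel, hpC]
    exact add_le_add ((sub_le_self _ hXb0).trans (le_self_nsmul hC0 (by omega))) le_rfl
  have hWfu : W + Df + Du ≤ p • G := by
    rw [hW, hDf, hDu, hG, nsmul_add,
      show C + Y - Xb - Yb + ((p - 1) • C + Xb) + ((p - 1) • Y + Yb) =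
        ((p - 1) • C + C) + ((p - 1) • Y + Y) by abel, hpC, hpC]
  have hGk' : ∀ k : ℕ, 1 ≤ k → k ≤ p → k • G ≤ p • G := fun k _ hk =>
    nsmul_le_nsmul_left (add_nonneg hC0 hY0) hk
  -- the basis of the target lattice
  set B : Fin nv ⊕ (Fin nb ⊕ Fin nu) → F :=
    Sum.elim ev (Sum.elim (fun j => ω * bf j) (fun j => ω * eu j)) with hB
  have hBmem : ∀ i, B i ∈ riemannRochSpace (p • G) ∧ M.IsInt (B i) := by
    rintro (i | j | j)
    · exact ⟨rr_mono (le_self_nsmul (add_nonneg hC0 hY0) (by omega)) (hev i), hevi i⟩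
    · exact ⟨rr_mono hWf (rr_mul hωW (hbf j)), (M.isInt_mul hωi (hbfi j)).1⟩
    · exact ⟨rr_mono hWu (rr_mul hωW (heu j)), (M.isInt_mul hωi (heui j)).1⟩
  have hBred : (fun i => M.red (B i)) = Sum.elim sv (Sum.elim sb su) := by
    refine funext ?_
    rintro (i | j | j)
    · exact hevr i
    · show M.red (ω * bf j) = _
      rw [(M.isInt_mul hωi (hbfi j)).2, hωr, one_mul, hbfr]; rfl
    · show M.red (ω * eu j) = _
      rw [(M.isInt_mul hωi (heui j)).2, hωr, one_mul, heur]; rfl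
  have hfd := finiteDimensional_riemannRochSpace (K := Ω) (p • G)
  have hcard : Module.finrank Ω (riemannRochSpace (p • G)) ≤
      Fintype.card (Fin nv ⊕ (Fin nb ⊕ Fin nu)) := by
    have e1 := (Nat.cast_le (α := ℤ)).mpr (R.finrank_le (p • G))
    have e2 := hup hCg hlC hCE
    rw [map_nsmul, hG, map_add, hCg, hYg, nsmul_eq_mul] at e2
    rw [← hG] at e2
    simp only [Fintype.card_sum, Fintype.card_fin]
    have : (Module.finrank Ω (riemannRochSpace (p • G)) : ℤ) ≤ (nv + (nb + nu) : ℕ) := by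
      linarith
    exact_mod_cast this
  have hbasis : ∀ f ∈ riemannRochSpace (p • G), ∃ a : Fin nv ⊕ (Fin nb ⊕ Fin nu) → Ω,
      f = ∑ i, a i • B i ∧ (M.IsInt f → ∀ i, a i ∈ A) :=
    fun f hf => exists_coords B hBmem (by rw [hBred]; exact hli) hcard hf
  -- the scalar and the equation
  obtain ⟨s, hs0, hs⟩ := h.exists_ord_eq δ
  set t : Ω := (p : Ω) * s with ht
  have ht0 : t ≠ 0 := mul_ne_zero h.natCast_ne_zero hs0
  have htord : ord A p t = δ + 1 := by
    rw [ht, h.ord_mul h.natCast_ne_zero hs0, h.ord_p, hs, add_comm]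
  have hsn : Near A p δ s := Or.inr hs.ge
  have htn : Near A p (δ + 1) t := Or.inr htord.ge
  obtain ⟨s', w', hs', hw'i, hw'⟩ := hω
  have hs't : s' / t ∈ A := h.div_mem_of_near hs' ht0 htord.le
  set w₀ : F := (s' / t) • w' with hw₀def
  have hωw : ω - 1 = t • w₀ := by rw [hw', hw₀def, smul_smul, mul_div_cancel₀ _ ht0]
  have h1Df : (1 : F) ∈ riemannRochSpace Df :=
    one_mem_rr (add_nonneg (nsmul_nonneg hC0 _) hXb0)
  have hw₀ : w₀ ∈ riemannRochSpace (p • G) := by
    rw [show w₀ = t⁻¹ • (ω - 1) by rw [hωw, inv_smul_smul₀ ht0]]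
    refine Submodule.smul_mem _ _ (Submodule.sub_mem _ ?_ ?_)
    · have := rr_mono hWf (rr_mul hωW h1Df)
      rwa [mul_one] at this
    · exact one_mem_rr (nsmul_nonneg (add_nonneg hC0 hY0) p)
  obtain ⟨β, φ, ψ, ⟨hβ, hβi⟩, ⟨hφ, hφi⟩, ⟨hψ, hψi⟩, heq⟩ :=
    exists_solution h (fun i => ⟨hev i, hevi i⟩) (fun i => ⟨hbf i, hbfi i⟩)
      (fun i => ⟨heu i, heui i⟩) hωW hωi hw₀ (M.isInt_smul hs't hw'i).1 hGk' hWfu hbasis hδ hs0 hs
      hωw
  set v : F := 1 + s • β with hv
  set f : F := 1 + t • φ with hf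
  set u : F := 1 + t • ψ with hu
  have hvs : IsSmall M p δ (v - 1) := by
    rw [hv, add_sub_cancel_left]; exact isSmall_of_near hsn hβi
  obtain ⟨hfi, hfr, hf0, -⟩ := h.of_isSmall_sub_one hγ (x := f) (M := M)
    (by rw [hf, add_sub_cancel_left]; exact isSmall_of_near htn hφi)
  obtain ⟨hui, hur, hu0, -⟩ := h.of_isSmall_sub_one hγ (x := u) (M := M)
    (by rw [hu, add_sub_cancel_left]; exact isSmall_of_near htn hψi)
  obtain ⟨-, -, hv0, -⟩ := h.of_isSmall_sub_one hδ0 hvs
  have hfD : f ∈ riemannRochSpace Df :=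
    Submodule.add_mem _ h1Df (Submodule.smul_mem _ _ hφ)
  have huD : u ∈ riemannRochSpace Du :=
    Submodule.add_mem _ (one_mem_rr (add_nonneg (nsmul_nonneg hY0 _) hYb0))
      (Submodule.smul_mem _ _ hψ)
  -- `f` is a unit off the reduction of `C`, `u` on it
  have hford : ∀ P : Place Ω F, Ck (R.toFun P) = 0 → P.ord f = 0 := by
    intro P hP
    refine HolAt.ord_eq_zero (R := R) (Q := R.toFun P) hfi (fun P' hP' => ?_)
      (by rw [hfr]; exact one_ne_zero) (by rw [hfr, Place.ord_one]) rfl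
    obtain ⟨e1, e2⟩ := hXoff P' (by rw [hP']; exact hP)
    rw [← ord_nonneg_iff]
    have := (mem_rr hf0).mp hfD P'
    simp only [hDf, Finsupp.add_apply, Finsupp.smul_apply, e1, e2, smul_zero, add_zero,
      neg_zero] at this
    exact this
  have huord : ∀ P : Place Ω F, Ck (R.toFun P) ≠ 0 → P.ord u = 0 := by
    intro P hP
    refine HolAt.ord_eq_zero (R := R) (Q := R.toFun P) hui (fun P' hP' => ?_)
      (by rw [hur]; exact one_ne_zero) (by rw [hur, Place.ord_one]) rfl
    obtain ⟨e1, e2⟩ := hYoff P' (by rw [hP']; exact hP)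
    rw [← ord_nonneg_iff]
    have := (mem_rr hu0).mp huD P'
    simp only [hDu, Finsupp.add_apply, Finsupp.smul_apply, e1, e2, smul_zero, add_zero,
      neg_zero] at this
    exact this
  -- the divisor dividing `X_b - C`
  set Dy : Divisor Ω F := (dvs (K := Ω) v).filter (fun P => Ck (R.toFun P) ≠ 0) with hDy
  have cy : CongDiv R p δ Dy := by
    intro Q
    by_cases hQ : Ck Q ≠ 0
    · refine ⟨v, hvs, fun P hP => ?_⟩
      rw [hDy, Finsupp.filter_apply, if_pos (by rw [hP]; exact hQ), dvs_apply]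
    · refine ⟨1, by rw [sub_self]; exact isSmall_zero, fun P hP => ?_⟩
      rw [hDy, Finsupp.filter_apply, if_neg (by rw [hP]; exact hQ), Place.ord_one]
  have hydeg : Dy ∈ Divisor.degZero (K := Ω) (F := F) :=
    Divisor.mem_degZero.mpr (cy.degree_eq h hδ0)
  have hyrep : IsRep Dy (Pic0.mk ⟨Dy, hydeg⟩) := ⟨hydeg, rfl⟩
  refine ⟨_, CongDiv.mem_congClasses hδ0 hyrep cy, ((hyrep.nsmul p).eq_iff hXrep).mpr
    ⟨f, hf0, fun P => ?_⟩⟩
  rw [Finsupp.sub_apply, Finsupp.smul_apply, hDy, Finsupp.filter_apply]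
  by_cases hP : Ck (R.toFun P) ≠ 0
  · obtain ⟨e1, e2⟩ := hYoff P hP
    have hω' := congrArg (fun D : Divisor Ω F => D P) hωdiv
    simp only [Finsupp.sub_apply, Finsupp.add_apply, Finsupp.neg_apply, dvs_apply, e1, e2] at hω'
    have he := congrArg P.ord heq
    rw [Fermat.Agent.FunctionFieldRR.ord_pow, P.ord_mul (mul_ne_zero hω0 hf0) hu0,
      P.ord_mul hω0 hf0, huord P hP] at he
    rw [if_pos hP, dvs_apply, Finsupp.sub_apply, nsmul_eq_mul]
    linarith
  · obtain ⟨e1, e2⟩ := hXoff P (not_not.mp hP)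
    rw [if_neg hP, Finsupp.sub_apply, e1, e2, hford P (not_not.mp hP)]
    simp

include H in
/-- `p` times `congClasses δ` contains `congClasses (δ + 1)`. -/
theorem exists_nsmul_eq {gal : G_ℚ →* SemilinearAut Ω F} (h : IsOver A p)
    (hd : FixedPlacesDense gal R) {δ : ℚ} (hδ : 1 / ((p : ℚ) - 1) < δ) {x : Pic0 Ω F}
    (hx : x ∈ congClasses R h (δ + 1)) : ∃ y ∈ congClasses R h δ, p • y = x :=
  exists_nsmul_eq_of_infinite H h (fun hfin => by
    obtain ⟨P, hP, -⟩ := hd _ hfin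
    exact hP ⟨P, rfl⟩) hδ hx

end Fermat.Agent.FlatJ0
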