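import Fermat.Agent.FlatJ0.Ord
import Mathlib.RingTheory.Unramified.Finite
import Mathlib.RingTheory.Kaehler.Basic
import Mathlib.Algebra.MvPolynomial.PDeriv
import Mathlib.LinearAlgebra.Matrix.Adjugate

/-!
# Fixed points of contracting polynomial maps

`z = c + θ q(z)` has a solution in `A^ι` when `c` and the coefficients of `q` are integral and
`θ` is small. The field is not complete: the fixed-point equations cut out an unramified, hence
finite, algebra, so the iterates converge to a point with algebraic coordinates.
-/

noncomputable section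

namespace Fermat.Agent.FlatJ0

open MvPolynomial

local notation "Ω" => AlgebraicClosure ℚ

variable {A : ValuationSubring Ω} {p : ℕ} {ι : Type*}

theorem eval₂_subtype_mem (q : MvPolynomial ι A) {z : ι → Ω} (hz : ∀ i, z i ∈ A) :
    eval₂ A.subtype z q ∈ A := by
  induction q using MvPolynomial.induction_on with
  | C a => simp
  | add f g hf hg => rw [eval₂_add]; exact add_mem hf hg
  | mul_X f i hf => rw [eval₂_mul, eval₂_X]; exact mul_mem hf (hz i)

theorem IsOver.near_eval₂_sub (h : IsOver A p) (q : MvPolynomial ι A) {z z' : ι → Ω}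
    (hz : ∀ i, z i ∈ A) (hz' : ∀ i, z' i ∈ A) {γ : ℚ} (hzz : ∀ i, Near A p γ (z i - z' i)) :
    Near A p γ (eval₂ A.subtype z q - eval₂ A.subtype z' q) := by
  induction q using MvPolynomial.induction_on with
  | C a => simp [near_zero]
  | add f g hf hg =>
    rw [eval₂_add, eval₂_add, add_sub_add_comm]
    exact h.near_add hf hg
  | mul_X f i hf =>
    rw [eval₂_mul, eval₂_mul, eval₂_X, eval₂_X,
      show ∀ a b c d : Ω, a * b - c * d = (a - c) * b + c * (b - d) by intros; ring]
    exact h.near_add (h.near_mul_right hf (hz i))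
      (h.near_mul_left (eval₂_subtype_mem f hz') (hzz i))

/-- A polynomial is bounded on integral points. -/
theorem IsOver.exists_near_eval_int (h : IsOver A p) {σ : Type*} (f : MvPolynomial σ Ω) :
    ∃ β : ℚ, ∀ z : σ → Ω, (∀ i, z i ∈ A) → Near A p β (eval z f) := by
  induction f using MvPolynomial.induction_on with
  | C a =>
    refine ⟨ord A p a, fun z _ => ?_⟩
    rw [eval_C]
    exact Or.inr le_rfl
  | add f g hf hg =>
    obtain ⟨β, hβ⟩ := hf
    obtain ⟨γ, hγ⟩ := hg
    refine ⟨min β γ, fun z hz => ?_⟩
    rw [map_add]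
    exact h.near_add ((hβ z hz).mono (min_le_left _ _)) ((hγ z hz).mono (min_le_right _ _))
  | mul_X f i hf =>
    obtain ⟨β, hβ⟩ := hf
    refine ⟨β, fun z hz => ?_⟩
    rw [map_mul, eval_X]
    exact h.near_mul_right (hβ z hz) (hz i)

/-- A product eventually bounded below in each factor is so. -/
theorem IsOver.exists_not_near_prod (h : IsOver A p) (w : ℕ → Ω) (s : Multiset Ω)
    (hs : ∀ r ∈ s, ∃ (γ : ℚ) (K : ℕ), ∀ k, K ≤ k → ¬ Near A p γ (w k - r)) :
    ∃ (γ : ℚ) (K : ℕ), ∀ k, K ≤ k → ¬ Near A p γ (s.map fun r => w k - r).prod := by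
  induction s using Multiset.induction_on with
  | empty =>
    refine ⟨1, 0, fun k _ hn => ?_⟩
    rw [Multiset.map_zero, Multiset.prod_zero] at hn
    rcases hn with e | e
    · exact one_ne_zero e
    · rw [h.ord_one] at e; linarith
  | cons r s ih =>
    obtain ⟨γ, K, hK⟩ := hs r (Multiset.mem_cons_self r s)
    obtain ⟨γ', K', hK'⟩ := ih fun r' hr' => hs r' (Multiset.mem_cons_of_mem hr')
    refine ⟨γ + γ', max K K', fun k hk hn => ?_⟩
    have h1 := hK k (le_of_max_le_left hk)
    have h2 := hK' k (le_of_max_le_right hk)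
    simp only [Near, not_or, not_le] at h1 h2
    rw [Multiset.map_cons, Multiset.prod_cons] at hn
    rcases hn with e | e
    · exact mul_ne_zero h1.1 h2.1 e
    · rw [h.ord_mul h1.1 h2.1] at e; linarith [h1.2, h2.2]

section Unramified

variable {K : Type*} [Field K] [Fintype ι] [DecidableEq ι]

/-- The Jacobian of `X - G`. -/
def fixJac (G : ι → MvPolynomial ι K) : Matrix ι ι (MvPolynomial ι K) :=
  fun i j => (if i = j then 1 else 0) - pderiv j (G i)

/-- The equations `X = G` together with an inverse of the Jacobian. -/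
def fixRel (G : ι → MvPolynomial ι K) : Option ι → MvPolynomial (Option ι) K
  | none => X none * rename some (fixJac G).det - 1
  | some i => X (some i) - rename some (G i)

/-- The algebra of the fixed points with invertible Jacobian. -/
abbrev FixAlg (G : ι → MvPolynomial ι K) :=
  MvPolynomial (Option ι) K ⧸ Ideal.span (Set.range (fixRel G))

theorem formallyUnramified_fixAlg (G : ι → MvPolynomial ι K) :
    Algebra.FormallyUnramified K (FixAlg G) := by
  set P := MvPolynomial (Option ι) K
  set d : Derivation K P (Ω[FixAlg G⁄K]) :=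
    (KaehlerDifferential.D K (FixAlg G)).compAlgebraMap P with hd
  have hdR : ∀ s, d (fixRel G s) = 0 := fun s => by
    show KaehlerDifferential.D K (FixAlg G) (algebraMap P (FixAlg G) (fixRel G s)) = 0
    rw [show algebraMap P (FixAlg G) (fixRel G s) = 0 from
      Ideal.Quotient.eq_zero_iff_mem.mpr (Ideal.subset_span ⟨s, rfl⟩), map_zero]
  have key : ∀ f : MvPolynomial ι K, d (rename some f) =
      ∑ j, rename some (pderiv j f) • d (X (some j)) := by
    intro f
    induction f using MvPolynomial.induction_on with
    | C a =>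
      rw [rename_C, derivation_C]
      exact (Finset.sum_eq_zero fun j _ => by rw [pderiv_C, map_zero, zero_smul]).symm
    | add f g hf hg =>
      rw [map_add, map_add, hf, hg, ← Finset.sum_add_distrib]
      exact Finset.sum_congr rfl fun j _ => by rw [map_add, map_add, add_smul]
    | mul_X f i hf =>
      rw [map_mul, rename_X, Derivation.leibniz, hf, Finset.smul_sum]
      rw [show rename some f • d (X (some i)) =
          ∑ j, (rename some f * rename some (pderiv j (X i))) • d (X (some j)) by
        rw [Finset.sum_eq_single i (fun j _ hj => by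
            rw [pderiv_X_of_ne hj.symm, map_zero, mul_zero, zero_smul])
          (fun hi => absurd (Finset.mem_univ i) hi), pderiv_X_self, map_one, mul_one]]
      rw [← Finset.sum_add_distrib]
      refine Finset.sum_congr rfl fun j _ => ?_
      rw [pderiv_mul, map_add, map_mul, map_mul, rename_X, add_smul, smul_smul,
        mul_comm (X (some i)), add_comm]
  set J : Matrix ι ι P := (fixJac G).map (rename some) with hJ
  have hrow : ∀ i, ∑ j, J i j • d (X (some j)) = 0 := by
    intro i
    have h1 := hdR (some i)
    simp only [fixRel] at h1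
    rw [map_sub, key] at h1
    refine Eq.trans ?_ h1
    simp only [hJ, Matrix.map_apply, fixJac, map_sub, sub_smul, Finset.sum_sub_distrib]
    congr 1
    rw [Finset.sum_eq_single i (fun j _ hj => by rw [if_neg hj.symm, map_zero, zero_smul])
      (fun hi => absurd (Finset.mem_univ i) hi), if_pos rfl, map_one, one_smul]
  have hdet : rename some (fixJac G).det = J.det := by
    rw [hJ]
    exact RingHom.map_det (rename (R := K) (some : ι → Option ι)).toRingHom (fixJac G)
  have hdX : ∀ i, J.det • d (X (some i)) = 0 := by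
    intro i
    have h1 : ∑ k, J.adjugate i k • (∑ j, J k j • d (X (some j))) = 0 :=
      Finset.sum_eq_zero fun k _ => by rw [hrow k, smul_zero]
    refine Eq.trans ?_ h1
    simp only [Finset.smul_sum, smul_smul]
    rw [Finset.sum_comm]
    simp only [← Finset.sum_smul]
    rw [Finset.sum_eq_single i ?_ (fun hi => absurd (Finset.mem_univ i) hi)]
    · rw [show ∑ k, J.adjugate i k * J k i = (J.adjugate * J) i i from rfl, Matrix.adjugate_mul,
        Matrix.smul_apply, Matrix.one_apply_eq, smul_eq_mul, mul_one]
    · intro j _ hj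
      rw [show ∑ k, J.adjugate i k * J k j = (J.adjugate * J) i j from rfl, Matrix.adjugate_mul,
        Matrix.smul_apply, Matrix.one_apply_ne hj.symm, smul_zero, zero_smul]
  have hunit : ∀ m : Ω[FixAlg G⁄K], J.det • m = 0 → m = 0 := by
    intro m hm
    have h1 : algebraMap P (FixAlg G) (X none * J.det) = 1 := by
      rw [← hdet, ← map_one (algebraMap P (FixAlg G))]
      exact (Ideal.Quotient.eq.mpr (Ideal.subset_span ⟨none, rfl⟩))
    have h2 : (X none * J.det : P) • m = m := by
      rw [← algebraMap_smul (FixAlg G) (X none * J.det : P) m, h1, one_smul]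
    rw [← h2, mul_smul, hm, smul_zero]
  have hsome : ∀ i, d (X (some i)) = 0 := fun i => hunit _ (hdX i)
  have hnone : d (X none) = 0 := by
    refine hunit _ ?_
    have h1 := hdR none
    simp only [fixRel] at h1
    rw [map_sub, Derivation.map_one_eq_zero, sub_zero, Derivation.leibniz, key,
      Finset.sum_eq_zero (fun j _ => by rw [hsome j, smul_zero]), smul_zero, zero_add,
      hdet] at h1
    exact h1
  have hd0 : d = 0 := MvPolynomial.derivation_ext fun s => by
    cases s with
    | none => simpa using hnone
    | some i => simpa using hsome i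
  refine ⟨⟨fun a b => ?_⟩⟩
  have hz : ∀ x : Ω[FixAlg G⁄K], x = 0 := by
    intro x
    have hx : x ∈ Submodule.span (FixAlg G)
        (Set.range (KaehlerDifferential.D K (FixAlg G))) := by
      rw [KaehlerDifferential.span_range_derivation]; trivial
    induction hx using Submodule.span_induction with
    | mem y hy =>
      obtain ⟨b, rfl⟩ := hy
      obtain ⟨f, rfl⟩ := Ideal.Quotient.mk_surjective b
      show d f = 0
      rw [hd0]; rfl
    | zero => rfl
    | add y z _ _ hy hz => rw [hy, hz, add_zero]
    | smul c y _ hy => rw [hy, smul_zero]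
  rw [hz a, hz b]

/-- Each coordinate is a root of a monic polynomial in one variable on the fixed points. -/
theorem exists_monic_mem_fixRel (G : ι → MvPolynomial ι K) (i : ι) :
    ∃ P : Polynomial K, P.Monic ∧
      Polynomial.aeval (X (some i) : MvPolynomial (Option ι) K) P ∈
        Ideal.span (Set.range (fixRel G)) := by
  have := formallyUnramified_fixAlg G
  have : Module.Finite K (FixAlg G) := Algebra.FormallyUnramified.finite_of_free K (FixAlg G)
  obtain ⟨P, hP, hP0⟩ := IsIntegral.of_finite K
    (Ideal.Quotient.mk (Ideal.span (Set.range (fixRel G))) (X (some i)))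
  refine ⟨P, hP, Ideal.Quotient.eq_zero_iff_mem.mp ?_⟩
  rw [← Ideal.Quotient.mkₐ_eq_mk K, ← Polynomial.aeval_algHom_apply, Ideal.Quotient.mkₐ_eq_mk,
    Polynomial.aeval_def]
  exact hP0

end Unramified

/-- The fixed point of a contracting polynomial map. -/
theorem IsOver.exists_fixedPoint (h : IsOver A p) [Fintype ι] {ε : ℚ} (hε : 0 < ε) {θ : Ω}
    (hθ : Near A p ε θ) {c : ι → Ω} (hc : ∀ i, c i ∈ A) (q : ι → MvPolynomial ι A) :
    ∃ z : ι → Ω, (∀ i, z i ∈ A) ∧ ∀ i, z i = c i + θ * eval₂ A.subtype z (q i) := by
  classical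
  have hθA : θ ∈ A := h.mem_of_near hθ hε.le
  let step : (ι → Ω) → ι → Ω := fun z i => c i + θ * eval₂ A.subtype z (q i)
  let z : ℕ → ι → Ω := fun k => step^[k] c
  have zsucc : ∀ k, z (k + 1) = step (z k) := fun k => Function.iterate_succ_apply' step k c
  have hzA : ∀ k i, z k i ∈ A := by
    intro k
    induction k with
    | zero => exact hc
    | succ k ih =>
      intro i
      rw [zsucc]
      exact add_mem (hc i) (mul_mem hθA (eval₂_subtype_mem _ ih))
  have hstep : ∀ (k : ℕ) i, Near A p (k * ε) (z (k + 1) i - z k i) := by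
    intro k
    induction k with
    | zero =>
      intro i
      simpa using h.near_of_mem (sub_mem (hzA 1 i) (hzA 0 i))
    | succ k ih =>
      intro i
      rw [zsucc (k + 1), zsucc k]
      show Near A p _ (c i + θ * _ - (c i + θ * _))
      rw [add_sub_add_left_eq_sub, ← mul_sub, Nat.cast_succ,
        show ((k : ℚ) + 1) * ε = ε + k * ε by ring]
      refine h.near_mul hθ ?_
      rw [← zsucc k]
      exact h.near_eval₂_sub _ (hzA _) (hzA _) ih
  have hcauchy : ∀ (k l : ℕ) i, Near A p (k * ε) (z (k + l) i - z k i) := by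
    intro k l
    induction l with
    | zero => intro i; simp [near_zero]
    | succ l ih =>
      intro i
      refine h.near_trans ((hstep (k + l) i).mono ?_) (ih i)
      exact mul_le_mul_of_nonneg_right (by exact_mod_cast Nat.le_add_right k l) hε.le
  -- the polynomial system
  set G : ι → MvPolynomial ι Ω := fun i => C (c i) + C θ * map A.subtype (q i) with hG
  have hGev : ∀ (w : ι → Ω) i, eval w (G i) = c i + θ * eval₂ A.subtype w (q i) := fun w i => by
    simp [hG, eval_map]
  -- the Jacobian is invertible at the iterates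
  have hinv : ∀ k, ∃ y ∈ A, y * eval (z k) (fixJac G).det = 1 := by
    intro k
    set θA : A := ⟨θ, hθA⟩
    set N : Matrix ι ι A := fun i j => (if i = j then 1 else 0) -
      θA * ⟨eval₂ A.subtype (z k) (pderiv j (q i)), eval₂_subtype_mem _ (hzA k)⟩ with hN
    have hmap : (fixJac G).map (eval (z k)) = N.map A.subtype := by
      ext i j
      rw [Matrix.map_apply, Matrix.map_apply, fixJac, hN]
      simp only [map_sub, map_mul]
      congr 1
      · split_ifs <;> simp
      · simp [hG, pderiv_map, eval_map, θA]
    have hdet : eval (z k) (fixJac G).det = ((N.det : A) : Ω) := by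
      rw [RingHom.map_det, RingHom.mapMatrix_apply, hmap]
      exact (RingHom.map_det A.subtype N).symm
    have hunit : IsUnit N.det := by
      rw [← IsLocalRing.residue_ne_zero_iff_isUnit, RingHom.map_det]
      have hone : (IsLocalRing.residue A).mapMatrix N = 1 := by
        have hθ0 : IsLocalRing.residue A θA = 0 := by
          rw [IsLocalRing.residue_eq_zero_iff, ← ValuationSubring.coe_mem_nonunits_iff]
          exact h.nonunit_of_near hθ hε
        ext i j
        rw [RingHom.mapMatrix_apply, Matrix.map_apply, hN, Matrix.one_apply]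
        simp only [map_sub, map_mul, hθ0, zero_mul, sub_zero]
        split_ifs <;> simp
      rw [hone, Matrix.det_one]
      exact one_ne_zero
    obtain ⟨u, hu⟩ := hunit
    refine ⟨((↑u⁻¹ : A) : Ω), (↑u⁻¹ : A).2, ?_⟩
    rw [hdet, ← hu, ← MulMemClass.coe_mul, Units.inv_mul]
    rfl
  choose y hyA hy using hinv
  let pt : ℕ → Option ι → Ω := fun k o => o.elim (y k) (z k)
  have hptA : ∀ k o, pt k o ∈ A := fun k o => by
    cases o with
    | none => exact hyA k
    | some i => exact hzA k i
  have hren : ∀ k (f : MvPolynomial ι Ω), eval (pt k) (rename some f) = eval (z k) f :=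
    fun k f => by rw [eval_rename]; rfl
  have hrel : ∀ (k : ℕ) o, Near A p (k * ε) (eval (pt k) (fixRel G o)) := by
    intro k o
    cases o with
    | none =>
      simp only [fixRel, map_sub, map_mul, eval_X, map_one, hren]
      show Near A p _ (y k * _ - 1)
      rw [hy, sub_self]
      exact near_zero _
    | some i =>
      simp only [fixRel, map_sub, eval_X, hren, hGev]
      show Near A p _ (z k i - step (z k) i)
      rw [← zsucc]
      exact h.near_sub_comm (hstep k i)
  -- every coordinate converges
  have hlim : ∀ i, ∃ r : Ω, ∀ γ : ℚ, ∃ K : ℕ, ∀ k, K ≤ k → Near A p γ (z k i - r) := by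
    intro i
    obtain ⟨P, hPm, hPI⟩ := exists_monic_mem_fixRel G i
    obtain ⟨a, ha⟩ := Ideal.mem_span_range_iff_exists_fun.mp hPI
    choose β hβ using fun o => h.exists_near_eval_int (a o)
    obtain ⟨β₀, hβ₀⟩ := Finite.bddBelow_range β
    have hnear : ∀ k : ℕ, Near A p (β₀ + k * ε) (P.eval (z k i)) := by
      intro k
      have e : P.eval (z k i) = eval (pt k) (∑ o, a o * fixRel G o) := by
        rw [ha]
        show _ = MvPolynomial.aeval (pt k) _
        rw [← Polynomial.aeval_algHom_apply, MvPolynomial.aeval_X, Polynomial.coe_aeval_eq_eval]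
        rfl
      rw [e, map_sum]
      refine h.near_sum _ _ fun o _ => ?_
      rw [map_mul]
      exact h.near_mul ((hβ o (pt k) (hptA k)).mono (hβ₀ ⟨o, rfl⟩)) (hrel k o)
    have hprod : ∀ w, P.eval w = (P.roots.map fun r => w - r).prod := by
      intro w
      conv_lhs => rw [(IsAlgClosed.splits P).eq_prod_roots_of_monic hPm]
      rw [Polynomial.eval_multiset_prod, Multiset.map_map]
      exact congrArg Multiset.prod (Multiset.map_congr rfl fun r _ => by simp)
    by_contra hcon
    push Not at hcon
    obtain ⟨γ, K, hK⟩ := h.exists_not_near_prod (fun k => z k i) P.roots fun r _ => by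
      obtain ⟨γ, hγ⟩ := hcon r
      obtain ⟨K, hK⟩ := exists_nat_ge (γ / ε)
      rw [div_le_iff₀ hε] at hK
      refine ⟨γ, K, fun k hk hnk => ?_⟩
      obtain ⟨k', hk', hnk'⟩ := hγ K
      obtain ⟨l, rfl⟩ := Nat.exists_eq_add_of_le hk
      obtain ⟨l', rfl⟩ := Nat.exists_eq_add_of_le hk'
      refine hnk' (h.near_trans ((hcauchy K l' i).mono hK) (h.near_trans ?_ hnk))
      exact h.near_sub_comm ((hcauchy K l i).mono hK)
    obtain ⟨m, hm⟩ := exists_nat_ge ((γ - β₀) / ε)
    rw [div_le_iff₀ hε] at hm
    refine hK (max K m) (le_max_left _ _) ?_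
    rw [← hprod]
    refine (hnear _).mono ?_
    have : (m : ℚ) * ε ≤ (max K m : ℕ) * ε :=
      mul_le_mul_of_nonneg_right (by exact_mod_cast le_max_right K m) hε.le
    linarith
  choose r hr using hlim
  have hrA : ∀ i, r i ∈ A := fun i => by
    obtain ⟨K, hK⟩ := hr i 0
    have := sub_mem (hzA K i) (h.mem_of_near (hK K le_rfl) le_rfl)
    rwa [sub_sub_cancel] at this
  refine ⟨r, hrA, fun i => sub_eq_zero.mp (eq_zero_of_forall_near (A := A) (p := p) fun γ => ?_)⟩
  choose K hK using fun j => hr j γ
  set k := Finset.univ.sup K with hk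
  have hkj : ∀ j, K j ≤ k := fun j => Finset.le_sup (Finset.mem_univ j)
  refine h.near_trans (h.near_sub_comm (hK i (k + 1) ((hkj i).trans (Nat.le_succ k)))) ?_
  rw [zsucc]
  show Near A p γ (c i + θ * _ - (c i + θ * _))
  rw [add_sub_add_left_eq_sub, ← mul_sub]
  exact h.near_mul_left hθA (h.near_eval₂_sub _ (hzA k) hrA fun j => hK j k (hkj j))

end Fermat.Agent.FlatJ0
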