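import Fermat.Agent.FlatJ0.Exact
import Fermat.Agent.FlatJ0.Main

/-!
# Fontaine's bound on `J₀(N)` at `p ∤ N`
-/

noncomputable section

namespace Fermat.Agent.FlatJ0

open AlgebraicCurve ModularCurve Fermat.Agent.Reduction Fermat.Agent.FunctionFieldRR

/-- Fontaine's bound for the `p`-division points of inertia-fixed points of `J₀(N)`, `p ∤ N`. -/
theorem jZeroLiftBound {N p : ℕ} [Fact p.Prime] (hpN : ¬ p ∣ N) : JZeroLiftBound N p :=
  jZeroLiftBound_of_exact hpN
    (@fun _ _ _ _ _ _ _ _ _ _ H h _ hd _ _ hδ _ hx => exists_nsmul_eq H h hd hδ hx)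

end Fermat.Agent.FlatJ0
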