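import Fermat.Agent.FlatJ0.EvalBasis
import Fermat.Agent.FlatJ0.FixedPlaces
import Fermat.Agent.FunctionFieldRR.FiberTheory

/-!
# Inertia-fixed bases of Riemann–Roch lattices

For an inertia-fixed effective divisor `D`, the lattice `L(D) ∩ O` of Gauss-integral functions has
a basis fixed by inertia: the dual basis of evaluation at suitable inertia-fixed places.
-/

noncomputable section

namespace Fermat.Agent.FlatJ0

open AlgebraicCurve ModularCurve Fermat.Agent.Reduction Fermat.Agent.FunctionFieldRR
open scoped Fermat.Agent.Reduction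

local notation "Ω" => AlgebraicClosure ℚ
local notation "G_ℚ" => (AlgebraicClosure ℚ) ≃ₐ[ℚ] (AlgebraicClosure ℚ)

section Value

variable {K E : Type*} [Field K] [Field E] [Algebra K E] [IsAlgClosed K] [IsFunctionField K E]

/-- Evaluation on a space of functions regular at `P`. -/
def valueMap (P : Place K E) (V : Submodule K E) (hV : ∀ f ∈ V, f ∈ P.toValuationSubring) :
    V →ₗ[K] K where
  toFun f := residueConst P (f : E)
  map_add' f g := by
    refine residueConst_eq P ?_
    have := (residueConst_spec P (hV f f.2)).add (residueConst_spec P (hV g g.2))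
    convert this using 1
    push_cast [map_add]
    ring
  map_smul' c f := by
    refine residueConst_eq P ?_
    have := (residueConst_spec P (hV f f.2)).smul c
    convert this using 1
    rw [RingHom.id_apply, SetLike.val_smul, smul_eq_mul, map_mul, smul_sub, Algebra.smul_def,
      Algebra.smul_def]

theorem residueConst_smul (τ : SemilinearAut K E) {P : Place K E} {f : E}
    (hf : f ∈ P.toValuationSubring) :
    residueConst (τ • P) (τ • f) = SemilinearAut.baseAut τ (residueConst P f) := by
  refine residueConst_eq _ ?_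
  rw [← SemilinearAut.smul_algebraMap, ← smul_sub]
  refine (residueConst_spec P hf).imp (fun e => by rw [e, smul_zero]) fun e => ?_
  rwa [SemilinearAut.ord_smul]

/-- A function of `L(D)` vanishing at more points than `deg D`, off its support, is zero. -/
theorem eq_zero_of_forall_residueConst [HasPrincipalDivisors K E] {D : Divisor K E} {ι : Type*}
    [Fintype ι] {P : ι → Place K E} (hP : Function.Injective P) (hPD : ∀ i, D (P i) = 0)
    (hcard : Divisor.degree D < Fintype.card ι) {f : E} (hf : f ∈ riemannRochSpace D)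
    (hv : ∀ i, residueConst (P i) f = 0) : f = 0 := by
  classical
  have hmem : f ∈ riemannRochSpace (D - ∑ i, Finsupp.single (P i) (1 : ℤ)) := by
    rw [mem_riemannRochSpace_iff] at hf ⊢
    intro v
    rcases hf v with e | e
    · exact Or.inl e
    by_cases hv' : ∃ i, P i = v
    · obtain ⟨i, rfl⟩ := hv'
      have hr : f ∈ (P i).toValuationSubring := (ord_nonneg_iff _ _).mp (by rw [hPD] at e; simpa using e)
      have h1 := residueConst_spec (P i) hr
      rw [hv i, map_zero, sub_zero] at h1
      refine h1.imp id fun h1 => ?_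
      rw [Finsupp.sub_apply, hPD, Finsupp.finsetSum_apply,
        Finset.sum_eq_single i (fun j _ hj => Finsupp.single_eq_of_ne (hP.ne hj).symm)
          (fun h => absurd (Finset.mem_univ _) h), Finsupp.single_eq_same]
      omega
    · refine Or.inr ?_
      rw [Finsupp.sub_apply, Finsupp.finsetSum_apply, Finset.sum_eq_zero
        (fun j _ => Finsupp.single_eq_of_ne fun e' => hv' ⟨j, e'.symm⟩), sub_zero]
      exact e
  refine eq_zero_of_mem_rr_of_degree_neg ?_ hmem
  rw [map_sub, map_sum, Finset.sum_congr rfl (g := fun _ => (1 : ℤ))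
    (fun i _ => by rw [Divisor.degree_single, deg_eq_one]; rfl)]
  simp only [Finset.sum_const, Finset.card_univ, nsmul_eq_mul, mul_one]
  omega

end Value

variable {A : ValuationSubring Ω} {F : IntermediateField Ω (LaurentSeries Ω)}
  {Fk : IntermediateField (IsLocalRing.ResidueField A) (LaurentSeries (IsLocalRing.ResidueField A))}
  {M : GoodModel A F Fk} {gal : G_ℚ →* SemilinearAut Ω F}
  [IsAlgClosed (IsLocalRing.ResidueField A)] [IsFunctionField Ω F]
  [IsFunctionField (IsLocalRing.ResidueField A) Fk]
  [HasPrincipalDivisors Ω F] [HasPrincipalDivisors (IsLocalRing.ResidueField A) Fk]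
  (R : M.ReductionMap) {g c : ℤ} (H : GoodModel.RRData (A := A) (F := F) (Fk := Fk) g c)

/-- There are inertia-fixed places with reductions outside any finite set. -/
def FixedPlacesDense (gal : G_ℚ →* SemilinearAut Ω F) (R : M.ReductionMap) :
    Prop :=
  ∀ S : Set (Place (IsLocalRing.ResidueField A) Fk), S.Finite →
    ∃ P : Place Ω F, R.toFun P ∉ S ∧ ∀ σ ∈ A.inertiaSubgroupIn ℚ, gal σ • P = P

omit [IsAlgClosed (IsLocalRing.ResidueField A)] [IsFunctionField Ω F]
  [IsFunctionField (IsLocalRing.ResidueField A) Fk] in
/-- Finitely many fixed places with distinct reductions outside a finite set. -/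
theorem FixedPlacesDense.exists_family (hd : FixedPlacesDense gal R)
    {S : Set (Place (IsLocalRing.ResidueField A) Fk)} (hS : S.Finite) :
    ∀ n : ℕ, ∃ P : Fin n → Place Ω F, Function.Injective (fun i => R.toFun (P i)) ∧
      (∀ i, R.toFun (P i) ∉ S) ∧ ∀ i, ∀ σ ∈ A.inertiaSubgroupIn ℚ, gal σ • P i = P i := by
  intro n
  induction n with
  | zero => exact ⟨Fin.elim0, fun i => i.elim0, fun i => i.elim0, fun i => i.elim0⟩
  | succ n ih =>
    obtain ⟨P, hP, hPS, hPfix⟩ := ih
    obtain ⟨Q, hQ, hQfix⟩ := hd (S ∪ Set.range fun i => R.toFun (P i))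
      (hS.union (Set.finite_range fun i => R.toFun (P i)))
    refine ⟨Fin.cons Q P, ?_, ?_, ?_⟩
    · intro i j e
      induction i using Fin.cases with
      | zero =>
        induction j using Fin.cases with
        | zero => rfl
        | succ j =>
          simp only [Fin.cons_zero, Fin.cons_succ] at e
          exact absurd (Or.inr ⟨j, e.symm⟩) hQ
      | succ i =>
        induction j using Fin.cases with
        | zero =>
          simp only [Fin.cons_zero, Fin.cons_succ] at e
          exact absurd (Or.inr ⟨i, e⟩) hQ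
        | succ j =>
          simp only [Fin.cons_succ] at e
          exact congrArg Fin.succ (hP e)
    · intro i
      induction i using Fin.cases with
      | zero => exact fun h => hQ (Or.inl (by simpa using h))
      | succ i => simpa using hPS i
    · intro i
      induction i using Fin.cases with
      | zero => simpa using hQfix
      | succ i => simpa using hPfix i

include H in
/-- An inertia-fixed basis of `L(D)` integral for the Gauss ring, with integral coordinates
exactly on the Gauss-integral functions. -/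
theorem exists_fixed_basis (hgal : IsCoeffAction gal) (hd : FixedPlacesDense gal R)
    {D : Divisor Ω F} (hD0 : 0 ≤ D) (hDfix : ∀ σ ∈ A.inertiaSubgroupIn ℚ, gal σ • D = D) :
    ∃ v : Fin (Module.finrank Ω (riemannRochSpace D)) → F,
      (∀ k, v k ∈ riemannRochSpace D ∧ M.IsInt (v k) ∧
        ∀ σ ∈ A.inertiaSubgroupIn ℚ, gal σ • v k = v k) ∧
      ∀ f ∈ riemannRochSpace D, ∃ a : Fin (Module.finrank Ω (riemannRochSpace D)) → Ω,
        f = ∑ k, a k • v k ∧ (M.IsInt f → ∀ k, a k ∈ A) ∧
        ∀ σ ∈ A.inertiaSubgroupIn ℚ, gal σ • f = f → ∀ k, σ (a k) = a k := by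
  classical
  set RD := Finsupp.mapDomain R.toFun D with hRD
  have hRD0 : 0 ≤ RD := by
    have := mapDomain_mono R.toFun hD0
    rwa [Finsupp.mapDomain_zero] at this
  set n := (Divisor.degree D).toNat + 1 with hn
  obtain ⟨P, hP, hPS, hPfix⟩ := hd.exists_family R RD.support.finite_toSet n
  have hRDP : ∀ i, RD (R.toFun (P i)) = 0 := fun i => by
    simpa using hPS i
  have hDP : ∀ i, D (P i) = 0 := fun i => apply_eq_zero_of_mapDomain_apply R.toFun hD0 (hRDP i)
  have hPinj : Function.Injective P := fun i j e => hP (congrArg R.toFun e)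
  have hcard : Divisor.degree D < Fintype.card (Fin n) := by
    rw [Fintype.card_fin, hn]; push_cast; omega
  have hmem : ∀ i, ∀ f ∈ riemannRochSpace D, f ∈ (P i).toValuationSubring := fun i f hf => by
    rw [← ord_nonneg_iff]
    rcases mem_riemannRochSpace_iff.mp hf (P i) with e | e
    · rw [e, Place.ord_zero]
    · simpa [hDP i] using e
  let ev : riemannRochSpace D →ₗ[Ω] (Fin n → Ω) :=
    LinearMap.pi fun i => valueMap (P i) (riemannRochSpace D) (hmem i)
  have hev : Function.Injective ev := by
    rw [← LinearMap.ker_eq_bot, LinearMap.ker_eq_bot']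
    intro f hf
    exact Subtype.ext (eq_zero_of_forall_residueConst hPinj hDP hcard f.2
      fun i => congrFun hf i)
  have := finiteDimensional_riemannRochSpace (K := Ω) D
  obtain ⟨s, v, hs, hdual, hexp, hint⟩ := exists_eval_basis A ev hev
  -- integral values are the same as Gauss integrality
  have hval : ∀ f : riemannRochSpace D, M.IsInt (f : F) → ∀ i, ev f i ∈ A := by
    intro f hf i
    obtain ⟨h, -⟩ := M.exists_residue_eq R H hf hD0 f.2 (hRDP i)
      (residueConst_spec (P i) (hmem i _ f.2))
    exact h
  have hconv : ∀ f : riemannRochSpace D, (∀ i, ev f i ∈ A) → M.IsInt (f : F) := by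
    intro f hf
    rcases eq_or_ne (f : F) 0 with e | e
    · rw [e]; exact M.isInt_zero
    obtain ⟨a, ha, hai, har⟩ := M.exists_scale e
    suffices hinv : a⁻¹ ∈ A by
      have := (M.isInt_smul hinv hai).1
      rwa [smul_smul, inv_mul_cancel₀ ha, one_smul] at this
    by_contra hinv
    have haA : a ∈ A := (A.mem_or_inv_mem a).resolve_right hinv
    have hsm : a • (f : F) ∈ riemannRochSpace D := Submodule.smul_mem _ _ f.2
    have hmap : M.red (a • (f : F)) ∈ riemannRochSpace RD := R.red_mem_rr hsm hai
    refine har (eq_zero_of_forall_residueConst hP hRDP ?_ hmap fun i => residueConst_eq _ ?_)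
    · rw [hRD, GoodModel.ReductionMap.degree_map]; exact hcard
    · obtain ⟨h, hvan⟩ := M.exists_residue_eq R H hai hD0 hsm (hRDP i)
        (residueConst_spec (P i) (hmem i _ hsm))
      have hres : IsLocalRing.residue A ⟨residueConst (P i) (a • (f : F)), h⟩ = 0 := by
        have hva : residueConst (P i) (a • (f : F)) = a * ev f i := by
          show valueMap (P i) _ (hmem i) (a • f) = _
          rw [map_smul]
          rfl
        rw [IsLocalRing.residue_eq_zero_iff]
        intro hu
        refine hinv ?_
        have hprod : (⟨a, haA⟩ : A) * ⟨ev f i, hf i⟩ = ⟨_, h⟩ := Subtype.ext hva.symm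
        rw [← hprod] at hu
        obtain ⟨u, hu'⟩ := isUnit_of_mul_isUnit_left hu
        have h1 : a * ((↑u⁻¹ : A) : Ω) = 1 := by
          have h2 : ((u : A) : Ω) * ((↑u⁻¹ : A) : Ω) = 1 := by
            rw [← MulMemClass.coe_mul, Units.mul_inv]; rfl
          rwa [hu'] at h2
        rw [inv_eq_of_mul_eq_one_right h1]
        exact (↑u⁻¹ : A).2
      simpa [hres] using hvan
  have hgalev : ∀ σ ∈ A.inertiaSubgroupIn ℚ, ∀ (f : riemannRochSpace D) i,
      residueConst (P i) (gal σ • (f : F)) = σ (ev f i) := fun σ hσ f i => by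
    conv_lhs => rw [← hPfix i σ hσ]
    rw [residueConst_smul (gal σ) (hmem i _ f.2), baseAut_gal hgal]
    rfl
  have hgalmem : ∀ σ ∈ A.inertiaSubgroupIn ℚ, ∀ f : riemannRochSpace D,
      gal σ • (f : F) ∈ riemannRochSpace D := fun σ hσ f => by
    have := smul_mem_riemannRochSpace (gal σ) f.2
    rwa [hDfix σ hσ] at this
  refine ⟨fun k => (v k : F), fun k => ⟨(v k).2, hconv _ fun i => hint _ (fun l => ?_) i,
    fun σ hσ => ?_⟩, fun f hf => ⟨fun k => ev ⟨f, hf⟩ (s k), ?_, fun hfi k => hval ⟨f, hf⟩ hfi _,
    fun σ hσ hσf k => ?_⟩⟩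
  · rw [hdual k l]; split_ifs
    · exact one_mem A
    · exact zero_mem A
  · set w : riemannRochSpace D := ⟨gal σ • (v k : F), hgalmem σ hσ (v k)⟩ with hw
    have hwv : ∀ l, ev w (s l) = ev (v k) (s l) := fun l => by
      show residueConst (P (s l)) (gal σ • (v k : F)) = _
      rw [hgalev σ hσ (v k) (s l), hdual k l]
      split_ifs <;> simp
    show (w : F) = (v k : F)
    rw [hexp w, hexp (v k)]
    simp only [hwv]
  · have := congrArg Subtype.val (hexp ⟨f, hf⟩)
    simpa using this
  · show σ (ev ⟨f, hf⟩ (s k)) = ev ⟨f, hf⟩ (s k)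
    rw [← hgalev σ hσ ⟨f, hf⟩ (s k), hσf]
    rfl

end Fermat.Agent.FlatJ0
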