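import Fermat.Agent.FlatJ0.ExactLattice
import Fermat.Agent.FlatJ0.FixedBasis
import Fermat.Agent.FlatJ0.Residual

/-!
# Two disjoint charts

Disjoint non-special divisors, the congruent function of a linear equivalence, and the residual
decomposition of `L(p (C + Y))` into a complement of the constants in `L(C + Y)`, the space `L(p C)`
and a complement of the constants in `L(p Y)`.
-/

noncomputable section

namespace Fermat.Agent.FlatJ0

open AlgebraicCurve ModularCurve Fermat.Agent.Reduction Fermat.Agent.FunctionFieldRR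
open scoped Fermat.Agent.Reduction

local notation "Ω" => AlgebraicClosure ℚ

section Residual

variable {K E : Type*} [Field K] [Field E] [Algebra K E] [IsAlgClosed K] [IsFunctionField K E]
  [HasPrincipalDivisors K E]

/-- The residual family. -/
theorem exists_residual_family {C Y : Divisor K E} (hC : 0 ≤ C) (hY : 0 ≤ Y) {g : ℤ}
    (low : ∀ D : Divisor K E,
      Divisor.degree D + 1 - g ≤ (Module.finrank K (riemannRochSpace D) : ℤ))
    (hCg : Divisor.degree C = g) (hYg : Divisor.degree Y = g)
    (hlC : Module.finrank K (riemannRochSpace C) ≤ 1)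
    (hlY : Module.finrank K (riemannRochSpace Y) ≤ 1) (hdisj : ∀ v, C v = 0 ∨ Y v = 0)
    {n : ℕ} (hn : 1 ≤ n) :
    ∃ (nv nb nu : ℕ) (sv : Fin nv → E) (sb : Fin nb → E) (su : Fin nu → E),
      (∀ i, sv i ∈ riemannRochSpace (C + Y)) ∧ (∀ i, sb i ∈ riemannRochSpace (n • C)) ∧
      (∀ i, su i ∈ riemannRochSpace (n • Y)) ∧
      LinearIndependent K (Sum.elim sv (Sum.elim sb su)) ∧
      2 * (n : ℤ) * g + 1 - g ≤ (nv + (nb + nu) : ℕ) := by
  classical
  set one : Submodule K E := Submodule.span K {(1 : E)} with hone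
  have h1 : Module.finrank K one = 1 := finrank_span_singleton one_ne_zero
  have := finiteDimensional_riemannRochSpace (K := K) (C + Y)
  have := finiteDimensional_riemannRochSpace (K := K) (n • C)
  have := finiteDimensional_riemannRochSpace (K := K) (n • Y)
  have hle : ∀ {D : Divisor K E}, 0 ≤ D → one ≤ riemannRochSpace D := fun {D} hD => by
    rw [hone, Submodule.span_singleton_le_iff_mem]
    exact one_mem_rr hD
  obtain ⟨nv, sv, hsv, hcv, hliv⟩ := exists_family_compl (K := K) one
    (riemannRochSpace (C + Y)) (hle (add_nonneg hC hY))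
  obtain ⟨nu, su, hsu, hcu, hliu⟩ := exists_family_compl (K := K) one
    (riemannRochSpace (n • Y)) (hle (nsmul_nonneg hY n))
  have : Module.Free K (riemannRochSpace (n • C)) := Module.Free.of_divisionRing _ _
  let bb := Module.finBasis K (riemannRochSpace (n • C))
  refine ⟨nv, _, nu, sv, fun j => (bb j : E), su, hsv, fun j => (bb j).2, hsu, ?_, ?_⟩
  · refine Fintype.linearIndependent_iff.mpr fun a ha => ?_
    rw [Fintype.sum_sum_type, Fintype.sum_sum_type, ← add_assoc] at ha
    simp only [Sum.elim_inl, Sum.elim_inr] at ha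
    set av := ∑ i, a (Sum.inl i) • sv i with hav
    set ab := ∑ j, a (Sum.inr (Sum.inl j)) • (bb j : E) with hab
    set au := ∑ i, a (Sum.inr (Sum.inr i)) • su i with hau
    have mv : av ∈ riemannRochSpace (C + Y) :=
      Submodule.sum_mem _ fun i _ => Submodule.smul_mem _ _ (hsv i)
    have mb : ab ∈ riemannRochSpace (n • C) :=
      Submodule.sum_mem _ fun j _ => Submodule.smul_mem _ _ (bb j).2
    have mu : au ∈ riemannRochSpace (n • Y) :=
      Submodule.sum_mem _ fun i _ => Submodule.smul_mem _ _ (hsu i)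
    obtain ⟨κ, hκ⟩ := eq_algebraMap_of_add_eq_zero hC hY hlC hdisj hn mv mb mu ha
    obtain ⟨μ, hμ⟩ := eq_algebraMap_of_add_eq_zero hY hC hlY (fun v => (hdisj v).symm) hn
      (by rwa [add_comm Y C]) mu mb (by linear_combination ha)
    have honeK : ∀ x : K, algebraMap K E x ∈ one := fun x => by
      rw [Algebra.algebraMap_eq_smul_one]
      exact Submodule.smul_mem _ _ (Submodule.subset_span rfl)
    have ev : (fun i => a (Sum.inl i)) = 0 := hliv _ (by
      rw [← hav, show av = algebraMap K E (-κ - μ) by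
        rw [map_sub, map_neg, ← hκ, ← hμ]; linear_combination ha]
      exact honeK _)
    have eu : (fun i => a (Sum.inr (Sum.inr i))) = 0 := hliu _ (by
      rw [← hau, hμ]
      exact honeK _)
    have hab0 : ab = 0 := by
      have e1 : av = 0 := Finset.sum_eq_zero fun i _ => by
        rw [show a (Sum.inl i) = 0 from congrFun ev i, zero_smul]
      have e2 : au = 0 := Finset.sum_eq_zero fun i _ => by
        rw [show a (Sum.inr (Sum.inr i)) = 0 from congrFun eu i, zero_smul]
      rwa [e1, e2, zero_add, add_zero] at ha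
    have eb := Fintype.linearIndependent_iff.mp bb.linearIndependent
      (fun j => a (Sum.inr (Sum.inl j))) (Subtype.ext (by simpa [hab] using hab0))
    rintro (i | j | i)
    exacts [congrFun ev i, eb j, congrFun eu i]
  · have l1 := low (C + Y)
    have l2 := low (n • C)
    have l3 := low (n • Y)
    simp only [map_add, map_nsmul, hCg, hYg, nsmul_eq_mul] at l1 l2 l3
    rw [h1] at hcv hcu
    push_cast
    have e1 : (Module.finrank K (riemannRochSpace (C + Y)) : ℤ) = nv + 1 := by omega
    have e2 : (Module.finrank K (riemannRochSpace (n • Y)) : ℤ) = nu + 1 := by omega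
    rw [e1] at l1
    rw [e2] at l3
    linarith

end Residual

variable {A : ValuationSubring Ω} {F : IntermediateField Ω (LaurentSeries Ω)}
  {Fk : IntermediateField (IsLocalRing.ResidueField A) (LaurentSeries (IsLocalRing.ResidueField A))}
  {M : GoodModel A F Fk}
  [IsAlgClosed (IsLocalRing.ResidueField A)] [IsFunctionField Ω F]
  [IsFunctionField (IsLocalRing.ResidueField A) Fk]
  [HasPrincipalDivisors Ω F] [HasPrincipalDivisors (IsLocalRing.ResidueField A) Fk]
  {R : M.ReductionMap} {g c : ℤ} (H : GoodModel.RRData (A := A) (F := F) (Fk := Fk) g c)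
  {p : ℕ} {γ : ℚ}

include H in
/-- Non-special lifted divisors off every finite set. -/
theorem exists_nonspecial_lift (hinf : (Set.range R.toFun).Infinite)
    {S : Set (Place (IsLocalRing.ResidueField A) Fk)} (hS : S.Finite) :
    ∃ C : Divisor Ω F, 0 ≤ C ∧ Divisor.degree C = g ∧
      Module.finrank (IsLocalRing.ResidueField A)
        (riemannRochSpace (Finsupp.mapDomain R.toFun C)) ≤ 1 ∧
      ∀ Q ∈ S, Finsupp.mapDomain R.toFun C Q = 0 := by
  classical
  have h0 := H.low 0
  rw [map_zero, finrank_riemannRochSpace_zero] at h0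
  lift g to ℕ using (by omega) with g'
  obtain ⟨Q, -, hQS, hQ1⟩ := exists_nonspecial
    (low_of_lift R H.low fun D => GoodModel.ReductionMap.degree_map D R.toFun) H.up
    (hinf.mono (Set.subset_univ _)) (C := 0) (map_zero _) hS
  choose P hP using fun i => exists_toFun R (Q i)
  have hmap : Finsupp.mapDomain R.toFun (∑ i, Finsupp.single (P i) (1 : ℤ)) =
      ∑ i, Finsupp.single (Q i) (1 : ℤ) := by
    simp [Finsupp.mapDomain_finsetSum, Finsupp.mapDomain_single, hP]
  refine ⟨∑ i, Finsupp.single (P i) 1, Finset.sum_nonneg fun i _ =>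
    Finsupp.single_nonneg.mpr zero_le_one, ?_, ?_, fun Q' hQ' => ?_⟩
  · rw [map_sum, Finset.sum_congr rfl (g := fun _ => (1 : ℤ))
      (fun i _ => by rw [Divisor.degree_single, deg_eq_one]; rfl)]
    simp
  · rw [hmap, ← zero_add (∑ i, Finsupp.single (Q i) (1 : ℤ))]
    exact hQ1.le
  · rw [hmap, Finsupp.finsetSum_apply]
    exact Finset.sum_eq_zero fun i _ => Finsupp.single_eq_of_ne fun e => hQS i (e ▸ hQ')

include H in
/-- A linear equivalence between congruent effective divisors is given by a congruent function. -/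
theorem exists_congruent_function (h : IsOver A p) (hγ : 0 < γ)
    (hinf : (Set.range R.toFun).Infinite) {X X₀ D : Divisor Ω F} (hX : 0 ≤ X) (hX₀ : 0 ≤ X₀)
    (hXX : Finsupp.mapDomain R.toFun X = Finsupp.mapDomain R.toFun X₀)
    (hns : Module.finrank (IsLocalRing.ResidueField A)
      (riemannRochSpace (Finsupp.mapDomain R.toFun X₀)) ≤ 1)
    (hD : CongDiv R p γ D) (hprin : Divisor.IsPrincipal (X - X₀ - D)) :
    ∃ ω : F, IsSmall M p γ (ω - 1) ∧ X - X₀ = D + dvs (K := Ω) ω := by
  classical
  obtain ⟨f₀, hf₀, hdiv₀⟩ := hprin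
  obtain ⟨s, f, hs, hfi, hfr, rfl⟩ := exists_primitive_smul M hf₀
  have hf : f ≠ 0 := fun e => hfr (by rw [e, M.red_zero])
  have hdiv : X - X₀ - D = dvs (K := Ω) f := by
    rw [eq_dvs hdiv₀, dvs_smul hs hf]
  have hred : dvs (K := IsLocalRing.ResidueField A) (M.red f) = 0 := by
    rw [← R.spec f hfi hfr, ← hdiv, Finsupp.mapDomain_sub, Finsupp.mapDomain_sub, hXX,
      hD.mapDomain_eq_zero h hγ, sub_self, sub_zero]
  obtain ⟨κ, hκ⟩ := exists_eq_algebraMap_of_dvs_eq_zero hred
  obtain ⟨_, ⟨P, rfl⟩, hP⟩ := hinf.exists_notMem_finset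
    (Finset.image R.toFun (polesOf (K := Ω) f).support)
  have hPhol : HolAt R (R.toFun P) f := fun P' hP' => by
    rw [← polesOf_eq_zero_iff]
    by_contra hne
    exact hP (Finset.mem_image.mpr ⟨P', Finsupp.mem_support_iff.mpr hne, hP'⟩)
  have hsmall := isSmall_sub_value H h (q := Finsupp.mapDomain R.toFun X₀)
    (by simpa using mapDomain_mono R.toFun hX₀) hns hfi
    (fun Q => by
      obtain ⟨φ, hφ, hord⟩ := hD Q
      obtain ⟨hφi, -, hφ0, -⟩ := h.of_isSmall_sub_one hγ hφ
      refine ⟨f * φ, (M.isInt_mul hfi hφi).1, ?_, mapDomain_apply_le _ fun P' hP' => ?_⟩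
      · rw [show f - f * φ = -(f * (φ - 1)) by ring]
        exact (hφ.isInt_mul hfi).neg
      · rw [polesOf_apply, P'.ord_mul hf hφ0, ← hord P' hP', ← dvs_apply, ← hdiv]
        have h1 := Finsupp.le_def.mp hX P'
        have h2 := Finsupp.le_def.mp hX₀ P'
        simp only [Finsupp.sub_apply, Finsupp.zero_apply] at h1 h2 ⊢
        omega)
    hPhol
  set b := residueConst P f with hb
  obtain ⟨hbA, hbu⟩ := hPhol.value_unit H hfi hfr
    (by rw [hκ]; exact Fermat.Agent.FunctionFieldRR.ord_algebraMap _ κ) rfl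
  obtain ⟨hb0, hbinv⟩ := inv_mem_of_notMem_nonunits hbA hbu
  refine ⟨b⁻¹ • f, ?_, by rw [dvs_smul (inv_ne_zero hb0) hf, ← hdiv, add_sub_cancel]⟩
  have e : b⁻¹ • f - 1 = algebraMap Ω F b⁻¹ * (f - algebraMap Ω F b) := by
    rw [Algebra.smul_def, mul_sub, ← map_mul, inv_mul_cancel₀ hb0, map_one]
  rw [e]
  exact hsmall.isInt_mul (M.isInt_const hbinv).1

end Fermat.Agent.FlatJ0
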