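import Fermat.Agent.FlatJ0.Points

/-!
# Transport of functions along a homomorphism modulo `p^γ`

A function of the Gauss ring fixed by `N` is a combination, with coefficients in the integers of
the fixed field of `N`, of inertia-fixed functions of the Gauss ring; applying `φ` to the
coefficients is well defined modulo `p^γ` and multiplicative.
-/

noncomputable section

namespace Fermat.Agent.FlatJ0

open AlgebraicCurve ModularCurve Fermat.Agent.Reduction Fermat.Agent.FunctionFieldRR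
open scoped Fermat.Agent.Reduction

local notation "Ω" => AlgebraicClosure ℚ
local notation "G_ℚ" => (AlgebraicClosure ℚ) ≃ₐ[ℚ] (AlgebraicClosure ℚ)

variable {A : ValuationSubring Ω} {F : IntermediateField Ω (LaurentSeries Ω)}
  {Fk : IntermediateField (IsLocalRing.ResidueField A) (LaurentSeries (IsLocalRing.ResidueField A))}
  {M : GoodModel A F Fk} {gal : G_ℚ →* SemilinearAut Ω F} {p : ℕ} {γ : ℚ} {N : Subgroup G_ℚ}
  {φ : Ω → Ω}

theorem IsHomMod.sum (h : IsOver A p) (hφ : IsHomMod A p N γ φ) {ι : Type*} (s : Finset ι)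
    (x : ι → Ω) (hx : ∀ i ∈ s, x i ∈ fixRing A N) :
    Near A p γ (φ (∑ i ∈ s, x i) - ∑ i ∈ s, φ (x i)) := by
  classical
  induction s using Finset.induction_on with
  | empty => simpa using hφ.zero
  | insert a s ha ih =>
    rw [Finset.sum_insert ha, Finset.sum_insert ha]
    have hs : ∑ i ∈ s, x i ∈ fixRing A N :=
      sum_mem fun i hi => hx i (Finset.mem_insert_of_mem hi)
    have h1 := hφ.add _ (hx a (Finset.mem_insert_self a s)) _ hs
    have h2 := h.near_add h1 (ih fun i hi => hx i (Finset.mem_insert_of_mem hi))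
    convert h2 using 1
    ring

/-- Integral functions fixed by inertia. -/
def IsFixed (M : GoodModel A F Fk) (gal : G_ℚ →* SemilinearAut Ω F) (N : Subgroup G_ℚ) (f : F) :
    Prop :=
  M.IsInt f ∧ ∀ τ ∈ N, gal τ • f = f

/-- `f'` is obtained from `f` by applying `φ` to coefficients, modulo `p^γ`. -/
def IsExt (M : GoodModel A F Fk) (gal : G_ℚ →* SemilinearAut Ω F) (p : ℕ) (N : Subgroup G_ℚ)
    (γ : ℚ) (φ : Ω → Ω) (f f' : F) : Prop :=
  ∃ (n : ℕ) (c : Fin n → Ω) (w : Fin n → F), (∀ k, c k ∈ fixRing A N) ∧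
    (∀ k, IsFixed M gal (A.inertiaSubgroupIn ℚ) (w k)) ∧ f = ∑ k, c k • w k ∧
    IsSmall M p γ (f' - ∑ k, φ (c k) • w k)

theorem IsExt.congr {f f' f'' : F} (hf : IsExt M gal p N γ φ f f')
    (hs : IsSmall M p γ (f'' - f')) : IsExt M gal p N γ φ f f'' := by
  obtain ⟨n, c, w, hc, hw, e, hsm⟩ := hf
  exact ⟨n, c, w, hc, hw, e, hs.trans hsm⟩

theorem isExt_of_single {a : Ω} (ha : a ∈ fixRing A N) {w : F}
    (hw : IsFixed M gal (A.inertiaSubgroupIn ℚ) w) :
    IsExt M gal p N γ φ (a • w) (φ a • w) :=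
  ⟨1, fun _ => a, fun _ => w, fun _ => ha, fun _ => hw, by simp, by
    simpa using isSmall_zero⟩

/-- Inertia-fixed functions do not move. -/
theorem isExt_self (hφ : IsHomMod A p N γ φ) {w : F}
    (hw : IsFixed M gal (A.inertiaSubgroupIn ℚ) w) : IsExt M gal p N γ φ w w := by
  have h1 := isExt_of_single (M := M) (p := p) (γ := γ) (φ := φ) (one_mem (fixRing A N)) hw
  rw [one_smul] at h1
  refine h1.congr ?_
  have e : w - φ 1 • w = -((φ 1 - 1) • w) := by rw [sub_smul, one_smul, neg_sub]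
  rw [e]
  exact (isSmall_of_near hφ.one hw.1).neg

theorem IsExt.add {f f' g g' : F} (hf : IsExt M gal p N γ φ f f')
    (hg : IsExt M gal p N γ φ g g') : IsExt M gal p N γ φ (f + g) (f' + g') := by
  obtain ⟨n, c, w, hc, hw, rfl, hs⟩ := hf
  obtain ⟨m, d, u, hd, hu, rfl, ht⟩ := hg
  refine ⟨n + m, Fin.append c d, Fin.append w u, fun k => ?_, fun k => ?_, ?_, ?_⟩
  · refine Fin.addCases (fun i => ?_) (fun i => ?_) k <;> simp [hc, hd]
  · refine Fin.addCases (fun i => ?_) (fun i => ?_) k <;> simp [hw, hu]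
  · simp [Fin.sum_univ_add]
  · have := hs.add ht
    simp only [Fin.sum_univ_add, Fin.append_left, Fin.append_right]
    convert this using 1
    abel

variable [IsAlgClosed (IsLocalRing.ResidueField A)] [IsFunctionField Ω F]
  [IsFunctionField (IsLocalRing.ResidueField A) Fk]
  [HasPrincipalDivisors Ω F] [HasPrincipalDivisors (IsLocalRing.ResidueField A) Fk]
  {R : M.ReductionMap} {g c₀ : ℤ} (H : GoodModel.RRData (A := A) (F := F) (Fk := Fk) g c₀)

omit [IsAlgClosed (IsLocalRing.ResidueField A)] [IsFunctionField Ω F]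
  [IsFunctionField (IsLocalRing.ResidueField A) Fk]
  [HasPrincipalDivisors (IsLocalRing.ResidueField A) Fk] in
theorem smul_polesOf (σ : SemilinearAut Ω F) (f : F) :
    σ • polesOf (K := Ω) f = polesOf (K := Ω) (σ • f) := by
  refine Finsupp.ext fun v => ?_
  obtain ⟨w, rfl⟩ := MulAction.surjective σ v
  rw [SemilinearAut.divisor_smul_apply_smul, polesOf_apply, polesOf_apply, SemilinearAut.ord_smul]

include H in
/-- A vanishing combination stays vanishing after applying `φ`. -/
theorem isSmall_of_sum_eq_zero (hgal : IsCoeffAction gal) (hd : FixedPlacesDense gal R)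
    (h : IsOver A p) (hN : N ≤ A.inertiaSubgroupIn ℚ) (hφ : IsHomMod A p N γ φ) {n : ℕ}
    (c : Fin n → Ω) (w : Fin n → F) (hc : ∀ k, c k ∈ fixRing A N)
    (hw : ∀ k, IsFixed M gal (A.inertiaSubgroupIn ℚ) (w k)) (h0 : ∑ k, c k • w k = 0) :
    IsSmall M p γ (∑ k, φ (c k) • w k) := by
  classical
  set D := ∑ k, polesOf (K := Ω) (w k) with hD
  have hD0 : 0 ≤ D := Finset.sum_nonneg fun k _ => polesOf_nonneg _
  have hDfix : ∀ σ ∈ A.inertiaSubgroupIn ℚ, gal σ • D = D := fun σ hσ => by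
    rw [hD, Finset.smul_sum]
    exact Finset.sum_congr rfl fun k _ => by rw [smul_polesOf, (hw k).2 σ hσ]
  obtain ⟨v, hv, hexp⟩ := exists_fixed_basis R H hgal hd hD0 hDfix
  have hwD : ∀ k, w k ∈ riemannRochSpace D := fun k =>
    rr_mono (Finset.single_le_sum (fun i _ => polesOf_nonneg (K := Ω) (w i)) (Finset.mem_univ k))
      (mem_rr_polesOf (w k))
  choose a hwa haA hafix using fun k => hexp (w k) (hwD k)
  have haI : ∀ k l, a k l ∈ fixRing A (A.inertiaSubgroupIn ℚ) := fun k l =>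
    ⟨haA k (hw k).1 l, fun σ hσ => hafix k σ hσ ((hw k).2 σ hσ) l⟩
  have haN : ∀ k l, a k l ∈ fixRing A N := fun k l =>
    ⟨(haI k l).1, fun σ hσ => (haI k l).2 σ (hN hσ)⟩
  have := finiteDimensional_riemannRochSpace (K := Ω) D
  have hind : LinearIndependent Ω fun l => (⟨v l, (hv l).1⟩ : riemannRochSpace D) := by
    refine linearIndependent_of_top_le_span_of_card_eq_finrank ?_ (Fintype.card_fin _)
    intro f _
    obtain ⟨b, hb, -⟩ := hexp (f : F) f.2
    rw [show f = ∑ l, b l • (⟨v l, (hv l).1⟩ : riemannRochSpace D) from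
      Subtype.ext (by simpa using hb)]
    exact Submodule.sum_mem _ fun l _ => Submodule.smul_mem _ _ (Submodule.subset_span ⟨l, rfl⟩)
  have hsum : ∀ x : Fin n → Ω, ∑ k, x k • w k = ∑ l, (∑ k, x k * a k l) • v l := fun x => by
    rw [Finset.sum_congr rfl (g := fun k => ∑ l, (x k * a k l) • v l) (fun k _ => by
      conv_lhs => rw [hwa k]
      rw [Finset.smul_sum]; simp [smul_smul]), Finset.sum_comm]
    simp only [Finset.sum_smul]
  have hz : ∀ l, ∑ k, c k * a k l = 0 :=
    Fintype.linearIndependent_iff.mp hind _ (Subtype.ext (by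
      simpa using (hsum c).symm.trans h0))
  rw [hsum]
  refine IsSmall.finset_sum _ _ fun l _ => isSmall_of_near ?_ (hv l).2.1
  have hmem : ∀ k, c k * a k l ∈ fixRing A N := fun k => mul_mem (hc k) (haN k l)
  have h1 : Near A p γ (∑ k, φ (c k * a k l)) := by
    have h2 := hφ.sum h Finset.univ (fun k => c k * a k l) fun k _ => hmem k
    rw [hz l] at h2
    have := h.near_sub hφ.zero h2
    rwa [sub_sub_cancel] at this
  have h3 : Near A p γ (∑ k, (φ (c k * a k l) - φ (c k) * a k l)) := by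
    refine h.near_sum _ _ fun k _ => h.near_trans (hφ.mul _ (hc k) _ (haN k l)) ?_
    rw [← mul_sub]
    exact h.near_mul_left (hφ.mem _ (hc k)) (hφ.fixed _ (haI k l))
  rw [Finset.sum_sub_distrib] at h3
  have := h.near_sub h1 h3
  rwa [sub_sub_cancel] at this

variable (hgal : IsCoeffAction gal) (hd : FixedPlacesDense gal R) (h : IsOver A p)
  (hN : N ≤ A.inertiaSubgroupIn ℚ) (hφ : IsHomMod A p N γ φ)

include H hgal hd h hN hφ in
theorem IsExt.unique {f f' f'' : F} (h' : IsExt M gal p N γ φ f f')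
    (h'' : IsExt M gal p N γ φ f f'') : IsSmall M p γ (f' - f'') := by
  obtain ⟨n, c, w, hc, hw, e, hs⟩ := h'
  obtain ⟨m, d, u, hdd, hu, e', ht⟩ := h''
  have hneg : ∀ k, -d k ∈ fixRing A N := fun k => neg_mem (hdd k)
  have key := isSmall_of_sum_eq_zero H hgal hd h hN hφ (Fin.append c fun k => -d k)
    (Fin.append w u)
    (fun k => by refine Fin.addCases (fun i => ?_) (fun i => ?_) k <;> simp [hc, hneg])
    (fun k => by refine Fin.addCases (fun i => ?_) (fun i => ?_) k <;> simp [hw, hu])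
    (by simp [Fin.sum_univ_add, ← e, ← e'])
  simp only [Fin.sum_univ_add, Fin.append_left, Fin.append_right] at key
  have hflip : IsSmall M p γ (∑ k, (φ (-d k) + φ (d k)) • u k) := by
    refine IsSmall.finset_sum _ _ fun k _ => isSmall_of_near ?_ (hu k).1
    have h1 := hφ.add _ (hneg k) _ (hdd k)
    rw [neg_add_cancel] at h1
    have := h.near_sub hφ.zero h1
    convert this using 1
    ring
  simp only [add_smul, Finset.sum_add_distrib] at hflip
  have := ((hs.sub ht).add key).sub hflip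
  convert this using 1
  abel

include h hφ in
omit [IsAlgClosed (IsLocalRing.ResidueField A)] [IsFunctionField Ω F]
  [IsFunctionField (IsLocalRing.ResidueField A) Fk]
  [HasPrincipalDivisors Ω F] [HasPrincipalDivisors (IsLocalRing.ResidueField A) Fk] in
theorem IsExt.mul {f f' g g' : F} (hf : IsExt M gal p N γ φ f f') (hfi : M.IsInt f')
    (hg : IsExt M gal p N γ φ g g') : IsExt M gal p N γ φ (f * g) (f' * g') := by
  classical
  obtain ⟨n, c, w, hc, hw, rfl, hs⟩ := hf
  obtain ⟨m, d, u, hd, hu, rfl, ht⟩ := hg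
  refine ⟨n * m, fun k => c (finProdFinEquiv.symm k).1 * d (finProdFinEquiv.symm k).2,
    fun k => w (finProdFinEquiv.symm k).1 * u (finProdFinEquiv.symm k).2,
    fun k => mul_mem (hc _) (hd _), fun k => ⟨(M.isInt_mul (hw _).1 (hu _).1).1,
      fun σ hσ => by rw [smul_mul', (hw _).2 σ hσ, (hu _).2 σ hσ]⟩, ?_, ?_⟩
  · rw [← finProdFinEquiv.sum_comp, Fintype.sum_prod_type, Finset.sum_mul_sum]
    simp only [Equiv.symm_apply_apply, smul_mul_smul_comm]
  · rw [← finProdFinEquiv.sum_comp]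
    simp only [Equiv.symm_apply_apply]
    set f₀ := ∑ k, φ (c k) • w k with hf₀
    set g₀ := ∑ k, φ (d k) • u k with hg₀
    have hg0i : M.IsInt g₀ :=
      (isInt_sum M _ _ fun k _ => (M.isInt_smul (hφ.mem _ (hd k)) (hu k).1).1).1
    have h1 : IsSmall M p γ (f' * g' - f₀ * g₀) := by
      have := (ht.isInt_mul hfi).add (hs.mul_isInt hg0i)
      convert this using 1
      ring
    refine h1.trans ?_
    rw [hf₀, hg₀, Finset.sum_mul_sum, Fintype.sum_prod_type, ← Finset.sum_sub_distrib]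
    refine IsSmall.finset_sum _ _ fun i _ => ?_
    rw [← Finset.sum_sub_distrib]
    refine IsSmall.finset_sum _ _ fun j _ => ?_
    rw [smul_mul_smul_comm, ← sub_smul]
    exact isSmall_of_near (h.near_sub_comm (hφ.mul _ (hc i) _ (hd j)))
      (M.isInt_mul (hw i).1 (hu j).1).1

include h hN hφ in
omit [IsAlgClosed (IsLocalRing.ResidueField A)] [IsFunctionField Ω F]
  [IsFunctionField (IsLocalRing.ResidueField A) Fk]
  [HasPrincipalDivisors Ω F] [HasPrincipalDivisors (IsLocalRing.ResidueField A) Fk] in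
theorem IsExt.red_eq [(N.subgroupOf (A.inertiaSubgroupIn ℚ)).FiniteIndex] (hγ : 1 < γ)
    {f f' : F} (hf : IsExt M gal p N γ φ f f') : M.IsInt f' ∧ M.red f' = M.red f := by
  obtain ⟨n, c, w, hc, hw, rfl, hs⟩ := hf
  obtain ⟨h0i, h0r⟩ := isInt_sum M Finset.univ (fun k => φ (c k) • w k)
    fun k _ => (M.isInt_smul (hφ.mem _ (hc k)) (hw k).1).1
  obtain ⟨-, hfr⟩ := isInt_sum M Finset.univ (fun k => c k • w k)
    fun k _ => (M.isInt_smul (hc k).1 (hw k).1).1
  obtain ⟨h1, h2⟩ := h.red_eq_of_isSmall_sub (by linarith) h0i hs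
  refine ⟨h1, ?_⟩
  rw [h2, h0r, hfr]
  refine Finset.sum_congr rfl fun k _ => ?_
  rw [(M.isInt_smul (hφ.mem _ (hc k)) (hw k).1).2, (M.isInt_smul (hc k).1 (hw k).1).2]
  congr 1
  rw [← sub_eq_zero, ← map_sub, IsLocalRing.residue_eq_zero_iff,
    ← ValuationSubring.coe_mem_nonunits_iff]
  exact hφ.sub_self_mem_nonunits h hN hγ (hc k)

include hgal in
omit [IsAlgClosed (IsLocalRing.ResidueField A)] [IsFunctionField Ω F]
  [IsFunctionField (IsLocalRing.ResidueField A) Fk]
  [HasPrincipalDivisors Ω F] [HasPrincipalDivisors (IsLocalRing.ResidueField A) Fk] in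
theorem IsExt.smul (h : IsOver A p) {σ : G_ℚ} (hσ : σ ∈ A.inertiaSubgroupIn ℚ)
    (hfix : ∀ b ∈ fixRing A N, Near A p γ (σ (φ b) - φ b))
    {f f' : F} (hf : IsExt M gal p N γ φ f f') : IsExt M gal p N γ φ f (gal σ • f') := by
  obtain ⟨n, c, w, hc, hw, e, hs⟩ := hf
  refine ⟨n, c, w, hc, hw, e, ?_⟩
  have h1 := h.isSmall_smul_gal hgal hσ hs
  rw [smul_sub] at h1
  refine h1.trans ?_
  rw [Finset.smul_sum, ← Finset.sum_sub_distrib]
  refine IsSmall.finset_sum _ _ fun k _ => ?_
  rw [semilinear_smul, baseAut_gal hgal, (hw k).2 σ hσ, ← sub_smul]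
  exact isSmall_of_near (hfix _ (hc k)) (hw k).1

include H hgal hd hN in
/-- Every function fixed by `N` extends, without new poles over any residual place. -/
theorem exists_isExt [(N.subgroupOf (A.inertiaSubgroupIn ℚ)).FiniteIndex] {f : F}
    (hf : IsFixed M gal N f) :
    ∃ f' : F, IsExt M gal p N γ φ f f' ∧ ∀ Q, HolAt R Q f → HolAt R Q f' := by
  classical
  set I := A.inertiaSubgroupIn ℚ
  set K := N.subgroupOf I
  have : Fintype (I ⧸ K) := Fintype.ofFinite _
  let e : I ⧸ K → Divisor Ω F :=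
    Quotient.lift (fun σ : I => gal (σ : G_ℚ) • polesOf (K := Ω) f) (by
      intro a b hab
      have hmem : ((a⁻¹ * b : I) : G_ℚ) ∈ N :=
        Subgroup.mem_subgroupOf.mp (QuotientGroup.leftRel_apply.mp hab)
      show gal (a : G_ℚ) • polesOf (K := Ω) f = gal (b : G_ℚ) • polesOf (K := Ω) f
      calc gal (a : G_ℚ) • polesOf (K := Ω) f
          = gal (a : G_ℚ) • gal ((a⁻¹ * b : I) : G_ℚ) • polesOf (K := Ω) f := by
            rw [smul_polesOf (gal ((a⁻¹ * b : I) : G_ℚ)), hf.2 _ hmem]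
        _ = gal (b : G_ℚ) • polesOf (K := Ω) f := by
            rw [← mul_smul, ← map_mul, ← Subgroup.coe_mul, mul_inv_cancel_left])
  have he : ∀ (τ σ : I), e ((τ * σ : I) : I ⧸ K) = gal (τ : G_ℚ) • e (σ : I ⧸ K) := fun τ σ => by
    show gal ((τ * σ : I) : G_ℚ) • _ = gal (τ : G_ℚ) • gal (σ : G_ℚ) • _
    rw [Subgroup.coe_mul, map_mul, mul_smul]
  set D := ∑ q, e q with hD
  have hD0 : 0 ≤ D := Finset.sum_nonneg fun q _ => by
    induction q using QuotientGroup.induction_on with
    | _ σ =>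
      show 0 ≤ gal (σ : G_ℚ) • polesOf (K := Ω) f
      rw [smul_polesOf]; exact polesOf_nonneg _
  have hDfix : ∀ σ ∈ A.inertiaSubgroupIn ℚ, gal σ • D = D := fun σ hσ => by
    rw [hD, Finset.smul_sum]
    refine Fintype.sum_equiv (MulAction.toPerm (⟨σ, hσ⟩ : I)) _ _ fun q => ?_
    induction q using QuotientGroup.induction_on with
    | _ τ => exact (he ⟨σ, hσ⟩ τ).symm
  have hfD : f ∈ riemannRochSpace D := by
    refine rr_mono ?_ (mem_rr_polesOf f)
    refine le_trans ?_ (Finset.single_le_sum (f := e) (fun q _ => ?_)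
      (Finset.mem_univ (((1 : I) : I ⧸ K))))
    · show polesOf (K := Ω) f ≤ gal ((1 : I) : G_ℚ) • polesOf (K := Ω) f
      rw [OneMemClass.coe_one, map_one, one_smul]
    · induction q using QuotientGroup.induction_on with
      | _ σ =>
        show 0 ≤ gal (σ : G_ℚ) • polesOf (K := Ω) f
        rw [smul_polesOf]; exact polesOf_nonneg _
  have hDsupp : ∀ Q, HolAt R Q f → ∀ P : Place Ω F, R.toFun P = Q → D P = 0 := by
    intro Q hQ P hP
    rw [hD, Finsupp.finsetSum_apply]
    refine Finset.sum_eq_zero fun q _ => ?_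
    induction q using QuotientGroup.induction_on with
    | _ σ =>
      show (gal (σ : G_ℚ) • polesOf (K := Ω) f) P = 0
      obtain ⟨P₀, rfl⟩ := MulAction.surjective (gal (σ : G_ℚ)) P
      rw [SemilinearAut.divisor_smul_apply_smul, polesOf_eq_zero_iff]
      rw [toFun_smul_gal R H hgal σ.2] at hP
      exact hQ P₀ hP
  obtain ⟨v, hv, hexp⟩ := exists_fixed_basis R H hgal hd hD0 hDfix
  obtain ⟨a, hfa, haA, hafix⟩ := hexp f hfD
  refine ⟨∑ l, φ (a l) • v l, ⟨_, a, v, fun l => ⟨haA hf.1 l, fun σ hσ =>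
    hafix σ (hN hσ) (hf.2 σ hσ) l⟩, fun l => ⟨(hv l).2.1, (hv l).2.2⟩, hfa, by
      rw [sub_self]; exact isSmall_zero⟩, fun Q hQ P hP => ?_⟩
  rw [← ord_nonneg_iff]
  have hmem : ∑ l, φ (a l) • v l ∈ riemannRochSpace D :=
    Submodule.sum_mem _ fun l _ => Submodule.smul_mem _ _ (hv l).1
  rcases mem_riemannRochSpace_iff.mp hmem P with e' | e'
  · rw [e', Place.ord_zero]
  · rwa [hDsupp Q hQ P hP, neg_zero] at e'

end Fermat.Agent.FlatJ0
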