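import Fermat.Agent.FlatJ0.Cond

/-!
# The integers of a finite level over the inertia field

The value group is cyclic, and a homomorphism modulo `ord ≥ γ > 1` over the inertia field
preserves values below `γ`.
-/

noncomputable section

namespace Fermat.Agent.FlatJ0

local notation "Ω" => AlgebraicClosure ℚ
local notation "G_ℚ" => (AlgebraicClosure ℚ) ≃ₐ[ℚ] (AlgebraicClosure ℚ)

variable {A : ValuationSubring Ω} {p : ℕ} {N : Subgroup G_ℚ}

/-- A bounded multiple of the value of an element with small orbit is integral. -/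
lemma IsOver.exists_card_mul_ord (h : IsOver A p) {x : Ω} (hx : x ≠ 0) (s : Finset Ω)
    (hs : ∀ y ∈ s, ∃ σ ∈ A.inertiaSubgroupIn ℚ, σ x = y)
    (hstab : ∀ τ ∈ A.inertiaSubgroupIn ℚ, ∀ y ∈ s, τ y ∈ s) :
    ∃ z : ℤ, (s.card : ℚ) * ord A p x = z := by
  classical
  have hfix : ∀ τ ∈ A.inertiaSubgroupIn ℚ, τ (∏ y ∈ s, y) = ∏ y ∈ s, y := by
    intro τ hτ
    have himg : s.image τ = s :=
      Finset.eq_of_subset_of_card_le (Finset.image_subset_iff.mpr fun y hy => hstab τ hτ y hy)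
        (Finset.card_image_of_injective _ τ.injective).ge
    rw [map_prod, ← Finset.prod_image (f := fun y => y) (fun a _ b _ e => τ.injective e), himg]
  obtain ⟨z, hz⟩ := h.exists_ord_eq_int hfix
  refine ⟨z, ?_⟩
  have hne : ∀ y ∈ s, y ≠ 0 := fun y hy => by
    obtain ⟨σ, -, rfl⟩ := hs y hy
    simpa using hx
  rw [← hz, h.ord_prod s _ hne, Finset.sum_congr rfl (g := fun _ => ord A p x), Finset.sum_const,
    nsmul_eq_mul]
  intro y hy
  obtain ⟨σ, hσ, rfl⟩ := hs y hy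
  exact h.ord_apply (MultRed.inertia_mem_decomposition hσ) x

/-- The fixed field of a subgroup of finite index of inertia has bounded denominators. -/
lemma IsOver.exists_den (h : IsOver A p)
    [(N.subgroupOf (A.inertiaSubgroupIn ℚ)).FiniteIndex] :
    ∃ D : ℕ, 0 < D ∧ ∀ x ∈ fixRing A N, ∃ z : ℤ, (D : ℚ) * ord A p x = z := by
  classical
  set I := A.inertiaSubgroupIn ℚ
  set H := N.subgroupOf I
  have : Fintype (I ⧸ H) := Fintype.ofFinite _
  refine ⟨(Fintype.card (I ⧸ H)).factorial, Nat.factorial_pos _, fun x hx => ?_⟩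
  rcases eq_or_ne x 0 with rfl | hx0
  · obtain ⟨z, hz⟩ := h.exists_ord_eq_int (x := (0 : Ω)) fun σ _ => map_zero σ
    exact ⟨(Fintype.card (I ⧸ H)).factorial * z, by rw [hz]; push_cast; rfl⟩
  let f : I ⧸ H → Ω := Quotient.lift (fun σ : I => (σ : G_ℚ) x) (by
    intro a b hab
    have hmem : ((a⁻¹ * b : I) : G_ℚ) ∈ N :=
      Subgroup.mem_subgroupOf.mp (QuotientGroup.leftRel_apply.mp hab)
    show (a : G_ℚ) x = (b : G_ℚ) x
    have e := hx.2 _ hmem
    calc (a : G_ℚ) x = (a : G_ℚ) (((a⁻¹ * b : I) : G_ℚ) x) := by rw [e]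
      _ = (b : G_ℚ) x := by
          rw [← AlgEquiv.mul_apply, ← Subgroup.coe_mul, mul_inv_cancel_left])
  obtain ⟨z, hz⟩ := h.exists_card_mul_ord hx0 (Finset.univ.image f)
    (fun y hy => by
      obtain ⟨q, -, rfl⟩ := Finset.mem_image.mp hy
      induction q using QuotientGroup.induction_on with
      | _ σ => exact ⟨σ, σ.2, rfl⟩)
    (fun τ hτ y hy => by
      obtain ⟨q, -, rfl⟩ := Finset.mem_image.mp hy
      induction q using QuotientGroup.induction_on with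
      | _ σ => exact Finset.mem_image.mpr ⟨((⟨τ, hτ⟩ * σ : I) : I ⧸ H), Finset.mem_univ _, rfl⟩)
  have hle : (Finset.univ.image f).card ≤ Fintype.card (I ⧸ H) := Finset.card_image_le
  have hpos : 0 < (Finset.univ.image f).card :=
    Finset.card_pos.mpr ⟨_, Finset.mem_image_of_mem f (Finset.mem_univ ((1 : I) : I ⧸ H))⟩
  obtain ⟨k, hk⟩ := Nat.dvd_factorial hpos hle
  refine ⟨k * z, ?_⟩
  rw [hk, Int.cast_mul, Int.cast_natCast, ← hz, Nat.cast_mul]
  ring

/-- `fixRing A N` has a uniformiser. -/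
lemma IsOver.exists_uniformiser (h : IsOver A p)
    [(N.subgroupOf (A.inertiaSubgroupIn ℚ)).FiniteIndex] :
    ∃ (π : Ω) (e : ℕ), 0 < e ∧ π ∈ fixRing A N ∧ π ≠ 0 ∧ ord A p π = (1 : ℚ) / e ∧
      ∀ x ∈ fixRing A N, x ≠ 0 → ∃ (j : ℕ) (u : Ω), x = π ^ j * u ∧ u ∈ fixRing A N ∧
        u⁻¹ ∈ fixRing A N ∧ ord A p u = 0 := by
  classical
  obtain ⟨D, hD, hden⟩ := h.exists_den (N := N)
  let P : ℕ → Prop := fun k => 0 < k ∧ ∃ x ∈ fixRing A N, x ≠ 0 ∧ (D : ℚ) * ord A p x = k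
  have hp : (p : Ω) ∈ fixRing A N := ⟨natCast_mem A p, fun σ _ => map_natCast σ p⟩
  have hex : ∃ k, P k := ⟨D, hD, p, hp, h.natCast_ne_zero, by rw [h.ord_p, mul_one]⟩
  obtain ⟨hk, π, hπ, hπ0, hπk⟩ := Nat.find_spec hex
  set k := Nat.find hex
  -- every value is a multiple of the smallest one
  have hmul : ∀ x ∈ fixRing A N, x ≠ 0 → ∃ (j : ℕ) (u : Ω), x = π ^ j * u ∧ u ∈ fixRing A N ∧
      u⁻¹ ∈ fixRing A N ∧ ord A p u = 0 := by
    intro x hx hx0
    obtain ⟨z, hz⟩ := hden x hx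
    have hv := (h.mem_iff hx0).mp hx.1
    have hz0 : 0 ≤ z := by
      have : (0 : ℚ) ≤ (z : ℚ) := hz ▸ mul_nonneg (Nat.cast_nonneg D) hv
      exact_mod_cast this
    obtain ⟨n, rfl⟩ := Int.eq_ofNat_of_zero_le hz0
    set u := x / π ^ (n / k) with hu
    have hpow : π ^ (n / k) ≠ 0 := pow_ne_zero _ hπ0
    have hu0 : u ≠ 0 := div_ne_zero hx0 hpow
    have hval : (D : ℚ) * ord A p u = ((n % k : ℕ) : ℚ) := by
      rw [hu, h.ord_div hx0 hpow, h.ord_pow hπ0, mul_sub, hz, mul_left_comm, hπk, Int.cast_natCast]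
      have e : ((k * (n / k) + n % k : ℕ) : ℚ) = n := by rw [Nat.div_add_mod]
      push_cast at e
      linarith
    have hufix : ∀ σ ∈ N, σ u = u := fun σ hσ => by
      rw [hu, map_div₀, map_pow, hx.2 σ hσ, hπ.2 σ hσ]
    have hnonneg : 0 ≤ ord A p u := by
      refine nonneg_of_mul_nonneg_right ?_ (Nat.cast_pos.mpr hD : (0 : ℚ) < D)
      rw [hval]; positivity
    have hmem : u ∈ fixRing A N := ⟨(h.mem_iff hu0).mpr hnonneg, hufix⟩
    have hr : n % k = 0 := by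
      by_contra hr
      exact Nat.find_min hex (Nat.mod_lt _ hk) ⟨Nat.pos_of_ne_zero hr, u, hmem, hu0, hval⟩
    have hord : ord A p u = 0 := by
      rw [hr, Nat.cast_zero, mul_eq_zero] at hval
      exact hval.resolve_left (Nat.cast_ne_zero.mpr hD.ne')
    refine ⟨n / k, u, by rw [hu, mul_div_cancel₀ _ hpow], hmem, ?_, hord⟩
    exact ⟨(h.mem_iff (inv_ne_zero hu0)).mpr (by rw [h.ord_inv hu0, hord, neg_zero]),
      fun σ hσ => by rw [map_inv₀, hufix σ hσ]⟩
  obtain ⟨e, u, he, hu, -, hu0⟩ := hmul p hp h.natCast_ne_zero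
  have hune : u ≠ 0 := fun e' => h.natCast_ne_zero (by rw [he, e', mul_zero])
  have hone : (1 : ℚ) = e * ord A p π := by
    rw [← h.ord_p, he, h.ord_mul (pow_ne_zero _ hπ0) hune, h.ord_pow hπ0, hu0, add_zero]
  have he0 : 0 < e := Nat.pos_of_ne_zero fun e' => by
    rw [e', Nat.cast_zero, zero_mul] at hone
    exact one_ne_zero hone
  refine ⟨π, e, he0, hπ, hπ0, ?_, hmul⟩
  field_simp
  linarith

namespace IsHomMod

variable {γ : ℚ} {φ : Ω → Ω}

lemma one (hφ : IsHomMod A p N γ φ) : Near A p γ (φ 1 - 1) :=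
  hφ.fixed 1 (one_mem _)

lemma zero (hφ : IsHomMod A p N γ φ) : Near A p γ (φ 0) := by
  simpa using hφ.fixed 0 (zero_mem _)

lemma sub (h : IsOver A p) (hφ : IsHomMod A p N γ φ) {x y : Ω} (hx : x ∈ fixRing A N)
    (hy : y ∈ fixRing A N) : Near A p γ (φ (x - y) - (φ x - φ y)) := by
  have := hφ.add (x - y) (sub_mem hx hy) y hy
  rw [sub_add_cancel] at this
  convert h.near_neg this using 1
  ring

lemma pow (h : IsOver A p) (hφ : IsHomMod A p N γ φ) {x : Ω} (hx : x ∈ fixRing A N) (n : ℕ) :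
    Near A p γ (φ (x ^ n) - φ x ^ n) := by
  induction n with
  | zero => simpa using hφ.one
  | succ n ih =>
    rw [pow_succ, pow_succ]
    refine h.near_trans (hφ.mul _ (pow_mem hx n) _ hx) ?_
    rw [← sub_mul]
    exact h.near_mul_right ih (hφ.mem x hx)

lemma ord_unit (h : IsOver A p) (hγ : 0 < γ) (hφ : IsHomMod A p N γ φ) {u : Ω}
    (hu : u ∈ fixRing A N) (hu' : u⁻¹ ∈ fixRing A N) (hu0 : u ≠ 0) :
    φ u ≠ 0 ∧ ord A p (φ u) = 0 := by
  have h1 : Near A p γ (φ u * φ u⁻¹ - 1) := by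
    refine h.near_trans (h.near_sub_comm (hφ.mul u hu u⁻¹ hu')) ?_
    rw [mul_inv_cancel₀ hu0]
    exact hφ.one
  have hA : ord A p (1 : Ω) < γ := by rw [h.ord_one]; exact hγ
  obtain ⟨hne, heq⟩ := h.ord_add_eq one_ne_zero h1 hA
  rw [add_sub_cancel] at hne heq
  obtain ⟨a0, b0⟩ := mul_ne_zero_iff.mp hne
  refine ⟨a0, ?_⟩
  rw [h.ord_mul a0 b0, h.ord_one] at heq
  have ha := (h.mem_iff a0).mp (hφ.mem u hu)
  have hb := (h.mem_iff b0).mp (hφ.mem _ hu')
  linarith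

/-- The image of a non-zero element is congruent to an element of the same value. -/
theorem exists_congr (h : IsOver A p) [(N.subgroupOf (A.inertiaSubgroupIn ℚ)).FiniteIndex]
    (hγ : 1 < γ) (hφ : IsHomMod A p N γ φ) {x : Ω} (hx : x ∈ fixRing A N) (hx0 : x ≠ 0) :
    ∃ y : Ω, y ≠ 0 ∧ ord A p y = ord A p x ∧ Near A p γ (φ x - y) := by
  obtain ⟨π, e, he, hπ, hπ0, hπord, hmul⟩ := h.exists_uniformiser (N := N)
  have hp : (p : Ω) ∈ fixRing A N := ⟨natCast_mem A p, fun σ _ => map_natCast σ p⟩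
  have hγ0 : 0 < γ := zero_lt_one.trans hγ
  obtain ⟨j₀, u, hpe, hu, hu', hu0⟩ := hmul p hp h.natCast_ne_zero
  have hune : u ≠ 0 := fun e' => h.natCast_ne_zero (by rw [hpe, e', mul_zero])
  have hj₀ : j₀ = e := by
    have := h.ord_p
    rw [hpe, h.ord_mul (pow_ne_zero _ hπ0) hune, h.ord_pow hπ0, hπord, hu0, add_zero] at this
    field_simp at this
    exact_mod_cast this
  subst hj₀
  -- the image of the uniformiser has the same value
  obtain ⟨hφu0, hφu⟩ := ord_unit h hγ0 hφ hu hu' hune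
  have hrel : Near A p γ (φ π ^ j₀ * φ u - p) := by
    refine h.near_trans ?_ (hφ.fixed p ⟨natCast_mem A p, fun σ _ => map_natCast σ p⟩)
    refine h.near_sub_comm ?_
    conv in φ (p : Ω) => rw [hpe]
    refine h.near_trans (hφ.mul _ (pow_mem hπ j₀) _ hu) ?_
    rw [← sub_mul]
    exact h.near_mul_right (pow h hφ hπ j₀) (hφ.mem u hu)
  obtain ⟨hne, heq⟩ := h.ord_add_eq h.natCast_ne_zero hrel (by rw [h.ord_p]; exact hγ)
  rw [add_sub_cancel] at hne heq
  have hφπ0 : φ π ≠ 0 := fun e' => hne (by rw [e', zero_pow he.ne', zero_mul])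
  have hφπ : ord A p (φ π) = (1 : ℚ) / j₀ := by
    rw [h.ord_mul (pow_ne_zero _ hφπ0) hφu0, h.ord_pow hφπ0, hφu, add_zero, h.ord_p] at heq
    field_simp
    linarith
  obtain ⟨j, v, hxv, hv, hv', hv0⟩ := hmul x hx hx0
  have hvne : v ≠ 0 := fun e' => hx0 (by rw [hxv, e', mul_zero])
  have hxord : ord A p x = (j : ℚ) / j₀ := by
    rw [hxv, h.ord_mul (pow_ne_zero _ hπ0) hvne, h.ord_pow hπ0, hπord, hv0, add_zero,
      mul_one_div]
  obtain ⟨hφv0, hφv⟩ := ord_unit h hγ0 hφ hv hv' hvne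
  refine ⟨φ π ^ j * φ v, mul_ne_zero (pow_ne_zero _ hφπ0) hφv0, ?_, ?_⟩
  · rw [h.ord_mul (pow_ne_zero _ hφπ0) hφv0, h.ord_pow hφπ0, hφπ, hφv, add_zero, mul_one_div,
      hxord]
  · conv in φ x => rw [hxv]
    refine h.near_trans (hφ.mul _ (pow_mem hπ j) _ hv) ?_
    rw [← sub_mul]
    exact h.near_mul_right (pow h hφ hπ j) (hφ.mem v hv)

/-- Values below `γ` are preserved: `φ x` near `0` forces `x` near `0`. -/
theorem near_of_near_apply (h : IsOver A p) [(N.subgroupOf (A.inertiaSubgroupIn ℚ)).FiniteIndex]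
    (hγ : 1 < γ) (hφ : IsHomMod A p N γ φ) {x : Ω} (hx : x ∈ fixRing A N) {δ : ℚ} (hδ : δ ≤ γ)
    (hx' : Near A p δ (φ x)) : Near A p δ x := by
  rcases eq_or_ne x 0 with rfl | hx0
  · exact near_zero δ
  obtain ⟨y, hy0, hy, hyx⟩ := exists_congr h hγ hφ hx hx0
  refine Or.inr ?_
  rw [← hy]
  have := h.near_sub hx' (hyx.mono hδ)
  rw [sub_sub_cancel] at this
  exact this.resolve_left hy0

/-- Elements near `0` go to elements near `0`. -/
theorem near_apply (h : IsOver A p) [(N.subgroupOf (A.inertiaSubgroupIn ℚ)).FiniteIndex]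
    (hγ : 1 < γ) (hφ : IsHomMod A p N γ φ) {x : Ω} (hx : x ∈ fixRing A N) {δ : ℚ} (hδ : δ ≤ γ)
    (hx' : Near A p δ x) : Near A p δ (φ x) := by
  rcases eq_or_ne x 0 with rfl | hx0
  · exact (zero hφ).mono hδ
  obtain ⟨y, hy0, hy, hyx⟩ := exists_congr h hγ hφ hx hx0
  have hy' : Near A p δ y := Or.inr (hy ▸ hx'.resolve_left hx0)
  have := h.near_add (hyx.mono hδ) hy'
  rwa [sub_add_cancel] at this

end IsHomMod

end Fermat.Agent.FlatJ0
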