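import Fermat.Agent.FlatJ0.Chart
import Fermat.Agent.FlatJ0.FixedBasis
import Fermat.Agent.FlatJ0.Lifts
import Fermat.Agent.FlatJ0.Residual

/-!
# Inertia-fixed parameters and charts

Every residual place has an inertia-fixed parameter and an inertia-fixed lift; charts with fixed
centres exist off every finite set. Coordinates of congruent classes, multiplication by `p`, and
torsion-freeness above `1/(p-1)`.
-/

noncomputable section

namespace Fermat.Agent.FlatJ0

open AlgebraicCurve ModularCurve Fermat.Agent.Reduction Fermat.Agent.FunctionFieldRR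
open scoped Fermat.Agent.Reduction

local notation "Ω" => AlgebraicClosure ℚ
local notation "G_ℚ" => (AlgebraicClosure ℚ) ≃ₐ[ℚ] (AlgebraicClosure ℚ)

variable {A : ValuationSubring Ω} {F : IntermediateField Ω (LaurentSeries Ω)}
  {Fk : IntermediateField (IsLocalRing.ResidueField A) (LaurentSeries (IsLocalRing.ResidueField A))}
  {M : GoodModel A F Fk}

theorem isInt_sum (M : GoodModel A F Fk) {ι : Type*} (s : Finset ι) (f : ι → F)
    (hf : ∀ i ∈ s, M.IsInt (f i)) :
    M.IsInt (∑ i ∈ s, f i) ∧ M.red (∑ i ∈ s, f i) = ∑ i ∈ s, M.red (f i) := by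
  classical
  induction s using Finset.induction_on with
  | empty => simpa using M.isInt_zero
  | insert a s ha ih =>
    obtain ⟨h1, h2⟩ := ih fun i hi => hf i (Finset.mem_insert_of_mem hi)
    obtain ⟨h3, h4⟩ := M.isInt_add (hf a (Finset.mem_insert_self a s)) h1
    rw [Finset.sum_insert ha, Finset.sum_insert ha]
    exact ⟨h3, by rw [h4, h2]⟩

variable {gal : G_ℚ →* SemilinearAut Ω F}
  [IsAlgClosed (IsLocalRing.ResidueField A)] [IsFunctionField Ω F]
  [IsFunctionField (IsLocalRing.ResidueField A) Fk]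
  [HasPrincipalDivisors Ω F] [HasPrincipalDivisors (IsLocalRing.ResidueField A) Fk]
  {R : M.ReductionMap} {g c : ℤ} (H : GoodModel.RRData (A := A) (F := F) (Fk := Fk) g c)
  {p : ℕ} {γ δ : ℚ}

include H in
/-- Every residual place has an inertia-fixed parameter. -/
theorem exists_param (h : IsOver A p) (hgal : IsCoeffAction gal) (hd : FixedPlacesDense gal R)
    (Q : Place (IsLocalRing.ResidueField A) Fk) :
    ∃ t : F, IsParam R Q t ∧ ∀ σ ∈ A.inertiaSubgroupIn ℚ, gal σ • t = t := by
  classical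
  obtain ⟨P, hPQ, hPfix⟩ := hd {Q} (Set.finite_singleton Q)
  have hPQ' : R.toFun P ≠ Q := hPQ
  obtain ⟨n, hn⟩ : ∃ n : ℕ, c + 2 ≤ (n : ℤ) := ⟨(c + 2).toNat, Int.self_le_toNat _⟩
  set D : Divisor Ω F := Finsupp.single P (n : ℤ) with hD
  have hDfix : ∀ σ ∈ A.inertiaSubgroupIn ℚ, gal σ • D = D := fun σ hσ => by
    rw [hD, SemilinearAut.smul_single, hPfix σ hσ]
  have hD0 : 0 ≤ D := Finsupp.le_def.mpr fun v => by
    rw [hD, Finsupp.single_apply]; split_ifs <;> simp
  set D' := Finsupp.mapDomain R.toFun D with hD'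
  have hdegD : Divisor.degree D = n := by
    rw [hD, Divisor.degree_single, deg_eq_one]; simp
  have hdegD' : Divisor.degree D' = n := by
    rw [hD', GoodModel.ReductionMap.degree_map, hdegD]
  -- a residual function with a simple zero at `Q`
  obtain ⟨s, hs1, hs2⟩ : ∃ s, s ∈ riemannRochSpace (D' - Finsupp.single Q 1) ∧
      s ∉ riemannRochSpace (D' - Finsupp.single Q 2) := by
    by_contra hcon
    push Not at hcon
    have hle : riemannRochSpace (D' - Finsupp.single Q 1) ≤
        riemannRochSpace (D' - Finsupp.single Q 2) := hcon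
    have := finiteDimensional_riemannRochSpace (K := IsLocalRing.ResidueField A)
      (D' - Finsupp.single Q 2)
    have h1 := Submodule.finrank_mono hle
    have h2 := finrank_le_add_single (D' - Finsupp.single Q 1) Q
    rw [sub_add_cancel] at h2
    have h3 := (H.low D).trans (Nat.cast_le.mpr (R.finrank_le D))
    have h4 := H.up (D' - Finsupp.single Q 2) (by
      rw [map_sub, hdegD', Divisor.degree_single, deg_eq_one]; push_cast; omega)
    rw [map_sub, hdegD', Divisor.degree_single, deg_eq_one] at h4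
    rw [hdegD, ← hD'] at h3
    push_cast at h4
    omega
  have hQ0 : D' Q = 0 := by
    rw [hD', hD, Finsupp.mapDomain_single, Finsupp.single_eq_of_ne hPQ'.symm]
  have hsne : s ≠ 0 := fun e => hs2 (e ▸ zero_mem _)
  have hsord : Q.ord s = 1 := by
    have a1 := (mem_rr hsne).mp hs1 Q
    have a2 : ¬ ∀ v, -((D' - Finsupp.single Q (2 : ℤ)) v) ≤ v.ord s :=
      fun h' => hs2 ((mem_rr hsne).mpr h')
    push Not at a2
    obtain ⟨v, hv⟩ := a2
    rcases eq_or_ne v Q with rfl | hvQ
    · rw [Finsupp.sub_apply, Finsupp.single_eq_same, hQ0] at hv a1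
      omega
    · exfalso
      have a3 := (mem_rr hsne).mp hs1 v
      rw [Finsupp.sub_apply, Finsupp.single_eq_of_ne hvQ] at hv a3
      omega
  have hsD : s ∈ riemannRochSpace D' := by
    refine rr_mono (Finsupp.le_def.mpr fun v => ?_) hs1
    rw [Finsupp.sub_apply, Finsupp.single_apply]
    split_ifs <;> omega
  obtain ⟨x, hx, hxi, hxr⟩ := R.exists_lift H.low H.up (by rw [hdegD]; omega) hsD
  -- lift the coordinates to inertia-fixed constants
  obtain ⟨v, hv, hexp⟩ := exists_fixed_basis R H hgal hd hD0 hDfix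
  obtain ⟨a, hxa, ha, -⟩ := hexp x hx
  choose r hr hrres using fun k => h.exists_fixed_lift (IsLocalRing.residue A ⟨a k, ha hxi k⟩)
  set t : F := ∑ k, ((r k : A) : Ω) • v k with ht
  obtain ⟨hti, htr⟩ := isInt_sum M Finset.univ (fun k => ((r k : A) : Ω) • v k)
    fun k _ => (M.isInt_smul (r k).2 (hv k).2.1).1
  obtain ⟨-, hxr'⟩ := isInt_sum M Finset.univ (fun k => a k • v k)
    fun k _ => (M.isInt_smul (ha hxi k) (hv k).2.1).1
  have hred : M.red t = s := by
    rw [← hxr, hxa, hxr', ht, htr]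
    refine Finset.sum_congr rfl fun k _ => ?_
    rw [(M.isInt_smul (r k).2 (hv k).2.1).2, (M.isInt_smul (ha hxi k) (hv k).2.1).2, ← hrres k]
  have htD : t ∈ riemannRochSpace D :=
    Submodule.sum_mem _ fun k _ => Submodule.smul_mem _ _ (hv k).1
  refine ⟨t, ⟨hti, fun P' hP' => ?_, by rw [hred, hsord]⟩, fun σ hσ => ?_⟩
  · rw [← ord_nonneg_iff]
    rcases mem_riemannRochSpace_iff.mp htD P' with e | e
    · rw [e, Place.ord_zero]
    · rwa [hD, Finsupp.single_eq_of_ne (fun e' => hPQ' (by rw [← e']; exact hP')), neg_zero] at e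
  · rw [ht, Finset.smul_sum]
    refine Finset.sum_congr rfl fun k _ => ?_
    rw [semilinear_smul, baseAut_gal hgal, (hv k).2.2 σ hσ, (hr k).2 σ hσ]

omit [IsAlgClosed (IsLocalRing.ResidueField A)] [IsFunctionField (IsLocalRing.ResidueField A) Fk] in
theorem IsParam.smul_place (hgal : IsCoeffAction gal) {Q : Place (IsLocalRing.ResidueField A) Fk}
    {t : F} (ht : IsParam R Q t) (htfix : ∀ σ ∈ A.inertiaSubgroupIn ℚ, gal σ • t = t)
    {σ : G_ℚ} (hσ : σ ∈ A.inertiaSubgroupIn ℚ) {P : Place Ω F} (hP : R.toFun P = Q) :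
    residueConst (gal σ • P) t = σ (residueConst P t) := by
  conv_lhs => rw [← htfix σ hσ]
  rw [residueConst_smul (gal σ) (ht.hol P hP), baseAut_gal hgal]

include H in
/-- Every residual place has an inertia-fixed lift. -/
theorem exists_fixed_lift_place (h : IsOver A p) (hgal : IsCoeffAction gal)
    (hd : FixedPlacesDense gal R) (Q : Place (IsLocalRing.ResidueField A) Fk) :
    ∃ (P : Place Ω F) (t : F), IsParam R Q t ∧ (∀ σ ∈ A.inertiaSubgroupIn ℚ, gal σ • t = t) ∧
      R.toFun P = Q ∧ residueConst P t = 0 ∧ ∀ σ ∈ A.inertiaSubgroupIn ℚ, gal σ • P = P := by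
  obtain ⟨t, ht, htfix⟩ := exists_param H h hgal hd Q
  obtain ⟨P, hP, hv, -, -⟩ := ht.exists_place (a := 0) (A.valuation.map_zero.trans_lt zero_lt_one)
  refine ⟨P, t, ht, htfix, hP, hv, fun σ hσ => ?_⟩
  refine ht.eq_of_value H (by rw [toFun_smul_gal R H hgal hσ, hP]) hP ?_
  rw [ht.smul_place hgal htfix hσ hP, hv, map_zero]

include H in
theorem exists_mapDomain_eq (h : IsOver A p) (hgal : IsCoeffAction gal)
    (hd : FixedPlacesDense gal R) (D : Divisor (IsLocalRing.ResidueField A) Fk) :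
    ∃ D₀ : Divisor Ω F, Finsupp.mapDomain R.toFun D₀ = D ∧
      ∀ σ ∈ A.inertiaSubgroupIn ℚ, gal σ • D₀ = D₀ := by
  choose P t _ _ hP _ hPfix using exists_fixed_lift_place H h hgal hd
  refine ⟨Finsupp.mapDomain P D, ?_, fun σ hσ => ?_⟩
  · rw [← Finsupp.mapDomain_comp, show R.toFun ∘ P = id from funext hP, Finsupp.mapDomain_id]
  · rw [SemilinearAut.divisor_smul_def, ← Finsupp.mapDomain_comp]
    congr 1
    exact funext fun Q => hPfix Q σ hσ

omit [IsAlgClosed (IsLocalRing.ResidueField A)] [IsFunctionField Ω F]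
  [IsFunctionField (IsLocalRing.ResidueField A) Fk] in
theorem FixedPlacesDense.infinite_range (hd : FixedPlacesDense gal R) :
    (Set.range R.toFun).Infinite := fun hfin => by
  obtain ⟨P, hP, -⟩ := hd _ hfin
  exact hP ⟨P, rfl⟩

/-- A chart: `g` inertia-fixed centres with distinct reductions forming a non-special divisor, and
inertia-fixed parameters vanishing at them. -/
structure ChartData (gal : G_ℚ →* SemilinearAut Ω F) (R : M.ReductionMap) (g : ℕ) where
  /-- the centres -/
  pt : Fin g → Place Ω F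
  /-- the parameters -/
  t : Fin g → F
  inj : Function.Injective fun i => R.toFun (pt i)
  nonspecial : Module.finrank (IsLocalRing.ResidueField A)
    (riemannRochSpace (∑ i, Finsupp.single (R.toFun (pt i)) (1 : ℤ))) ≤ 1
  param : ∀ i, IsParam R (R.toFun (pt i)) (t i)
  value_pt : ∀ i, residueConst (pt i) (t i) = 0
  pt_fixed : ∀ i, ∀ σ ∈ A.inertiaSubgroupIn ℚ, gal σ • pt i = pt i
  t_fixed : ∀ i, ∀ σ ∈ A.inertiaSubgroupIn ℚ, gal σ • t i = t i

include H in
/-- Charts exist off every finite set, with `C` plus the chart still non-special. -/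
theorem exists_chartData (h : IsOver A p) (hgal : IsCoeffAction gal) (hd : FixedPlacesDense gal R)
    {g' : ℕ} (hg : (g' : ℤ) = g) {C : Divisor (IsLocalRing.ResidueField A) Fk}
    (hC : Divisor.degree C = 0) :
    ∃ Y : Fin g' → Place Ω F, Function.Injective (fun i => R.toFun (Y i)) ∧
      (∀ i, ∀ σ ∈ A.inertiaSubgroupIn ℚ, gal σ • Y i = Y i) ∧
      Module.finrank (IsLocalRing.ResidueField A)
        (riemannRochSpace (C + ∑ i, Finsupp.single (R.toFun (Y i)) (1 : ℤ))) = 1 := by
  subst hg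
  have low : ∀ D : Divisor (IsLocalRing.ResidueField A) Fk,
      Divisor.degree D + 1 - (g' : ℤ) ≤
        (Module.finrank (IsLocalRing.ResidueField A) (riemannRochSpace D) : ℤ) := fun D => by
    obtain ⟨D₀, rfl, -⟩ := exists_mapDomain_eq H h hgal hd D
    rw [GoodModel.ReductionMap.degree_map]
    exact (H.low D₀).trans (Nat.cast_le.mpr (R.finrank_le D₀))
  obtain ⟨Q, hQ, -, hQ1⟩ := exists_nonspecial low H.up
    (hd.infinite_range.mono (Set.subset_univ _)) hC (S := ∅) Set.finite_empty
  choose Y t _ _ hY _ hYfix using fun i => exists_fixed_lift_place H h hgal hd (Q i)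
  refine ⟨Y, fun i j e => hQ ?_, hYfix, ?_⟩
  · simpa [hY] using e
  · rwa [Finset.sum_congr rfl (g := fun i => Finsupp.single (Q i) (1 : ℤ)) fun i _ => by rw [hY i]]

include H in
theorem nonempty_chartData (h : IsOver A p) (hgal : IsCoeffAction gal)
    (hd : FixedPlacesDense gal R) {g' : ℕ} (hg : (g' : ℤ) = g) :
    Nonempty (ChartData gal R g') := by
  obtain ⟨Y, hY, -, hY1⟩ := exists_chartData H h hgal hd hg (C := 0) (map_zero _)
  choose P t ht htfix hP hv hPfix using fun i => exists_fixed_lift_place H h hgal hd (R.toFun (Y i))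
  refine ⟨⟨P, t, ?_, ?_, fun i => (hP i).symm ▸ ht i, hv, hPfix, htfix⟩⟩
  · intro i j e
    exact hY (by simpa [hP] using e)
  · rw [Finset.sum_congr rfl (g := fun i => Finsupp.single (R.toFun (Y i)) (1 : ℤ)) fun i _ => by
      rw [hP i], ← zero_add (∑ i, Finsupp.single (R.toFun (Y i)) (1 : ℤ))]
    exact hY1.le

/-- The divisor of a tuple of points. -/
def tupleDiv {n : ℕ} (P : Fin n → Place Ω F) : Divisor Ω F := ∑ i, Finsupp.single (P i) 1

omit [IsFunctionField Ω F] [HasPrincipalDivisors Ω F] in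
theorem tupleDiv_nonneg {n : ℕ} (P : Fin n → Place Ω F) : 0 ≤ tupleDiv P :=
  Finset.sum_nonneg fun i _ => Finsupp.le_def.mpr fun v => by
    classical
    rw [Finsupp.single_apply]; split_ifs <;> simp

omit [HasPrincipalDivisors Ω F] in
theorem degree_tupleDiv {n : ℕ} (P : Fin n → Place Ω F) :
    Divisor.degree (tupleDiv P) = n := by
  rw [tupleDiv, map_sum, Finset.sum_congr rfl (g := fun _ => (1 : ℤ))
    (fun i _ => by rw [Divisor.degree_single, deg_eq_one]; rfl)]
  simp

omit [IsAlgClosed (IsLocalRing.ResidueField A)] [IsFunctionField Ω F]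
  [IsFunctionField (IsLocalRing.ResidueField A) Fk] in
theorem mapDomain_tupleDiv {n : ℕ} (P : Fin n → Place Ω F) :
    Finsupp.mapDomain R.toFun (tupleDiv P) = ∑ i, Finsupp.single (R.toFun (P i)) (1 : ℤ) := by
  rw [tupleDiv, Finsupp.mapDomain_finsetSum]
  simp [Finsupp.mapDomain_single]

namespace ChartData

variable {g₀ : ℕ} (C : ChartData gal R g₀)

/-- A lift of the chart: one place over each centre's reduction. -/
def IsLift (P : Fin g₀ → Place Ω F) : Prop := ∀ i, R.toFun (P i) = R.toFun (C.pt i)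

omit [IsAlgClosed (IsLocalRing.ResidueField A)] [IsFunctionField (IsLocalRing.ResidueField A) Fk] in
theorem isLift_pt : C.IsLift C.pt := fun _ => rfl

variable {C} {P P' : Fin g₀ → Place Ω F}

omit [IsAlgClosed (IsLocalRing.ResidueField A)] [IsFunctionField (IsLocalRing.ResidueField A) Fk] in
theorem IsLift.mapDomain (hP : C.IsLift P) :
    Finsupp.mapDomain R.toFun (tupleDiv P) = Finsupp.mapDomain R.toFun (tupleDiv C.pt) := by
  rw [mapDomain_tupleDiv, mapDomain_tupleDiv]
  exact Finset.sum_congr rfl fun i _ => by rw [hP i]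

omit [IsAlgClosed (IsLocalRing.ResidueField A)] [IsFunctionField (IsLocalRing.ResidueField A) Fk] in
theorem IsLift.apply (hP : C.IsLift P) (i : Fin g₀) {v : Place Ω F}
    (hv : R.toFun v = R.toFun (C.pt i)) : tupleDiv P v = Finsupp.single (P i) (1 : ℤ) v := by
  classical
  rw [tupleDiv, Finsupp.finsetSum_apply]
  refine Finset.sum_eq_single i (fun j _ hj => Finsupp.single_eq_of_ne ?_)
    (fun h => absurd (Finset.mem_univ _) h)
  intro e
  exact hj (C.inj (show R.toFun (C.pt j) = R.toFun (C.pt i) by rw [← hP j, ← e, hv]))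

theorem IsLift.mem_congClasses_iff (H : GoodModel.RRData (A := A) (F := F) (Fk := Fk) g c)
    (h : IsOver A p) (hd : FixedPlacesDense gal R) (hγ : 0 < γ) (hP : C.IsLift P)
    (hP' : C.IsLift P') {x : Pic0 Ω F} (hx : IsRep (tupleDiv P - tupleDiv P') x) :
    x ∈ congClasses R h γ ↔
      ∀ i, Near A p γ (residueConst (P i) (C.t i) - residueConst (P' i) (C.t i)) := by
  constructor
  · intro hmem i
    obtain ⟨D, hD, cD⟩ := (FlatJ0.mem_congClasses hγ).mp hmem
    have hc := CongDiv.sub_of_isPrincipal H h hγ hd.infinite_range (tupleDiv_nonneg P)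
      (tupleDiv_nonneg P') (hP.mapDomain.trans hP'.mapDomain.symm)
      (by rw [hP'.mapDomain, mapDomain_tupleDiv]; exact C.nonspecial) cD
      ((hx.eq_iff hD).mp rfl)
    exact near_of_congDiv H h hγ (C.param i) (hP i) (hP' i) hc fun v hv => by
      rw [Finsupp.sub_apply, hP.apply i hv, hP'.apply i hv]
  · intro hnear
    refine CongDiv.mem_congClasses hγ hx ?_
    rw [tupleDiv, tupleDiv, ← Finset.sum_sub_distrib]
    refine Finset.sum_induction _ (CongDiv R p γ) (fun _ _ ha hb => ha.add h hγ hb) congDiv_zero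
      fun i _ => ?_
    exact congDiv_of_near H h (C.param i) (hP i) (hP' i) (hnear i)

omit [IsAlgClosed (IsLocalRing.ResidueField A)] [IsFunctionField (IsLocalRing.ResidueField A) Fk] in
theorem exists_lift {X : Divisor Ω F}
    (hX : 0 ≤ X) (hmap : Finsupp.mapDomain R.toFun X = Finsupp.mapDomain R.toFun (tupleDiv C.pt)) :
    ∃ P : Fin g₀ → Place Ω F, C.IsLift P ∧ X = tupleDiv P := by
  classical
  have hone : ∀ i, Finsupp.mapDomain R.toFun X (R.toFun (C.pt i)) = 1 := fun i => by
    rw [hmap, mapDomain_tupleDiv, Finsupp.finsetSum_apply, Finset.sum_eq_single i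
      (fun j _ hj => Finsupp.single_eq_of_ne fun e => hj (C.inj e.symm))
      (fun h => absurd (Finset.mem_univ _) h), Finsupp.single_eq_same]
  choose P hP h1 h0 using fun i => exists_single_of_mapDomain_apply R.toFun
    (fun a _ => Finsupp.le_def.mp hX a) (hone i)
  refine ⟨P, hP, Finsupp.ext fun v => ?_⟩
  by_cases hv : ∃ i, R.toFun v = R.toFun (C.pt i)
  · obtain ⟨i, hi⟩ := hv
    rw [IsLift.apply hP i hi]
    rcases eq_or_ne v (P i) with rfl | hne
    · rw [Finsupp.single_eq_same, h1 i]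
    · rw [Finsupp.single_eq_of_ne hne, h0 i v hi hne]
  · rw [tupleDiv, Finsupp.finsetSum_apply, Finset.sum_eq_zero fun i _ =>
      Finsupp.single_eq_of_ne fun e => hv ⟨i, by rw [e, hP i]⟩]
    refine eq_zero_of_mapDomain_apply R.toFun (fun a _ => Finsupp.le_def.mp hX a) ?_ v rfl
    rw [hmap, mapDomain_tupleDiv, Finsupp.finsetSum_apply]
    exact Finset.sum_eq_zero fun i _ => Finsupp.single_eq_of_ne fun e => hv ⟨i, e⟩

/-- A class with trivial reduction has coordinates in every chart. -/
theorem exists_rep (H : GoodModel.RRData (A := A) (F := F) (Fk := Fk) g c) (C : ChartData gal R g₀)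
    (hg : (g₀ : ℤ) = g) {D : Divisor Ω F} {x : Pic0 Ω F} (hD : IsRep D x)
    (hr : Divisor.IsPrincipal (Finsupp.mapDomain R.toFun D)) :
    ∃ P : Fin g₀ → Place Ω F, C.IsLift P ∧ IsRep (tupleDiv P - tupleDiv C.pt) x ∧
      ∀ P' : Fin g₀ → Place Ω F, IsRep (tupleDiv P' - tupleDiv C.pt) x →
        tupleDiv P' = tupleDiv P := by
  obtain ⟨X, hX, hmap, hprin, huniq⟩ := exists_chart_rep H hg (tupleDiv_nonneg C.pt)
    (degree_tupleDiv _) (by rw [mapDomain_tupleDiv]; exact C.nonspecial) hD.degree_eq hr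
  obtain ⟨P, hP, rfl⟩ := C.exists_lift hX hmap
  refine ⟨P, hP, hD.congr ?_ hprin, fun P' hP' =>
    huniq _ (tupleDiv_nonneg P') ((hP'.eq_iff hD).mp rfl)⟩
  rw [map_sub, degree_tupleDiv, degree_tupleDiv, sub_self]

/-- Coordinates of a congruent class. -/
theorem exists_rep_of_mem (H : GoodModel.RRData (A := A) (F := F) (Fk := Fk) g c)
    (C : ChartData gal R g₀) (hg : (g₀ : ℤ) = g) (h : IsOver A p) (hd : FixedPlacesDense gal R)
    (hγ : 0 < γ) {x : Pic0 Ω F} (hx : x ∈ congClasses R h γ) :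
    ∃ P : Fin g₀ → Place Ω F, C.IsLift P ∧ IsRep (tupleDiv P - tupleDiv C.pt) x ∧
      ∀ i, Near A p γ (residueConst (P i) (C.t i)) := by
  obtain ⟨D, hD, cD⟩ := (FlatJ0.mem_congClasses hγ).mp hx
  obtain ⟨P, hP, hrep, -⟩ := C.exists_rep H hg hD
    (by rw [cD.mapDomain_eq_zero h hγ]; exact (Divisor.principal (K := _) (F := _)).zero_mem)
  refine ⟨P, hP, hrep, fun i => ?_⟩
  have := (hP.mem_congClasses_iff H h hd hγ C.isLift_pt hrep).mp hx i
  rwa [C.value_pt, sub_zero] at this

end ChartData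

end Fermat.Agent.FlatJ0
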