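import Fermat.Agent.FlatJ0.Ord
import Fermat.Agent.Reduction.RedRing

/-!
# Functions small for the Gauss ring

`IsSmall M p γ x`: `x` is a constant of `ord ≥ γ` times a function of the Gauss ring.
-/

noncomputable section

namespace Fermat.Agent.FlatJ0

open AlgebraicCurve ModularCurve Fermat.Agent.Reduction

local notation "Ω" => AlgebraicClosure ℚ

variable {A : ValuationSubring Ω} {F : IntermediateField Ω (LaurentSeries Ω)}
  {Fk : IntermediateField (IsLocalRing.ResidueField A) (LaurentSeries (IsLocalRing.ResidueField A))}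

/-- `x` lies in `p^γ` times the Gauss ring. -/
def IsSmall (M : GoodModel A F Fk) (p : ℕ) (γ : ℚ) (x : F) : Prop :=
  ∃ (s : Ω) (y : F), Near A p γ s ∧ M.IsInt y ∧ x = s • y

variable {M : GoodModel A F Fk} {p : ℕ} {γ δ : ℚ} {x y : F}

theorem isSmall_zero : IsSmall M p γ (0 : F) :=
  ⟨0, 0, Or.inl rfl, M.isInt_zero, (smul_zero _).symm⟩

theorem isSmall_of_near {s : Ω} (hs : Near A p γ s) (hy : M.IsInt y) : IsSmall M p γ (s • y) :=
  ⟨s, y, hs, hy, rfl⟩

theorem IsSmall.neg (hx : IsSmall M p γ x) : IsSmall M p γ (-x) := by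
  obtain ⟨s, z, hs, hz, rfl⟩ := hx
  exact ⟨s, -z, hs, (M.isInt_neg hz).1, (smul_neg s z).symm⟩

theorem IsSmall.mul_isInt (hx : IsSmall M p γ x) (hy : M.IsInt y) : IsSmall M p γ (x * y) := by
  obtain ⟨s, z, hs, hz, rfl⟩ := hx
  exact ⟨s, z * y, hs, (M.isInt_mul hz hy).1, smul_mul_assoc s z y⟩

theorem IsSmall.isInt_mul (hx : IsSmall M p γ x) (hy : M.IsInt y) : IsSmall M p γ (y * x) :=
  mul_comm x y ▸ hx.mul_isInt hy

theorem IsSmall.div (hx : IsSmall M p γ x) (hy : M.IsInt y) (hy0 : M.red y ≠ 0) :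
    IsSmall M p γ (x / y) :=
  div_eq_mul_inv x y ▸ hx.mul_isInt (M.isInt_inv hy hy0).1

theorem IsSmall.mono (hx : IsSmall M p γ x) (hδ : δ ≤ γ) : IsSmall M p δ x := by
  obtain ⟨s, z, hs, hz, rfl⟩ := hx
  exact ⟨s, z, hs.mono hδ, hz, rfl⟩

theorem IsSmall.add (hx : IsSmall M p γ x) (hy : IsSmall M p γ y) : IsSmall M p γ (x + y) := by
  obtain ⟨s, z, hs, hz, rfl⟩ := hx
  obtain ⟨t, w, ht, hw, rfl⟩ := hy
  rcases eq_or_ne s 0 with rfl | hs0
  · rw [zero_smul, zero_add]; exact ⟨t, w, ht, hw, rfl⟩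
  rcases A.mem_or_inv_mem (t / s) with hr | hr
  · refine ⟨s, z + (t / s) • w, hs, (M.isInt_add hz (M.isInt_smul hr hw).1).1, ?_⟩
    rw [smul_add, smul_smul, mul_div_cancel₀ _ hs0]
  · rcases eq_or_ne t 0 with rfl | ht0
    · rw [zero_smul, add_zero]; exact ⟨s, z, hs, hz, rfl⟩
    refine ⟨t, (s / t) • z + w, ht, (M.isInt_add (M.isInt_smul ?_ hz).1 hw).1, ?_⟩
    · rwa [← inv_div]
    · rw [smul_add, smul_smul, mul_div_cancel₀ _ ht0]

theorem IsSmall.sub (hx : IsSmall M p γ x) (hy : IsSmall M p γ y) : IsSmall M p γ (x - y) :=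
  sub_eq_add_neg x y ▸ hx.add hy.neg

theorem IsSmall.trans {z : F} (h1 : IsSmall M p γ (x - y)) (h2 : IsSmall M p γ (y - z)) :
    IsSmall M p γ (x - z) := by
  simpa using h1.add h2

theorem IsSmall.finset_sum {ι : Type*} (s : Finset ι) (f : ι → F)
    (hf : ∀ i ∈ s, IsSmall M p γ (f i)) : IsSmall M p γ (∑ i ∈ s, f i) := by
  classical
  induction s using Finset.induction_on with
  | empty => simpa using isSmall_zero
  | insert a s ha ih =>
    rw [Finset.sum_insert ha]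
    exact (hf a (Finset.mem_insert_self a s)).add
      (ih fun i hi => hf i (Finset.mem_insert_of_mem hi))

namespace IsOver

variable (h : IsOver A p)
include h

theorem isInt_of_isSmall (hγ : 0 ≤ γ) (hx : IsSmall M p γ x) : M.IsInt x := by
  obtain ⟨s, z, hs, hz, rfl⟩ := hx
  exact (M.isInt_smul (h.mem_of_near hs hγ) hz).1

theorem red_eq_zero_of_isSmall (hγ : 0 < γ) (hx : IsSmall M p γ x) : M.red x = 0 := by
  obtain ⟨s, z, hs, hz, rfl⟩ := hx
  have hsA := h.mem_of_near hs hγ.le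
  rw [(M.isInt_smul hsA hz).2]
  have : IsLocalRing.residue A ⟨s, hsA⟩ = 0 := by
    rw [IsLocalRing.residue_eq_zero_iff, ← ValuationSubring.coe_mem_nonunits_iff]
    exact h.nonunit_of_near hs hγ
  rw [this, zero_smul]

theorem red_eq_of_isSmall_sub (hγ : 0 < γ) (hy : M.IsInt y) (hx : IsSmall M p γ (x - y)) :
    M.IsInt x ∧ M.red x = M.red y := by
  obtain ⟨h1, h2⟩ := M.isInt_add hy (h.isInt_of_isSmall hγ.le hx)
  rw [add_sub_cancel] at h1 h2
  exact ⟨h1, by rw [h2, h.red_eq_zero_of_isSmall hγ hx, add_zero]⟩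

theorem isSmall_smul {c : Ω} (hc : Near A p δ c) (hx : IsSmall M p γ x) :
    IsSmall M p (δ + γ) (c • x) := by
  obtain ⟨s, z, hs, hz, rfl⟩ := hx
  exact ⟨c * s, z, h.near_mul hc hs, hz, smul_smul c s z⟩

/-- A function congruent to `1` has reduction `1`, is nonzero and has inverse congruent to `1`. -/
theorem of_isSmall_sub_one (hγ : 0 < γ) (hx : IsSmall M p γ (x - 1)) :
    M.IsInt x ∧ M.red x = 1 ∧ x ≠ 0 ∧ IsSmall M p γ (x⁻¹ - 1) := by
  obtain ⟨h1, h2⟩ := h.red_eq_of_isSmall_sub hγ M.isInt_one hx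
  rw [M.red_one] at h2
  have hx0 : x ≠ 0 := fun e => one_ne_zero (by rw [← h2, e, M.red_zero])
  refine ⟨h1, h2, hx0, ?_⟩
  have := (hx.div h1 (by rw [h2]; exact one_ne_zero)).neg
  rwa [neg_div', neg_sub, sub_div, div_self hx0, one_div] at this

theorem isSmall_mul_sub_one (hγ : 0 < γ) (hx : IsSmall M p γ (x - 1))
    (hy : IsSmall M p γ (y - 1)) : IsSmall M p γ (x * y - 1) := by
  have := (hx.mul_isInt (h.of_isSmall_sub_one hγ hy).1).add hy
  rwa [sub_mul, one_mul, sub_add_sub_cancel] at this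

end IsOver

/-- Every nonzero function is a nonzero constant times a primitive one. -/
theorem exists_primitive_smul (M : GoodModel A F Fk) {x : F} (hx : x ≠ 0) :
    ∃ (s : Ω) (y : F), s ≠ 0 ∧ M.IsInt y ∧ M.red y ≠ 0 ∧ x = s • y := by
  obtain ⟨c, hc, hi, hr⟩ := M.exists_scale hx
  exact ⟨c⁻¹, c • x, inv_ne_zero hc, hi, hr, (inv_smul_smul₀ hc x).symm⟩

end Fermat.Agent.FlatJ0
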