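import Fermat.Agent.FlatJ0.Points
import Mathlib.Data.Nat.Choose.Dvd

/-!
# Multiplication by `p` in coordinates

With `a` of `ord ≥ ν`, `p (P_a - P_0)` is congruent to `P_{pa} - P_0` to order
`min (2ν + 1, pν)`: the congruent classes have no `p`-torsion above `1/(p-1)` and are divisible by
`p` up to higher order.
-/

noncomputable section

namespace Fermat.Agent.FlatJ0

open AlgebraicCurve ModularCurve Fermat.Agent.Reduction Fermat.Agent.FunctionFieldRR
open scoped Fermat.Agent.Reduction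

local notation "Ω" => AlgebraicClosure ℚ
local notation "G_ℚ" => (AlgebraicClosure ℚ) ≃ₐ[ℚ] (AlgebraicClosure ℚ)

variable {A : ValuationSubring Ω} {F : IntermediateField Ω (LaurentSeries Ω)}
  {Fk : IntermediateField (IsLocalRing.ResidueField A) (LaurentSeries (IsLocalRing.ResidueField A))}
  {M : GoodModel A F Fk} {gal : G_ℚ →* SemilinearAut Ω F} {p : ℕ} {γ δ ν : ℚ}

theorem IsOver.near_pow_nat (h : IsOver A p) {x : Ω} (hx : Near A p ν x) {n : ℕ} :
    Near A p (n * ν) (x ^ n) := by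
  induction n with
  | zero => rw [Nat.cast_zero, zero_mul, pow_zero]; exact h.near_of_mem (one_mem A)
  | succ n ih =>
    rw [pow_succ, show ((n + 1 : ℕ) : ℚ) * ν = n * ν + ν by push_cast; ring]
    exact h.near_mul ih hx

theorem IsOver.near_natCast_p (h : IsOver A p) : Near A p 1 (p : Ω) := Or.inr h.ord_p.ge

/-- The binomial congruence `(t - a)^p ≡ (t - p a) t^(p-1)`. -/
theorem IsOver.isSmall_binomial (h : IsOver A p) {t : F} (ht : M.IsInt t) {a : Ω} (hν : 0 ≤ ν)
    (ha : Near A p ν a) :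
    IsSmall M p (min (2 * ν + 1) (p * ν))
      ((t - algebraMap Ω F a) ^ p - (t - algebraMap Ω F ((p : Ω) * a)) * t ^ (p - 1)) := by
  obtain ⟨n, rfl⟩ : ∃ n, p = n + 1 := ⟨p - 1, by have := h.prime.one_lt; omega⟩
  set b : F := algebraMap Ω F a with hb
  have e : (t - b) ^ (n + 1) - (t - algebraMap Ω F (((n + 1 : ℕ) : Ω) * a)) * t ^ n =
      ∑ j ∈ Finset.range n, (((n + 1).choose j : Ω) * (-a) ^ (n + 1 - j)) • t ^ j := by
    rw [sub_eq_add_neg t b, add_pow, Finset.sum_range_succ, Finset.sum_range_succ,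
      Nat.choose_self, Nat.choose_succ_self_right, Nat.sub_self,
      show n + 1 - n = 1 by omega]
    simp only [Algebra.smul_def, map_mul, map_natCast, map_pow, map_neg, ← hb]
    rw [Finset.sum_congr rfl (g := fun j => ((n + 1).choose j : F) * (-b) ^ (n + 1 - j) * t ^ j)
      fun j _ => by ring]
    push_cast
    ring
  rw [Nat.add_sub_cancel, e]
  refine IsSmall.finset_sum _ _ fun j hj => isSmall_of_near ?_ (M.isInt_pow ht j).1
  have hj' : j < n := Finset.mem_range.mp hj
  have hna : Near A (n + 1) ν (-a) := h.near_neg ha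
  rcases Nat.eq_zero_or_pos j with rfl | hj0
  · rw [Nat.choose_zero_right, Nat.cast_one, one_mul, Nat.sub_zero]
    exact (h.near_pow_nat hna).mono (min_le_right _ _)
  · obtain ⟨k, hk⟩ := h.prime.dvd_choose_self hj0.ne' (show j < n + 1 by omega)
    rw [hk, Nat.cast_mul, mul_assoc]
    have h2 : Near A (n + 1) (((n + 1 - j : ℕ) : ℚ) * ν) ((k : Ω) * (-a) ^ (n + 1 - j)) :=
      h.near_mul_left (natCast_mem A k) (h.near_pow_nat hna)
    refine (h.near_mul h.near_natCast_p h2).mono ((min_le_left _ _).trans ?_)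
    have h3 : (2 : ℚ) ≤ ((n + 1 - j : ℕ) : ℚ) := by
      exact_mod_cast (show 2 ≤ n + 1 - j by omega)
    nlinarith [mul_le_mul_of_nonneg_right h3 hν]

variable [IsAlgClosed (IsLocalRing.ResidueField A)] [IsFunctionField Ω F]
  [IsFunctionField (IsLocalRing.ResidueField A) Fk]
  [HasPrincipalDivisors Ω F] [HasPrincipalDivisors (IsLocalRing.ResidueField A) Fk]
  {R : M.ReductionMap} {g c : ℤ} (H : GoodModel.RRData (A := A) (F := F) (Fk := Fk) g c)

include H in
/-- `p (P - P₀)` against `P' - P₀` where `t P₀ = 0`, `t P' = p t P`. -/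
theorem congDiv_nsmul_point (h : IsOver A p) (hν : 0 < ν)
    {Q : Place (IsLocalRing.ResidueField A) Fk} {t : F} (ht : IsParam R Q t)
    {P P' P₀ : Place Ω F} (hP : R.toFun P = Q) (hP' : R.toFun P' = Q) (hP₀ : R.toFun P₀ = Q)
    (h0 : residueConst P₀ t = 0) (hP'v : residueConst P' t = (p : Ω) * residueConst P t)
    (ha : Near A p ν (residueConst P t)) :
    CongDiv R p (min (2 * ν + 1) (p * ν))
      (p • (Finsupp.single P 1 - Finsupp.single P₀ 1) -
        (Finsupp.single P' 1 - Finsupp.single P₀ 1)) := by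
  classical
  intro Q'
  rcases eq_or_ne Q' Q with rfl | hQ
  · have hB := h.isSmall_binomial ht.isInt hν.le ha
    set a := residueConst P t
    obtain ⟨n, hn⟩ : ∃ n, p = n + 1 := ⟨p - 1, by have := h.prime.one_lt; omega⟩
    set u := t - algebraMap Ω F a with hu
    set d := t - algebraMap Ω F ((p : Ω) * a) with hdd
    obtain ⟨hui, hur⟩ : M.IsInt u ∧ M.red u = M.red t := ht.red_sub (ht.value_mem H hP)
    obtain ⟨hdi, hdr⟩ : M.IsInt d ∧ M.red d = M.red t := ht.red_sub (hP'v ▸ ht.value_mem H hP')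
    have hu0 : u ≠ 0 := fun e => ht.red_ne_zero (by rw [← hur, e, M.red_zero])
    have hd0 : d ≠ 0 := fun e => ht.red_ne_zero (by rw [← hdr, e, M.red_zero])
    have ht0 : t ≠ 0 := fun e => ht.red_ne_zero (by rw [e, M.red_zero])
    obtain ⟨hti, htr⟩ := M.isInt_pow ht.isInt (p - 1)
    obtain ⟨hmi, hmr⟩ := M.isInt_mul hdi hti
    have hm0 : M.red (d * t ^ (p - 1)) ≠ 0 := by
      rw [hmr, hdr, htr]; exact mul_ne_zero ht.red_ne_zero (pow_ne_zero _ ht.red_ne_zero)
    refine ⟨u ^ p / (d * t ^ (p - 1)), ?_, fun v hv => ?_⟩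
    · rw [div_sub_one (mul_ne_zero hd0 (pow_ne_zero _ ht0))]
      exact hB.div hmi hm0
    · have hcase : ∀ {P₁ : Place Ω F}, R.toFun P₁ = Q' →
          v.ord (t - algebraMap Ω F (residueConst P₁ t)) = Finsupp.single P₁ (1 : ℤ) v := by
        intro P₁ hP₁
        obtain ⟨h1, h2⟩ := ht.ord_sub_value H hP₁ hv
        rcases eq_or_ne v P₁ with e | e
        · rw [h1 e, e, Finsupp.single_eq_same]
        · rw [h2 e, Finsupp.single_eq_of_ne e]
      have e1 := hcase hP
      have e2 := hcase hP'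
      have e3 := hcase hP₀
      rw [hP'v] at e2
      rw [h0, map_zero, sub_zero] at e3
      rw [ord_div v (pow_ne_zero _ hu0) (mul_ne_zero hd0 (pow_ne_zero _ ht0)),
        v.ord_mul hd0 (pow_ne_zero _ ht0), ord_pow, ord_pow, e1, e2, e3,
        Finsupp.sub_apply, Finsupp.smul_apply, Finsupp.sub_apply, Finsupp.sub_apply, nsmul_eq_mul,
        hn, Nat.add_sub_cancel]
      push_cast
      ring
  · refine ⟨1, by rw [sub_self]; exact isSmall_zero, fun v hv => ?_⟩
    have hne : ∀ {P₁ : Place Ω F}, R.toFun P₁ = Q → Finsupp.single P₁ (1 : ℤ) v = 0 := fun hP₁ =>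
      Finsupp.single_eq_of_ne fun e => hQ (by rw [← hv, e, hP₁])
    simp [hne hP, hne hP', hne hP₀]

namespace ChartData

variable {g₀ : ℕ}

omit [IsAlgClosed (IsLocalRing.ResidueField A)] [IsFunctionField (IsLocalRing.ResidueField A) Fk] in
theorem exists_isLift_value (C : ChartData gal R g₀) {a : Fin g₀ → Ω} (ha : ∀ i, a i ∈ A.nonunits) :
    ∃ P : Fin g₀ → Place Ω F, C.IsLift P ∧ ∀ i, residueConst (P i) (C.t i) = a i := by
  choose P h1 h2 h3 h4 using fun i => (C.param i).exists_place (ha i)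
  exact ⟨P, h1, h2⟩

include H in
theorem congDiv_nsmul (C : ChartData gal R g₀) (h : IsOver A p) (hν : 0 < ν)
    {P P' : Fin g₀ → Place Ω F} (hP : C.IsLift P) (hP' : C.IsLift P')
    (hv : ∀ i, residueConst (P' i) (C.t i) = (p : Ω) * residueConst (P i) (C.t i))
    (ha : ∀ i, Near A p ν (residueConst (P i) (C.t i))) :
    CongDiv R p (min (2 * ν + 1) (p * ν))
      (p • (tupleDiv P - tupleDiv C.pt) - (tupleDiv P' - tupleDiv C.pt)) := by
  have hpos : 0 < min (2 * ν + 1) (p * ν) :=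
    lt_min (by linarith) (mul_pos (Nat.cast_pos.mpr h.prime.pos) hν)
  simp only [tupleDiv, ← Finset.sum_sub_distrib, Finset.smul_sum]
  refine Finset.sum_induction _ (CongDiv R p (min (2 * ν + 1) (p * ν)))
    (fun _ _ x y => x.add h hpos y) congDiv_zero fun i _ => ?_
  exact congDiv_nsmul_point H h hν (C.param i) (hP i) (hP' i) rfl (C.value_pt i) (hv i) (ha i)

end ChartData

variable {g₀ : ℕ}

include H in
/-- No `p`-torsion above `1/(p-1)`. -/
theorem eq_zero_of_nsmul_eq_zero (C : ChartData gal R g₀) (hg : (g₀ : ℤ) = g) (h : IsOver A p)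
    (hd : FixedPlacesDense gal R) (hδ : 1 / ((p : ℚ) - 1) < δ) {x : Pic0 Ω F}
    (hx : x ∈ congClasses R h δ) (hpx : p • x = 0) : x = 0 := by
  classical
  have hp1 : (0 : ℚ) < (p : ℚ) - 1 := by
    have : (2 : ℚ) ≤ p := by exact_mod_cast h.prime.two_le
    linarith
  have hδ0 : 0 < δ := lt_trans (by positivity) hδ
  obtain ⟨P, hP, hrep, ha⟩ := C.exists_rep_of_mem H hg h hd hδ0 hx
  set a := fun i => residueConst (P i) (C.t i) with hadef
  by_cases hall : ∀ i, a i = 0
  · have : P = C.pt := funext fun i =>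
      (C.param i).eq_of_value H (hP i) rfl (by rw [C.value_pt]; exact hall i)
    rw [this, sub_self] at hrep
    exact hrep.eq_zero_iff.mpr (Divisor.principal (K := Ω) (F := F)).zero_mem
  exfalso
  push Not at hall
  obtain ⟨i₀, hi₀⟩ := hall
  obtain ⟨m, hm, hmin⟩ := Finset.exists_min_image (Finset.univ.filter fun i => a i ≠ 0)
    (fun i => ord A p (a i)) ⟨i₀, Finset.mem_filter.mpr ⟨Finset.mem_univ _, hi₀⟩⟩
  have hm0 : a m ≠ 0 := (Finset.mem_filter.mp hm).2
  set ν := ord A p (a m) with hν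
  have hνδ : δ ≤ ν := (ha m).resolve_left hm0
  have hν0 : 0 < ν := hδ0.trans_le hνδ
  have hnear : ∀ i, Near A p ν (a i) := fun i => by
    rcases eq_or_ne (a i) 0 with e | e
    · exact Or.inl e
    · exact Or.inr (hmin i (Finset.mem_filter.mpr ⟨Finset.mem_univ _, e⟩))
  obtain ⟨P', hP', hv⟩ := C.exists_isLift_value (a := fun i => (p : Ω) * a i)
    (fun i => h.nonunit_of_near (h.near_mul h.near_natCast_p (hnear i)) (by linarith))
  have hc := C.congDiv_nsmul H h hν0 hP hP' hv hnear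
  have hpos : 0 < min (2 * ν + 1) (p * ν) :=
    lt_min (by linarith) (mul_pos (Nat.cast_pos.mpr h.prime.pos) hν0)
  obtain ⟨y, hy⟩ : ∃ y : Pic0 Ω F, IsRep (tupleDiv P' - tupleDiv C.pt) y :=
    ⟨_, Divisor.mem_degZero.mpr (by rw [map_sub, degree_tupleDiv, degree_tupleDiv, sub_self]), rfl⟩
  have hmem : y ∈ congClasses R h (min (2 * ν + 1) (p * ν)) := by
    have h1 := CongDiv.mem_congClasses (h := h) hpos ((hrep.nsmul p).sub hy) hc
    rw [hpx, zero_sub] at h1
    simpa using neg_mem h1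
  have hn := (hP'.mem_congClasses_iff H h hd hpos C.isLift_pt hy).mp hmem m
  rw [hv m, C.value_pt, sub_zero] at hn
  have h2 := hn.resolve_left (mul_ne_zero h.natCast_ne_zero hm0)
  rw [h.ord_mul h.natCast_ne_zero hm0, h.ord_p] at h2
  have h3 : 1 < ν * ((p : ℚ) - 1) := by
    have := hδ.trans_le hνδ
    rwa [div_lt_iff₀ hp1] at this
  rcases min_le_iff.mp h2 with h4 | h4 <;> linarith

end Fermat.Agent.FlatJ0
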