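import Fermat.Agent.FlatJ0.Torsion
import Fermat.Agent.FlatJ0.Extend

/-!
# Transport of divisors and classes

A divisor fixed by `N` is, over each residual place, the divisor of a function fixed by `N`;
transporting these functions gives the map on classes fixed by `N` used in Fontaine's argument.
-/

noncomputable section

namespace Fermat.Agent.FlatJ0

open AlgebraicCurve ModularCurve Fermat.Agent.Reduction Fermat.Agent.FunctionFieldRR
open scoped Fermat.Agent.Reduction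

local notation "Ω" => AlgebraicClosure ℚ
local notation "G_ℚ" => (AlgebraicClosure ℚ) ≃ₐ[ℚ] (AlgebraicClosure ℚ)

variable {A : ValuationSubring Ω} {F : IntermediateField Ω (LaurentSeries Ω)}
  {Fk : IntermediateField (IsLocalRing.ResidueField A) (LaurentSeries (IsLocalRing.ResidueField A))}
  {M : GoodModel A F Fk} {gal : G_ℚ →* SemilinearAut Ω F} {p : ℕ} {γ δ : ℚ} {N : Subgroup G_ℚ}
  {φ : Ω → Ω}

theorem isInt_zpow (M : GoodModel A F Fk) {x : F} (hx : M.IsInt x) (h0 : M.red x ≠ 0) (n : ℤ) :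
    M.IsInt (x ^ n) ∧ M.red (x ^ n) ≠ 0 := by
  obtain ⟨m, rfl | rfl⟩ := Int.eq_nat_or_neg n
  · rw [zpow_natCast]
    obtain ⟨h1, h2⟩ := M.isInt_pow hx m
    exact ⟨h1, h2 ▸ pow_ne_zero m h0⟩
  · rw [zpow_neg, zpow_natCast]
    obtain ⟨h1, h2⟩ := M.isInt_pow hx m
    obtain ⟨h3, h4⟩ := M.isInt_inv h1 (h2 ▸ pow_ne_zero m h0)
    exact ⟨h3, h4 ▸ inv_ne_zero (h2 ▸ pow_ne_zero m h0)⟩

theorem isInt_prod (M : GoodModel A F Fk) {ι : Type*} (s : Finset ι) (f : ι → F)
    (hf : ∀ i ∈ s, M.IsInt (f i) ∧ M.red (f i) ≠ 0) :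
    M.IsInt (∏ i ∈ s, f i) ∧ M.red (∏ i ∈ s, f i) ≠ 0 := by
  classical
  induction s using Finset.induction_on with
  | empty => simpa using M.isInt_one
  | insert a s ha ih =>
    obtain ⟨h1, h2⟩ := ih fun i hi => hf i (Finset.mem_insert_of_mem hi)
    obtain ⟨h3, h4⟩ := hf a (Finset.mem_insert_self a s)
    obtain ⟨h5, h6⟩ := M.isInt_mul h3 h1
    rw [Finset.prod_insert ha]
    exact ⟨h5, h6 ▸ mul_ne_zero h4 h2⟩

theorem ord_zpow_eq {K E : Type*} [Field K] [Field E] [Algebra K E] (P : Place K E) (x : E)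
    (n : ℤ) : P.ord (x ^ n) = n * P.ord x := by
  obtain ⟨m, rfl | rfl⟩ := Int.eq_nat_or_neg n
  · rw [zpow_natCast, ord_pow]
  · rw [zpow_neg, zpow_natCast, P.ord_inv, ord_pow]; ring

theorem ord_prod_eq {K E : Type*} [Field K] [Field E] [Algebra K E] (P : Place K E) {ι : Type*}
    (s : Finset ι) (f : ι → E) (hf : ∀ i ∈ s, f i ≠ 0) :
    P.ord (∏ i ∈ s, f i) = ∑ i ∈ s, P.ord (f i) := by
  classical
  induction s using Finset.induction_on with
  | empty => simp
  | insert a s ha ih =>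
    rw [Finset.prod_insert ha, Finset.sum_insert ha, P.ord_mul (hf a (Finset.mem_insert_self a s))
      (Finset.prod_ne_zero_iff.mpr fun i hi => hf i (Finset.mem_insert_of_mem hi)),
      ih fun i hi => hf i (Finset.mem_insert_of_mem hi)]

variable [IsAlgClosed (IsLocalRing.ResidueField A)] [IsFunctionField Ω F]
  [IsFunctionField (IsLocalRing.ResidueField A) Fk]
  [HasPrincipalDivisors Ω F] [HasPrincipalDivisors (IsLocalRing.ResidueField A) Fk]
  {R : M.ReductionMap} {g c : ℤ} (H : GoodModel.RRData (A := A) (F := F) (Fk := Fk) g c)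

/-- `D'` is obtained from `D` by applying `φ` to local equations. -/
def IsTrans (gal : G_ℚ →* SemilinearAut Ω F) (R : M.ReductionMap) (p : ℕ) (N : Subgroup G_ℚ)
    (γ : ℚ) (φ : Ω → Ω) (D D' : Divisor Ω F) : Prop :=
  ∀ Q : Place (IsLocalRing.ResidueField A) Fk, ∃ f f' : F, IsFixed M gal N f ∧ M.red f ≠ 0 ∧
    IsExt M gal p N γ φ f f' ∧ ∀ P : Place Ω F, R.toFun P = Q → D P = P.ord f ∧ D' P = P.ord f'

variable (hgal : IsCoeffAction gal) (hd : FixedPlacesDense gal R) (h : IsOver A p)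
  (hN : N ≤ A.inertiaSubgroupIn ℚ) [(N.subgroupOf (A.inertiaSubgroupIn ℚ)).FiniteIndex]
  (hγ : 1 < γ) (hφ : IsHomMod A p N γ φ)

include H hgal hd h hN in
omit [(N.subgroupOf (A.inertiaSubgroupIn ℚ)).FiniteIndex] in
/-- Over each residual place a divisor fixed by `N` is the divisor of a function fixed by `N`. -/
theorem exists_local (Q : Place (IsLocalRing.ResidueField A) Fk) {D : Divisor Ω F}
    (hDfix : ∀ τ ∈ N, gal τ • D = D) :
    ∃ f : F, IsFixed M gal N f ∧ M.red f ≠ 0 ∧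
      ∀ P : Place Ω F, R.toFun P = Q → D P = P.ord f := by
  classical
  obtain ⟨t, ht, htfix⟩ := exists_param H h hgal hd Q
  set S := D.support.filter fun P => R.toFun P = Q with hS
  let d : Place Ω F → F := fun P => t - algebraMap Ω F (residueConst P t)
  have hd1 : ∀ P ∈ S, M.IsInt (d P) ∧ M.red (d P) ≠ 0 := fun P hP => by
    obtain ⟨h1, h2⟩ := ht.red_sub (ht.value_mem H (Finset.mem_filter.mp hP).2)
    exact ⟨h1, fun e => ht.red_ne_zero (h2 ▸ e)⟩
  have hd0 : ∀ P ∈ S, d P ≠ 0 := fun P hP e => (hd1 P hP).2 (by rw [e, M.red_zero])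
  obtain ⟨hfi, hfr⟩ := isInt_prod M S (fun P => d P ^ D P) fun P hP =>
    isInt_zpow M (hd1 P hP).1 (hd1 P hP).2 _
  refine ⟨∏ P ∈ S, d P ^ D P, ⟨hfi, fun τ hτ => ?_⟩, hfr, fun P hP => ?_⟩
  · rw [Finset.smul_prod']
    refine Finset.prod_bij (fun P _ => gal τ • P) (fun P hP => ?_)
      (fun P _ P' _ e => MulAction.injective (gal τ) e) (fun P' hP' => ?_) fun P hP => ?_
    · rw [hS, Finset.mem_filter] at hP ⊢
      rw [Finsupp.mem_support_iff, toFun_smul_gal R H hgal (hN hτ)] at *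
      refine ⟨?_, hP.2⟩
      conv_lhs => rw [← hDfix τ hτ]
      rw [SemilinearAut.divisor_smul_apply_smul]
      exact hP.1
    · obtain ⟨P, rfl⟩ := MulAction.surjective (gal τ) P'
      refine ⟨P, ?_, rfl⟩
      rw [hS, Finset.mem_filter, Finsupp.mem_support_iff] at hP' ⊢
      rw [toFun_smul_gal R H hgal (hN hτ)] at hP'
      refine ⟨?_, hP'.2⟩
      have := hP'.1
      rwa [← hDfix τ hτ, SemilinearAut.divisor_smul_apply_smul] at this
    · have hPQ := (Finset.mem_filter.mp hP).2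
      conv_rhs => rw [← hDfix τ hτ]
      rw [SemilinearAut.divisor_smul_apply_smul, SemilinearAut.smul_def, map_zpow₀]
      congr 1
      show gal τ • (t - algebraMap Ω F (residueConst P t)) =
        t - algebraMap Ω F (residueConst (gal τ • P) t)
      rw [smul_sub, htfix τ (hN hτ), SemilinearAut.smul_algebraMap, baseAut_gal hgal,
        ht.smul_place hgal htfix (hN hτ) hPQ]
  · rw [ord_prod_eq P S _ fun P' hP' => zpow_ne_zero _ (hd0 P' hP')]
    rw [Finset.sum_congr rfl (g := fun P' => Finsupp.single P' (D P') P) fun P' hP' => ?_]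
    · rw [← Finsupp.finsetSum_apply, Finsupp.finsetSum_apply]
      by_cases hmem : P ∈ S
      · rw [Finset.sum_eq_single P (fun P' _ hne => Finsupp.single_eq_of_ne hne.symm)
          (fun h => absurd hmem h), Finsupp.single_eq_same]
      · rw [Finset.sum_eq_zero fun P' hP' => Finsupp.single_eq_of_ne
          (fun e => hmem (by rw [e]; exact hP'))]
        by_contra hne
        exact hmem (Finset.mem_filter.mpr ⟨Finsupp.mem_support_iff.mpr hne, hP⟩)
    · rw [ord_zpow_eq P]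
      obtain ⟨h1, h0⟩ := ht.ord_sub_value H (Finset.mem_filter.mp hP').2 hP
      rcases eq_or_ne P P' with e | e
      · rw [h1 e, e, Finsupp.single_eq_same, mul_one]
      · rw [h0 e, Finsupp.single_eq_of_ne e, mul_zero]

include H hgal hd h hN hφ in
/-- Transports exist. -/
theorem exists_isTrans {D : Divisor Ω F} (hDfix : ∀ τ ∈ N, gal τ • D = D) :
    ∃ D' : Divisor Ω F, IsTrans gal R p N γ φ D D' := by
  classical
  choose f hf hfr hord using fun Q => exists_local H hgal hd h hN Q hDfix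
  choose f' hf' _ using fun Q =>
    exists_isExt (p := p) (γ := γ) (φ := φ) H hgal hd hN (hf Q)
  set T := D.support.image R.toFun with hT
  let D' : Divisor Ω F := ∑ Q ∈ T, (dvs (K := Ω) (f' Q)).filter fun P => R.toFun P = Q
  refine ⟨D', fun Q => ?_⟩
  by_cases hQ : Q ∈ T
  · refine ⟨f Q, f' Q, hf Q, hfr Q, hf' Q, fun P hP => ⟨hord Q P hP, ?_⟩⟩
    show (∑ Q ∈ T, (dvs (K := Ω) (f' Q)).filter fun P => R.toFun P = Q) P = _
    rw [Finsupp.finsetSum_apply, Finset.sum_eq_single Q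
      (fun Q' _ hne => by rw [Finsupp.filter_apply, if_neg (fun e => hne (e.symm.trans hP))])
      (fun h => absurd hQ h), Finsupp.filter_apply, if_pos hP, dvs_apply]
  · refine ⟨1, 1, ⟨M.isInt_one, fun τ _ => smul_one _⟩, by rw [M.red_one]; exact one_ne_zero,
      isExt_self hφ ⟨M.isInt_one, fun σ _ => smul_one _⟩, fun P hP => ⟨?_, ?_⟩⟩
    · rw [Place.ord_one]
      by_contra hne
      exact hQ (hP ▸ Finset.mem_image_of_mem _ (Finsupp.mem_support_iff.mpr hne))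
    · rw [Place.ord_one]
      show (∑ Q ∈ T, (dvs (K := Ω) (f' Q)).filter fun P => R.toFun P = Q) P = 0
      rw [Finsupp.finsetSum_apply]
      exact Finset.sum_eq_zero fun Q' hQ' => by
        rw [Finsupp.filter_apply, if_neg fun e => hQ (by rwa [← hP, e])]

include H hgal hd h hN hγ hφ in
/-- The transport is unique modulo congruence. -/
theorem IsTrans.congDiv_sub {D D' D'' : Divisor Ω F} (h1 : IsTrans gal R p N γ φ D D')
    (h2 : IsTrans gal R p N γ φ D D'') : CongDiv R p γ (D' - D'') := by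
  intro Q
  obtain ⟨f, f', hf, hfr, hff, hord⟩ := h1 Q
  obtain ⟨g₁, g', hg, hgr, hgg, hord'⟩ := h2 Q
  have hf0 : f ≠ 0 := fun e => hfr (by rw [e, M.red_zero])
  have hg0 : g₁ ≠ 0 := fun e => hgr (by rw [e, M.red_zero])
  obtain ⟨hii, hir⟩ := M.isInt_inv hg.1 hgr
  set w := f * g₁⁻¹ with hw
  obtain ⟨hwi, hwr⟩ := M.isInt_mul hf.1 hii
  have hwr0 : M.red w ≠ 0 := by rw [hw, hwr, hir]; exact mul_ne_zero hfr (inv_ne_zero hgr)
  have hwfix : IsFixed M gal N w :=
    ⟨hwi, fun τ hτ => by rw [hw, smul_mul', hf.2 τ hτ, smul_inv'', hg.2 τ hτ]⟩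
  have hword : ∀ P : Place Ω F, R.toFun P = Q → P.ord w = 0 := fun P hP => by
    rw [hw, P.ord_mul hf0 (inv_ne_zero hg0), P.ord_inv, ← (hord P hP).1, ← (hord' P hP).1]
    ring
  have hwh : HolAt R Q w := fun P hP => by rw [← ord_nonneg_iff, hword P hP]
  have hQw : Q.ord (M.red w) = 0 := by
    rw [← dvs_apply, ← R.spec w hwi hwr0]
    exact mapDomain_apply_eq_zero _ fun P hP => by rw [dvs_apply, hword P hP]
  obtain ⟨w', hw', hw'h⟩ := exists_isExt (p := p) (γ := γ) (φ := φ) H hgal hd hN hwfix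
  obtain ⟨hw'i, hw'r⟩ := hw'.red_eq h hN hφ hγ
  obtain ⟨hf'i, hf'r⟩ := hff.red_eq h hN hφ hγ
  obtain ⟨hg'i, hg'r⟩ := hgg.red_eq h hN hφ hγ
  have hw'ord : ∀ P : Place Ω F, R.toFun P = Q → P.ord w' = 0 := fun P hP =>
    (hw'h Q hwh).ord_eq_zero hw'i (hw'r ▸ hwr0) (hw'r ▸ hQw) hP
  have hmul := hgg.mul h hφ hg'i hw'
  rw [hw, mul_comm f, ← mul_assoc, mul_inv_cancel₀ hg0, one_mul] at hmul
  have hsm := hff.unique H hgal hd h hN hφ hmul
  obtain ⟨hdi, hdr⟩ := M.isInt_mul hg'i hw'i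
  have hdr0 : M.red (g' * w') ≠ 0 := by
    rw [hdr, hg'r, hw'r]; exact mul_ne_zero hgr hwr0
  have hd0 : g' * w' ≠ 0 := fun e => hdr0 (by rw [e, M.red_zero])
  have hf'0 : f' ≠ 0 := fun e => hfr (by rw [← hf'r, e, M.red_zero])
  refine ⟨f' / (g' * w'), ?_, fun P hP => ?_⟩
  · rw [div_sub_one hd0]
    exact hsm.div hdi hdr0
  · rw [Finsupp.sub_apply, (hord P hP).2, (hord' P hP).2, ord_div P hf'0 hd0,
      P.ord_mul (mul_ne_zero_iff.mp hd0).1 (mul_ne_zero_iff.mp hd0).2, hw'ord P hP]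
    ring

include h hN hγ hφ in
omit [IsAlgClosed (IsLocalRing.ResidueField A)] [IsFunctionField Ω F]
  [IsFunctionField (IsLocalRing.ResidueField A) Fk] in
theorem IsTrans.mapDomain_eq {D D' : Divisor Ω F} (h1 : IsTrans gal R p N γ φ D D') :
    Finsupp.mapDomain R.toFun D' = Finsupp.mapDomain R.toFun D := by
  refine Finsupp.ext fun Q => ?_
  obtain ⟨f, f', hf, hfr, hff, hord⟩ := h1 Q
  obtain ⟨hf'i, hf'r⟩ := hff.red_eq h hN hφ hγ
  rw [mapDomain_apply_congr R.toFun (E := dvs (K := Ω) f')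
      (fun P hP => by rw [dvs_apply, (hord P hP).2]),
    mapDomain_apply_congr R.toFun (D := D) (E := dvs (K := Ω) f)
      (fun P hP => by rw [dvs_apply, (hord P hP).1]),
    R.spec f' hf'i (hf'r ▸ hfr), R.spec f hf.1 hfr, hf'r]

include h hN hγ hφ in
omit [IsAlgClosed (IsLocalRing.ResidueField A)] [IsFunctionField Ω F]
  [IsFunctionField (IsLocalRing.ResidueField A) Fk] in
theorem IsTrans.add {D D' E E' : Divisor Ω F} (h1 : IsTrans gal R p N γ φ D D')
    (h2 : IsTrans gal R p N γ φ E E') : IsTrans gal R p N γ φ (D + E) (D' + E') := by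
  intro Q
  obtain ⟨f, f', hf, hfr, hff, hord⟩ := h1 Q
  obtain ⟨g₁, g', hg, hgr, hgg, hord'⟩ := h2 Q
  obtain ⟨hf'i, hf'r⟩ := hff.red_eq h hN hφ hγ
  obtain ⟨hg'i, hg'r⟩ := hgg.red_eq h hN hφ hγ
  obtain ⟨hi, hr⟩ := M.isInt_mul hf.1 hg.1
  refine ⟨f * g₁, f' * g', ⟨hi, fun τ hτ => by rw [smul_mul', hf.2 τ hτ, hg.2 τ hτ]⟩,
    hr ▸ mul_ne_zero hfr hgr, hff.mul h hφ hf'i hgg, fun P hP => ?_⟩
  have n1 : f ≠ 0 := fun e => hfr (by rw [e, M.red_zero])
  have n2 : g₁ ≠ 0 := fun e => hgr (by rw [e, M.red_zero])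
  have n3 : f' ≠ 0 := fun e => hfr (by rw [← hf'r, e, M.red_zero])
  have n4 : g' ≠ 0 := fun e => hgr (by rw [← hg'r, e, M.red_zero])
  rw [Finsupp.add_apply, Finsupp.add_apply, P.ord_mul n1 n2, P.ord_mul n3 n4, (hord P hP).1,
    (hord P hP).2, (hord' P hP).1, (hord' P hP).2]
  exact ⟨rfl, rfl⟩

include hgal h in
omit [IsAlgClosed (IsLocalRing.ResidueField A)] [IsFunctionField Ω F]
  [IsFunctionField (IsLocalRing.ResidueField A) Fk]
  [(N.subgroupOf (A.inertiaSubgroupIn ℚ)).FiniteIndex] in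
theorem IsTrans.smul (hR : ∀ σ ∈ A.inertiaSubgroupIn ℚ, ∀ P, R.toFun (gal σ • P) = R.toFun P)
    {σ : G_ℚ} (hσ : σ ∈ A.inertiaSubgroupIn ℚ)
    (hfix : ∀ b ∈ fixRing A N, Near A p γ (σ (φ b) - φ b)) {D D' : Divisor Ω F}
    (h1 : IsTrans gal R p N γ φ D D') : IsTrans gal R p N γ φ D (gal σ • D') := by
  intro Q
  obtain ⟨f, f', hf, hfr, hff, hord⟩ := h1 Q
  refine ⟨f, gal σ • f', hf, hfr, hff.smul hgal h hσ hfix, fun P hP => ⟨(hord P hP).1, ?_⟩⟩
  obtain ⟨P, rfl⟩ := MulAction.surjective (gal σ) P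
  rw [hR σ hσ] at hP
  rw [SemilinearAut.divisor_smul_apply_smul, SemilinearAut.ord_smul, (hord P hP).2]

end Fermat.Agent.FlatJ0
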